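import Mathlib

/-!
# S14 block G1: the Artin map on ideals of an abelian extension of number fields

`K ⊆ L` number fields, `L/K` Galois with commutative Galois group.

* `frob K L P : Gal(L/K)` : the Frobenius element of a nonzero prime `P` of `𝓞 K`
  (junk value `1` if `P` is not a nonzero prime ideal).  For a prime `P` that ramifies in `L`
  this is *some* Frobenius lift (the same for all primes of `L` above `P`).
* `artin K L I : Gal(L/K)` : the multiplicative extension to all ideals of `𝓞 K`.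
-/

set_option autoImplicit false
set_option linter.unusedSectionVars false

namespace Fermat.Agent.S14.ArtinMap

open NumberField
open scoped Pointwise

section PowFrob

variable {K L : Type*} [Field K] [Field L] [NumberField K] [NumberField L] [Algebra K L]

/-- `σ` acts as `x ↦ x ^ n` modulo `Q`. -/
def IsPowFrobAt (σ : Gal(L/K)) (n : ℕ) (Q : Ideal (𝓞 L)) : Prop :=
  ∀ x : 𝓞 L, σ • x - x ^ n ∈ Q

theorem IsPowFrobAt.mul_inv_mem_inertia {σ σ' : Gal(L/K)} {n : ℕ} {Q : Ideal (𝓞 L)}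
    (h : IsPowFrobAt σ n Q) (h' : IsPowFrobAt σ' n Q) : σ * σ'⁻¹ ∈ Q.inertia Gal(L/K) := by
  intro x
  have h1 := h (σ'⁻¹ • x)
  have h2 := h' (σ'⁻¹ • x)
  have := sub_mem h1 h2
  simpa [mul_smul] using this

theorem IsPowFrobAt.eq_of_inertia_eq_bot {σ σ' : Gal(L/K)} {n : ℕ} {Q : Ideal (𝓞 L)}
    (hQ : Q.inertia Gal(L/K) = ⊥)
    (h : IsPowFrobAt σ n Q) (h' : IsPowFrobAt σ' n Q) : σ = σ' := by
  have := h.mul_inv_mem_inertia h'
  rw [hQ, Subgroup.mem_bot] at this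
  exact mul_inv_eq_one.mp this

theorem IsPowFrobAt.smul_mem {σ : Gal(L/K)} {n : ℕ} {Q : Ideal (𝓞 L)} (hn : n ≠ 0)
    (h : IsPowFrobAt σ n Q) {y : 𝓞 L} (hy : y ∈ Q) : σ • y ∈ Q := by
  have h1 := h y
  have h2 : y ^ n ∈ Q := Ideal.pow_mem_of_mem Q hy n (Nat.pos_of_ne_zero hn)
  have := add_mem h1 h2
  simpa using this

theorem IsPowFrobAt.one (Q : Ideal (𝓞 L)) : IsPowFrobAt (1 : Gal(L/K)) 1 Q := by
  intro x
  simp

theorem IsPowFrobAt.mul {σ τ : Gal(L/K)} {m n : ℕ} {Q : Ideal (𝓞 L)} (hm : m ≠ 0)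
    (h : IsPowFrobAt σ m Q) (h' : IsPowFrobAt τ n Q) : IsPowFrobAt (σ * τ) (n * m) Q := by
  intro x
  have h1 : σ • (τ • x - x ^ n) ∈ Q := h.smul_mem hm (h' x)
  have h2 := h (x ^ n)
  have := add_mem h1 h2
  have e : σ • (τ • x - x ^ n) + (σ • x ^ n - (x ^ n) ^ m) = (σ * τ) • x - x ^ (n * m) := by
    rw [smul_sub, mul_smul, pow_mul]
    ring
  rwa [e] at this

theorem IsPowFrobAt.pow {σ : Gal(L/K)} {m : ℕ} {Q : Ideal (𝓞 L)} (hm : m ≠ 0)
    (h : IsPowFrobAt σ m Q) (k : ℕ) : IsPowFrobAt (σ ^ k) (m ^ k) Q := by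
  induction k with
  | zero => simpa using IsPowFrobAt.one Q
  | succ k ih =>
    rw [pow_succ', pow_succ]
    exact h.mul hm ih

variable (L) in
theorem ne_bot_of_liesOver {P : Ideal (𝓞 K)} (hP : P ≠ ⊥) (Q : Ideal (𝓞 L)) [Q.LiesOver P] :
    Q ≠ ⊥ :=
  Ideal.ne_bot_of_liesOver_of_ne_bot hP Q

variable (L) in
theorem finite_quotient_of_liesOver {P : Ideal (𝓞 K)} (hP : P ≠ ⊥) (Q : Ideal (𝓞 L))
    [Q.LiesOver P] : Finite (𝓞 L ⧸ Q) :=
  Ideal.finiteQuotientOfFreeOfNeBot Q (ne_bot_of_liesOver L hP Q)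

end PowFrob

section Frob

variable (K L : Type*) [Field K] [Field L] [NumberField K] [NumberField L] [Algebra K L]
  [IsGalois K L]

/-- All inertia groups of `L/K` above `P` are trivial. -/
def UnramifiedAt (P : Ideal (𝓞 K)) : Prop :=
  ∀ Q : Ideal (𝓞 L), Q.IsPrime → Q.LiesOver P → Q.inertia Gal(L/K) = ⊥

open Classical in
/-- The Frobenius element in `Gal(L/K)` of a nonzero prime `P` of `𝓞 K`: the arithmetic Frobenius
at an arbitrarily chosen prime of `𝓞 L` above `P`.  Junk value `1` if `P` is not a nonzero prime. -/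
noncomputable def frob (P : Ideal (𝓞 K)) : Gal(L/K) :=
  if h : P.IsPrime ∧ P ≠ ⊥ then
    haveI := h.1
    let Q : P.primesOver (𝓞 L) := Classical.arbitrary _
    haveI : Q.1.IsPrime := Q.2.1
    haveI : Q.1.LiesOver P := Q.2.2
    haveI : Finite (𝓞 L ⧸ Q.1) := finite_quotient_of_liesOver L h.2 Q.1
    arithFrobAt (𝓞 K) Gal(L/K) Q.1
  else 1

theorem frob_of_not {P : Ideal (𝓞 K)} (h : ¬ (P.IsPrime ∧ P ≠ ⊥)) : frob K L P = 1 := by
  classical
  rw [frob, dif_neg h]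

variable {K L}

/-- In an abelian extension, `frob K L P` is a Frobenius at EVERY prime `Q` of `𝓞 L` above `P`. -/
theorem isArithFrobAt_frob [IsMulCommutative Gal(L/K)] {P : Ideal (𝓞 K)} [hPp : P.IsPrime]
    (hP : P ≠ ⊥) (Q : Ideal (𝓞 L)) [Q.IsPrime] [Q.LiesOver P] :
    IsArithFrobAt (𝓞 K) (frob K L P) Q := by
  classical
  have h : P.IsPrime ∧ P ≠ ⊥ := ⟨hPp, hP⟩
  rw [frob, dif_pos h]
  set Q₀ : P.primesOver (𝓞 L) := Classical.arbitrary _ with hQ₀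
  have : Q₀.1.IsPrime := Q₀.2.1
  have : Q₀.1.LiesOver P := Q₀.2.2
  have : Finite (𝓞 L ⧸ Q₀.1) := finite_quotient_of_liesOver L hP Q₀.1
  obtain ⟨τ, hτ⟩ := Ideal.exists_smul_eq_of_isGaloisGroup P Q₀.1 Q Gal(L/K)
  have h1 : IsArithFrobAt (𝓞 K) (arithFrobAt (𝓞 K) Gal(L/K) Q₀.1) Q₀.1 :=
    IsArithFrobAt.arithFrobAt (𝓞 K) Gal(L/K) Q₀.1
  have h2 := h1.conj τ
  rw [hτ] at h2
  have e : τ * arithFrobAt (𝓞 K) Gal(L/K) Q₀.1 * τ⁻¹ = arithFrobAt (𝓞 K) Gal(L/K) Q₀.1 := by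
    rw [mul_comm' τ, mul_inv_cancel_right]
  rwa [e] at h2

theorem card_quotient_under {P : Ideal (𝓞 K)} (Q : Ideal (𝓞 L)) [hQ : Q.LiesOver P] :
    Nat.card (𝓞 K ⧸ Q.under (𝓞 K)) = Ideal.absNorm P := by
  rw [← hQ.over, Ideal.absNorm_apply, Submodule.cardQuot_apply]

/-- `frob K L P` acts as `x ↦ x ^ N(P)` modulo every prime above `P`. -/
theorem isPowFrobAt_frob [IsMulCommutative Gal(L/K)] {P : Ideal (𝓞 K)} [hPp : P.IsPrime]
    (hP : P ≠ ⊥) (Q : Ideal (𝓞 L)) [Q.IsPrime] [Q.LiesOver P] :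
    IsPowFrobAt (frob K L P) (Ideal.absNorm P) Q := by
  intro x
  have := isArithFrobAt_frob (K := K) (L := L) hP Q x
  rw [card_quotient_under (P := P) Q] at this
  exact this

theorem absNorm_ne_zero_of_prime {P : Ideal (𝓞 K)} [P.IsPrime] (hP : P ≠ ⊥) :
    Ideal.absNorm P ≠ 0 := by
  rw [Ne, Ideal.absNorm_eq_zero_iff]
  exact hP

/-- Uniqueness of the Frobenius at an unramified prime. -/
theorem eq_frob_pow_of_isPowFrobAt [IsMulCommutative Gal(L/K)] {P : Ideal (𝓞 K)} [hPp : P.IsPrime]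
    (hP : P ≠ ⊥) (Q : Ideal (𝓞 L)) [Q.IsPrime] [Q.LiesOver P]
    (hQ : Q.inertia Gal(L/K) = ⊥) {σ : Gal(L/K)} {k : ℕ}
    (hσ : IsPowFrobAt σ (Ideal.absNorm P ^ k) Q) : σ = frob K L P ^ k :=
  hσ.eq_of_inertia_eq_bot hQ ((isPowFrobAt_frob hP Q).pow (absNorm_ne_zero_of_prime hP) k)

theorem eq_frob_of_isPowFrobAt [IsMulCommutative Gal(L/K)] {P : Ideal (𝓞 K)} [hPp : P.IsPrime]
    (hP : P ≠ ⊥) (Q : Ideal (𝓞 L)) [Q.IsPrime] [Q.LiesOver P]
    (hQ : Q.inertia Gal(L/K) = ⊥) {σ : Gal(L/K)}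
    (hσ : IsPowFrobAt σ (Ideal.absNorm P) Q) : σ = frob K L P := by
  have := eq_frob_pow_of_isPowFrobAt (k := 1) hP Q hQ (σ := σ) (by simpa using hσ)
  simpa using this

end Frob

section Artin

open UniqueFactorizationMonoid
open scoped IsMulCommutative

variable (K L : Type*) [Field K] [Field L] [NumberField K] [NumberField L] [Algebra K L]
  [IsGalois K L] [IsMulCommutative Gal(L/K)]

/-- The Artin map on ideals: the multiplicative extension of `frob` (value `1` on `⊥`). -/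
noncomputable def artin (I : Ideal (𝓞 K)) : Gal(L/K) :=
  ((normalizedFactors I).map (frob K L)).prod

theorem artin_bot : artin K L ⊥ = 1 := by
  rw [artin, ← Ideal.zero_eq_bot, normalizedFactors_zero]
  simp

theorem artin_top : artin K L ⊤ = 1 := by
  rw [artin, ← Ideal.one_eq_top, normalizedFactors_one]
  simp

theorem artin_mul {I J : Ideal (𝓞 K)} (hI : I ≠ ⊥) (hJ : J ≠ ⊥) :
    artin K L (I * J) = artin K L I * artin K L J := by
  rw [artin, artin, artin, normalizedFactors_mul hI hJ, Multiset.map_add, Multiset.prod_add]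

theorem artin_prime {P : Ideal (𝓞 K)} [hPp : P.IsPrime] (hP : P ≠ ⊥) :
    artin K L P = frob K L P := by
  have hirr : Irreducible P := (Ideal.prime_of_isPrime hP hPp).irreducible
  rw [artin, normalizedFactors_irreducible hirr, normalize_eq]
  simp

theorem artin_pow {I : Ideal (𝓞 K)} (n : ℕ) :
    artin K L (I ^ n) = artin K L I ^ n := by
  rw [artin, artin, normalizedFactors_pow, Multiset.map_nsmul, Multiset.prod_nsmul]

theorem artin_prime_pow {P : Ideal (𝓞 K)} [hPp : P.IsPrime] (hP : P ≠ ⊥) (n : ℕ) :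
    artin K L (P ^ n) = frob K L P ^ n := by
  rw [artin_pow, artin_prime K L hP]

/-- Induction principle: to prove something multiplicative about nonzero ideals it suffices
to treat `⊤` and nonzero primes. -/
theorem ideal_induction {R : Type*} [CommRing R] [IsDedekindDomain R]
    (C : Ideal R → Prop) (h1 : C ⊤)
    (hprime : ∀ P : Ideal R, P.IsPrime → P ≠ ⊥ → C P)
    (hmul : ∀ I J : Ideal R, I ≠ ⊥ → J ≠ ⊥ → C I → C J → C (I * J))
    (I : Ideal R) (hI : I ≠ ⊥) : C I := by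
  classical
  rw [← Ideal.zero_eq_bot] at hI
  induction I using UniqueFactorizationMonoid.induction_on_prime with
  | h₁ => exact absurd rfl hI
  | h₂ x hx =>
    have : x = ⊤ := by
      rw [← Ideal.one_eq_top]
      exact (Ideal.isUnit_iff.mp hx).trans Ideal.one_eq_top.symm
    rw [this]; exact h1
  | h₃ a p ha hp ih =>
    have hp0 : p ≠ ⊥ := hp.ne_zero
    have ha0 : a ≠ ⊥ := ha
    exact hmul p a hp0 ha0 (hprime p (Ideal.isPrime_of_prime hp) hp0) (ih ha)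

end Artin

section Functoriality

variable (K L F M : Type*) [Field K] [Field L] [Field F] [Field M]
  [NumberField K] [NumberField L] [NumberField F] [NumberField M]
  [Algebra K L] [Algebra K F] [Algebra L M] [Algebra F M] [Algebra K M]
  [IsScalarTower K L M] [IsScalarTower K F M]
  [IsGalois K L] [IsGalois F M]

/-- Restriction of automorphisms `Gal(M/F) → Gal(L/K)` for `K ⊆ F ⊆ M`, `K ⊆ L ⊆ M`. -/
noncomputable def res : Gal(M/F) →* Gal(L/K) :=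
  (AlgEquiv.restrictNormalHom L).comp (AlgEquiv.restrictScalarsHom K)

theorem res_commutes (σ : Gal(M/F)) (x : L) :
    algebraMap L M (res K L F M σ x) = σ (algebraMap L M x) := by
  have := AlgEquiv.restrictNormal_commutes (σ.restrictScalars K) L x
  simp [res, AlgEquiv.restrictNormalHom]

theorem res_smul_int (σ : Gal(M/F)) (x : 𝓞 L) :
    algebraMap (𝓞 L) (𝓞 M) (res K L F M σ • x) = σ • algebraMap (𝓞 L) (𝓞 M) x := by
  apply RingOfIntegers.ext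
  exact res_commutes K L F M σ (x : L)

variable {K L F M}

theorem absNorm_eq_pow_inertiaDeg {P : Ideal (𝓞 K)} [P.IsPrime] (hP : P ≠ ⊥)
    (𝔅 : Ideal (𝓞 F)) [𝔅.IsPrime] [𝔅.LiesOver P] :
    Ideal.absNorm 𝔅 = Ideal.absNorm P ^ 𝔅.inertiaDeg (𝓞 K) := by
  have hPmax : P.IsMaximal := Ring.DimensionLEOne.maximalOfPrime hP inferInstance
  have h𝔅max : 𝔅.IsMaximal :=
    Ring.DimensionLEOne.maximalOfPrime (ne_bot_of_liesOver F hP 𝔅) inferInstance
  rw [← Ideal.absNorm_relNorm (𝓞 K) (𝓞 F) 𝔅, Ideal.relNorm_eq_pow_of_isMaximal 𝔅 P, map_pow]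

/-- Functoriality of the Frobenius for primes: `Frob_{M/F}(𝔅)|_L = Frob_{L/K}(P) ^ f(𝔅/P)`. -/
theorem res_frob [IsMulCommutative Gal(L/K)] [IsMulCommutative Gal(M/F)]
    {P : Ideal (𝓞 K)} [P.IsPrime] (hP : P ≠ ⊥) (hunr : UnramifiedAt K L P)
    (𝔅 : Ideal (𝓞 F)) [𝔅.IsPrime] [𝔅.LiesOver P] :
    res K L F M (frob F M 𝔅) = frob K L P ^ 𝔅.inertiaDeg (𝓞 K) := by
  have h𝔅 : 𝔅 ≠ ⊥ := ne_bot_of_liesOver F hP 𝔅
  obtain ⟨⟨𝔔, h𝔔p, h𝔔o⟩⟩ := (inferInstance : Nonempty (𝔅.primesOver (𝓞 M)))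
  have h𝔔P : 𝔔.LiesOver P := Ideal.LiesOver.trans 𝔔 𝔅 P
  set Q : Ideal (𝓞 L) := 𝔔.under (𝓞 L) with hQ
  have hQp : Q.IsPrime := Ideal.IsPrime.under (𝓞 L) 𝔔
  have hQo : Q.LiesOver P := ⟨by rw [hQ, Ideal.under_under]; exact h𝔔P.over⟩
  have h1 := isPowFrobAt_frob (K := F) (L := M) h𝔅 𝔔
  refine eq_frob_pow_of_isPowFrobAt hP Q (hunr Q hQp hQo) ?_
  intro x
  rw [hQ, Ideal.under_def, Ideal.mem_comap, map_sub, map_pow, res_smul_int,
    ← absNorm_eq_pow_inertiaDeg hP 𝔅]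
  exact h1 _

/-- Functoriality of the Artin map on ideals:
`artin_{M/F}(𝔅)|_L = artin_{L/K}(N_{F/K} 𝔅)`, provided `L/K` is unramified at the primes of `K`
below the prime factors of `𝔅`. (No hypothesis on `M/F`.) -/
theorem res_artin_of_unramifiedAt [IsMulCommutative Gal(L/K)] [IsMulCommutative Gal(M/F)]
    {𝔅 : Ideal (𝓞 F)} (h𝔅 : 𝔅 ≠ ⊥)
    (hunr : ∀ 𝔓 : Ideal (𝓞 F), 𝔓.IsPrime → 𝔅 ≤ 𝔓 → UnramifiedAt K L (𝔓.under (𝓞 K))) :
    res K L F M (artin F M 𝔅) = artin K L (Ideal.relNorm (𝓞 K) 𝔅) := by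
  revert hunr
  refine ideal_induction
    (C := fun 𝔅 : Ideal (𝓞 F) =>
      (∀ 𝔓 : Ideal (𝓞 F), 𝔓.IsPrime → 𝔅 ≤ 𝔓 → UnramifiedAt K L (𝔓.under (𝓞 K))) →
      res K L F M (artin F M 𝔅) = artin K L (Ideal.relNorm (𝓞 K) 𝔅)) ?_ ?_ ?_ 𝔅 h𝔅
  · intro _
    rw [artin_top, map_one, Ideal.relNorm_top, artin_top]
  · intro 𝔓 h𝔓 h𝔓0 hunr
    have hPp : (𝔓.under (𝓞 K)).IsPrime := Ideal.IsPrime.under (𝓞 K) 𝔓
    have hP0 : 𝔓.under (𝓞 K) ≠ ⊥ := Ideal.under_ne_bot (𝓞 K) h𝔓0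
    have hlo : 𝔓.LiesOver (𝔓.under (𝓞 K)) := ⟨rfl⟩
    have hPmax : (𝔓.under (𝓞 K)).IsMaximal := Ring.DimensionLEOne.maximalOfPrime hP0 hPp
    have h𝔓max : 𝔓.IsMaximal := Ring.DimensionLEOne.maximalOfPrime h𝔓0 h𝔓
    rw [artin_prime F M h𝔓0, res_frob hP0 (hunr 𝔓 h𝔓 le_rfl) 𝔓,
      Ideal.relNorm_eq_pow_of_isMaximal 𝔓 (𝔓.under (𝓞 K)), artin_prime_pow K L hP0]
  · intro I J hI hJ ihI ihJ hunr
    have hI' : Ideal.relNorm (𝓞 K) I ≠ ⊥ := by rwa [Ne, Ideal.relNorm_eq_bot_iff]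
    have hJ' : Ideal.relNorm (𝓞 K) J ≠ ⊥ := by rwa [Ne, Ideal.relNorm_eq_bot_iff]
    rw [artin_mul F M hI hJ, map_mul, map_mul, artin_mul K L hI' hJ',
      ihI (fun 𝔓 h𝔓 hle => hunr 𝔓 h𝔓 (Ideal.mul_le_left.trans hle)),
      ihJ (fun 𝔓 h𝔓 hle => hunr 𝔓 h𝔓 (Ideal.mul_le_right.trans hle))]

/-- Functoriality when `L/K` is unramified everywhere. -/
theorem res_artin [IsMulCommutative Gal(L/K)] [IsMulCommutative Gal(M/F)]
    (hunr : ∀ P : Ideal (𝓞 K), UnramifiedAt K L P)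
    {𝔅 : Ideal (𝓞 F)} (h𝔅 : 𝔅 ≠ ⊥) :
    res K L F M (artin F M 𝔅) = artin K L (Ideal.relNorm (𝓞 K) 𝔅) :=
  res_artin_of_unramifiedAt h𝔅 (fun _ _ _ => hunr _)

end Functoriality

section NormKernel

variable {K L : Type*} [Field K] [Field L] [NumberField K] [NumberField L] [Algebra K L]
  [IsGalois K L] [IsMulCommutative Gal(L/K)]

/-- Norms of ideals of `L` lie in the kernel of the Artin map of an unramified `L/K`. -/
theorem artin_relNorm_eq_one (hunr : ∀ P : Ideal (𝓞 K), UnramifiedAt K L P)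
    {𝔄 : Ideal (𝓞 L)} (h𝔄 : 𝔄 ≠ ⊥) : artin K L (Ideal.relNorm (𝓞 K) 𝔄) = 1 := by
  have : IsMulCommutative Gal(L/L) := ⟨⟨fun a b => Subsingleton.elim _ _⟩⟩
  rw [← res_artin (K := K) (L := L) (F := L) (M := L) hunr h𝔄]
  rw [Subsingleton.elim (artin L L 𝔄) 1, map_one]

end NormKernel

end Fermat.Agent.S14.ArtinMap
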