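import Fermat.Agent.S14.ArtinMap

/-!
# S14 block G1, part 2: more on the Artin map

* roots of unity: `frob K L P ζ = ζ ^ N(P)`;
* `frob K L P = 1 ↔ f(Q/P) = 1` at an unramified prime;
* conjugation equivariance `frob K L (τ • P) ∘ τ' = τ' ∘ frob K L P`;
* base change: restriction is injective when `M = L F`, and then `M/F` is unramified if `L/K` is;
* the same-base case of functoriality.
-/

set_option autoImplicit false
set_option linter.unusedSectionVars false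

namespace Fermat.Agent.S14.ArtinMap

open NumberField
open scoped Pointwise

section RootsOfUnity

variable {K L : Type*} [Field K] [Field L] [NumberField K] [NumberField L] [Algebra K L]
  [IsGalois K L] [IsMulCommutative Gal(L/K)]

/-- The Frobenius acts on roots of unity of order prime to `P` by `ζ ↦ ζ ^ N(P)` (integral form). -/
theorem frob_smul_of_pow_eq_one {P : Ideal (𝓞 K)} [P.IsPrime] (hP : P ≠ ⊥)
    {ζ : 𝓞 L} {m : ℕ} (hζ : ζ ^ m = 1) (hm : (m : 𝓞 K) ∉ P) :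
    frob K L P • ζ = ζ ^ Ideal.absNorm P := by
  obtain ⟨⟨Q, hQp, hQo⟩⟩ := (inferInstance : Nonempty (P.primesOver (𝓞 L)))
  have h := isArithFrobAt_frob (K := K) (L := L) hP Q
  have hmQ : (m : 𝓞 L) ∉ Q := by
    intro hmem
    apply hm
    rw [hQo.over, Ideal.under_def, Ideal.mem_comap, map_natCast]
    exact hmem
  have := h.apply_of_pow_eq_one hζ hmQ
  rw [card_quotient_under (P := P) Q] at this
  exact this

/-- The Frobenius acts on roots of unity of order prime to `P` by `ζ ↦ ζ ^ N(P)` (field form). -/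
theorem frob_apply_of_pow_eq_one {P : Ideal (𝓞 K)} [P.IsPrime] (hP : P ≠ ⊥)
    {ζ : L} {m : ℕ} (hm0 : m ≠ 0) (hζ : ζ ^ m = 1) (hm : (m : 𝓞 K) ∉ P) :
    frob K L P ζ = ζ ^ Ideal.absNorm P := by
  have hint : IsIntegral ℤ ζ := by
    refine ⟨Polynomial.X ^ m - 1, Polynomial.monic_X_pow_sub_C 1 hm0, ?_⟩
    simp [hζ]
  set z : 𝓞 L := ⟨ζ, hint⟩ with hz
  have hzc : algebraMap (𝓞 L) L z = ζ := rfl
  have hz' : z ^ m = 1 := by
    apply RingOfIntegers.ext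
    show algebraMap (𝓞 L) L (z ^ m) = algebraMap (𝓞 L) L 1
    rw [map_pow, hzc, hζ, map_one]
  have h1 := frob_smul_of_pow_eq_one (K := K) (L := L) hP hz' hm
  have h2 := congrArg (algebraMap (𝓞 L) L) h1
  have h3 : algebraMap (𝓞 L) L (frob K L P • z) = frob K L P ζ := rfl
  rw [map_pow, h3, hzc] at h2
  exact h2

end RootsOfUnity

section Conj

variable {k K L : Type*} [Field k] [Field K] [Field L] [NumberField K] [NumberField L]
  [Algebra k K] [Algebra k L] [Algebra K L] [IsScalarTower k K L]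

/-- `N(g • I) = N(I)` for a group acting on the ring of integers. -/
theorem absNorm_smul_eq {G : Type*} [Group G] [MulSemiringAction G (𝓞 K)] (g : G)
    (I : Ideal (𝓞 K)) : Ideal.absNorm (g • I) = Ideal.absNorm I := by
  have h := Ideal.relNorm_smul ℤ g I
  rw [Ideal.relNorm_int, Ideal.relNorm_int, Ideal.span_singleton_eq_span_singleton] at h
  have := Int.associated_iff_natAbs.mp h
  simpa using this

/-- The conjugate `τ' σ τ'⁻¹ ∈ Gal(L/K)` of `σ ∈ Gal(L/K)` by `τ' ∈ Aut(L/k)`, where `τ'`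
restricts to the automorphism `τ` of `K`. -/
noncomputable def conjAut (τ' : L ≃ₐ[k] L) (τ : K ≃ₐ[k] K)
    (hτ : ∀ a : K, τ' (algebraMap K L a) = algebraMap K L (τ a)) (σ : L ≃ₐ[K] L) : L ≃ₐ[K] L :=
  AlgEquiv.ofRingEquiv
    (f := (τ'.symm.toRingEquiv.trans σ.toRingEquiv).trans τ'.toRingEquiv) (by
    intro a
    have h1 : τ'.symm (algebraMap K L a) = algebraMap K L (τ.symm a) := by
      rw [AlgEquiv.symm_apply_eq, hτ, AlgEquiv.apply_symm_apply]
    show τ' (σ (τ'.symm (algebraMap K L a))) = algebraMap K L a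
    rw [h1, σ.commutes, hτ, AlgEquiv.apply_symm_apply])

@[simp]
theorem conjAut_apply (τ' : L ≃ₐ[k] L) (τ : K ≃ₐ[k] K)
    (hτ : ∀ a : K, τ' (algebraMap K L a) = algebraMap K L (τ a)) (σ : L ≃ₐ[K] L) (x : L) :
    conjAut τ' τ hτ σ x = τ' (σ (τ'.symm x)) := rfl

theorem conjAut_mul (τ' : L ≃ₐ[k] L) (τ : K ≃ₐ[k] K)
    (hτ : ∀ a : K, τ' (algebraMap K L a) = algebraMap K L (τ a)) (σ σ' : L ≃ₐ[K] L) :
    conjAut τ' τ hτ (σ * σ') = conjAut τ' τ hτ σ * conjAut τ' τ hτ σ' := by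
  ext x
  simp [AlgEquiv.mul_apply]

theorem conjAut_one (τ' : L ≃ₐ[k] L) (τ : K ≃ₐ[k] K)
    (hτ : ∀ a : K, τ' (algebraMap K L a) = algebraMap K L (τ a)) :
    conjAut τ' τ hτ (1 : L ≃ₐ[K] L) = 1 := by
  ext x
  simp

theorem conjAut_pow (τ' : L ≃ₐ[k] L) (τ : K ≃ₐ[k] K)
    (hτ : ∀ a : K, τ' (algebraMap K L a) = algebraMap K L (τ a)) (σ : L ≃ₐ[K] L) (n : ℕ) :
    conjAut τ' τ hτ (σ ^ n) = conjAut τ' τ hτ σ ^ n := by
  induction n with
  | zero => simpa using conjAut_one τ' τ hτ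
  | succ n ih => rw [pow_succ, pow_succ, conjAut_mul, ih]

theorem algebraMap_smul_int (τ' : L ≃ₐ[k] L) (τ : K ≃ₐ[k] K)
    (hτ : ∀ a : K, τ' (algebraMap K L a) = algebraMap K L (τ a)) (x : 𝓞 K) :
    algebraMap (𝓞 K) (𝓞 L) (τ • x) = τ' • algebraMap (𝓞 K) (𝓞 L) x := by
  apply RingOfIntegers.ext
  exact (hτ (x : K)).symm

theorem algebraMap_inv_smul_int (τ' : L ≃ₐ[k] L) (τ : K ≃ₐ[k] K)
    (hτ : ∀ a : K, τ' (algebraMap K L a) = algebraMap K L (τ a)) (x : 𝓞 K) :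
    algebraMap (𝓞 K) (𝓞 L) (τ⁻¹ • x) = τ'⁻¹ • algebraMap (𝓞 K) (𝓞 L) x := by
  rw [eq_inv_smul_iff, ← algebraMap_smul_int τ' τ hτ, smul_inv_smul]

/-- `τ' • Q` lies over `τ • P` if `Q` lies over `P` and `τ'` restricts to `τ`. -/
theorem liesOver_smul (τ' : L ≃ₐ[k] L) (τ : K ≃ₐ[k] K)
    (hτ : ∀ a : K, τ' (algebraMap K L a) = algebraMap K L (τ a))
    (P : Ideal (𝓞 K)) (Q : Ideal (𝓞 L)) [hQ : Q.LiesOver P] : (τ' • Q).LiesOver (τ • P) := by
  constructor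
  ext x
  rw [Ideal.under_def, Ideal.mem_comap, Ideal.mem_pointwise_smul_iff_inv_smul_mem,
    Ideal.mem_pointwise_smul_iff_inv_smul_mem, ← algebraMap_inv_smul_int τ' τ hτ, hQ.over,
    Ideal.under_def, Ideal.mem_comap]

variable [IsGalois K L] [IsMulCommutative Gal(L/K)]

/-- **Conjugation equivariance of the Frobenius**: `Frob(τ P) = τ' Frob(P) τ'⁻¹`. -/
theorem frob_smul_eq_conjAut (τ' : L ≃ₐ[k] L) (τ : K ≃ₐ[k] K)
    (hτ : ∀ a : K, τ' (algebraMap K L a) = algebraMap K L (τ a))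
    {P : Ideal (𝓞 K)} [P.IsPrime] (hP : P ≠ ⊥) (hunr : UnramifiedAt K L (τ • P)) :
    frob K L (τ • P) = conjAut τ' τ hτ (frob K L P) := by
  obtain ⟨⟨Q, hQp, hQo⟩⟩ := (inferInstance : Nonempty (P.primesOver (𝓞 L)))
  have hQ'o : (τ' • Q).LiesOver (τ • P) := liesOver_smul τ' τ hτ P Q
  have hP' : τ • P ≠ ⊥ := by
    intro h
    apply hP
    have := congrArg (fun I => τ⁻¹ • I) h
    simpa using this
  symm
  refine eq_frob_of_isPowFrobAt hP' (τ' • Q) (hunr _ inferInstance hQ'o) ?_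
  intro x
  rw [absNorm_smul_eq, Ideal.mem_pointwise_smul_iff_inv_smul_mem]
  have h1 := isPowFrobAt_frob (K := K) (L := L) hP Q (τ'⁻¹ • x)
  have e : τ'⁻¹ • (conjAut τ' τ hτ (frob K L P) • x - x ^ Ideal.absNorm P) =
      frob K L P • (τ'⁻¹ • x) - (τ'⁻¹ • x) ^ Ideal.absNorm P := by
    rw [smul_sub, smul_pow']
    congr 1
    apply RingOfIntegers.ext
    show τ'⁻¹ (τ' (frob K L P (τ'.symm (x : L)))) = frob K L P (τ'⁻¹ (x : L))
    rw [AlgEquiv.aut_inv, AlgEquiv.symm_apply_apply]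
  rw [e]
  exact h1

/-- Pointwise form: `Frob(τ P) ∘ τ' = τ' ∘ Frob(P)`. -/
theorem frob_smul_apply (τ' : L ≃ₐ[k] L) (τ : K ≃ₐ[k] K)
    (hτ : ∀ a : K, τ' (algebraMap K L a) = algebraMap K L (τ a))
    {P : Ideal (𝓞 K)} [P.IsPrime] (hP : P ≠ ⊥) (hunr : UnramifiedAt K L (τ • P)) (x : L) :
    frob K L (τ • P) (τ' x) = τ' (frob K L P x) := by
  rw [frob_smul_eq_conjAut τ' τ hτ hP hunr, conjAut_apply, AlgEquiv.symm_apply_apply]

/-- If conjugation by `τ'` raises every element of `Gal(L/K)` to the `e`-th power, then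
`Frob(τ P) = Frob(P) ^ e`. -/
theorem frob_smul_eq_pow (τ' : L ≃ₐ[k] L) (τ : K ≃ₐ[k] K)
    (hτ : ∀ a : K, τ' (algebraMap K L a) = algebraMap K L (τ a)) {e : ℕ}
    (he : ∀ (g : L ≃ₐ[K] L) (x : L), τ' (g (τ'.symm x)) = (g ^ e) x)
    {P : Ideal (𝓞 K)} [P.IsPrime] (hP : P ≠ ⊥) (hunr : UnramifiedAt K L (τ • P)) :
    frob K L (τ • P) = frob K L P ^ e := by
  rw [frob_smul_eq_conjAut τ' τ hτ hP hunr]
  ext x
  rw [conjAut_apply, he]

end Conj

end Fermat.Agent.S14.ArtinMap
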