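import Mathlib

/-!
# S14 (class field theory route): shared definitions

* instances making `Gal(M/F)` act on `𝓞 M` compatibly with `𝓞 F` (Mathlib only has them over `ℤ`),
* `UnramifiedEverywhere F M` : every inertia group of `M/F` at a finite prime is trivial,
* `IsArtinMap F M φ` : `φ : Ideal (𝓞 F) → Gal(M/F)` is multiplicative on nonzero ideals and sends
  every nonzero prime to a Frobenius element at every prime above it (the interface between
  all blocks: every statement about "the Artin map" is made for an arbitrary such `φ`),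
* `relNorm0 F M` : the relative ideal norm on nonzero ideals,
* `normClassSubgroup F M` : the subgroup of `Cl(F)` generated by classes of norms from `M`.
-/

set_option autoImplicit false
set_option linter.unusedSectionVars false

open NumberField
open scoped Pointwise nonZeroDivisors

namespace Fermat.Agent.S14

variable (F M : Type*) [Field F] [Field M] [NumberField F] [NumberField M] [Algebra F M]

instance smulCommClass_gal_ringOfIntegers : SMulCommClass (M ≃ₐ[F] M) (𝓞 F) (𝓞 M) :=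
  ⟨fun σ a x => by
    apply RingOfIntegers.ext
    show σ ((a • x : 𝓞 M) : M) = ((a • (σ • x) : 𝓞 M) : M)
    rw [Algebra.smul_def, Algebra.smul_def]
    show σ ((algebraMap (𝓞 M) M (algebraMap (𝓞 F) (𝓞 M) a)) * (x : M)) =
      (algebraMap (𝓞 M) M (algebraMap (𝓞 F) (𝓞 M) a)) * σ (x : M)
    have : algebraMap (𝓞 M) M (algebraMap (𝓞 F) (𝓞 M) a) =
        algebraMap F M (algebraMap (𝓞 F) F a) := rfl
    rw [map_mul, this, σ.commutes]⟩

instance isGaloisGroup_ringOfIntegers [IsGalois F M] :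
    IsGaloisGroup (M ≃ₐ[F] M) (𝓞 F) (𝓞 M) :=
  IsGaloisGroup.of_isFractionRing (M ≃ₐ[F] M) (𝓞 F) (𝓞 M) F M

/-- `M / F` is unramified at every finite prime: all inertia groups are trivial. -/
def UnramifiedEverywhere : Prop :=
  ∀ Q : Ideal (𝓞 M), Q.IsPrime → Q ≠ ⊥ →
    ∀ σ : M ≃ₐ[F] M, (∀ x : 𝓞 M, σ • x - x ∈ Q) → σ = 1

theorem unramifiedEverywhere_iff :
    UnramifiedEverywhere F M ↔
      ∀ Q : Ideal (𝓞 M), Q.IsPrime → Q ≠ ⊥ → Q.inertia (M ≃ₐ[F] M) = ⊥ := by
  refine ⟨fun h Q hQ hQ0 => (Subgroup.eq_bot_iff_forall _).mpr fun σ hσ => h Q hQ hQ0 σ hσ,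
    fun h Q hQ hQ0 σ hσ => (Subgroup.eq_bot_iff_forall _).mp (h Q hQ hQ0) σ hσ⟩

/-- `φ` is an Artin map for `M/F`: multiplicative on nonzero ideals, and at every nonzero prime
`Q` of `M` the value at `Q ∩ 𝓞 F` is a Frobenius element at `Q`.  (If `M/F` is abelian and
unramified everywhere these two properties determine `φ` on all nonzero ideals.) -/
structure IsArtinMap (φ : Ideal (𝓞 F) → (M ≃ₐ[F] M)) : Prop where
  map_mul : ∀ I J : Ideal (𝓞 F), I ≠ ⊥ → J ≠ ⊥ → φ (I * J) = φ I * φ J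
  isArithFrobAt : ∀ Q : Ideal (𝓞 M), Q.IsPrime → Q ≠ ⊥ →
    IsArithFrobAt (𝓞 F) (φ (Q.under (𝓞 F))) Q

theorem relNorm_mem_nonZeroDivisors (A : (Ideal (𝓞 M))⁰) :
    Ideal.relNorm (𝓞 F) (A : Ideal (𝓞 M)) ∈ (Ideal (𝓞 F))⁰ := by
  rw [mem_nonZeroDivisors_iff_ne_zero]
  intro h
  have h1 : (A : Ideal (𝓞 M)) = ⊥ := (Ideal.relNorm_eq_bot_iff).mp h
  exact (mem_nonZeroDivisors_iff_ne_zero.mp A.2) h1

/-- The relative ideal norm `N_{M/F}` on nonzero integral ideals. -/
noncomputable def relNorm0 : (Ideal (𝓞 M))⁰ →* (Ideal (𝓞 F))⁰ where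
  toFun A := ⟨Ideal.relNorm (𝓞 F) (A : Ideal (𝓞 M)), relNorm_mem_nonZeroDivisors F M A⟩
  map_one' := Subtype.ext (by simp)
  map_mul' A B := Subtype.ext (by simp)

@[simp] theorem coe_relNorm0 (A : (Ideal (𝓞 M))⁰) :
    ((relNorm0 F M A : (Ideal (𝓞 F))⁰) : Ideal (𝓞 F)) =
      Ideal.relNorm (𝓞 F) (A : Ideal (𝓞 M)) := rfl

/-- The subgroup of the class group of `F` generated by the classes of norms of ideals of `M`
(it is in fact the set of such classes). `Cl(F) / normClassSubgroup = I_F / P_F N(I_M)`. -/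
noncomputable def normClassSubgroup : Subgroup (ClassGroup (𝓞 F)) :=
  Subgroup.closure (Set.range fun A : (Ideal (𝓞 M))⁰ => ClassGroup.mk0 (relNorm0 F M A))

theorem mk0_relNorm0_mem (A : (Ideal (𝓞 M))⁰) :
    ClassGroup.mk0 (relNorm0 F M A) ∈ normClassSubgroup F M :=
  Subgroup.subset_closure ⟨A, rfl⟩

end Fermat.Agent.S14
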