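/-
S14 / G2 (cheap route): in a nontrivial extension of number fields, not all primes
(outside a finite set) split completely.  Proof by comparison of Dedekind zeta functions,
using only unique factorisation of ideals and the residue theorem (no Euler product,
no logarithms, no densities).  All sums are taken in `ℝ≥0∞`.
(helper3; pair-injection variant suggested by helper25)
-/
import Mathlib

set_option autoImplicit false

open Filter Topology UniqueFactorizationMonoid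
open scoped ENNReal

namespace Fermat.Agent.S14.NonSplit

/-! ### Multisets -/

section Multiset

variable {α β : Type*}

lemma multiset_map_eq_of_injOn {f : α → β} {S : Set α} (hf : Set.InjOn f S) {s t : Multiset α}
    (hs : ∀ x ∈ s, x ∈ S) (ht : ∀ x ∈ t, x ∈ S) (h : s.map f = t.map f) : s = t := by
  classical
  have hs' : s = (s.pmap (fun x hx => (⟨x, hx⟩ : S)) hs).map Subtype.val := by
    rw [Multiset.map_pmap, Multiset.pmap_eq_map, Multiset.map_id']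
  have ht' : t = (t.pmap (fun x hx => (⟨x, hx⟩ : S)) ht).map Subtype.val := by
    rw [Multiset.map_pmap, Multiset.pmap_eq_map, Multiset.map_id']
  have hinj : Function.Injective (fun x : S => f x) := fun x y hxy =>
    Subtype.ext (hf x.2 y.2 hxy)
  rw [hs', ht'] at h
  rw [Multiset.map_map, Multiset.map_map] at h
  have := Multiset.map_injective hinj h
  rw [hs', ht', this]

end Multiset

/-! ### Unique factorisation monoids with trivial units, weights in `ℝ≥0∞` -/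

section UFM

variable {M : Type*} [CommMonoidWithZero M] [UniqueFactorizationMonoid M]
  [NormalizationMonoid M] [Subsingleton Mˣ]

/-- Nonzero elements not divisible by any element of `T`. -/
def primeTo (T : Finset M) : Set M := {a | a ≠ 0 ∧ ∀ q ∈ T, ¬ q ∣ a}

lemma prod_normalizedFactors_eq' {a : M} (ha : a ≠ 0) : (normalizedFactors a).prod = a :=
  associated_iff_eq.mp (prod_normalizedFactors ha)

/-- One step: removing the prime `p` costs a geometric series. -/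
lemma tsum_primeTo_le_insert (w : M →* ℝ≥0∞) {T : Finset M} (hT : ∀ q ∈ T, Prime q)
    {p : M} (hp : Prime p) (hpT : p ∉ T) [DecidableEq M] :
    ∑' a : primeTo T, w a ≤ (∑' e : ℕ, w p ^ e) * ∑' a : primeTo (insert p T), w a := by
  -- the map `(e, a') ↦ p ^ e * a'`
  have hmem : ∀ (e : ℕ) (a : primeTo (insert p T)), p ^ e * (a : M) ∈ primeTo T := by
    intro e a
    obtain ⟨ha0, ha⟩ := a.2
    refine ⟨mul_ne_zero (pow_ne_zero _ hp.ne_zero) ha0, fun q hq hdvd => ?_⟩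
    rcases (hT q hq).dvd_or_dvd hdvd with h | h
    · have h1 : q ∣ p := (hT q hq).dvd_of_dvd_pow h
      have h2 : q = p := associated_iff_eq.mp
        (((hT q hq).dvd_prime_iff_associated hp).mp h1)
      exact hpT (h2 ▸ hq)
    · exact ha q (Finset.mem_insert_of_mem hq) h
  let φ : ℕ × primeTo (insert p T) → primeTo T := fun x => ⟨p ^ x.1 * (x.2 : M), hmem x.1 x.2⟩
  have hφ : Function.Surjective φ := by
    rintro ⟨a, ha0, ha⟩
    obtain ⟨n, a', hpa', rfl⟩ := WfDvdMonoid.max_power_factor ha0 hp.irreducible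
    have ha'0 : a' ≠ 0 := right_ne_zero_of_mul ha0
    refine ⟨⟨n, ⟨a', ha'0, fun q hq => ?_⟩⟩, rfl⟩
    rcases Finset.mem_insert.mp hq with rfl | hq
    · exact hpa'
    · exact fun h => ha q hq (h.mul_left _)
  calc ∑' a : primeTo T, w a ≤ ∑' x : ℕ × primeTo (insert p T), w (φ x) :=
        ENNReal.tsum_le_tsum_comp_of_surjective hφ (fun a => w a)
    _ = ∑' x : ℕ × primeTo (insert p T), w p ^ x.1 * w x.2 := by
        refine tsum_congr fun x => ?_
        simp only [φ, map_mul, map_pow]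
    _ = (∑' e : ℕ, w p ^ e) * ∑' a : primeTo (insert p T), w a := by
        rw [ENNReal.tsum_prod (f := fun e (a : primeTo (insert p T)) => w p ^ e * w a)]
        simp_rw [ENNReal.tsum_mul_left, ENNReal.tsum_mul_right]

/-- Removing finitely many primes `p` with `w p ≤ 1/2` costs at most `2 ^ |T|`. -/
lemma tsum_primeTo_empty_le (w : M →* ℝ≥0∞) [DecidableEq M] (T : Finset M)
    (hT : ∀ q ∈ T, Prime q) (hw : ∀ q ∈ T, w q ≤ 2⁻¹) :
    ∑' a : primeTo (∅ : Finset M), w a ≤ 2 ^ T.card * ∑' a : primeTo T, w a := by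
  induction T using Finset.induction_on with
  | empty => simp
  | insert p T hpT ih =>
    have hT' : ∀ q ∈ T, Prime q := fun q hq => hT q (Finset.mem_insert_of_mem hq)
    have hw' : ∀ q ∈ T, w q ≤ 2⁻¹ := fun q hq => hw q (Finset.mem_insert_of_mem hq)
    have hp : Prime p := hT p (Finset.mem_insert_self _ _)
    have hgeom : ∑' e : ℕ, w p ^ e ≤ 2 := by
      rw [ENNReal.tsum_geometric, ENNReal.inv_le_iff_inv_le]
      calc (2 : ℝ≥0∞)⁻¹ = 1 - 2⁻¹ := ENNReal.one_sub_inv_two.symm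
        _ ≤ 1 - w p := tsub_le_tsub_left (hw p (Finset.mem_insert_self _ _)) _
    calc ∑' a : primeTo (∅ : Finset M), w a ≤ 2 ^ T.card * ∑' a : primeTo T, w a := ih hT' hw'
      _ ≤ 2 ^ T.card * ((∑' e : ℕ, w p ^ e) * ∑' a : primeTo (insert p T), w a) := by
          gcongr
          exact tsum_primeTo_le_insert w hT' hp hpT
      _ ≤ 2 ^ T.card * (2 * ∑' a : primeTo (insert p T), w a) := by gcongr
      _ = 2 ^ (insert p T).card * ∑' a : primeTo (insert p T), w a := by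
          rw [Finset.card_insert_of_notMem hpT, pow_succ, mul_assoc]

/-- Nonzero elements all of whose prime factors lie in `P`. -/
def factorsIn (P : Set M) : Set M := {a | a ≠ 0 ∧ ∀ q ∈ normalizedFactors a, q ∈ P}

lemma primeTo_subset_factorsIn (T : Finset M) :
    primeTo T ⊆ factorsIn {q : M | Prime q ∧ q ∉ T} := by
  rintro a ⟨ha0, ha⟩
  refine ⟨ha0, fun q hq => ⟨prime_of_normalized_factor q hq, fun hqT => ?_⟩⟩
  exact ha q hqT (dvd_of_mem_normalizedFactors hq)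

variable {M' : Type*} [CommMonoidWithZero M'] [UniqueFactorizationMonoid M']
  [NormalizationMonoid M'] [Subsingleton M'ˣ]

/-- The map `(a, b) ↦ c₁(a) c₂(b)` where `c₁`, `c₂` are extended multiplicatively from primes. -/
noncomputable def pairMap (c₁ c₂ : M → M') (x : M × M) : M' :=
  ((normalizedFactors x.1).map c₁).prod * ((normalizedFactors x.2).map c₂).prod

lemma normalizedFactors_pairMap {P : Set M} {c₁ c₂ : M → M'}
    (h₁ : ∀ q ∈ P, Prime (c₁ q)) (h₂ : ∀ q ∈ P, Prime (c₂ q)) {a b : M}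
    (ha : a ∈ factorsIn P) (hb : b ∈ factorsIn P) :
    normalizedFactors (pairMap c₁ c₂ (a, b)) =
      (normalizedFactors a).map c₁ + (normalizedFactors b).map c₂ := by
  unfold pairMap
  rw [← Multiset.prod_add]
  refine normalizedFactors_prod_of_prime fun p hp => ?_
  rcases Multiset.mem_add.mp hp with h | h
  · obtain ⟨q, hq, rfl⟩ := Multiset.mem_map.mp h
    exact h₁ q (ha.2 q hq)
  · obtain ⟨q, hq, rfl⟩ := Multiset.mem_map.mp h
    exact h₂ q (hb.2 q hq)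

lemma pairMap_injOn {P : Set M} {c₁ c₂ : M → M'}
    (h₁ : ∀ q ∈ P, Prime (c₁ q)) (h₂ : ∀ q ∈ P, Prime (c₂ q))
    (hi₁ : Set.InjOn c₁ P) (hi₂ : Set.InjOn c₂ P) (hd : ∀ q ∈ P, ∀ q' ∈ P, c₁ q ≠ c₂ q') :
    Set.InjOn (pairMap c₁ c₂) (factorsIn P ×ˢ factorsIn P) := by
  classical
  rintro ⟨a, b⟩ ⟨ha, hb⟩ ⟨a', b'⟩ ⟨ha', hb'⟩ h
  simp only at ha hb ha' hb'
  have key := congrArg normalizedFactors h
  rw [normalizedFactors_pairMap h₁ h₂ ha hb, normalizedFactors_pairMap h₁ h₂ ha' hb'] at key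
  have hf1 : ∀ {a b : M}, a ∈ factorsIn P → b ∈ factorsIn P →
      ((normalizedFactors a).map c₁ + (normalizedFactors b).map c₂).filter (· ∈ c₁ '' P) =
        (normalizedFactors a).map c₁ := by
    intro a b ha hb
    rw [Multiset.filter_add, Multiset.filter_eq_self.mpr, Multiset.filter_eq_nil.mpr, add_zero]
    · intro x hx hx'
      obtain ⟨q, hq, rfl⟩ := Multiset.mem_map.mp hx
      obtain ⟨q', hq', hqq'⟩ := hx'
      exact hd q' hq' q (hb.2 q hq) hqq'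
    · intro x hx
      obtain ⟨q, hq, rfl⟩ := Multiset.mem_map.mp hx
      exact ⟨q, ha.2 q hq, rfl⟩
  have hf2 : ∀ {a b : M}, a ∈ factorsIn P → b ∈ factorsIn P →
      ((normalizedFactors a).map c₁ + (normalizedFactors b).map c₂).filter (· ∈ c₂ '' P) =
        (normalizedFactors b).map c₂ := by
    intro a b ha hb
    rw [Multiset.filter_add, Multiset.filter_eq_nil.mpr, Multiset.filter_eq_self.mpr, zero_add]
    · intro x hx
      obtain ⟨q, hq, rfl⟩ := Multiset.mem_map.mp hx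
      exact ⟨q, hb.2 q hq, rfl⟩
    · intro x hx hx'
      obtain ⟨q, hq, rfl⟩ := Multiset.mem_map.mp hx
      obtain ⟨q', hq', hqq'⟩ := hx'
      exact hd q (ha.2 q hq) q' hq' hqq'.symm
  have e1 := congrArg (Multiset.filter (· ∈ c₁ '' P)) key
  rw [hf1 ha hb, hf1 ha' hb'] at e1
  have e2 := congrArg (Multiset.filter (· ∈ c₂ '' P)) key
  rw [hf2 ha hb, hf2 ha' hb'] at e2
  have n1 := multiset_map_eq_of_injOn hi₁ ha.2 ha'.2 e1
  have n2 := multiset_map_eq_of_injOn hi₂ hb.2 hb'.2 e2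
  have ea : a = a' := by
    rw [← prod_normalizedFactors_eq' ha.1, ← prod_normalizedFactors_eq' ha'.1, n1]
  have eb : b = b' := by
    rw [← prod_normalizedFactors_eq' hb.1, ← prod_normalizedFactors_eq' hb'.1, n2]
  rw [ea, eb]

lemma weight_pairMap {P : Set M} {c₁ c₂ : M → M'} (w : M →* ℝ≥0∞) (w' : M' →* ℝ≥0∞)
    (hw₁ : ∀ q ∈ P, w' (c₁ q) = w q) (hw₂ : ∀ q ∈ P, w' (c₂ q) = w q) {a b : M}
    (ha : a ∈ factorsIn P) (hb : b ∈ factorsIn P) :
    w' (pairMap c₁ c₂ (a, b)) = w a * w b := by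
  unfold pairMap
  have e1 : (normalizedFactors a).map (⇑w' ∘ c₁) = (normalizedFactors a).map w :=
    Multiset.map_congr rfl (fun q hq => hw₁ q (ha.2 q hq))
  have e2 : (normalizedFactors b).map (⇑w' ∘ c₂) = (normalizedFactors b).map w :=
    Multiset.map_congr rfl (fun q hq => hw₂ q (hb.2 q hq))
  rw [map_mul, map_multiset_prod, map_multiset_prod, Multiset.map_map, Multiset.map_map]
  show ((normalizedFactors a).map (⇑w' ∘ c₁)).prod * ((normalizedFactors b).map (⇑w' ∘ c₂)).prod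
    = w a * w b
  rw [e1, e2, ← map_multiset_prod, ← map_multiset_prod, prod_normalizedFactors_eq' ha.1,
    prod_normalizedFactors_eq' hb.1]

/-- If each prime in `P` has two distinct "degree one" primes above it, then the square of the
partial zeta sum over `P`-smooth elements is bounded by the full zeta sum upstairs. -/
lemma tsum_factorsIn_sq_le {P : Set M} {c₁ c₂ : M → M'} (w : M →* ℝ≥0∞) (w' : M' →* ℝ≥0∞)
    (h₁ : ∀ q ∈ P, Prime (c₁ q)) (h₂ : ∀ q ∈ P, Prime (c₂ q))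
    (hi₁ : Set.InjOn c₁ P) (hi₂ : Set.InjOn c₂ P) (hd : ∀ q ∈ P, ∀ q' ∈ P, c₁ q ≠ c₂ q')
    (hw₁ : ∀ q ∈ P, w' (c₁ q) = w q) (hw₂ : ∀ q ∈ P, w' (c₂ q) = w q) :
    (∑' a : factorsIn P, w a) ^ 2 ≤ ∑' b : M', w' b := by
  have hinj : Function.Injective
      (fun x : factorsIn P × factorsIn P => pairMap c₁ c₂ ((x.1 : M), (x.2 : M))) := by
    intro x y hxy
    have := pairMap_injOn h₁ h₂ hi₁ hi₂ hd (Set.mk_mem_prod x.1.2 x.2.2)
      (Set.mk_mem_prod y.1.2 y.2.2) hxy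
    rw [Prod.mk.injEq] at this
    exact Prod.ext (Subtype.ext this.1) (Subtype.ext this.2)
  calc (∑' a : factorsIn P, w a) ^ 2
      = ∑' x : factorsIn P × factorsIn P, w x.1 * w x.2 := by
        rw [sq, ENNReal.tsum_prod (f := fun (a b : factorsIn P) => w a * w b)]
        simp_rw [ENNReal.tsum_mul_left, ENNReal.tsum_mul_right]
    _ = ∑' x : factorsIn P × factorsIn P, w' (pairMap c₁ c₂ ((x.1 : M), (x.2 : M))) := by
        refine tsum_congr fun x => (weight_pairMap w w' hw₁ hw₂ x.1.2 x.2.2).symm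
    _ ≤ ∑' b : M', w' b := ENNReal.tsum_comp_le_tsum_of_injective hinj _

end UFM

/-! ### Number fields: the weight `N(I)^(-s)` and the Dedekind zeta function -/

section NumberField

open NumberField Ideal

variable (K : Type*) [Field K] [NumberField K]

/-- The coefficients of the Dedekind zeta function. -/
noncomputable def zcoeff (n : ℕ) : ℕ := Nat.card {I : Ideal (𝓞 K) // absNorm I = n}

/-- The weight `I ↦ N(I)^(-s)` with values in `ℝ≥0∞` (zero on the zero ideal for `s ≠ 0`). -/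
noncomputable def wt (s : ℝ) : Ideal (𝓞 K) →* ℝ≥0∞ where
  toFun I := ENNReal.ofReal ((absNorm I : ℝ) ^ (-s))
  map_one' := by simp [Ideal.one_eq_top]
  map_mul' I J := by
    rw [map_mul, Nat.cast_mul, Real.mul_rpow (Nat.cast_nonneg _) (Nat.cast_nonneg _),
      ENNReal.ofReal_mul (by positivity)]

lemma wt_apply (s : ℝ) (I : Ideal (𝓞 K)) :
    wt K s I = ENNReal.ofReal ((absNorm I : ℝ) ^ (-s)) := rfl

/-- Sum over ideals, grouped by norm. -/
lemma tsum_wt_eq_tsum_nat (s : ℝ) :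
    ∑' I : Ideal (𝓞 K), wt K s I =
      ∑' n : ℕ, (zcoeff K n : ℝ≥0∞) * ENNReal.ofReal ((n : ℝ) ^ (-s)) := by
  rw [← (Equiv.sigmaFiberEquiv (fun I : Ideal (𝓞 K) => absNorm I)).tsum_eq, ENNReal.tsum_sigma']
  refine tsum_congr fun n => ?_
  haveI : Finite {I : Ideal (𝓞 K) // absNorm I = n} := Ideal.finite_setOfPred_absNorm_eq n
  letI : Fintype {I : Ideal (𝓞 K) // absNorm I = n} := Fintype.ofFinite _
  rw [tsum_fintype]
  have : ∀ I : {I : Ideal (𝓞 K) // absNorm I = n},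
      wt K s (Equiv.sigmaFiberEquiv (fun I : Ideal (𝓞 K) => absNorm I) ⟨n, I⟩) =
        ENNReal.ofReal ((n : ℝ) ^ (-s)) := by
    intro I
    rw [wt_apply]
    simp only [Equiv.sigmaFiberEquiv_apply]
    rw [I.2]
  rw [Finset.sum_congr rfl (fun I _ => this I), Finset.sum_const, Finset.card_univ,
    nsmul_eq_mul, zcoeff, Nat.card_eq_fintype_card]

lemma term_zcoeff (s : ℝ) (hs : s ≠ 0) (n : ℕ) :
    LSeries.term (fun n => (Nat.card {I : Ideal (𝓞 K) // absNorm I = n} : ℂ)) s n =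
      (((zcoeff K n : ℝ) * (n : ℝ) ^ (-s) : ℝ) : ℂ) := by
  rw [LSeries.term_of_ne_zero' (by exact_mod_cast hs)]
  rw [Complex.ofReal_mul, Complex.ofReal_cpow (Nat.cast_nonneg n), Complex.ofReal_neg,
    Complex.cpow_neg, div_eq_mul_inv]
  simp [zcoeff]

/-- The bridge: for real `s` at which the Dedekind zeta series converges, the `ℝ≥0∞`-valued sum
over ideals is the Dedekind zeta value. -/
lemma tsum_wt_eq_dedekindZeta {s : ℝ} (hs : s ≠ 0)
    (hsum : LSeriesSummable (fun n => (Nat.card {I : Ideal (𝓞 K) // absNorm I = n} : ℂ)) s) :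
    ∑' I : Ideal (𝓞 K), wt K s I = ENNReal.ofReal (dedekindZeta K s).re := by
  have hsum' : Summable (fun n : ℕ => (zcoeff K n : ℝ) * (n : ℝ) ^ (-s)) := by
    rw [LSeriesSummable, funext (term_zcoeff K s hs)] at hsum
    exact Complex.summable_ofReal.mp hsum
  have hnn : ∀ n : ℕ, 0 ≤ (zcoeff K n : ℝ) * (n : ℝ) ^ (-s) := fun n => by positivity
  rw [dedekindZeta, LSeries, funext (term_zcoeff K s hs), ← Complex.ofReal_tsum,
    Complex.ofReal_re, ENNReal.ofReal_tsum_of_nonneg hnn hsum', tsum_wt_eq_tsum_nat]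
  refine tsum_congr fun n => ?_
  rw [ENNReal.ofReal_mul (Nat.cast_nonneg _), ENNReal.ofReal_natCast]

/-- The Dedekind zeta series converges for real `s` close enough to `1` on the right
(because `(s - 1) ζ_K(s)` has a nonzero limit). -/
lemma eventually_summable : ∀ᶠ s : ℝ in 𝓝[>] 1,
    LSeriesSummable (fun n => (Nat.card {I : Ideal (𝓞 K) // absNorm I = n} : ℂ)) s := by
  have h0 : ((dedekindZeta_residue K : ℝ) : ℂ) ≠ 0 :=
    Complex.ofReal_ne_zero.mpr (dedekindZeta_residue_ne_zero K)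
  have h := (tendsto_sub_one_mul_dedekindZeta_nhdsGT K).eventually_ne h0
  filter_upwards [h] with s hs
  by_contra hsum
  apply hs
  rw [dedekindZeta, LSeries.eq_zero_of_not_LSeriesSummable _ _ hsum, mul_zero]

/-- `(s - 1) * Re ζ_K(s)` tends to the (positive) residue as `s → 1⁺`. -/
lemma tendsto_sub_one_mul_re :
    Tendsto (fun s : ℝ => (s - 1) * (dedekindZeta K s).re) (𝓝[>] 1)
      (𝓝 (dedekindZeta_residue K)) := by
  have h := (Complex.continuous_re.tendsto _).comp (tendsto_sub_one_mul_dedekindZeta_nhdsGT K)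
  rw [Complex.ofReal_re] at h
  refine h.congr fun s => ?_
  simp only [Function.comp_apply]
  rw [show ((s : ℂ) - 1) = ((s - 1 : ℝ) : ℂ) by push_cast; ring, Complex.re_ofReal_mul]

end NumberField

/-! ### The comparison `ζ_K(s)² ≤ 4^|T| ζ_L(s)` and the main theorem -/

section Core

open NumberField Ideal

variable {K L : Type*} [Field K] [NumberField K] [Field L] [NumberField L] [Algebra K L]

lemma re_dedekindZeta_nonneg (K : Type*) [Field K] [NumberField K] {s : ℝ} (hs : s ≠ 0) :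
    0 ≤ (dedekindZeta K s).re := by
  rw [dedekindZeta, LSeries, funext (term_zcoeff K s hs), ← Complex.ofReal_tsum,
    Complex.ofReal_re]
  exact tsum_nonneg fun n => by positivity

lemma wt_le_half {s : ℝ} (hs : 1 < s) {𝔭 : Ideal (𝓞 K)} (h𝔭 : Prime 𝔭) :
    wt K s 𝔭 ≤ 2⁻¹ := by
  have h2 : 2 ≤ absNorm 𝔭 := by
    have h0 : absNorm 𝔭 ≠ 0 := by
      rw [Ne, Ideal.absNorm_eq_zero_iff]; exact h𝔭.ne_zero
    have h1 : absNorm 𝔭 ≠ 1 := by
      rw [Ne, Ideal.absNorm_eq_one_iff]; exact (Ideal.isPrime_of_prime h𝔭).ne_top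
    omega
  rw [wt_apply]
  have h2' : (2 : ℝ) ≤ (absNorm 𝔭 : ℝ) := by exact_mod_cast h2
  have : ((absNorm 𝔭 : ℝ)) ^ (-s) ≤ 2⁻¹ := by
    calc ((absNorm 𝔭 : ℝ)) ^ (-s) ≤ (2 : ℝ) ^ (-s) :=
          Real.rpow_le_rpow_of_nonpos (by norm_num) h2' (by linarith)
      _ ≤ (2 : ℝ) ^ (-1 : ℝ) := Real.rpow_le_rpow_of_exponent_le (by norm_num) (by linarith)
      _ = 2⁻¹ := by rw [Real.rpow_neg_one]
  calc ENNReal.ofReal _ ≤ ENNReal.ofReal 2⁻¹ := ENNReal.ofReal_le_ofReal this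
    _ = 2⁻¹ := by rw [ENNReal.ofReal_inv_of_pos (by norm_num)]; simp

/-- The hypothesis "every prime outside `T` has two distinct primes of the same norm above it". -/
def TwoDegreeOne (K L : Type*) [Field K] [NumberField K] [Field L] [NumberField L] [Algebra K L]
    (T : Finset (Ideal (𝓞 K))) : Prop :=
  ∀ 𝔭 : Ideal (𝓞 K), Prime 𝔭 → 𝔭 ∉ T → ∃ 𝔓₁ 𝔓₂ : Ideal (𝓞 L), 𝔓₁ ≠ 𝔓₂ ∧ Prime 𝔓₁ ∧ Prime 𝔓₂ ∧
    𝔓₁.under (𝓞 K) = 𝔭 ∧ 𝔓₂.under (𝓞 K) = 𝔭 ∧ absNorm 𝔓₁ = absNorm 𝔭 ∧ absNorm 𝔓₂ = absNorm 𝔭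

lemma zeta_sq_le {T : Finset (Ideal (𝓞 K))} (H : TwoDegreeOne K L T) {s : ℝ} (hs : 1 < s) :
    (∑' I : Ideal (𝓞 K), wt K s I) ^ 2 ≤ 4 ^ T.card * ∑' J : Ideal (𝓞 L), wt L s J := by
  classical
  choose! c₁ c₂ hc using H
  set T' := T.filter (fun q => Prime q) with hT'
  set P : Set (Ideal (𝓞 K)) := {q | Prime q ∧ q ∉ T'} with hPdef
  have hP : ∀ q ∈ P, Prime q ∧ q ∉ T := fun q hq =>
    ⟨hq.1, fun h => hq.2 (Finset.mem_filter.mpr ⟨h, hq.1⟩)⟩
  have hcP : ∀ q ∈ P, c₁ q ≠ c₂ q ∧ Prime (c₁ q) ∧ Prime (c₂ q) ∧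
      (c₁ q).under (𝓞 K) = q ∧ (c₂ q).under (𝓞 K) = q ∧
      absNorm (c₁ q) = absNorm q ∧ absNorm (c₂ q) = absNorm q :=
    fun q hq => hc q (hP q hq).1 (hP q hq).2
  -- all ideals versus nonzero ideals
  have e0 : ∑' I : Ideal (𝓞 K), wt K s I =
      ∑' a : primeTo (∅ : Finset (Ideal (𝓞 K))), wt K s a := by
    refine (tsum_subtype_eq_of_support_subset ?_).symm
    intro I hI
    refine ⟨fun h0 => hI ?_, by simp⟩
    rw [h0, wt_apply, Ideal.zero_eq_bot, Ideal.absNorm_bot, Nat.cast_zero,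
      Real.zero_rpow (by linarith), ENNReal.ofReal_zero]
  have e1 := tsum_primeTo_empty_le (wt K s) T' (fun q hq => (Finset.mem_filter.mp hq).2)
    (fun q hq => wt_le_half hs (Finset.mem_filter.mp hq).2)
  have e2 : ∑' a : primeTo T', wt K s a ≤ ∑' a : factorsIn P, wt K s a :=
    ENNReal.tsum_mono_subtype _ (primeTo_subset_factorsIn T')
  have e3 : (∑' a : factorsIn P, wt K s a) ^ 2 ≤ ∑' b : Ideal (𝓞 L), wt L s b := by
    refine tsum_factorsIn_sq_le (P := P) (c₁ := c₁) (c₂ := c₂) (wt K s) (wt L s)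
      (fun q hq => (hcP q hq).2.1) (fun q hq => (hcP q hq).2.2.1) ?_ ?_ ?_ ?_ ?_
    · intro q hq q' hq' h
      rw [← (hcP q hq).2.2.2.1, ← (hcP q' hq').2.2.2.1, h]
    · intro q hq q' hq' h
      rw [← (hcP q hq).2.2.2.2.1, ← (hcP q' hq').2.2.2.2.1, h]
    · intro q hq q' hq' h
      have hqq' : q = q' := by
        rw [← (hcP q hq).2.2.2.1, ← (hcP q' hq').2.2.2.2.1, h]
      subst hqq'
      exact (hcP q hq).1 h
    · intro q hq
      rw [wt_apply, wt_apply, (hcP q hq).2.2.2.2.2.1]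
    · intro q hq
      rw [wt_apply, wt_apply, (hcP q hq).2.2.2.2.2.2]
  have hcard : T'.card ≤ T.card := Finset.card_filter_le _ _
  calc (∑' I : Ideal (𝓞 K), wt K s I) ^ 2
      ≤ (2 ^ T'.card * ∑' a : factorsIn P, wt K s a) ^ 2 := by
        rw [e0]
        gcongr
        exact e1.trans (by gcongr)
    _ = 4 ^ T'.card * (∑' a : factorsIn P, wt K s a) ^ 2 := by
        rw [mul_pow, ← pow_mul, mul_comm T'.card 2, pow_mul]
        norm_num
    _ ≤ 4 ^ T.card * ∑' J : Ideal (𝓞 L), wt L s J := by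
        gcongr
        norm_num

/-- **Not all primes have two degree-one primes above them**: for number fields `K ⊆ L` and a
finite set `T` of ideals of `K`, it is impossible that every prime `𝔭 ∉ T` of `K` has two
distinct primes of `L` above it with the same absolute norm as `𝔭`. -/
theorem not_twoDegreeOne (T : Finset (Ideal (𝓞 K))) : ¬ TwoDegreeOne K L T := by
  intro H
  have hev : ∀ᶠ s : ℝ in 𝓝[>] 1, ((s - 1) * (dedekindZeta K s).re) ^ 2 ≤
      (s - 1) * (4 ^ T.card * ((s - 1) * (dedekindZeta L s).re)) := by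
    filter_upwards [eventually_summable K, eventually_summable L, self_mem_nhdsWithin]
      with s hK hL hs
    have hs1 : (1 : ℝ) < s := hs
    have hs0 : s ≠ 0 := by linarith
    have h := zeta_sq_le (L := L) H hs1
    rw [tsum_wt_eq_dedekindZeta K hs0 hK, tsum_wt_eq_dedekindZeta L hs0 hL] at h
    have hx := re_dedekindZeta_nonneg K hs0
    have hy := re_dedekindZeta_nonneg L hs0
    have h' : (dedekindZeta K s).re ^ 2 ≤ 4 ^ T.card * (dedekindZeta L s).re := by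
      rw [← ENNReal.ofReal_pow hx] at h
      have h4 : (4 : ℝ≥0∞) ^ T.card = ENNReal.ofReal (4 ^ T.card) := by
        rw [ENNReal.ofReal_pow (by norm_num)]; simp
      rw [h4, ← ENNReal.ofReal_mul (by positivity)] at h
      exact (ENNReal.ofReal_le_ofReal_iff (by positivity)).mp h
    calc ((s - 1) * (dedekindZeta K s).re) ^ 2 = (s - 1) ^ 2 * (dedekindZeta K s).re ^ 2 := by
          ring
      _ ≤ (s - 1) ^ 2 * (4 ^ T.card * (dedekindZeta L s).re) := by gcongr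
      _ = (s - 1) * (4 ^ T.card * ((s - 1) * (dedekindZeta L s).re)) := by ring
  have hL1 : Tendsto (fun s : ℝ => ((s - 1) * (dedekindZeta K s).re) ^ 2) (𝓝[>] 1)
      (𝓝 (dedekindZeta_residue K ^ 2)) := (tendsto_sub_one_mul_re K).pow 2
  have h0 : Tendsto (fun s : ℝ => s - 1) (𝓝[>] 1) (𝓝 0) := by
    have : Tendsto (fun s : ℝ => s - 1) (𝓝 1) (𝓝 (1 - 1)) :=
      (continuous_id.sub continuous_const).tendsto 1
    rw [sub_self] at this
    exact tendsto_nhdsWithin_of_tendsto_nhds this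
  have hR : Tendsto (fun s : ℝ => (s - 1) * (4 ^ T.card * ((s - 1) * (dedekindZeta L s).re)))
      (𝓝[>] 1) (𝓝 (0 * (4 ^ T.card * dedekindZeta_residue L))) :=
    h0.mul (tendsto_const_nhds.mul (tendsto_sub_one_mul_re L))
  have hle := le_of_tendsto_of_tendsto hL1 hR hev
  rw [zero_mul] at hle
  have hpos := pow_pos (dedekindZeta_residue_pos K) 2
  linarith

end Core

/-! ### Consequences in terms of primes lying over, ramification index and inertia degree -/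

section Consequences

open NumberField Ideal

variable {K L : Type*} [Field K] [NumberField K] [Field L] [NumberField L] [Algebra K L]

/-- For number fields `K ⊆ L` and a finite set `T` of ideals of `K` there is a nonzero prime
`𝔭 ∉ T` of `K` with **at most one** prime of `L` above it of the same absolute norm
("at most one prime of relative degree one"). -/
theorem exists_prime_atMostOne_degreeOne (T : Finset (Ideal (𝓞 K))) :
    ∃ 𝔭 : Ideal (𝓞 K), 𝔭.IsPrime ∧ 𝔭 ≠ ⊥ ∧ 𝔭 ∉ T ∧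
      ∀ 𝔓₁ 𝔓₂ : Ideal (𝓞 L), 𝔓₁.IsPrime → 𝔓₂.IsPrime → 𝔓₁.LiesOver 𝔭 → 𝔓₂.LiesOver 𝔭 →
        absNorm 𝔓₁ = absNorm 𝔭 → absNorm 𝔓₂ = absNorm 𝔭 → 𝔓₁ = 𝔓₂ := by
  by_contra hcon
  apply not_twoDegreeOne (K := K) (L := L) T
  intro 𝔭 h𝔭 h𝔭T
  have hp : 𝔭.IsPrime := Ideal.isPrime_of_prime h𝔭
  have hp0 : 𝔭 ≠ ⊥ := h𝔭.ne_zero
  by_contra hno
  apply hcon
  refine ⟨𝔭, hp, hp0, h𝔭T, fun 𝔓₁ 𝔓₂ h1 h2 l1 l2 n1 n2 => ?_⟩
  by_contra hne
  apply hno
  have hn0 : absNorm 𝔭 ≠ 0 := by rwa [Ne, Ideal.absNorm_eq_zero_iff]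
  have b1 : 𝔓₁ ≠ ⊥ := by
    intro h; rw [h, Ideal.absNorm_bot] at n1; exact hn0 n1.symm
  have b2 : 𝔓₂ ≠ ⊥ := by
    intro h; rw [h, Ideal.absNorm_bot] at n2; exact hn0 n2.symm
  exact ⟨𝔓₁, 𝔓₂, hne, Ideal.prime_of_isPrime b1 h1, Ideal.prime_of_isPrime b2 h2,
    (l1.over).symm, (l2.over).symm, n1, n2⟩

/-- **Not all primes split completely**: if `[L : K] > 1` and `T` is a finite set of ideals of
`K`, there is a nonzero prime `𝔭 ∉ T` of `K` and a prime `𝔓` of `L` over `𝔭` with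
`e(𝔓|𝔭) ≠ 1` or `f(𝔓|𝔭) ≠ 1`. -/
theorem exists_not_splitsCompletely (h : 1 < Module.finrank K L) (T : Finset (Ideal (𝓞 K))) :
    ∃ 𝔭 : Ideal (𝓞 K), 𝔭.IsPrime ∧ 𝔭 ≠ ⊥ ∧ 𝔭 ∉ T ∧
      ∃ 𝔓 ∈ 𝔭.primesOver (𝓞 L),
        ¬ (𝔓.ramificationIdx (𝓞 K) = 1 ∧ 𝔓.inertiaDeg (𝓞 K) = 1) := by
  obtain ⟨𝔭, hp, hp0, hpT, huniq⟩ := exists_prime_atMostOne_degreeOne (K := K) (L := L) T
  refine ⟨𝔭, hp, hp0, hpT, ?_⟩
  by_contra hcon0
  have hcon : ∀ 𝔓 ∈ 𝔭.primesOver (𝓞 L),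
      𝔓.ramificationIdx (𝓞 K) = 1 ∧ 𝔓.inertiaDeg (𝓞 K) = 1 := fun 𝔓 h𝔓 => by
    by_contra h'
    exact hcon0 ⟨𝔓, h𝔓, h'⟩
  haveI : 𝔭.IsPrime := hp
  haveI : 𝔭.IsMaximal := hp.isMaximal hp0
  haveI : Finite (𝔭.primesOver (𝓞 L)) := primesOver_finite 𝔭 (𝓞 L)
  letI : Fintype (𝔭.primesOver (𝓞 L)) := Fintype.ofFinite _
  have hsum := Ideal.sum_ramification_inertia_eq_finrank 𝔭 (𝓞 L)
  rw [Finset.sum_congr rfl (fun q _ => by
    rw [(hcon q.1 q.2).1, (hcon q.1 q.2).2]), Finset.sum_const, Finset.card_univ] at hsum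
  simp only [smul_eq_mul, mul_one] at hsum
  rw [← IsFractionRing.finrank_eq (𝓞 K) K (𝓞 L) L] at hsum
  rw [← hsum, Fintype.one_lt_card_iff] at h
  obtain ⟨q₁, q₂, hq⟩ := h
  apply hq
  haveI := q₁.2.1
  haveI := q₂.2.1
  haveI := q₁.2.2
  haveI := q₂.2.2
  have n1 : absNorm q₁.1 = absNorm 𝔭 := by
    rw [← Ideal.absNorm_pow_inertiaDeg 𝔭 q₁.1, (hcon q₁.1 q₁.2).2, pow_one]
  have n2 : absNorm q₂.1 = absNorm 𝔭 := by
    rw [← Ideal.absNorm_pow_inertiaDeg 𝔭 q₂.1, (hcon q₂.1 q₂.2).2, pow_one]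
  exact Subtype.ext (huniq q₁.1 q₂.1 q₁.2.1 q₂.2.1 q₁.2.2 q₂.2.2 n1 n2)

/-- Version of `exists_not_splitsCompletely` with the older (primed) ramification API. -/
theorem exists_not_splitsCompletely' (h : 1 < Module.finrank K L)
    (T : Finset (Ideal (𝓞 K))) :
    ∃ 𝔭 : Ideal (𝓞 K), 𝔭.IsPrime ∧ 𝔭 ≠ ⊥ ∧ 𝔭 ∉ T ∧
      ∃ 𝔓 ∈ 𝔭.primesOver (𝓞 L),
        ¬ (𝔭.ramificationIdx' 𝔓 = 1 ∧ 𝔭.inertiaDeg' 𝔓 = 1) := by
  obtain ⟨𝔭, hp, hp0, hpT, 𝔓, h𝔓, hne⟩ := exists_not_splitsCompletely (K := K) (L := L) h T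
  refine ⟨𝔭, hp, hp0, hpT, 𝔓, h𝔓, ?_⟩
  haveI : 𝔭.IsPrime := hp
  haveI : 𝔭.IsMaximal := hp.isMaximal hp0
  haveI : 𝔓.IsPrime := h𝔓.1
  haveI : 𝔓.LiesOver 𝔭 := h𝔓.2
  haveI : 𝔓.IsMaximal := Ideal.IsMaximal.of_liesOver_isMaximal 𝔓 𝔭
  rwa [Ideal.ramificationIdx'_eq_ramificationIdx 𝔭 𝔓 hp0, Ideal.inertiaDeg'_eq_inertiaDeg 𝔭 𝔓]

/-- Galois version: if a finite group `G` acts on `𝓞 L` with invariants `𝓞 K` and `[L : K] > 1`,
then there is a nonzero prime `𝔭 ∉ T` of `K` such that **no** prime `𝔓` of `L` over `𝔭` has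
`e(𝔓|𝔭) = f(𝔓|𝔭) = 1`. -/
theorem exists_forall_not_splitsCompletely_of_isGaloisGroup (G : Type*) [Group G] [Finite G]
    [MulSemiringAction G (𝓞 L)] [IsGaloisGroup G (𝓞 K) (𝓞 L)] (h : 1 < Module.finrank K L)
    (T : Finset (Ideal (𝓞 K))) :
    ∃ 𝔭 : Ideal (𝓞 K), 𝔭.IsPrime ∧ 𝔭 ≠ ⊥ ∧ 𝔭 ∉ T ∧
      ∀ 𝔓 ∈ 𝔭.primesOver (𝓞 L),
        ¬ (𝔓.ramificationIdx (𝓞 K) = 1 ∧ 𝔓.inertiaDeg (𝓞 K) = 1) := by
  obtain ⟨𝔭, hp, hp0, hpT, 𝔓₀, h𝔓₀, hne⟩ := exists_not_splitsCompletely (K := K) (L := L) h T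
  refine ⟨𝔭, hp, hp0, hpT, fun 𝔓 h𝔓 => ?_⟩
  haveI : 𝔓.IsPrime := h𝔓.1
  haveI : 𝔓.LiesOver 𝔭 := h𝔓.2
  haveI : 𝔓₀.IsPrime := h𝔓₀.1
  haveI : 𝔓₀.LiesOver 𝔭 := h𝔓₀.2
  rwa [Ideal.ramificationIdx_eq_of_isGaloisGroup 𝔭 𝔓 𝔓₀ G,
    Ideal.inertiaDeg_eq_of_isGaloisGroup 𝔭 𝔓 𝔓₀ G]

end Consequences

end Fermat.Agent.S14.NonSplit
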