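import Mathlib
import Fermat.Agent.S14.Defs
import Fermat.Agent.S14.ArtinMap
import Fermat.Agent.S14.ArtinMapMore
import Fermat.Agent.S14.NonSplit

/-!
# S14 block G1: splitting behaviour, norms, surjectivity and functoriality for ANY Artin map

Everything here is stated for an arbitrary `φ` with `IsArtinMap F M φ` (Defs.lean vocabulary) and
`UnramifiedEverywhere F M`; no commutativity hypothesis is needed.

* `isArtinMap_artin` : the concrete `ArtinMap.artin F M` of an abelian extension is an Artin map;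
* `eq_artin` : any Artin map of an unramified abelian extension agrees with it on nonzero ideals;
* `map_eq_one_iff` : `φ q = 1 ↔ f(Q/q) = 1`;  `ramificationIdx_eq_one`;
* `map_relNorm_eq_one` : norms of ideals of `M` lie in the kernel;
* `exists_prime_map_ne_one`, `exists_prime_pow_map_eq` : non-triviality / surjectivity;
* `res_map` : functoriality `φ'_{M/F}(𝔅)|_L = φ_{L/K}(N_{F/K} 𝔅)`;
* `map_smul_eq_conjAut` : Galois equivariance.
-/

set_option autoImplicit false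
set_option linter.unusedSectionVars false
set_option linter.style.haveILetI false

namespace Fermat.Agent.S14.ArtinSplit

open NumberField Fermat.Agent.S14.ArtinMap
open scoped Pointwise nonZeroDivisors

section Basic

variable {F M : Type*} [Field F] [Field M] [NumberField F] [NumberField M] [Algebra F M]

/-- In the residue field of `Q` every element satisfies `x ^ N(Q) = x`. -/
theorem sub_pow_absNorm_mem {Q : Ideal (𝓞 M)} [hQ : Q.IsPrime] (hQ0 : Q ≠ ⊥) (x : 𝓞 M) :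
    x - x ^ Ideal.absNorm Q ∈ Q := by
  have hmax : Q.IsMaximal := Ring.DimensionLEOne.maximalOfPrime hQ0 hQ
  letI := Ideal.Quotient.field Q
  haveI : Finite (𝓞 M ⧸ Q) := Ideal.finiteQuotientOfFreeOfNeBot Q hQ0
  letI := Fintype.ofFinite (𝓞 M ⧸ Q)
  have h := FiniteField.pow_card (Ideal.Quotient.mk Q x)
  rw [← Nat.card_eq_fintype_card, ← Submodule.cardQuot_apply, ← Ideal.absNorm_apply, ← map_pow] at h
  exact (Ideal.Quotient.eq.mp h.symm)

/-- If every element of `𝓞 M` satisfies `x ^ n ≡ x mod Q` then `N(Q) ≤ n`. -/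
theorem absNorm_le_of_forall_sub_pow_mem {Q : Ideal (𝓞 M)} [hQ : Q.IsPrime] (hQ0 : Q ≠ ⊥)
    {n : ℕ} (hn : 1 < n) (h : ∀ x : 𝓞 M, x - x ^ n ∈ Q) : Ideal.absNorm Q ≤ n := by
  have hmax : Q.IsMaximal := Ring.DimensionLEOne.maximalOfPrime hQ0 hQ
  letI := Ideal.Quotient.field Q
  haveI : Finite (𝓞 M ⧸ Q) := Ideal.finiteQuotientOfFreeOfNeBot Q hQ0
  letI := Fintype.ofFinite (𝓞 M ⧸ Q)
  have hall : ∀ y : 𝓞 M ⧸ Q, y ^ n = y := by
    intro y
    obtain ⟨x, rfl⟩ := Ideal.Quotient.mk_surjective y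
    rw [← map_pow, eq_comm, Ideal.Quotient.eq]
    exact h x
  have hsub : (Finset.univ : Finset (𝓞 M ⧸ Q)).val ⊆
      (Polynomial.X ^ n - Polynomial.X : Polynomial (𝓞 M ⧸ Q)).roots := by
    intro y _
    rw [Polynomial.mem_roots (FiniteField.X_pow_card_sub_X_ne_zero _ hn)]
    simp [Polynomial.IsRoot, hall y]
  have := Polynomial.card_le_degree_of_subset_roots hsub
  rw [FiniteField.X_pow_card_sub_X_natDegree_eq _ hn, Finset.card_univ] at this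
  rw [Ideal.absNorm_apply, Submodule.cardQuot_apply, Nat.card_eq_fintype_card]
  exact this

theorem one_lt_absNorm_of_prime {q : Ideal (𝓞 F)} [hq : q.IsPrime] (hq0 : q ≠ ⊥) :
    1 < Ideal.absNorm q := by
  have h0 : Ideal.absNorm q ≠ 0 := absNorm_ne_zero_of_prime hq0
  have h1 : Ideal.absNorm q ≠ 1 := by
    rw [Ne, Ideal.absNorm_eq_one_iff]
    exact hq.ne_top
  omega

end Basic

section Split

variable {F M : Type*} [Field F] [Field M] [NumberField F] [NumberField M] [Algebra F M]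
  [IsGalois F M]

theorem inertia_eq_bot (hunr : UnramifiedEverywhere F M) (Q : Ideal (𝓞 M)) [hQ : Q.IsPrime]
    (hQ0 : Q ≠ ⊥) : Q.inertia Gal(M/F) = ⊥ :=
  (unramifiedEverywhere_iff F M).mp hunr Q hQ hQ0

/-- `UnramifiedEverywhere` gives `ArtinMap.UnramifiedAt` at every prime. -/
theorem unramifiedAt (hunr : UnramifiedEverywhere F M) (P : Ideal (𝓞 F)) (hP : P ≠ ⊥) :
    UnramifiedAt F M P := fun Q hQ hQo =>
  haveI := hQ
  haveI := hQo
  inertia_eq_bot hunr Q (ne_bot_of_liesOver M hP Q)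

/-- An Artin map acts as `x ↦ x ^ N(q)` modulo every prime `Q` above `q`. -/
theorem isPowFrobAt_map {φ : Ideal (𝓞 F) → Gal(M/F)} (hφ : IsArtinMap F M φ)
    {q : Ideal (𝓞 F)} (hq0 : q ≠ ⊥) (Q : Ideal (𝓞 M)) [hQ : Q.IsPrime] [hQq : Q.LiesOver q] :
    IsPowFrobAt (φ q) (Ideal.absNorm q) Q := by
  intro x
  have h := hφ.isArithFrobAt Q hQ (ne_bot_of_liesOver M hq0 Q) x
  rw [card_quotient_under (P := q) Q, ← hQq.over] at h
  exact h

theorem map_top {φ : Ideal (𝓞 F) → Gal(M/F)} (hφ : IsArtinMap F M φ) : φ ⊤ = 1 := by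
  have h := hφ.map_mul ⊤ ⊤ top_ne_bot top_ne_bot
  rw [Ideal.top_mul] at h
  exact mul_eq_left.mp h.symm

theorem map_pow {φ : Ideal (𝓞 F) → Gal(M/F)} (hφ : IsArtinMap F M φ) {I : Ideal (𝓞 F)}
    (hI : I ≠ ⊥) (k : ℕ) : φ (I ^ k) = φ I ^ k := by
  induction k with
  | zero => rw [pow_zero, pow_zero, Ideal.one_eq_top, map_top hφ]
  | succ k ih => rw [pow_succ, pow_succ, hφ.map_mul _ _ (pow_ne_zero k hI) hI, ih]

/-- Uniqueness: an element acting as `x ↦ x ^ (N q)^k` modulo `Q` is `φ q ^ k`. -/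
theorem eq_map_pow_of_isPowFrobAt {φ : Ideal (𝓞 F) → Gal(M/F)} (hφ : IsArtinMap F M φ)
    (hunr : UnramifiedEverywhere F M)
    {q : Ideal (𝓞 F)} [hq : q.IsPrime] (hq0 : q ≠ ⊥) (Q : Ideal (𝓞 M)) [hQ : Q.IsPrime]
    [hQq : Q.LiesOver q] {σ : Gal(M/F)} {k : ℕ}
    (hσ : IsPowFrobAt σ (Ideal.absNorm q ^ k) Q) : σ = φ q ^ k :=
  hσ.eq_of_inertia_eq_bot (inertia_eq_bot hunr Q (ne_bot_of_liesOver M hq0 Q))
    ((isPowFrobAt_map hφ hq0 Q).pow (absNorm_ne_zero_of_prime hq0) k)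

/-- `φ q ^ f(Q/q) = 1`. -/
theorem map_pow_inertiaDeg {φ : Ideal (𝓞 F) → Gal(M/F)} (hφ : IsArtinMap F M φ)
    (hunr : UnramifiedEverywhere F M)
    {q : Ideal (𝓞 F)} [hq : q.IsPrime] (hq0 : q ≠ ⊥) (Q : Ideal (𝓞 M)) [hQ : Q.IsPrime]
    [hQq : Q.LiesOver q] : φ q ^ Q.inertiaDeg (𝓞 F) = 1 := by
  symm
  refine eq_map_pow_of_isPowFrobAt hφ hunr hq0 Q ?_
  intro x
  rw [Ideal.absNorm_pow_inertiaDeg q Q, one_smul]
  exact sub_pow_absNorm_mem (ne_bot_of_liesOver M hq0 Q) x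

/-- **Splitting criterion**: `φ q = 1` iff the residue degree is `1`. -/
theorem map_eq_one_iff {φ : Ideal (𝓞 F) → Gal(M/F)} (hφ : IsArtinMap F M φ)
    (hunr : UnramifiedEverywhere F M)
    {q : Ideal (𝓞 F)} [hq : q.IsPrime] (hq0 : q ≠ ⊥) (Q : Ideal (𝓞 M)) [hQ : Q.IsPrime]
    [hQq : Q.LiesOver q] : φ q = 1 ↔ Q.inertiaDeg (𝓞 F) = 1 := by
  have hQ0 : Q ≠ ⊥ := ne_bot_of_liesOver M hq0 Q
  constructor
  · intro h1
    have hpf := isPowFrobAt_map hφ hq0 Q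
    rw [h1] at hpf
    have hle : Ideal.absNorm Q ≤ Ideal.absNorm q := by
      refine absNorm_le_of_forall_sub_pow_mem hQ0 (one_lt_absNorm_of_prime hq0) fun x => ?_
      have := hpf x
      rwa [one_smul] at this
    rw [← Ideal.absNorm_pow_inertiaDeg q Q] at hle
    have hf : Q.inertiaDeg (𝓞 F) ≤ 1 := by
      have h2 : Ideal.absNorm q ^ Q.inertiaDeg (𝓞 F) ≤ Ideal.absNorm q ^ 1 := by simpa using hle
      exact (Nat.pow_le_pow_iff_right (one_lt_absNorm_of_prime hq0)).mp h2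
    have hpos : 0 < Q.inertiaDeg (𝓞 F) := by
      have hqmax : q.IsMaximal := Ring.DimensionLEOne.maximalOfPrime hq0 hq
      exact Ideal.inertiaDeg_pos Q (𝓞 F)
    omega
  · intro hf
    have := map_pow_inertiaDeg hφ hunr hq0 Q
    rwa [hf, pow_one] at this

/-- With trivial inertia the ramification index is `1`. -/
theorem ramificationIdx_eq_one (hunr : UnramifiedEverywhere F M)
    {q : Ideal (𝓞 F)} [hq : q.IsPrime] (hq0 : q ≠ ⊥) (Q : Ideal (𝓞 M)) [hQ : Q.IsPrime]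
    [hQq : Q.LiesOver q] : Q.ramificationIdx (𝓞 F) = 1 := by
  have h1 := Ideal.card_inertia_eq_ramificationIdxIn (G := Gal(M/F)) q Q
  rw [inertia_eq_bot hunr Q (ne_bot_of_liesOver M hq0 Q), Subgroup.card_bot] at h1
  rw [← Ideal.ramificationIdxIn_eq_ramificationIdx q Q Gal(M/F), ← h1]

/-- **Norms are in the kernel.** -/
theorem map_relNorm_eq_one {φ : Ideal (𝓞 F) → Gal(M/F)} (hφ : IsArtinMap F M φ)
    (hunr : UnramifiedEverywhere F M) {A : Ideal (𝓞 M)} (hA : A ≠ ⊥) :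
    φ (Ideal.relNorm (𝓞 F) A) = 1 := by
  refine ideal_induction (C := fun A : Ideal (𝓞 M) => φ (Ideal.relNorm (𝓞 F) A) = 1)
    ?_ ?_ ?_ A hA
  · rw [Ideal.relNorm_top, map_top hφ]
  · intro Q hQ hQ0
    have hqp : (Q.under (𝓞 F)).IsPrime := Ideal.IsPrime.under (𝓞 F) Q
    have hq0 : Q.under (𝓞 F) ≠ ⊥ := Ideal.under_ne_bot (𝓞 F) hQ0
    have hlo : Q.LiesOver (Q.under (𝓞 F)) := ⟨rfl⟩
    have hqmax : (Q.under (𝓞 F)).IsMaximal := Ring.DimensionLEOne.maximalOfPrime hq0 hqp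
    have hQmax : Q.IsMaximal := Ring.DimensionLEOne.maximalOfPrime hQ0 hQ
    rw [Ideal.relNorm_eq_pow_of_isMaximal Q (Q.under (𝓞 F)), map_pow hφ hq0,
      map_pow_inertiaDeg hφ hunr hq0 Q]
  · intro I J hI hJ ihI ihJ
    have hI' : Ideal.relNorm (𝓞 F) I ≠ ⊥ := by rwa [Ne, Ideal.relNorm_eq_bot_iff]
    have hJ' : Ideal.relNorm (𝓞 F) J ≠ ⊥ := by rwa [Ne, Ideal.relNorm_eq_bot_iff]
    rw [_root_.map_mul, hφ.map_mul _ _ hI' hJ', ihI, ihJ, mul_one]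

/-- **Non-triviality**: outside any finite set of ideals there is a prime with `φ q ≠ 1`. -/
theorem exists_prime_map_ne_one {φ : Ideal (𝓞 F) → Gal(M/F)} (hφ : IsArtinMap F M φ)
    (hunr : UnramifiedEverywhere F M) (h : 1 < Module.finrank F M)
    (T : Finset (Ideal (𝓞 F))) :
    ∃ q : Ideal (𝓞 F), q.IsPrime ∧ q ≠ ⊥ ∧ q ∉ T ∧ φ q ≠ 1 := by
  obtain ⟨q, hq, hq0, hqT, hall⟩ :=
    NonSplit.exists_forall_not_splitsCompletely_of_isGaloisGroup (K := F) (L := M) Gal(M/F) h T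
  refine ⟨q, hq, hq0, hqT, fun h1 => ?_⟩
  obtain ⟨⟨Q, hQp, hQo⟩⟩ := (inferInstance : Nonempty (q.primesOver (𝓞 M)))
  exact hall Q ⟨hQp, hQo⟩
    ⟨ramificationIdx_eq_one hunr hq0 Q, (map_eq_one_iff hφ hunr hq0 Q).mp h1⟩

/-- **Surjectivity in prime degree**: every `σ` is `φ (q ^ k)` for a prime `q` outside `T`. -/
theorem exists_prime_pow_map_eq {p : ℕ} [hp : Fact p.Prime] (hdeg : Module.finrank F M = p)
    {φ : Ideal (𝓞 F) → Gal(M/F)} (hφ : IsArtinMap F M φ)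
    (hunr : UnramifiedEverywhere F M) (T : Finset (Ideal (𝓞 F))) (σ : Gal(M/F)) :
    ∃ q : Ideal (𝓞 F), q.IsPrime ∧ q ≠ ⊥ ∧ q ∉ T ∧ ∃ k : ℕ, φ (q ^ k) = σ := by
  have h1 : 1 < Module.finrank F M := hdeg ▸ hp.out.one_lt
  obtain ⟨q, hq, hq0, hqT, hne⟩ := exists_prime_map_ne_one hφ hunr h1 T
  refine ⟨q, hq, hq0, hqT, ?_⟩
  have hcard : Nat.card Gal(M/F) = p := by rw [IsGalois.card_aut_eq_finrank, hdeg]
  have hgen : σ ∈ Subgroup.zpowers (φ q) := by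
    rw [zpowers_eq_top_of_prime_card (G := Gal(M/F)) (p := p) hcard hne]
    exact Subgroup.mem_top _
  rw [← mem_powers_iff_mem_zpowers] at hgen
  obtain ⟨k, hk⟩ := hgen
  exact ⟨k, by rw [map_pow hφ hq0]; exact hk⟩

end Split

section Bridge

variable {F M : Type*} [Field F] [Field M] [NumberField F] [NumberField M] [Algebra F M]
  [IsGalois F M]

/-- The concrete Artin map of an abelian extension is an Artin map in the sense of `Defs.lean`
(no ramification hypothesis). -/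
theorem isArtinMap_artin [IsMulCommutative Gal(M/F)] : IsArtinMap F M (artin F M) where
  map_mul I J hI hJ := artin_mul F M hI hJ
  isArithFrobAt Q hQ hQ0 := by
    haveI := hQ
    have hqp : (Q.under (𝓞 F)).IsPrime := Ideal.IsPrime.under (𝓞 F) Q
    have hq0 : Q.under (𝓞 F) ≠ ⊥ := Ideal.under_ne_bot (𝓞 F) hQ0
    have hlo : Q.LiesOver (Q.under (𝓞 F)) := ⟨rfl⟩
    rw [artin_prime F M hq0]
    exact isArithFrobAt_frob hq0 Q

/-- Existence of an Artin map for an abelian extension. -/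
theorem exists_isArtinMap (hab : ∀ σ τ : Gal(M/F), σ * τ = τ * σ) :
    ∃ φ : Ideal (𝓞 F) → Gal(M/F), IsArtinMap F M φ :=
  haveI : IsMulCommutative Gal(M/F) := ⟨⟨hab⟩⟩
  ⟨artin F M, isArtinMap_artin⟩

/-- Two Artin maps of an unramified extension agree on nonzero ideals. -/
theorem map_eq_map {φ ψ : Ideal (𝓞 F) → Gal(M/F)} (hφ : IsArtinMap F M φ)
    (hψ : IsArtinMap F M ψ) (hunr : UnramifiedEverywhere F M) {I : Ideal (𝓞 F)} (hI : I ≠ ⊥) :
    φ I = ψ I := by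
  refine ideal_induction (C := fun I : Ideal (𝓞 F) => φ I = ψ I) ?_ ?_ ?_ I hI
  · rw [map_top hφ, map_top hψ]
  · intro q hq hq0
    haveI := hq
    obtain ⟨⟨Q, hQp, hQo⟩⟩ := (inferInstance : Nonempty (q.primesOver (𝓞 M)))
    have := eq_map_pow_of_isPowFrobAt hψ hunr hq0 Q (σ := φ q) (k := 1)
      (by simpa using isPowFrobAt_map hφ hq0 Q)
    simpa using this
  · intro I J hI hJ ihI ihJ
    rw [hφ.map_mul I J hI hJ, hψ.map_mul I J hI hJ, ihI, ihJ]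

/-- Any Artin map of an unramified abelian extension is the concrete one on nonzero ideals. -/
theorem eq_artin [IsMulCommutative Gal(M/F)] {φ : Ideal (𝓞 F) → Gal(M/F)}
    (hφ : IsArtinMap F M φ) (hunr : UnramifiedEverywhere F M) {I : Ideal (𝓞 F)} (hI : I ≠ ⊥) :
    φ I = artin F M I :=
  map_eq_map hφ isArtinMap_artin hunr hI

end Bridge

section Functoriality

variable {K L F M : Type*} [Field K] [Field L] [Field F] [Field M]
  [NumberField K] [NumberField L] [NumberField F] [NumberField M]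
  [Algebra K L] [Algebra K F] [Algebra L M] [Algebra F M] [Algebra K M]
  [IsScalarTower K L M] [IsScalarTower K F M]
  [IsGalois K L] [IsGalois F M]

/-- Functoriality at a prime for arbitrary Artin maps `φ` of `L/K` (unramified) and `φ'` of `M/F`
(no hypothesis): `φ'(𝔅)|_L = φ(P) ^ f(𝔅/P)`. -/
theorem res_map_prime {φ : Ideal (𝓞 K) → Gal(L/K)} (hφ : IsArtinMap K L φ)
    {φ' : Ideal (𝓞 F) → Gal(M/F)} (hφ' : IsArtinMap F M φ')
    (hunr : UnramifiedEverywhere K L)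
    {P : Ideal (𝓞 K)} [P.IsPrime] (hP : P ≠ ⊥) (𝔅 : Ideal (𝓞 F)) [𝔅.IsPrime] [𝔅.LiesOver P] :
    res K L F M (φ' 𝔅) = φ P ^ 𝔅.inertiaDeg (𝓞 K) := by
  have h𝔅 : 𝔅 ≠ ⊥ := ne_bot_of_liesOver F hP 𝔅
  obtain ⟨⟨𝔔, h𝔔p, h𝔔o⟩⟩ := (inferInstance : Nonempty (𝔅.primesOver (𝓞 M)))
  have h𝔔P : 𝔔.LiesOver P := Ideal.LiesOver.trans 𝔔 𝔅 P
  set Q : Ideal (𝓞 L) := 𝔔.under (𝓞 L) with hQ
  have hQp : Q.IsPrime := Ideal.IsPrime.under (𝓞 L) 𝔔
  have hQo : Q.LiesOver P := ⟨by rw [hQ, Ideal.under_under]; exact h𝔔P.over⟩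
  have h1 := isPowFrobAt_map hφ' h𝔅 𝔔
  refine eq_map_pow_of_isPowFrobAt hφ hunr hP Q ?_
  intro x
  rw [hQ, Ideal.under_def, Ideal.mem_comap, map_sub, _root_.map_pow, res_smul_int,
    ← absNorm_eq_pow_inertiaDeg hP 𝔅]
  exact h1 _

/-- **Functoriality** for arbitrary Artin maps: `φ'_{M/F}(𝔅)|_L = φ_{L/K}(N_{F/K} 𝔅)`. -/
theorem res_map {φ : Ideal (𝓞 K) → Gal(L/K)} (hφ : IsArtinMap K L φ)
    {φ' : Ideal (𝓞 F) → Gal(M/F)} (hφ' : IsArtinMap F M φ')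
    (hunr : UnramifiedEverywhere K L) {𝔅 : Ideal (𝓞 F)} (h𝔅 : 𝔅 ≠ ⊥) :
    res K L F M (φ' 𝔅) = φ (Ideal.relNorm (𝓞 K) 𝔅) := by
  refine ideal_induction
    (C := fun 𝔅 : Ideal (𝓞 F) => res K L F M (φ' 𝔅) = φ (Ideal.relNorm (𝓞 K) 𝔅)) ?_ ?_ ?_ 𝔅 h𝔅
  · rw [map_top hφ', _root_.map_one, Ideal.relNorm_top, map_top hφ]
  · intro 𝔓 h𝔓 h𝔓0
    have hPp : (𝔓.under (𝓞 K)).IsPrime := Ideal.IsPrime.under (𝓞 K) 𝔓
    have hP0 : 𝔓.under (𝓞 K) ≠ ⊥ := Ideal.under_ne_bot (𝓞 K) h𝔓0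
    have hlo : 𝔓.LiesOver (𝔓.under (𝓞 K)) := ⟨rfl⟩
    have hPmax : (𝔓.under (𝓞 K)).IsMaximal := Ring.DimensionLEOne.maximalOfPrime hP0 hPp
    have h𝔓max : 𝔓.IsMaximal := Ring.DimensionLEOne.maximalOfPrime h𝔓0 h𝔓
    rw [res_map_prime hφ hφ' hunr hP0 𝔓, Ideal.relNorm_eq_pow_of_isMaximal 𝔓 (𝔓.under (𝓞 K)),
      map_pow hφ hP0]
  · intro I J hI hJ ihI ihJ
    have hI' : Ideal.relNorm (𝓞 K) I ≠ ⊥ := by rwa [Ne, Ideal.relNorm_eq_bot_iff]
    have hJ' : Ideal.relNorm (𝓞 K) J ≠ ⊥ := by rwa [Ne, Ideal.relNorm_eq_bot_iff]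
    rw [hφ'.map_mul I J hI hJ, _root_.map_mul, _root_.map_mul, hφ.map_mul _ _ hI' hJ', ihI, ihJ]

end Functoriality

section Equivariance

variable {k K L : Type*} [Field k] [Field K] [Field L] [NumberField K] [NumberField L]
  [Algebra k K] [Algebra k L] [Algebra K L] [IsScalarTower k K L] [IsGalois K L]

/-- **Galois equivariance** for an arbitrary Artin map: `φ(τ • P) = τ' φ(P) τ'⁻¹`. -/
theorem map_smul_eq_conjAut {φ : Ideal (𝓞 K) → Gal(L/K)} (hφ : IsArtinMap K L φ)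
    (hunr : UnramifiedEverywhere K L) (τ' : L ≃ₐ[k] L) (τ : K ≃ₐ[k] K)
    (hτ : ∀ a : K, τ' (algebraMap K L a) = algebraMap K L (τ a))
    {P : Ideal (𝓞 K)} [P.IsPrime] (hP : P ≠ ⊥) :
    φ (τ • P) = conjAut τ' τ hτ (φ P) := by
  obtain ⟨⟨Q, hQp, hQo⟩⟩ := (inferInstance : Nonempty (P.primesOver (𝓞 L)))
  have hQ'o : (τ' • Q).LiesOver (τ • P) := liesOver_smul τ' τ hτ P Q
  have hP' : τ • P ≠ ⊥ := by
    intro h
    apply hP
    have := congrArg (fun I => τ⁻¹ • I) h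
    simpa using this
  have key := eq_map_pow_of_isPowFrobAt hφ hunr hP' (τ' • Q)
    (σ := conjAut τ' τ hτ (φ P)) (k := 1) ?_
  · simpa using key.symm
  intro x
  rw [pow_one, absNorm_smul_eq, Ideal.mem_pointwise_smul_iff_inv_smul_mem]
  have h1 := isPowFrobAt_map hφ hP Q (τ'⁻¹ • x)
  have e : τ'⁻¹ • (conjAut τ' τ hτ (φ P) • x - x ^ Ideal.absNorm P) =
      φ P • (τ'⁻¹ • x) - (τ'⁻¹ • x) ^ Ideal.absNorm P := by
    rw [smul_sub, smul_pow']
    congr 1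
    apply RingOfIntegers.ext
    show τ'⁻¹ (τ' (φ P (τ'.symm (x : L)))) = φ P (τ'⁻¹ (x : L))
    rw [AlgEquiv.aut_inv, AlgEquiv.symm_apply_apply]
  rw [e]
  exact h1

/-- Pointwise form: `φ(τ P) ∘ τ' = τ' ∘ φ(P)`. -/
theorem map_smul_apply {φ : Ideal (𝓞 K) → Gal(L/K)} (hφ : IsArtinMap K L φ)
    (hunr : UnramifiedEverywhere K L) (τ' : L ≃ₐ[k] L) (τ : K ≃ₐ[k] K)
    (hτ : ∀ a : K, τ' (algebraMap K L a) = algebraMap K L (τ a))
    {P : Ideal (𝓞 K)} [P.IsPrime] (hP : P ≠ ⊥) (x : L) :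
    φ (τ • P) (τ' x) = τ' (φ P x) := by
  rw [map_smul_eq_conjAut hφ hunr τ' τ hτ hP, conjAut_apply, AlgEquiv.symm_apply_apply]

/-- If conjugation by `τ'` is the `e`-th power map on `Gal(L/K)` then `φ(τ P) = φ(P) ^ e`. -/
theorem map_smul_eq_pow {φ : Ideal (𝓞 K) → Gal(L/K)} (hφ : IsArtinMap K L φ)
    (hunr : UnramifiedEverywhere K L) (τ' : L ≃ₐ[k] L) (τ : K ≃ₐ[k] K)
    (hτ : ∀ a : K, τ' (algebraMap K L a) = algebraMap K L (τ a)) {e : ℕ}
    (he : ∀ (g : L ≃ₐ[K] L) (x : L), τ' (g (τ'.symm x)) = (g ^ e) x)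
    {P : Ideal (𝓞 K)} [P.IsPrime] (hP : P ≠ ⊥) :
    φ (τ • P) = φ P ^ e := by
  rw [map_smul_eq_conjAut hφ hunr τ' τ hτ hP]
  ext x
  rw [conjAut_apply, he]

end Equivariance

end Fermat.Agent.S14.ArtinSplit
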