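import Mathlib
import Fermat.Agent.S14.Defs
import Fermat.Agent.S14.ArtinMap
import Fermat.Agent.S14.ArtinSplit

/-!
# S14 block (D) helper: a prime splits in the fixed field of its Frobenius

Tower `K ⊆ E ⊆ Ω` of number fields with `Ω/K` Galois.  If `h ∈ Gal(Ω/K)` is a Frobenius at the
prime `𝔓` of `Ω` and `h` fixes `E` pointwise, then `𝔓 ∩ 𝓞 E` has residue degree `1` over `K`,
hence `N_{E/K}(𝔓 ∩ 𝓞 E) = 𝔓 ∩ 𝓞 K`; if moreover the inertia group of `𝔓` in `Gal(Ω/K)` is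
trivial, then `𝔓 ∩ 𝓞 E` is unramified over `K`.
-/

set_option autoImplicit false
set_option linter.unusedSectionVars false
set_option linter.style.haveILetI false

namespace Fermat.Agent.S14.SplitInFixed

open NumberField Fermat.Agent.S14.ArtinMap Fermat.Agent.S14.ArtinSplit
open scoped Pointwise

variable {K E Ω : Type*} [Field K] [Field E] [Field Ω] [NumberField K] [NumberField E]
  [NumberField Ω] [Algebra K E] [Algebra E Ω] [Algebra K Ω] [IsScalarTower K E Ω]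

/-- If a Frobenius `h` at `𝔓` (for `Ω/K`) fixes `E` pointwise then `x ^ N(𝔭) ≡ x` modulo
`𝔓 ∩ 𝓞 E` for all `x ∈ 𝓞 E`. -/
theorem sub_pow_mem_under {h : Ω ≃ₐ[K] Ω} {𝔓 : Ideal (𝓞 Ω)}
    (hfrob : IsArithFrobAt (𝓞 K) h 𝔓)
    (hE : ∀ x : E, h (algebraMap E Ω x) = algebraMap E Ω x) (x : 𝓞 E) :
    x - x ^ Ideal.absNorm (𝔓.under (𝓞 K)) ∈ 𝔓.under (𝓞 E) := by
  rw [Ideal.under_def, Ideal.mem_comap, map_sub, _root_.map_pow]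
  have h1 := hfrob (algebraMap (𝓞 E) (𝓞 Ω) x)
  have h2 : h • algebraMap (𝓞 E) (𝓞 Ω) x = algebraMap (𝓞 E) (𝓞 Ω) x := by
    apply RingOfIntegers.ext
    exact hE (x : E)
  have h3 : Nat.card (𝓞 K ⧸ 𝔓.under (𝓞 K)) = Ideal.absNorm (𝔓.under (𝓞 K)) := by
    rw [Ideal.absNorm_apply, Submodule.cardQuot_apply]
  change h • algebraMap (𝓞 E) (𝓞 Ω) x -
    algebraMap (𝓞 E) (𝓞 Ω) x ^ Nat.card (𝓞 K ⧸ 𝔓.under (𝓞 K)) ∈ 𝔓 at h1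
  rwa [h2, h3] at h1

/-- **Residue degree one in the fixed field of the Frobenius.** -/
theorem inertiaDeg_under_eq_one {h : Ω ≃ₐ[K] Ω} {𝔓 : Ideal (𝓞 Ω)} [h𝔓p : 𝔓.IsPrime]
    (h𝔓 : 𝔓 ≠ ⊥) (hfrob : IsArithFrobAt (𝓞 K) h 𝔓)
    (hE : ∀ x : E, h (algebraMap E Ω x) = algebraMap E Ω x) :
    (𝔓.under (𝓞 E)).inertiaDeg (𝓞 K) = 1 := by
  set 𝔭 : Ideal (𝓞 K) := 𝔓.under (𝓞 K) with h𝔭
  set 𝔮 : Ideal (𝓞 E) := 𝔓.under (𝓞 E) with h𝔮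
  have h𝔭p : 𝔭.IsPrime := Ideal.IsPrime.under (𝓞 K) 𝔓
  have h𝔮p : 𝔮.IsPrime := Ideal.IsPrime.under (𝓞 E) 𝔓
  have h𝔭0 : 𝔭 ≠ ⊥ := Ideal.under_ne_bot (𝓞 K) h𝔓
  have h𝔮0 : 𝔮 ≠ ⊥ := Ideal.under_ne_bot (𝓞 E) h𝔓
  have hlo : 𝔮.LiesOver 𝔭 := ⟨by rw [h𝔮, h𝔭, Ideal.under_under]⟩
  have hle : Ideal.absNorm 𝔮 ≤ Ideal.absNorm 𝔭 :=
    absNorm_le_of_forall_sub_pow_mem h𝔮0 (one_lt_absNorm_of_prime h𝔭0)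
      (fun x => sub_pow_mem_under hfrob hE x)
  rw [← Ideal.absNorm_pow_inertiaDeg 𝔭 𝔮] at hle
  have hf : 𝔮.inertiaDeg (𝓞 K) ≤ 1 := by
    have h2 : Ideal.absNorm 𝔭 ^ 𝔮.inertiaDeg (𝓞 K) ≤ Ideal.absNorm 𝔭 ^ 1 := by simpa using hle
    exact (Nat.pow_le_pow_iff_right (one_lt_absNorm_of_prime h𝔭0)).mp h2
  have hpos : 0 < 𝔮.inertiaDeg (𝓞 K) := by
    have h𝔭max : 𝔭.IsMaximal := Ring.DimensionLEOne.maximalOfPrime h𝔭0 h𝔭p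
    exact Ideal.inertiaDeg_pos 𝔮 (𝓞 K)
  omega

/-- The norm of `𝔓 ∩ 𝓞 E` down to `K` is `𝔓 ∩ 𝓞 K`. -/
theorem relNorm_under_eq {h : Ω ≃ₐ[K] Ω} {𝔓 : Ideal (𝓞 Ω)} [h𝔓p : 𝔓.IsPrime]
    (h𝔓 : 𝔓 ≠ ⊥) (hfrob : IsArithFrobAt (𝓞 K) h 𝔓)
    (hE : ∀ x : E, h (algebraMap E Ω x) = algebraMap E Ω x) :
    Ideal.relNorm (𝓞 K) (𝔓.under (𝓞 E)) = 𝔓.under (𝓞 K) := by
  have h𝔭p : (𝔓.under (𝓞 K)).IsPrime := Ideal.IsPrime.under (𝓞 K) 𝔓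
  have h𝔮p : (𝔓.under (𝓞 E)).IsPrime := Ideal.IsPrime.under (𝓞 E) 𝔓
  have h𝔭0 : 𝔓.under (𝓞 K) ≠ ⊥ := Ideal.under_ne_bot (𝓞 K) h𝔓
  have h𝔮0 : 𝔓.under (𝓞 E) ≠ ⊥ := Ideal.under_ne_bot (𝓞 E) h𝔓
  have hlo : (𝔓.under (𝓞 E)).LiesOver (𝔓.under (𝓞 K)) := ⟨by rw [Ideal.under_under]⟩
  have h𝔭max : (𝔓.under (𝓞 K)).IsMaximal := Ring.DimensionLEOne.maximalOfPrime h𝔭0 h𝔭p
  have h𝔮max : (𝔓.under (𝓞 E)).IsMaximal := Ring.DimensionLEOne.maximalOfPrime h𝔮0 h𝔮p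
  rw [Ideal.relNorm_eq_pow_of_isMaximal (𝔓.under (𝓞 E)) (𝔓.under (𝓞 K)),
    inertiaDeg_under_eq_one h𝔓 hfrob hE, pow_one]

/-- If moreover the inertia group of `𝔓` in `Gal(Ω/K)` is trivial then `𝔓 ∩ 𝓞 E` is unramified
over `K`. -/
theorem ramificationIdx_under_eq_one [IsGalois K Ω] {𝔓 : Ideal (𝓞 Ω)} [h𝔓p : 𝔓.IsPrime]
    (hin : 𝔓.inertia Gal(Ω/K) = ⊥) :
    (𝔓.under (𝓞 E)).ramificationIdx (𝓞 K) = 1 := by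
  have h𝔭p : (𝔓.under (𝓞 K)).IsPrime := Ideal.IsPrime.under (𝓞 K) 𝔓
  have hlo : 𝔓.LiesOver (𝔓.under (𝓞 K)) := ⟨rfl⟩
  have hlo' : 𝔓.LiesOver (𝔓.under (𝓞 E)) := ⟨rfl⟩
  have h1 := Ideal.card_inertia_eq_ramificationIdxIn (G := Gal(Ω/K)) (𝔓.under (𝓞 K)) 𝔓
  rw [hin, Subgroup.card_bot,
    Ideal.ramificationIdxIn_eq_ramificationIdx (𝔓.under (𝓞 K)) 𝔓 Gal(Ω/K)] at h1
  have h2 := Ideal.ramificationIdx_tower (R := 𝓞 K) (𝔓.under (𝓞 E)) 𝔓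
  rw [← h1] at h2
  exact Nat.dvd_one.mp (Dvd.intro _ h2.symm)

/-- `IntermediateField` form (helper24's (X-B) shape). -/
theorem relNorm_under_eq_of_frob_fixes {K Ω : Type*} [Field K] [Field Ω] [NumberField K]
    [NumberField Ω] [Algebra K Ω] (E : IntermediateField K Ω) (𝔓 : Ideal (𝓞 Ω)) [𝔓.IsPrime]
    (h𝔓 : 𝔓 ≠ ⊥) (h : Ω ≃ₐ[K] Ω) (hfrob : IsArithFrobAt (𝓞 K) h 𝔓)
    (hfix : ∀ x ∈ E, h x = x) :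
    Ideal.relNorm (𝓞 K) (𝔓.under (𝓞 E)) = 𝔓.under (𝓞 K) :=
  relNorm_under_eq (E := E) h𝔓 hfrob (fun x => hfix x x.2)

theorem absNorm_under_eq_of_frob_fixes {K Ω : Type*} [Field K] [Field Ω] [NumberField K]
    [NumberField Ω] [Algebra K Ω] (E : IntermediateField K Ω) (𝔓 : Ideal (𝓞 Ω)) [𝔓.IsPrime]
    (h𝔓 : 𝔓 ≠ ⊥) (h : Ω ≃ₐ[K] Ω) (hfrob : IsArithFrobAt (𝓞 K) h 𝔓)
    (hfix : ∀ x ∈ E, h x = x) :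
    Ideal.absNorm (𝔓.under (𝓞 E)) = Ideal.absNorm (𝔓.under (𝓞 K)) := by
  have h𝔭p : (𝔓.under (𝓞 K)).IsPrime := Ideal.IsPrime.under (𝓞 K) 𝔓
  have h𝔮p : (𝔓.under (𝓞 E)).IsPrime := Ideal.IsPrime.under (𝓞 E) 𝔓
  have hlo : (𝔓.under (𝓞 E)).LiesOver (𝔓.under (𝓞 K)) := ⟨by rw [Ideal.under_under]⟩
  rw [← Ideal.absNorm_pow_inertiaDeg (𝔓.under (𝓞 K)) (𝔓.under (𝓞 E)),
    inertiaDeg_under_eq_one (E := E) h𝔓 hfrob (fun x => hfix x x.2), pow_one]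

end Fermat.Agent.S14.SplitInFixed
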