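import Mathlib
import Fermat.Prelude.Def_ExtCitation_AdmissibleExtension_v2

/-!
# S14, block G0a: from an admissible extension `0 → C → V → μ_p → 0` to a subgroup of `Gal(ℚ̄/ℚ)`

Pure representation theory.  For an admissible (continuous) extension `(V, C)` in the sense of the
prelude which does NOT split globally, the kernel `N` of the action of `Γ = Gal(ℚ̄/ℚ)` on `V` is an
open normal subgroup contained in the kernel `G_K` of the mod `p` cyclotomic character `chi p`,
of relative index `p`, on which conjugation by `τ ∈ Γ` acts through `chi p τ`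
(`τ⁻¹ σ τ ≡ σ ^ cycloExp p τ` modulo `N`), and which contains `I_A ∩ G_K` for every valuation
subring `A` of `ℚ̄` over a prime, and `D_A ∩ G_K` for `A` over `p`.
-/

set_option autoImplicit false
set_option linter.unusedSectionVars false

namespace Fermat.Agent.S14.GaloisModule

open ExtCitation ValuationSubring

local notation "Qbar" => AlgebraicClosure ℚ
local notation "Γ" => (AlgebraicClosure ℚ ≃ₐ[ℚ] AlgebraicClosure ℚ)

section chi

variable (p : ℕ) [Fact p.Prime]

/-- The mod `p` cyclotomic character of `Gal(ℚ̄/ℚ)` as a monoid homomorphism. -/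
noncomputable def chi : Γ →* (ZMod p)ˣ :=
  haveI : NeZero p := ⟨(Fact.out : p.Prime).ne_zero⟩
  { toFun := fun σ =>
      modularCyclotomicCharacter Qbar (card_rootsOfUnity_eq_self p) (σ : Qbar ≃+* Qbar)
    map_one' := map_one _
    map_mul' := fun σ τ => map_mul _ (σ : Qbar ≃+* Qbar) (τ : Qbar ≃+* Qbar) }

theorem cycloExp_eq (σ : Γ) : cycloExp p σ = ((chi p σ : (ZMod p)ˣ) : ZMod p).val := rfl

theorem cast_cycloExp (σ : Γ) : ((cycloExp p σ : ℕ) : ZMod p) = ((chi p σ : (ZMod p)ˣ) : ZMod p) := by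
  have : NeZero p := ⟨(Fact.out : p.Prime).ne_zero⟩
  rw [cycloExp_eq, ZMod.natCast_zmod_val]

theorem cast_cycloExp_of_mem_ker {σ : Γ} (hσ : σ ∈ (chi p).ker) :
    ((cycloExp p σ : ℕ) : ZMod p) = 1 := by
  rw [cast_cycloExp, MonoidHom.mem_ker.mp hσ, Units.val_one]

/-- The defining property of the cyclotomic character on `p`-th roots of unity. -/
theorem apply_of_pow_eq_one (σ : Γ) {ζ : Qbar} (hζ : ζ ^ p = 1) : σ ζ = ζ ^ cycloExp p σ := by
  have : NeZero p := ⟨(Fact.out : p.Prime).ne_zero⟩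
  have h := modularCyclotomicCharacter.spec Qbar (card_rootsOfUnity_eq_self p)
    (σ : Qbar ≃+* Qbar) (t := (rootsOfUnity.mkOfPowEq ζ hζ : Qbarˣ)) (rootsOfUnity.mkOfPowEq ζ hζ).2
  have h2 : σ ζ = ζ ^ ((modularCyclotomicCharacter Qbar (card_rootsOfUnity_eq_self p)
      (σ : Qbar ≃+* Qbar) : (ZMod p)ˣ) : ZMod p).val := by simpa using h
  exact h2

theorem cycloExp_lt (σ : Γ) : cycloExp p σ < p := by
  have : NeZero p := ⟨(Fact.out : p.Prime).ne_zero⟩
  rw [cycloExp_eq]
  exact ZMod.val_lt _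

theorem cycloExp_of_mem_ker {σ : Γ} (hσ : σ ∈ (chi p).ker) : cycloExp p σ = 1 := by
  have : Fact (1 < p) := ⟨(Fact.out : p.Prime).one_lt⟩
  rw [cycloExp_eq, MonoidHom.mem_ker.mp hσ, Units.val_one, ZMod.val_one]

theorem mem_ker_chi_iff (σ : Γ) {ζ : Qbar} (hζ : IsPrimitiveRoot ζ p) :
    σ ∈ (chi p).ker ↔ σ ζ = ζ := by
  have hp1 : 1 < p := (Fact.out : p.Prime).one_lt
  rw [apply_of_pow_eq_one p σ hζ.pow_eq_one]
  constructor
  · intro h
    rw [cycloExp_of_mem_ker p h, pow_one]
  · intro h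
    rw [MonoidHom.mem_ker]
    apply Units.ext
    rw [Units.val_one, ← cast_cycloExp]
    have h3 : ζ ^ cycloExp p σ = ζ ^ 1 := by rw [h, pow_one]
    rw [hζ.pow_inj (cycloExp_lt p σ) hp1 h3, Nat.cast_one]

end chi


section main

variable {p : ℕ} [Fact p.Prime] {V : Type} [AddCommGroup V] [Module (ZMod p) V]
  [DistribMulAction Γ V] [SMulCommClass Γ (ZMod p) V] {C : Submodule (ZMod p) V}

variable (V) in
/-- The kernel of the action of `Γ` on `V`. -/
def actKer : Subgroup Γ where
  carrier := {σ | ∀ v : V, σ • v = v}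
  one_mem' := fun v => one_smul _ v
  mul_mem' := fun {a b} ha hb v => by rw [mul_smul, hb v, ha v]
  inv_mem' := fun {a} ha v => by
    have h := ha v
    calc a⁻¹ • v = a⁻¹ • (a • v) := by rw [h]
      _ = v := inv_smul_smul a v

theorem mem_actKer {σ : Γ} : σ ∈ actKer V ↔ ∀ v : V, σ • v = v := Iff.rfl

instance actKer_normal : (actKer V).Normal :=
  ⟨fun σ hσ τ v => by
    rw [mul_smul, mul_smul, hσ, smul_inv_smul]⟩

theorem smul_sub_mem (h : IsAdmissibleExtension p V C) {σ : Γ} (hσ : σ ∈ (chi p).ker) (x : V) :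
    σ • x - x ∈ C := by
  have h1 := h.cyclo_quot σ x
  rwa [cast_cycloExp_of_mem_ker p hσ, one_smul] at h1

theorem exists_notMem (h : IsAdmissibleExtension p V C) : ∃ e : V, e ∉ C := by
  by_contra hcon
  push Not at hcon
  have htop : C = ⊤ := eq_top_iff.mpr fun x _ => hcon x
  have h1 := h.card_sub
  have h2 := h.card_total
  rw [htop, Nat.card_congr (Submodule.topEquiv (R := ZMod p) (M := V)).toEquiv, h2] at h1
  have hp := (Fact.out : p.Prime)
  have : p * p = p * 1 := by rw [mul_one, ← sq]; exact h1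
  have := Nat.eq_of_mul_eq_mul_left hp.pos this
  exact hp.one_lt.ne' this

/-- If `e ∉ C` and `a • e ∈ C` then `a = 0`. -/
theorem eq_zero_of_smul_mem {e : V} (he : e ∉ C) {a : ZMod p} (ha : a • e ∈ C) : a = 0 := by
  by_contra h0
  apply he
  have := C.smul_mem a⁻¹ ha
  rwa [smul_smul, inv_mul_cancel₀ h0, one_smul] at this

/-- `V = ⟨e⟩ + C` for `e ∉ C`. -/
theorem exists_smul_add (h : IsAdmissibleExtension p V C) {e : V} (he : e ∉ C) (x : V) :
    ∃ (a : ZMod p) (c : V), c ∈ C ∧ x = a • e + c := by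
  have hp := (Fact.out : p.Prime)
  have hVfin : Finite V := Nat.finite_of_card_ne_zero (by rw [h.card_total]; exact pow_ne_zero 2 hp.ne_zero)
  let f : ZMod p × C → V := fun ac => ac.1 • e + (ac.2 : V)
  have hf : Function.Injective f := by
    rintro ⟨a, c⟩ ⟨a', c'⟩ hEq
    simp only [f] at hEq
    have h1 : (a - a') • e = (c' : V) - c := by
      rw [sub_smul, sub_eq_sub_iff_add_eq_add, add_comm (c' : V)]
      exact hEq
    have h2 : a - a' = 0 := eq_zero_of_smul_mem he (by rw [h1]; exact C.sub_mem c'.2 c.2)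
    have h3 : a = a' := sub_eq_zero.mp h2
    subst h3
    have h4 : (c : V) = c' := by simpa using hEq
    exact Prod.ext rfl (Subtype.ext h4)
  have hcard : Nat.card V ≤ Nat.card (ZMod p × C) := by
    rw [Nat.card_prod, h.card_sub, h.card_total, Nat.card_zmod, sq]
  obtain ⟨⟨a, c⟩, hac⟩ := (hf.bijective_of_nat_card_le hcard).2 x
  exact ⟨a, c, c.2, hac.symm⟩

/-- An element of `Γ` fixing `e ∉ C` acts trivially on `V`. -/
theorem mem_actKer_of_smul_eq (h : IsAdmissibleExtension p V C) {e : V} (he : e ∉ C) {σ : Γ}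
    (hσ : σ • e = e) : σ ∈ actKer V := by
  intro x
  obtain ⟨a, c, hc, rfl⟩ := exists_smul_add h he x
  rw [smul_add, smul_comm, hσ, h.fixed_sub σ c hc]

theorem actKer_le_ker (h : IsAdmissibleExtension p V C) : actKer V ≤ (chi p).ker := by
  intro σ hσ
  obtain ⟨e, he⟩ := exists_notMem h
  have h1 := h.cyclo_quot σ e
  rw [hσ e, cast_cycloExp] at h1
  have h2 : (1 - ((chi p σ : (ZMod p)ˣ) : ZMod p)) • e ∈ C := by
    rwa [sub_smul, one_smul]
  have h3 := eq_zero_of_smul_mem he h2
  rw [MonoidHom.mem_ker]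
  apply Units.ext
  rw [Units.val_one]
  exact (sub_eq_zero.mp h3).symm

/-- Conjugation formula: for `σ ∈ G_K` and `τ ∈ Γ`,
`(τ⁻¹ σ τ) e - e = χ(τ) • (σ e - e)`. -/
theorem conj_smul_sub (h : IsAdmissibleExtension p V C) {σ : Γ} (hσ : σ ∈ (chi p).ker) (τ : Γ)
    (e : V) :
    (τ⁻¹ * σ * τ) • e - e = ((cycloExp p τ : ℕ) : ZMod p) • (σ • e - e) := by
  set w : ZMod p := ((cycloExp p τ : ℕ) : ZMod p) with hw
  set c : V := τ • e - w • e with hc
  have hcC : c ∈ C := h.cyclo_quot τ e
  set d : V := σ • e - e with hd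
  have hdC : d ∈ C := smul_sub_mem h hσ e
  have h1 : τ • e = w • e + c := by rw [hc]; abel
  have h2 : σ • (τ • e) = τ • e + w • d := by
    rw [h1, smul_add, smul_comm, h.fixed_sub σ c hcC, hd, smul_sub]
    abel
  have h3 : τ⁻¹ • (w • d) = w • d := h.fixed_sub τ⁻¹ _ (C.smul_mem w hdC)
  rw [mul_smul, mul_smul, h2, smul_add, inv_smul_smul, h3]
  abel


/-- The "cocycle" `σ ↦ σ e - e`, a homomorphism `G_K → C`. -/
noncomputable def delta (h : IsAdmissibleExtension p V C) (e : V) :
    (chi p).ker →* Multiplicative C where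
  toFun σ := Multiplicative.ofAdd ⟨(σ : Γ) • e - e, smul_sub_mem h σ.2 e⟩
  map_one' := by
    rw [← ofAdd_zero]
    congr 1
    apply Subtype.ext
    simp
  map_mul' σ τ := by
    rw [← ofAdd_add]
    congr 1
    apply Subtype.ext
    have h1 : (σ : Γ) • ((τ : Γ) • e - e) = (τ : Γ) • e - e :=
      h.fixed_sub σ _ (smul_sub_mem h τ.2 e)
    have h2 : ((σ * τ : (chi p).ker) : Γ) • e = (σ : Γ) • ((τ : Γ) • e) := by
      rw [Subgroup.coe_mul, mul_smul]
    simp only [Submodule.coe_add]
    rw [h2]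
    rw [smul_sub] at h1
    rw [sub_eq_iff_eq_add] at h1
    rw [h1]
    abel

theorem delta_apply (h : IsAdmissibleExtension p V C) (e : V) (σ : (chi p).ker) :
    ((Multiplicative.toAdd (delta h e σ) : C) : V) = (σ : Γ) • e - e := rfl

theorem delta_eq_one_iff (h : IsAdmissibleExtension p V C) {e : V} (he : e ∉ C)
    (σ : (chi p).ker) : delta h e σ = 1 ↔ (σ : Γ) ∈ actKer V := by
  constructor
  · intro h1
    apply mem_actKer_of_smul_eq h he
    have h2 : ((Multiplicative.toAdd (delta h e σ) : C) : V) = 0 := by rw [h1]; rfl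
    rw [delta_apply] at h2
    exact sub_eq_zero.mp h2
  · intro h1
    have h2 : (σ : Γ) • e - e = 0 := by rw [h1 e, sub_self]
    apply Multiplicative.toAdd.injective
    apply Subtype.ext
    rw [delta_apply, h2]
    rfl

theorem ker_delta (h : IsAdmissibleExtension p V C) {e : V} (he : e ∉ C) :
    (delta h e).ker = (actKer V).subgroupOf (chi p).ker := by
  ext σ
  rw [MonoidHom.mem_ker, delta_eq_one_iff h he, Subgroup.mem_subgroupOf]

/-- If `G_K` acts trivially on `V` then the extension splits globally. -/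
theorem splitsGlobally_of_ker_le (h : IsAdmissibleExtension p V C)
    (hle : (chi p).ker ≤ actKer V) : SplitsGlobally C := by
  by_cases hall : ∀ τ : Γ, chi p τ = 1
  · -- everything acts trivially
    obtain ⟨C', hC'⟩ := Submodule.exists_isCompl C
    refine ⟨C', fun σ x hx => ?_, hC'⟩
    rw [hle (MonoidHom.mem_ker.mpr (hall σ)) x]
    exact hx
  · push Not at hall
    obtain ⟨τ0, hτ0⟩ := hall
    set w0 : ZMod p := ((chi p τ0 : (ZMod p)ˣ) : ZMod p) with hw0
    have hw1 : w0 ≠ 1 := fun h1 => hτ0 (Units.ext (by rw [Units.val_one]; exact h1))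
    have hw1' : w0 - 1 ≠ 0 := sub_ne_zero.mpr hw1
    let C' : Submodule (ZMod p) V :=
      { carrier := {x | τ0 • x = w0 • x}
        add_mem' := fun {x y} hx hy => by
          simp only [Set.mem_ofPred_eq] at hx hy ⊢
          rw [smul_add, smul_add, hx, hy]
        zero_mem' := by simp
        smul_mem' := fun a x hx => by
          simp only [Set.mem_ofPred_eq] at hx ⊢
          rw [smul_comm, hx, smul_comm] }
    have hmemC' : ∀ x, x ∈ C' ↔ τ0 • x = w0 • x := fun x => Iff.rfl
    refine ⟨C', fun σ x hx => ?_, ?_⟩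
    · rw [hmemC'] at hx ⊢
      have hγ : τ0⁻¹ * σ⁻¹ * τ0 * σ ∈ (chi p).ker := by
        rw [MonoidHom.mem_ker]
        simp only [map_mul, map_inv]
        rw [mul_comm (chi p τ0)⁻¹, mul_assoc, mul_assoc, ← mul_assoc (chi p τ0)⁻¹]
        simp
      have h1 : τ0 * σ = σ * τ0 * (τ0⁻¹ * σ⁻¹ * τ0 * σ) := by group
      have h2 : (τ0⁻¹ * σ⁻¹ * τ0 * σ) • x = x := hle hγ x
      calc τ0 • σ • x = (τ0 * σ) • x := (mul_smul _ _ _).symm
        _ = (σ * τ0 * (τ0⁻¹ * σ⁻¹ * τ0 * σ)) • x := by rw [← h1]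
        _ = σ • τ0 • x := by rw [mul_smul, h2, mul_smul]
        _ = w0 • σ • x := by rw [hx, smul_comm]
    · rw [isCompl_iff]
      constructor
      · rw [Submodule.disjoint_def]
        intro x hxC hxC'
        rw [hmemC', h.fixed_sub τ0 x hxC] at hxC'
        have h3 : (w0 - 1) • x = 0 := by rw [sub_smul, one_smul, ← hxC', sub_self]
        exact (smul_eq_zero.mp h3).resolve_left hw1'
      · rw [Submodule.codisjoint_iff_exists_add_eq]
        intro x
        set y : V := τ0 • x - w0 • x with hy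
        have hyC : y ∈ C := by
          have := h.cyclo_quot τ0 x
          rwa [cast_cycloExp] at this
        set c : ZMod p := (w0 - 1)⁻¹ with hc
        refine ⟨-(c • y), x + c • y, C.neg_mem (C.smul_mem c hyC), ?_, by abel⟩
        rw [hmemC', smul_add, smul_comm τ0 c y, h.fixed_sub τ0 y hyC]
        have h4 : τ0 • x = w0 • x + y := by rw [hy]; abel
        rw [h4, smul_add, smul_smul w0 c]
        have h5 : y + c • y = (w0 * c) • y := by
          have : (1 : ZMod p) + c = w0 * c := by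
            rw [hc]
            field_simp
            ring
          rw [← this, add_smul, one_smul]
        rw [add_assoc, h5]

/-- A non-split admissible extension: some element of `G_K` acts nontrivially. -/
theorem exists_mem_ker_notMem_actKer (h : IsAdmissibleExtension p V C)
    (hns : ¬ SplitsGlobally C) : ∃ σ ∈ (chi p).ker, σ ∉ actKer V := by
  by_contra hcon
  push Not at hcon
  exact hns (splitsGlobally_of_ker_le h hcon)


theorem conj_mem_ker (p : ℕ) [Fact p.Prime] {σ : Γ} (hσ : σ ∈ (chi p).ker) (τ : Γ) :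
    τ⁻¹ * σ * τ ∈ (chi p).ker := by
  rw [MonoidHom.mem_ker] at hσ ⊢
  simp [map_mul, map_inv, hσ]

/-- The decomposition group at `p` meets `G_K` inside the kernel of the action. -/
theorem mem_actKer_of_mem_decomp (h : IsAdmissibleExtension p V C)
    (A : ValuationSubring Qbar) (hA : A.LiesOverPrime p) {σ : Γ}
    (hσD : σ ∈ A.decompositionSubgroup ℚ) (hσ : σ ∈ (chi p).ker) : σ ∈ actKer V := by
  obtain ⟨C', hstab, hcompl⟩ := h.locally_split A hA
  intro x
  obtain ⟨c, c', hc, hc', rfl⟩ := (Submodule.codisjoint_iff_exists_add_eq.mp hcompl.codisjoint) x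
  have h1 : σ • c' - c' ∈ C := smul_sub_mem h hσ c'
  have h2 : σ • c' - c' ∈ C' := C'.sub_mem (hstab σ hσD c' hc') hc'
  have h3 : σ • c' - c' = 0 := (Submodule.disjoint_def.mp hcompl.disjoint) _ h1 h2
  rw [smul_add, h.fixed_sub σ c hc, sub_eq_zero.mp h3]

theorem inertiaSubgroupIn_le_decompositionSubgroup (A : ValuationSubring Qbar) :
    A.inertiaSubgroupIn ℚ ≤ A.decompositionSubgroup ℚ := by
  rintro σ ⟨σ', -, rfl⟩
  exact σ'.2

/-- The output of block G0a: an open normal subgroup `N ≤ G_K = ker χ` of relative index `p`, on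
which `Γ` acts by conjugation through `χ`, containing the relevant inertia and decomposition
groups. -/
structure IsTwistSubgroup (p : ℕ) [Fact p.Prime] (N : Subgroup Γ) : Prop where
  normal : N.Normal
  isOpen : IsOpen (N : Set Γ)
  le_ker : N ≤ (chi p).ker
  relIndex : N.relIndex (chi p).ker = p
  twist : ∀ τ σ : Γ, σ ∈ (chi p).ker → τ⁻¹ * σ * τ * (σ ^ cycloExp p τ)⁻¹ ∈ N
  inertia : ∀ ℓ : ℕ, ℓ.Prime → ∀ A : ValuationSubring Qbar, A.LiesOverPrime ℓ →
      ∀ σ ∈ A.inertiaSubgroupIn ℚ, σ ∈ (chi p).ker → σ ∈ N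
  decomp : ∀ A : ValuationSubring Qbar, A.LiesOverPrime p →
      ∀ σ ∈ A.decompositionSubgroup ℚ, σ ∈ (chi p).ker → σ ∈ N

/-- **Block G0a**: a non-split admissible (continuous) extension yields a twist subgroup. -/
theorem isTwistSubgroup_actKer (h : IsAdmissibleExtensionCts p V C) (hns : ¬ SplitsGlobally C) :
    IsTwistSubgroup p (actKer V) := by
  have hadm : IsAdmissibleExtension p V C := h.toIsAdmissibleExtension
  have hp := (Fact.out : p.Prime)
  obtain ⟨e, he⟩ := exists_notMem hadm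
  obtain ⟨σ0, hσ0, hσ0N⟩ := exists_mem_ker_notMem_actKer hadm hns
  refine ⟨inferInstance, h.open_kernel, actKer_le_ker hadm, ?_, ?_, ?_, ?_⟩
  · -- relative index
    rw [Subgroup.relIndex, ← ker_delta hadm he, Subgroup.index_ker]
    have hcard : Nat.card (Multiplicative C) = p := hadm.card_sub
    have hfin : Finite (Multiplicative C) := Nat.finite_of_card_ne_zero (by rw [hcard]; exact hp.ne_zero)
    have hdvd : Nat.card (delta hadm e).range ∣ p := by
      have := Subgroup.card_subgroup_dvd_card (delta hadm e).range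
      exact this.trans (dvd_of_eq hcard)
    rcases (Nat.dvd_prime hp).mp hdvd with h1 | h1
    · exfalso
      have hbot : (delta hadm e).range = ⊥ := Subgroup.eq_bot_of_card_eq _ h1
      have h2 : delta hadm e ⟨σ0, hσ0⟩ ∈ (delta hadm e).range := ⟨_, rfl⟩
      rw [hbot, Subgroup.mem_bot, delta_eq_one_iff hadm he] at h2
      exact hσ0N h2
    · exact h1
  · -- twist
    intro τ σ hσ
    set k := cycloExp p τ with hk
    let σ' : (chi p).ker := ⟨σ, hσ⟩
    let g1 : (chi p).ker := ⟨τ⁻¹ * σ * τ, conj_mem_ker p hσ τ⟩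
    have h1 : delta hadm e g1 = delta hadm e σ' ^ k := by
      apply Multiplicative.toAdd.injective
      apply Subtype.ext
      rw [delta_apply, toAdd_pow, Submodule.coe_smul_of_tower, delta_apply]
      show (τ⁻¹ * σ * τ) • e - e = k • (σ • e - e)
      rw [conj_smul_sub hadm hσ τ e, Nat.cast_smul_eq_nsmul]
    have h2 : delta hadm e (g1 * (σ' ^ k)⁻¹) = 1 := by
      rw [map_mul, map_inv, map_pow, h1, mul_inv_cancel]
    have h3 := (delta_eq_one_iff hadm he _).mp h2
    exact h3
  · -- inertia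
    intro ℓ hℓ A hA σ hσI hσ
    by_cases hℓp : ℓ = p
    · subst hℓp
      exact mem_actKer_of_mem_decomp hadm A hA
        (inertiaSubgroupIn_le_decompositionSubgroup A hσI) hσ
    · exact fun x => hadm.unramified_outside ℓ hℓ hℓp A hA σ hσI x
  · -- decomposition at p
    intro A hA σ hσD hσ
    exact mem_actKer_of_mem_decomp hadm A hA hσD hσ

end main

end Fermat.Agent.S14.GaloisModule
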