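import Mathlib
import Fermat.Agent.S14.Defs
import Fermat.Agent.S14.ArtinMap

/-!
# S14: bridge between `ArtinMap.artin` (helper28) and the `IsArtinMap` vocabulary of `Defs.lean`

* `isArtinMap_artin` : `ArtinMap.artin K L` is an Artin map in the sense of `IsArtinMap`.
* `unramifiedAt_of_unramifiedEverywhere` / `unramifiedEverywhere_of_unramifiedAt`.
* `eq_artin` : for an unramified abelian extension any two Artin maps agree on nonzero
  ideals, so statements about an arbitrary `φ` with `IsArtinMap K L φ` and statements about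
  `ArtinMap.artin K L` are interchangeable.
-/

set_option autoImplicit false
set_option linter.unusedSectionVars false

open NumberField
open scoped Pointwise nonZeroDivisors

namespace Fermat.Agent.S14.ArtinBridge

variable {K L : Type*} [Field K] [Field L] [NumberField K] [NumberField L] [Algebra K L]
  [IsGalois K L]

theorem unramifiedAt_of_unramifiedEverywhere (h : UnramifiedEverywhere K L) (P : Ideal (𝓞 K))
    (hP : P ≠ ⊥) : ArtinMap.UnramifiedAt K L P := by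
  intro Q hQ hQP
  have hQ0 : Q ≠ ⊥ := ArtinMap.ne_bot_of_liesOver L hP Q
  exact (unramifiedEverywhere_iff K L).mp h Q hQ hQ0

theorem unramifiedEverywhere_of_unramifiedAt (h : ∀ P : Ideal (𝓞 K), ArtinMap.UnramifiedAt K L P) :
    UnramifiedEverywhere K L := by
  rw [unramifiedEverywhere_iff]
  intro Q hQ _
  exact h (Q.under (𝓞 K)) Q hQ ⟨rfl⟩

/-- `ArtinMap.artin` is an Artin map. -/
theorem isArtinMap_artin [IsMulCommutative (L ≃ₐ[K] L)] :
    IsArtinMap K L (ArtinMap.artin K L) where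
  map_mul I J hI hJ := ArtinMap.artin_mul K L hI hJ
  isArithFrobAt Q hQ hQ0 := by
    have hP : (Q.under (𝓞 K)).IsPrime := Ideal.IsPrime.under (𝓞 K) Q
    have hP0 : Q.under (𝓞 K) ≠ ⊥ := Ideal.under_ne_bot (𝓞 K) hQ0
    have hlo : Q.LiesOver (Q.under (𝓞 K)) := ⟨rfl⟩
    rw [ArtinMap.artin_prime K L hP0]
    exact ArtinMap.isArithFrobAt_frob hP0 Q

/-- Uniqueness of the Frobenius in the unramified case, in `IsArithFrobAt` form. -/
theorem isArithFrobAt_unique (h : UnramifiedEverywhere K L) {Q : Ideal (𝓞 L)} (hQ : Q.IsPrime)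
    (hQ0 : Q ≠ ⊥) {σ σ' : L ≃ₐ[K] L} (hσ : IsArithFrobAt (𝓞 K) σ Q)
    (hσ' : IsArithFrobAt (𝓞 K) σ' Q) : σ = σ' := by
  have h1 : σ * σ'⁻¹ ∈ Q.inertia (L ≃ₐ[K] L) := hσ.mul_inv_mem_inertia hσ'
  have h2 : σ * σ'⁻¹ = 1 := h Q hQ hQ0 _ h1
  exact mul_inv_eq_one.mp h2

/-- Two Artin maps of an unramified extension agree at nonzero primes. -/
theorem eq_at_prime (h : UnramifiedEverywhere K L)
    {φ ψ : Ideal (𝓞 K) → (L ≃ₐ[K] L)} (hφ : IsArtinMap K L φ) (hψ : IsArtinMap K L ψ)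
    (P : Ideal (𝓞 K)) (hP : P.IsPrime) (hP0 : P ≠ ⊥) : φ P = ψ P := by
  obtain ⟨⟨Q, hQp, hQo⟩⟩ := (inferInstance : Nonempty (P.primesOver (𝓞 L)))
  have hQ0 : Q ≠ ⊥ := ArtinMap.ne_bot_of_liesOver L hP0 Q
  have e : Q.under (𝓞 K) = P := hQo.over.symm
  have h1 := hφ.isArithFrobAt Q hQp hQ0
  have h2 := hψ.isArithFrobAt Q hQp hQ0
  rw [e] at h1 h2
  exact isArithFrobAt_unique h hQp hQ0 h1 h2

theorem map_one {φ : Ideal (𝓞 K) → (L ≃ₐ[K] L)} (hφ : IsArtinMap K L φ) : φ 1 = 1 := by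
  have h1 : (1 : Ideal (𝓞 K)) ≠ ⊥ := by
    rw [Ideal.one_eq_top]; exact top_ne_bot
  have := hφ.map_mul 1 1 h1 h1
  rw [mul_one] at this
  exact mul_eq_left.mp this.symm

/-- Two Artin maps of an unramified extension agree on all nonzero ideals. -/
theorem eq_of_unramified (h : UnramifiedEverywhere K L)
    {φ ψ : Ideal (𝓞 K) → (L ≃ₐ[K] L)} (hφ : IsArtinMap K L φ) (hψ : IsArtinMap K L ψ)
    (I : Ideal (𝓞 K)) (hI : I ≠ ⊥) : φ I = ψ I := by
  refine ArtinMap.ideal_induction (C := fun I : Ideal (𝓞 K) => φ I = ψ I) ?_ ?_ ?_ I hI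
  · rw [← Ideal.one_eq_top, map_one hφ, map_one hψ]
  · intro P hP hP0
    exact eq_at_prime h hφ hψ P hP hP0
  · intro I J hI hJ ihI ihJ
    rw [hφ.map_mul I J hI hJ, hψ.map_mul I J hI hJ, ihI, ihJ]

/-- Any Artin map of an unramified abelian extension is `ArtinMap.artin` on nonzero ideals. -/
theorem eq_artin [IsMulCommutative (L ≃ₐ[K] L)] (h : UnramifiedEverywhere K L)
    {φ : Ideal (𝓞 K) → (L ≃ₐ[K] L)} (hφ : IsArtinMap K L φ) (I : Ideal (𝓞 K)) (hI : I ≠ ⊥) :
    φ I = ArtinMap.artin K L I :=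
  eq_of_unramified h hφ isArtinMap_artin I hI

end Fermat.Agent.S14.ArtinBridge
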