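/-
S14 block (D), crossing — the group theory of the auxiliary subgroups (helper24).

`Γ = Gal(L(ζ_m)/K)` with `π : Γ → G = Gal(L/K)` and two cyclotomic characters `χ₁, χ₂` (modulo the
coprime numbers `m₁, m₂`), jointly surjective onto `G × C₁ × C₂`.  For `h ∈ Γ` (a Frobenius element)
put `crossSub π χ h := {g | (π g, χ g) ∈ ⟨(π h, χ h)⟩}`.  Then
* `h ∈ crossSub π χ h`;
* `crossSub π χ₁ h₁ ⊓ crossSub π χ₂ h₂` still maps onto `G` when `G` has prime order and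
  `π h₁, π h₂ ≠ 1`;
* if `p ∣ orderOf (ρ (χ h))` for a reduction `ρ` of the character and `(π h) ^ p = 1`, every
  `g ∈ crossSub π χ h` with `ρ (χ g) = 1` has `π g = 1`.
Mathlib only.
-/
import Mathlib

set_option autoImplicit false

namespace Fermat.Agent.S14.Cross

variable {Γ G C C₁ C₂ D : Type*} [Group Γ] [Group G] [Group C] [Group C₁] [Group C₂] [Group D]

/-- The subgroup of `Γ` of elements whose image in `G × C` lies in the cyclic group generated by the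
image of `h`. -/
def crossSub (π : Γ →* G) (χ : Γ →* C) (h : Γ) : Subgroup Γ :=
  (Subgroup.zpowers ((π.prod χ) h)).comap (π.prod χ)

theorem mem_crossSub_iff {π : Γ →* G} {χ : Γ →* C} {h g : Γ} :
    g ∈ crossSub π χ h ↔ ∃ x : ℤ, π g = π h ^ x ∧ χ g = χ h ^ x := by
  rw [crossSub, Subgroup.mem_comap, Subgroup.mem_zpowers_iff]
  constructor
  · rintro ⟨x, hx⟩
    refine ⟨x, ?_, ?_⟩
    · have := congrArg Prod.fst hx
      simpa using this.symm
    · have := congrArg Prod.snd hx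
      simpa using this.symm
  · rintro ⟨x, h1, h2⟩
    refine ⟨x, ?_⟩
    ext
    · simpa using h1.symm
    · simpa using h2.symm

theorem self_mem_crossSub (π : Γ →* G) (χ : Γ →* C) (h : Γ) : h ∈ crossSub π χ h :=
  mem_crossSub_iff.mpr ⟨1, by simp, by simp⟩

/-- The intersection of the two crossing subgroups still maps onto `G`. -/
theorem exists_mem_inf_crossSub {p : ℕ} [Fact p.Prime] (hG : Nat.card G = p)
    (π : Γ →* G) (χ₁ : Γ →* C₁) (χ₂ : Γ →* C₂)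
    (hsurj : ∀ (g₀ : G) (c₁ : C₁) (c₂ : C₂), ∃ g : Γ, π g = g₀ ∧ χ₁ g = c₁ ∧ χ₂ g = c₂)
    {h₁ h₂ : Γ} (hh₁ : π h₁ ≠ 1) (hh₂ : π h₂ ≠ 1) (g₀ : G) :
    ∃ g ∈ crossSub π χ₁ h₁ ⊓ crossSub π χ₂ h₂, π g = g₀ := by
  have h1top := zpowers_eq_top_of_prime_card (G := G) (p := p) hG hh₁
  have h2top := zpowers_eq_top_of_prime_card (G := G) (p := p) hG hh₂
  have m1 : g₀ ∈ Subgroup.zpowers (π h₁) := by rw [h1top]; exact Subgroup.mem_top _
  have m2 : g₀ ∈ Subgroup.zpowers (π h₂) := by rw [h2top]; exact Subgroup.mem_top _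
  obtain ⟨x, hx⟩ := Subgroup.mem_zpowers_iff.mp m1
  obtain ⟨y, hy⟩ := Subgroup.mem_zpowers_iff.mp m2
  obtain ⟨g, hg0, hg1, hg2⟩ := hsurj g₀ (χ₁ h₁ ^ x) (χ₂ h₂ ^ y)
  refine ⟨g, ⟨mem_crossSub_iff.mpr ⟨x, by rw [hg0, hx], hg1⟩,
    mem_crossSub_iff.mpr ⟨y, by rw [hg0, hy], hg2⟩⟩, hg0⟩

/-- One-character version: a single crossing subgroup maps onto `G`. -/
theorem exists_mem_crossSub {p : ℕ} [Fact p.Prime] (hG : Nat.card G = p)
    (π : Γ →* G) (χ : Γ →* C)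
    (hsurj : ∀ (g₀ : G) (c : C), ∃ g : Γ, π g = g₀ ∧ χ g = c)
    {h : Γ} (hh : π h ≠ 1) (g₀ : G) :
    ∃ g ∈ crossSub π χ h, π g = g₀ := by
  have htop := zpowers_eq_top_of_prime_card (G := G) (p := p) hG hh
  have m1 : g₀ ∈ Subgroup.zpowers (π h) := by rw [htop]; exact Subgroup.mem_top _
  obtain ⟨x, hx⟩ := Subgroup.mem_zpowers_iff.mp m1
  obtain ⟨g, hg0, hg1⟩ := hsurj g₀ (χ h ^ x)
  exact ⟨g, mem_crossSub_iff.mpr ⟨x, by rw [hg0, hx], hg1⟩, hg0⟩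

/-- An element of the crossing subgroup whose character is trivial modulo a prime `ℓ` (encoded by a
homomorphism `ρ`) is trivial on `L`, provided `p` divides the order of `ρ (χ h)` and
`(π h) ^ p = 1`. -/
theorem map_eq_one_of_mem_crossSub {p : ℕ} (π : Γ →* G) (χ : Γ →* C) (ρ : C →* D) {h : Γ}
    (hp : π h ^ p = 1) (hord : p ∣ orderOf (ρ (χ h))) {g : Γ} (hg : g ∈ crossSub π χ h)
    (hρ : ρ (χ g) = 1) : π g = 1 := by
  obtain ⟨x, h1, h2⟩ := mem_crossSub_iff.mp hg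
  rw [h2, map_zpow] at hρ
  have hdvd : (orderOf (ρ (χ h)) : ℤ) ∣ x := orderOf_dvd_iff_zpow_eq_one.mpr hρ
  have hpx : (p : ℤ) ∣ x := (Int.natCast_dvd_natCast.mpr hord).trans hdvd
  obtain ⟨k, rfl⟩ := hpx
  rw [h1, zpow_mul, zpow_natCast, hp, one_zpow]

end Fermat.Agent.S14.Cross
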