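/-
S14 block (D), crossing — the per-field package (D7c / SubExt) (helper24).

`K ⊆ L` number fields with `L/K` Galois, `Ω ⊇ L` a number field, `E` an intermediate field of `Ω/K`.
`comp L E : IntermediateField E Ω` is the compositum `E·L = E(image of L)`.  We provide
* the `L`-algebra structure on `comp L E` and the scalar towers `K → L → comp L E → Ω`,
  `K → E → comp L E` needed by `ArtinMap.res K L E (comp L E)`,
* `IsGalois E (comp L E)` (no commutativity needed: base change of a splitting field),
* `resComp E : Gal(EL/E) →* Gal(L/K)` is injective; it is surjective as soon as every element of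
  `Gal(L/K)` lifts to an automorphism of `Ω/K` fixing `E` (e.g. `E = fixedField H` with `H`
  mapping onto `Gal(L/K)`); then `[EL : E] = [L : K]`,
* commutativity of `Gal(EL/E)` and `UnramifiedEverywhere E (comp L E)` from those of `L/K`.
Mathlib + Defs + ArtinMap only.
-/
import Mathlib
import Fermat.Agent.S14.Defs
import Fermat.Agent.S14.ArtinMap

set_option autoImplicit false
set_option linter.unusedSectionVars false
open NumberField

namespace Fermat.Agent.S14.Cross

variable {K L Ω : Type*} [Field K] [Field L] [Field Ω] [NumberField K] [NumberField L]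
  [NumberField Ω] [Algebra K L] [Algebra K Ω] [Algebra L Ω] [IsScalarTower K L Ω]

variable (L) in
/-- The compositum `E·L` inside `Ω`, as an intermediate field of `Ω/E`. -/
def comp (E : IntermediateField K Ω) : IntermediateField E Ω :=
  IntermediateField.adjoin E (Set.range (algebraMap L Ω))

variable (E : IntermediateField K Ω)

theorem algebraMap_mem_comp (x : L) : algebraMap L Ω x ∈ comp L E :=
  IntermediateField.subset_adjoin _ _ ⟨x, rfl⟩

noncomputable instance algebraComp : Algebra L (comp L E) :=
  ((algebraMap L Ω).codRestrict (comp L E).toSubfield.toSubring (algebraMap_mem_comp E)).toAlgebra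

theorem coe_algebraMap_comp (x : L) :
    ((algebraMap L (comp L E) x : comp L E) : Ω) = algebraMap L Ω x := rfl

instance : IsScalarTower L (comp L E) Ω := IsScalarTower.of_algebraMap_eq (fun _ => rfl)

instance : IsScalarTower K (comp L E) Ω := IsScalarTower.of_algebraMap_eq (fun _ => rfl)

instance : IsScalarTower K L (comp L E) := IsScalarTower.of_algebraMap_eq (fun x => by
  apply Subtype.ext
  rw [coe_algebraMap_comp]
  show ((algebraMap K (comp L E) x : comp L E) : Ω) = _
  rw [← IsScalarTower.algebraMap_apply K L Ω]
  rfl)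

open Polynomial IntermediateField in
/-- If `L = K(S)` then the image of `L` in `Ω` lies in `E(image of S)`. -/
theorem algebraMap_mem_adjoin_image {S : Set L} (hS : IntermediateField.adjoin K S = ⊤) (y : L) :
    algebraMap L Ω y ∈ IntermediateField.adjoin E (algebraMap L Ω '' S) := by
  have hy : y ∈ IntermediateField.adjoin K S := by rw [hS]; trivial
  induction hy using IntermediateField.adjoin_induction with
  | mem x hx => exact IntermediateField.subset_adjoin _ _ ⟨x, hx, rfl⟩
  | algebraMap x =>
    rw [← IsScalarTower.algebraMap_apply K L Ω, IsScalarTower.algebraMap_apply K E Ω]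
    exact (IntermediateField.adjoin E (algebraMap L Ω '' S)).algebraMap_mem _
  | add x y _ _ hx hy => rw [map_add]; exact add_mem hx hy
  | inv x _ hx => rw [map_inv₀]; exact inv_mem hx
  | mul x y _ _ hx hy => rw [map_mul]; exact mul_mem hx hy

end Fermat.Agent.S14.Cross

namespace Fermat.Agent.S14.Cross

variable {K L Ω : Type*} [Field K] [Field L] [Field Ω] [NumberField K] [NumberField L]
  [NumberField Ω] [Algebra K L] [Algebra K Ω] [Algebra L Ω] [IsScalarTower K L Ω]
variable (E : IntermediateField K Ω)

open Polynomial IntermediateField in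
theorem comp_eq_adjoin_rootSet {T : K[X]} (hT : T.IsSplittingField K L) :
    comp L E = IntermediateField.adjoin E ((T.map (algebraMap K E)).rootSet Ω) := by
  have hsplitL : (T.map (algebraMap K L)).Splits := hT.splits
  have hroots : (T.map (algebraMap K E)).rootSet Ω = T.rootSet Ω := by
    ext x
    simp [Polynomial.mem_rootSet', Polynomial.map_map, ← IsScalarTower.algebraMap_eq]
  have himage : T.rootSet Ω = algebraMap L Ω '' (T.rootSet L) := by
    have := hsplitL.image_rootSet (IsScalarTower.toAlgHom K L Ω)
    simpa using this.symm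
  have htop : IntermediateField.adjoin K (T.rootSet L) = ⊤ :=
    (isSplittingField_iff_intermediateField.mp hT).2
  rw [hroots, himage]
  apply le_antisymm
  · rw [comp, IntermediateField.adjoin_le_iff]
    rintro _ ⟨y, rfl⟩
    exact algebraMap_mem_adjoin_image E htop y
  · rw [IntermediateField.adjoin_le_iff]
    rintro _ ⟨y, -, rfl⟩
    exact algebraMap_mem_comp E y

open Polynomial IntermediateField in
instance isGalois_comp [IsGalois K L] : IsGalois E (comp L E) := by
  obtain ⟨T, hT₁, hT₂⟩ := IsGalois.is_separable_splitting_field K L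
  suffices (T.map (algebraMap K E)).IsSplittingField E (comp L E) from
    IsGalois.of_separable_splitting_field (p := T.map (algebraMap K E)) hT₁.map
  have hsplitL : (T.map (algebraMap K L)).Splits := hT₂.splits
  have hsplitΩ : (T.map (algebraMap K Ω)).Splits := by
    have := hsplitL.map (algebraMap L Ω)
    rwa [Polynomial.map_map, ← IsScalarTower.algebraMap_eq] at this
  have hsplitΩ' : ((T.map (algebraMap K E)).map (algebraMap E Ω)).Splits := by
    rw [Polynomial.map_map, ← IsScalarTower.algebraMap_eq]; exact hsplitΩ
  rw [comp_eq_adjoin_rootSet E hT₂]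
  exact IntermediateField.adjoin_rootSet_isSplittingField hsplitΩ'

end Fermat.Agent.S14.Cross

namespace Fermat.Agent.S14.Cross

open ArtinMap

variable {K L Ω : Type*} [Field K] [Field L] [Field Ω] [NumberField K] [NumberField L]
  [NumberField Ω] [Algebra K L] [Algebra K Ω] [Algebra L Ω] [IsScalarTower K L Ω] [IsGalois K L]
variable (E : IntermediateField K Ω)

/-- Restriction `Gal(EL/E) → Gal(L/K)`. -/
noncomputable abbrev resComp : Gal((comp L E)/E) →* Gal(L/K) := res K L E (comp L E)

theorem resComp_coe (σ : Gal((comp L E)/E)) (x : L) :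
    ((σ (algebraMap L (comp L E) x) : comp L E) : Ω) = algebraMap L Ω (resComp E σ x) := by
  rw [← coe_algebraMap_comp E (resComp E σ x)]
  exact congrArg _ (res_commutes K L E (comp L E) σ x).symm

theorem resComp_injective : Function.Injective (resComp (L := L) E) := by
  rw [injective_iff_map_eq_one]
  intro σ hσ
  have h1 : ∀ x : L, σ (algebraMap L (comp L E) x) = algebraMap L (comp L E) x := by
    intro x
    have := res_commutes K L E (comp L E) σ x
    rw [hσ] at this
    exact this.symm
  -- compare `σ` and `1` as algebra homs `comp L E →ₐ[E] Ω`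
  have h2 : ((comp L E).val.comp (σ : comp L E →ₐ[E] comp L E)) = (comp L E).val := by
    apply IntermediateField.adjoin_algHom_ext
    rintro _ ⟨y, rfl⟩
    have := h1 y
    exact congrArg (fun t : comp L E => (t : Ω)) this
  ext y
  have := DFunLike.congr_fun h2 y
  exact this

end Fermat.Agent.S14.Cross

namespace Fermat.Agent.S14.Cross

open ArtinMap

variable {K L Ω : Type*} [Field K] [Field L] [Field Ω] [NumberField K] [NumberField L]
  [NumberField Ω] [Algebra K L] [Algebra K Ω] [Algebra L Ω] [IsScalarTower K L Ω] [IsGalois K L]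
variable (E : IntermediateField K Ω)


theorem resComp_surjective
    (hE : ∀ g₀ : Gal(L/K), ∃ g : Ω ≃ₐ[K] Ω, (∀ x ∈ E, g x = x) ∧
      AlgEquiv.restrictNormalHom L g = g₀) :
    Function.Surjective (resComp (L := L) E) := by
  intro g₀
  obtain ⟨g, hfix, hg⟩ := hE g₀
  have hmem : g ∈ E.fixingSubgroup := (IntermediateField.mem_fixingSubgroup_iff E g).mpr hfix
  let gE : Ω ≃ₐ[E] Ω := IntermediateField.fixingSubgroupEquiv E ⟨g, hmem⟩
  have hgE : ∀ y : Ω, gE y = g y := fun y => rfl
  refine ⟨AlgEquiv.restrictNormalHom (comp L E) gE, ?_⟩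
  ext x
  apply (algebraMap L Ω).injective
  rw [← resComp_coe]
  have h2 := AlgEquiv.restrictNormal_commutes g L x
  rw [AlgEquiv.restrictNormalHom_apply, hgE, coe_algebraMap_comp, ← hg]
  exact h2.symm

end Fermat.Agent.S14.Cross

namespace Fermat.Agent.S14.Cross

open ArtinMap

variable {K L Ω : Type*} [Field K] [Field L] [Field Ω] [NumberField K] [NumberField L]
  [NumberField Ω] [Algebra K L] [Algebra K Ω] [Algebra L Ω] [IsScalarTower K L Ω] [IsGalois K L]
variable (E : IntermediateField K Ω)

theorem finrank_comp
    (hE : ∀ g₀ : Gal(L/K), ∃ g : Ω ≃ₐ[K] Ω, (∀ x ∈ E, g x = x) ∧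
      AlgEquiv.restrictNormalHom L g = g₀) :
    Module.finrank E (comp L E) = Module.finrank K L := by
  rw [← IsGalois.card_aut_eq_finrank, ← IsGalois.card_aut_eq_finrank]
  exact Nat.card_congr (Equiv.ofBijective _ ⟨resComp_injective E, resComp_surjective E hE⟩)

theorem isMulCommutative_comp [IsMulCommutative Gal(L/K)] :
    IsMulCommutative Gal((comp L E)/E) :=
  ⟨⟨fun a b => resComp_injective E (by rw [map_mul, map_mul, mul_comm'])⟩⟩

theorem unramifiedEverywhere_comp (hunr : UnramifiedEverywhere K L) :
    UnramifiedEverywhere E (comp L E) := by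
  intro Q hQ hQ0 σ hσ
  apply resComp_injective E
  rw [map_one]
  have hQ' : (Q.under (𝓞 L)).IsPrime := Ideal.IsPrime.under (𝓞 L) Q
  refine hunr (Q.under (𝓞 L)) hQ' (Ideal.under_ne_bot (𝓞 L) hQ0) _ ?_
  intro x
  rw [Ideal.under_def, Ideal.mem_comap, map_sub, res_smul_int]
  exact hσ _

end Fermat.Agent.S14.Cross
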