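/-
S14 block (B'): two-prime cyclotomic reciprocity (helper13).

Let `Ω/F` be a Galois extension of number fields such that norms of nonzero integers of `F` are
positive (e.g. `F` totally complex), `ℓ₁ ≠ ℓ₂` primes, `ζᵢ ∈ Ω` roots of unity of order `ℓᵢ`,
`M ⊆ F(ζ₁) ∩ F(ζ₂)`.  Then any product of Frobenius elements (for `Ω/F`) at primes away from
`ℓ₁ ℓ₂` whose underlying primes of `F` multiply to a PRINCIPAL ideal `(γ)` fixes `M` pointwise.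
No norm-residue formula, no inertia groups, no modulus.
-/
import Mathlib

set_option autoImplicit false
set_option linter.unusedSectionVars false

namespace Fermat.Agent.S14.TwoPrime

open NumberField Ideal

section Norm

variable {F : Type*} [Field F] [NumberField F]

theorem dvd_det_add_smul_sub {ι : Type*} [DecidableEq ι] [Fintype ι] {R : Type*} [CommRing R]
    (A B : Matrix ι ι R) (r : R) : r ∣ (A + r • B).det - A.det := by
  rw [← Ideal.mem_span_singleton, ← Ideal.Quotient.eq, RingHom.map_det, RingHom.map_det]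
  congr 1
  ext i j
  simp only [RingHom.mapMatrix_apply, Matrix.map_apply, Matrix.add_apply, Matrix.smul_apply,
    smul_eq_mul, map_add, map_mul]
  have : (Ideal.Quotient.mk (Ideal.span {r})) r = 0 :=
    Ideal.Quotient.eq_zero_iff_mem.mpr (Ideal.mem_span_singleton_self r)
  rw [this, zero_mul, add_zero]

/-- Norms of congruent integers are congruent. -/
theorem dvd_norm_sub_norm {n : ℤ} {x y : 𝓞 F} (h : x - y ∈ Ideal.span {(n : 𝓞 F)}) :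
    n ∣ Algebra.norm ℤ x - Algebra.norm ℤ y := by
  obtain ⟨z, hz⟩ := Ideal.mem_span_singleton.mp h
  let b := RingOfIntegers.basis F
  rw [Algebra.norm_eq_matrix_det b, Algebra.norm_eq_matrix_det b]
  have hx : x = y + n • z := by
    rw [zsmul_eq_mul, ← hz]; ring
  rw [hx, map_add, map_zsmul]
  exact dvd_det_add_smul_sub _ _ _

end Norm

end Fermat.Agent.S14.TwoPrime

namespace Fermat.Agent.S14.TwoPrime

open NumberField Ideal InfinitePlace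

section Pos

variable {F : Type*} [Field F] [NumberField F]

open scoped Classical in
theorem norm_rat_nonneg_of_isTotallyComplex [IsTotallyComplex F] (x : F) :
    0 ≤ Algebra.norm ℚ x := by
  have h1 : (algebraMap ℚ ℂ (Algebra.norm ℚ x)) = ∏ w : InfinitePlace F,
      ((Complex.normSq (w.embedding x) : ℝ) : ℂ) := by
    rw [Algebra.norm_eq_prod_embeddings ℚ ℂ x,
      ← Fintype.prod_equiv (RingHom.equivRatAlgHom F ℂ) (fun f => f x)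
      (fun φ => φ x) fun _ => by simp [RingHom.equivRatAlgHom_apply],
      ← Finset.prod_fiberwise Finset.univ InfinitePlace.mk (fun φ => φ x)]
    refine Finset.prod_congr rfl fun w _ => ?_
    have hw : ¬ IsReal w := not_isReal_iff_isComplex.mpr (IsTotallyComplex.isComplex w)
    have hfil : (Finset.univ.filter fun φ : F →+* ℂ => InfinitePlace.mk φ = w) =
        {w.embedding, ComplexEmbedding.conjugate w.embedding} := by
      ext φ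
      simp only [Finset.mem_filter, Finset.mem_univ, true_and, Finset.mem_insert,
        Finset.mem_singleton]
      conv_lhs => rw [← mk_embedding w, mk_eq_iff, ComplexEmbedding.conjugate,
        star_involutive.eq_iff]
      -- closed
    rw [hfil, Finset.prod_pair]
    · rw [ComplexEmbedding.conjugate_coe_eq, ← Complex.mul_conj]
    · rwa [Ne, eq_comm, ← ComplexEmbedding.isReal_iff, ← isReal_iff]
  have h2 : ((Algebra.norm ℚ x : ℚ) : ℝ) = ∏ w : InfinitePlace F,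
      Complex.normSq (w.embedding x) := by
    have : ((((Algebra.norm ℚ x : ℚ) : ℝ)) : ℂ) = ((∏ w : InfinitePlace F,
      Complex.normSq (w.embedding x) : ℝ) : ℂ) := by
      rw [Complex.ofReal_prod, ← h1]; simp
    exact_mod_cast this
  have h3 : (0 : ℝ) ≤ ((Algebra.norm ℚ x : ℚ) : ℝ) := by
    rw [h2]; exact Finset.prod_nonneg fun w _ => Complex.normSq_nonneg _
  exact_mod_cast h3

theorem norm_int_pos_of_isTotallyComplex [IsTotallyComplex F] {x : 𝓞 F} (hx : x ≠ 0) :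
    0 < Algebra.norm ℤ x := by
  have h0 : Algebra.norm ℤ x ≠ 0 := Algebra.norm_ne_zero_iff.mpr hx
  have h1 : (0 : ℚ) ≤ ((Algebra.norm ℤ x : ℤ) : ℚ) := by
    rw [Algebra.coe_norm_int]; exact norm_rat_nonneg_of_isTotallyComplex _
  have h2 : 0 ≤ Algebra.norm ℤ x := by exact_mod_cast h1
  exact lt_of_le_of_ne h2 (Ne.symm h0)

end Pos

end Fermat.Agent.S14.TwoPrime

namespace Fermat.Agent.S14.TwoPrime

open NumberField Ideal

section Frob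

variable {F Ω : Type*} [Field F] [NumberField F] [Field Ω] [NumberField Ω] [Algebra F Ω]
  [IsGalois F Ω]

/-- A Frobenius element at `𝔓` raises every root of unity of order prime to `𝔓` to the power
`N(𝔓 ∩ 𝓞 F)`. -/
theorem frob_apply_of_pow_eq_one {σ : Ω ≃ₐ[F] Ω} {𝔓 : Ideal (𝓞 Ω)}
    (h : IsArithFrobAt (𝓞 F) σ 𝔓) {ζ : Ω} {m : ℕ} (hm : 0 < m) (hζ : ζ ^ m = 1)
    (hm𝔓 : (m : 𝓞 Ω) ∉ 𝔓) : σ ζ = ζ ^ Ideal.absNorm (𝔓.under (𝓞 F)) := by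
  have hint : IsIntegral ℤ ζ := IsIntegral.of_pow hm (by rw [hζ]; exact isIntegral_one)
  let z : 𝓞 Ω := ⟨ζ, hint⟩
  have hz : z ^ m = 1 := by
    apply RingOfIntegers.ext
    show (algebraMap (𝓞 Ω) Ω (z ^ m)) = algebraMap (𝓞 Ω) Ω 1
    rw [map_pow, map_one]
    exact hζ
  have := AlgHom.IsArithFrobAt.apply_of_pow_eq_one h hz hm𝔓
  have h2 := congrArg (fun t : 𝓞 Ω => (t : Ω)) this
  simp only [MulSemiringAction.toAlgHom_apply, map_pow] at h2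
  rw [Ideal.absNorm_apply, Submodule.cardQuot_apply]
  exact h2

/-- Frobenius data away from `m`: a list of pairs (prime of `𝓞 Ω` not containing `m`, Frobenius
element at that prime). -/
def IsFrobList (m : ℕ) (l : List (Ideal (𝓞 Ω) × (Ω ≃ₐ[F] Ω))) : Prop :=
  ∀ p ∈ l, p.1.IsPrime ∧ (m : 𝓞 Ω) ∉ p.1 ∧ IsArithFrobAt (𝓞 F) p.2 p.1

/-- The product of the Frobenius elements of a list. -/
def frobProd (l : List (Ideal (𝓞 Ω) × (Ω ≃ₐ[F] Ω))) : Ω ≃ₐ[F] Ω := (l.map Prod.snd).prod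

/-- The product of the primes of `𝓞 F` below the primes of a list. -/
def underProd (l : List (Ideal (𝓞 Ω) × (Ω ≃ₐ[F] Ω))) : Ideal (𝓞 F) :=
  (l.map fun p => p.1.under (𝓞 F)).prod

@[simp] theorem frobProd_nil : frobProd ([] : List (Ideal (𝓞 Ω) × (Ω ≃ₐ[F] Ω))) = 1 := rfl
@[simp] theorem underProd_nil : underProd ([] : List (Ideal (𝓞 Ω) × (Ω ≃ₐ[F] Ω))) = 1 := rfl
@[simp] theorem frobProd_cons (p : Ideal (𝓞 Ω) × (Ω ≃ₐ[F] Ω)) (l) :
    frobProd (p :: l) = p.2 * frobProd l := by simp [frobProd]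
@[simp] theorem underProd_cons (p : Ideal (𝓞 Ω) × (Ω ≃ₐ[F] Ω)) (l) :
    underProd (p :: l) = p.1.under (𝓞 F) * underProd l := by simp [underProd]

theorem frobProd_append (l l' : List (Ideal (𝓞 Ω) × (Ω ≃ₐ[F] Ω))) :
    frobProd (l ++ l') = frobProd l * frobProd l' := by simp [frobProd]

theorem underProd_append (l l' : List (Ideal (𝓞 Ω) × (Ω ≃ₐ[F] Ω))) :
    underProd (l ++ l') = underProd l * underProd l' := by simp [underProd]

theorem IsFrobList.append {m : ℕ} {l l' : List (Ideal (𝓞 Ω) × (Ω ≃ₐ[F] Ω))}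
    (h : IsFrobList m l) (h' : IsFrobList m l') : IsFrobList m (l ++ l') := by
  intro p hp
  rcases List.mem_append.mp hp with hp | hp
  · exact h p hp
  · exact h' p hp

/-- The product of the Frobenius elements of a list raises a root of unity of order `m` to the
power `N(∏ 𝔓ᵢ ∩ 𝓞 F)`. -/
theorem frobProd_apply_of_pow_eq_one {m : ℕ} (hm : 0 < m)
    {l : List (Ideal (𝓞 Ω) × (Ω ≃ₐ[F] Ω))} (hl : IsFrobList m l) {ζ : Ω} (hζ : ζ ^ m = 1) :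
    frobProd l ζ = ζ ^ Ideal.absNorm (underProd l) := by
  induction l with
  | nil => simp
  | cons p l ih =>
    have hl' : IsFrobList m l := fun q hq => hl q (List.mem_cons_of_mem _ hq)
    obtain ⟨-, hp1, hp2⟩ := hl p List.mem_cons_self
    rw [frobProd_cons, underProd_cons, AlgEquiv.mul_apply, ih hl', map_pow,
      frob_apply_of_pow_eq_one hp2 hm hζ hp1, map_mul, ← pow_mul]

end Frob

end Fermat.Agent.S14.TwoPrime

namespace Fermat.Agent.S14.TwoPrime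

open NumberField Ideal

section Exists

variable {F Ω : Type*} [Field F] [NumberField F] [Field Ω] [NumberField Ω] [Algebra F Ω]
  [IsGalois F Ω]

theorem exists_frob_over {m : ℕ} (𝔮 : Ideal (𝓞 F)) [𝔮.IsPrime] (h0 : 𝔮 ≠ ⊥)
    (hm : (m : 𝓞 F) ∉ 𝔮) :
    ∃ (𝔓 : Ideal (𝓞 Ω)) (σ : Ω ≃ₐ[F] Ω), 𝔓.IsPrime ∧ 𝔓.under (𝓞 F) = 𝔮 ∧ (m : 𝓞 Ω) ∉ 𝔓 ∧
      IsArithFrobAt (𝓞 F) σ 𝔓 := by
  obtain ⟨⟨𝔓, h𝔓p, h𝔓o⟩⟩ := 𝔮.nonempty_primesOver (S := 𝓞 Ω)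
  have hunder : 𝔓.under (𝓞 F) = 𝔮 := h𝔓o.over.symm
  have h𝔓0 : 𝔓 ≠ ⊥ := by
    intro h
    apply h0
    rw [← hunder, h]
    exact Ideal.under_bot _ _
  have : Finite ((𝓞 Ω) ⧸ 𝔓) := Ideal.finiteQuotientOfFreeOfNeBot 𝔓 h𝔓0
  obtain ⟨σ, hσ⟩ := IsArithFrobAt.exists_of_isInvariant (𝓞 F) (Ω ≃ₐ[F] Ω) 𝔓
  refine ⟨𝔓, σ, h𝔓p, hunder, ?_, hσ⟩
  intro hmem
  apply hm
  rw [← hunder, Ideal.mem_comap]
  simpa using hmem

theorem exists_frobList_of_list {m : ℕ} (L : List (Ideal (𝓞 F)))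
    (hL : ∀ 𝔮 ∈ L, 𝔮.IsPrime ∧ 𝔮 ≠ ⊥ ∧ (m : 𝓞 F) ∉ 𝔮) :
    ∃ l : List (Ideal (𝓞 Ω) × (Ω ≃ₐ[F] Ω)), IsFrobList m l ∧ underProd l = L.prod := by
  induction L with
  | nil => exact ⟨[], fun p hp => by simp at hp, rfl⟩
  | cons 𝔮 L ih =>
    obtain ⟨l, hl, hlp⟩ := ih fun 𝔮' h => hL 𝔮' (List.mem_cons_of_mem _ h)
    obtain ⟨hq1, hq2, hq3⟩ := hL 𝔮 List.mem_cons_self
    obtain ⟨𝔓, σ, h𝔓, h1, h2, h3⟩ := exists_frob_over (Ω := Ω) 𝔮 hq2 hq3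
    refine ⟨(𝔓, σ) :: l, ?_, ?_⟩
    · intro p hp
      rcases List.mem_cons.mp hp with rfl | hp
      · exact ⟨h𝔓, h2, h3⟩
      · exact hl p hp
    · rw [underProd_cons, List.prod_cons, hlp, h1]

/-- Every nonzero ideal of `𝓞 F` none of whose prime factors contains `m` is the product of the
primes below a Frobenius list away from `m`. -/
theorem exists_frobList {m : ℕ} (I : Ideal (𝓞 F)) (hI : I ≠ ⊥)
    (hm : ∀ 𝔮 : Ideal (𝓞 F), 𝔮.IsPrime → I ≤ 𝔮 → (m : 𝓞 F) ∉ 𝔮) :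
    ∃ l : List (Ideal (𝓞 Ω) × (Ω ≃ₐ[F] Ω)), IsFrobList m l ∧ underProd l = I := by
  classical
  have hprod := Ideal.prod_normalizedFactors_eq_self hI
  obtain ⟨l, hl, hlp⟩ := exists_frobList_of_list (Ω := Ω) (m := m)
    (UniqueFactorizationMonoid.normalizedFactors I).toList (by
      intro 𝔮 h𝔮
      rw [Multiset.mem_toList] at h𝔮
      have hp := UniqueFactorizationMonoid.prime_of_normalized_factor 𝔮 h𝔮
      have hprime : 𝔮.IsPrime := Ideal.isPrime_of_prime hp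
      refine ⟨hprime, hp.ne_zero, hm 𝔮 hprime ?_⟩
      exact Ideal.le_of_dvd (UniqueFactorizationMonoid.dvd_of_mem_normalizedFactors h𝔮))
  exact ⟨l, hl, by rw [hlp, Multiset.prod_toList, hprod]⟩

end Exists

end Fermat.Agent.S14.TwoPrime

namespace Fermat.Agent.S14.TwoPrime

open NumberField Ideal

section Main

variable {F Ω : Type*} [Field F] [NumberField F] [Field Ω] [NumberField Ω] [Algebra F Ω]
  [IsGalois F Ω]

theorem pow_eq_pow_of_dvd_sub {ζ : Ω} {ℓ : ℕ} (hℓ : 0 < ℓ) (hζ : ζ ^ ℓ = 1) {a b : ℕ}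
    (h : (ℓ : ℤ) ∣ (a : ℤ) - b) : ζ ^ a = ζ ^ b := by
  have hζ0 : ζ ≠ 0 := by
    rintro rfl
    rw [zero_pow hℓ.ne'] at hζ
    exact zero_ne_one hζ
  obtain ⟨k, hk⟩ := h
  have ha : (a : ℤ) = b + ℓ * k := by linarith
  have : ζ ^ (a : ℤ) = ζ ^ (b : ℤ) := by
    rw [ha, zpow_add₀ hζ0, zpow_mul, zpow_natCast, zpow_natCast, hζ, one_zpow, mul_one]
  simpa using this

/-- The primes dividing `underProd l` do not contain `m`. -/
theorem not_mem_of_isFrobList {m : ℕ} {l : List (Ideal (𝓞 Ω) × (Ω ≃ₐ[F] Ω))}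
    (hl : IsFrobList m l) (h0 : underProd l ≠ ⊥) (𝔮 : Ideal (𝓞 F)) (h𝔮 : 𝔮.IsPrime)
    (hle : underProd l ≤ 𝔮) : (m : 𝓞 F) ∉ 𝔮 := by
  induction l with
  | nil =>
    exfalso
    rw [underProd_nil, Ideal.one_eq_top, top_le_iff] at hle
    exact h𝔮.ne_top hle
  | cons p l ih =>
    rw [underProd_cons] at hle h0
    have hp0 : p.1.under (𝓞 F) ≠ ⊥ := fun h => h0 (by rw [h, Ideal.bot_mul])
    have hl0 : underProd l ≠ ⊥ := fun h => h0 (by rw [h, Ideal.mul_bot])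
    obtain ⟨hpp, hpm, -⟩ := hl p List.mem_cons_self
    rcases h𝔮.mul_le.mp hle with h | h
    · have hprime : (p.1.under (𝓞 F)).IsPrime := Ideal.comap_isPrime _ _
      have hmax : (p.1.under (𝓞 F)).IsMaximal := hprime.isMaximal hp0
      have : p.1.under (𝓞 F) = 𝔮 := hmax.eq_of_le h𝔮.ne_top h
      rw [← this, Ideal.mem_comap]
      simpa using hpm
    · exact ih (fun q hq => hl q (List.mem_cons_of_mem _ hq)) hl0 h

/-- **Two-prime cyclotomic reciprocity.** Let `Ω/F` be a Galois extension of number fields, `F`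
with positive norms (e.g. totally complex), `ℓ₁ ≠ ℓ₂` primes, `ζᵢ ∈ Ω` with `ζᵢ ^ ℓᵢ = 1`, and `S` a
subset of `Ω` fixed by every automorphism fixing `ζ₁` and by every automorphism fixing `ζ₂`
(think: `S = M` with `M ⊆ F(ζ₁) ∩ F(ζ₂)`). If `γ ≠ 0` in `𝓞 F` and `l` is a Frobenius list away
from `ℓ₁ ℓ₂` whose primes multiply to the principal ideal `(γ)`, then the product of the Frobenius
elements fixes `S` pointwise. -/
theorem frobProd_fixes (hpos : ∀ x : 𝓞 F, x ≠ 0 → 0 < Algebra.norm ℤ x)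
    {ℓ₁ ℓ₂ : ℕ} (hℓ₁ : ℓ₁.Prime) (hℓ₂ : ℓ₂.Prime) (hne : ℓ₁ ≠ ℓ₂)
    {ζ₁ ζ₂ : Ω} (hζ₁ : ζ₁ ^ ℓ₁ = 1) (hζ₂ : ζ₂ ^ ℓ₂ = 1) (S : Set Ω)
    (h₁ : ∀ σ : Ω ≃ₐ[F] Ω, σ ζ₁ = ζ₁ → ∀ x ∈ S, σ x = x)
    (h₂ : ∀ σ : Ω ≃ₐ[F] Ω, σ ζ₂ = ζ₂ → ∀ x ∈ S, σ x = x)
    {γ : 𝓞 F} (hγ : γ ≠ 0) {l : List (Ideal (𝓞 Ω) × (Ω ≃ₐ[F] Ω))}
    (hl : IsFrobList (ℓ₁ * ℓ₂) l) (hprod : underProd l = Ideal.span {γ}) :
    ∀ x ∈ S, frobProd l x = x := by
  have hm : 0 < ℓ₁ * ℓ₂ := Nat.mul_pos hℓ₁.pos hℓ₂.pos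
  have hspan0 : Ideal.span {γ} ≠ ⊥ := by
    rwa [Ne, Ideal.span_singleton_eq_bot]
  -- coprimality of γ with ℓ₁ ℓ₂
  have hcop : ∀ 𝔮 : Ideal (𝓞 F), 𝔮.IsPrime → γ ∈ 𝔮 → ((ℓ₁ * ℓ₂ : ℕ) : 𝓞 F) ∉ 𝔮 := by
    intro 𝔮 h𝔮 hγ𝔮
    refine not_mem_of_isFrobList hl (hprod ▸ hspan0) 𝔮 h𝔮 ?_
    rw [hprod, Ideal.span_singleton_le_iff_mem]
    exact hγ𝔮
  -- Bezout
  have hcopZ : IsCoprime (ℓ₁ : ℤ) (ℓ₂ : ℤ) := by
    rw [Int.isCoprime_iff_gcd_eq_one, Int.gcd_natCast_natCast]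
    exact (Nat.coprime_primes hℓ₁ hℓ₂).mpr hne
  obtain ⟨a, b, hab⟩ := hcopZ
  -- the auxiliary element
  set γ₂ : 𝓞 F := (b : 𝓞 F) * (ℓ₂ : 𝓞 F) + (a : 𝓞 F) * (ℓ₁ : 𝓞 F) * γ with hγ₂def
  have habF : (a : 𝓞 F) * (ℓ₁ : 𝓞 F) + (b : 𝓞 F) * (ℓ₂ : 𝓞 F) = 1 := by
    have := congrArg (fun t : ℤ => (t : 𝓞 F)) hab
    simpa using this
  have hγ₂1 : γ₂ - 1 ∈ Ideal.span {((ℓ₁ : ℤ) : 𝓞 F)} := by
    rw [Ideal.mem_span_singleton]
    refine ⟨(a : 𝓞 F) * (γ - 1), ?_⟩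
    have : (b : 𝓞 F) * (ℓ₂ : 𝓞 F) = 1 - (a : 𝓞 F) * (ℓ₁ : 𝓞 F) := by rw [← habF]; ring
    rw [hγ₂def, this]; push_cast; ring
  have hγ₂γ : γ₂ - γ ∈ Ideal.span {((ℓ₂ : ℤ) : 𝓞 F)} := by
    rw [Ideal.mem_span_singleton]
    refine ⟨(b : 𝓞 F) * (1 - γ), ?_⟩
    have : (a : 𝓞 F) * (ℓ₁ : 𝓞 F) = 1 - (b : 𝓞 F) * (ℓ₂ : 𝓞 F) := by rw [← habF]; ring
    rw [hγ₂def, this]; push_cast; ring
  have hN1 : (ℓ₁ : ℤ) ∣ Algebra.norm ℤ γ₂ - 1 := by
    have := dvd_norm_sub_norm hγ₂1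
    rwa [map_one] at this
  have hN2 : (ℓ₂ : ℤ) ∣ Algebra.norm ℤ γ₂ - Algebra.norm ℤ γ := dvd_norm_sub_norm hγ₂γ
  have hγ₂0 : γ₂ ≠ 0 := by
    intro h
    rw [h, Algebra.norm_zero, zero_sub] at hN1
    have : (ℓ₁ : ℤ) ∣ 1 := (dvd_neg.mp hN1)
    have := Int.natAbs_dvd_natAbs.mpr this
    simp at this
    exact hℓ₁.one_lt.ne' this
  have hspan₂0 : Ideal.span {γ₂} ≠ ⊥ := by
    rwa [Ne, Ideal.span_singleton_eq_bot]
  -- γ₂ is prime to ℓ₁ ℓ₂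
  have hcop₂ : ∀ 𝔮 : Ideal (𝓞 F), 𝔮.IsPrime → Ideal.span {γ₂} ≤ 𝔮 →
      ((ℓ₁ * ℓ₂ : ℕ) : 𝓞 F) ∉ 𝔮 := by
    intro 𝔮 h𝔮 hle hmem
    have hγ₂𝔮 : γ₂ ∈ 𝔮 := (Ideal.span_singleton_le_iff_mem _).mp hle
    rw [Nat.cast_mul] at hmem
    rcases h𝔮.mem_or_mem hmem with h | h
    · have h1 : γ₂ - 1 ∈ 𝔮 := by
        obtain ⟨c, hc⟩ := Ideal.mem_span_singleton.mp hγ₂1
        rw [hc]
        exact 𝔮.mul_mem_right _ (by simpa using h)
      have : (1 : 𝓞 F) ∈ 𝔮 := by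
        have := 𝔮.sub_mem hγ₂𝔮 h1
        simpa using this
      exact h𝔮.ne_top ((Ideal.eq_top_iff_one _).mpr this)
    · have h1 : γ₂ - γ ∈ 𝔮 := by
        obtain ⟨c, hc⟩ := Ideal.mem_span_singleton.mp hγ₂γ
        rw [hc]
        exact 𝔮.mul_mem_right _ (by simpa using h)
      have hγ𝔮 : γ ∈ 𝔮 := by
        have := 𝔮.sub_mem hγ₂𝔮 h1
        simpa using this
      refine hcop 𝔮 h𝔮 hγ𝔮 ?_
      rw [Nat.cast_mul]
      exact 𝔮.mul_mem_left _ h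
  obtain ⟨l₂, hl₂, hprod₂⟩ := exists_frobList (Ω := Ω) (m := ℓ₁ * ℓ₂) (Ideal.span {γ₂}) hspan₂0 hcop₂
  -- exponents
  have hexp : Ideal.absNorm (underProd l) = (Algebra.norm ℤ γ).natAbs := by
    rw [hprod, Ideal.absNorm_span_singleton]
  have hexp₂ : Ideal.absNorm (underProd l₂) = (Algebra.norm ℤ γ₂).natAbs := by
    rw [hprod₂, Ideal.absNorm_span_singleton]
  have hpos1 := hpos γ hγ
  have hpos2 := hpos γ₂ hγ₂0
  have hcast : ((Algebra.norm ℤ γ).natAbs : ℤ) = Algebra.norm ℤ γ := Int.natAbs_of_nonneg hpos1.le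
  have hcast₂ : ((Algebra.norm ℤ γ₂).natAbs : ℤ) = Algebra.norm ℤ γ₂ :=
    Int.natAbs_of_nonneg hpos2.le
  have hζ₁' : ζ₁ ^ (ℓ₁ * ℓ₂) = 1 := by rw [pow_mul, hζ₁, one_pow]
  have hζ₂' : ζ₂ ^ (ℓ₁ * ℓ₂) = 1 := by rw [mul_comm, pow_mul, hζ₂, one_pow]
  -- σ' := frobProd l₂ fixes ζ₁
  have hfix1 : frobProd l₂ ζ₁ = ζ₁ := by
    rw [frobProd_apply_of_pow_eq_one hm hl₂ hζ₁', hexp₂]
    conv_rhs => rw [← pow_one ζ₁]
    apply pow_eq_pow_of_dvd_sub hℓ₁.pos hζ₁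
    rw [hcast₂]; simpa using hN1
  -- σ and σ' agree on ζ₂
  have hfix2 : frobProd l ζ₂ = frobProd l₂ ζ₂ := by
    rw [frobProd_apply_of_pow_eq_one hm hl hζ₂', frobProd_apply_of_pow_eq_one hm hl₂ hζ₂', hexp,
      hexp₂]
    apply pow_eq_pow_of_dvd_sub hℓ₂.pos hζ₂
    rw [hcast, hcast₂]
    exact (dvd_sub_comm).mp hN2
  intro x hx
  have e1 : frobProd l₂ x = x := h₁ _ hfix1 x hx
  have e2 : ((frobProd l₂)⁻¹ * frobProd l) x = x := by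
    apply h₂ _ _ x hx
    rw [AlgEquiv.mul_apply, hfix2]
    exact (frobProd l₂).symm_apply_apply ζ₂
  have : frobProd l = frobProd l₂ * ((frobProd l₂)⁻¹ * frobProd l) := by group
  rw [this, AlgEquiv.mul_apply, e2, e1]

/-- An automorphism fixing `ζ` fixes `F⟮ζ⟯` pointwise. -/
theorem fixes_adjoin_of_fixes (σ : Ω ≃ₐ[F] Ω) {ζ : Ω} (hσ : σ ζ = ζ) :
    ∀ x ∈ IntermediateField.adjoin F {ζ}, σ x = x := by
  have hle : IntermediateField.adjoin F {ζ} ≤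
      IntermediateField.fixedField (Subgroup.zpowers σ) := by
    rw [IntermediateField.adjoin_le_iff]
    intro y hy
    rw [Set.mem_singleton_iff] at hy
    subst hy
    rw [SetLike.mem_coe, IntermediateField.mem_fixedField_iff]
    intro g hg
    obtain ⟨k, rfl⟩ := Subgroup.mem_zpowers_iff.mp hg
    have hfix : ∀ n : ℕ, (σ ^ n) y = y := by
      intro n
      induction n with
      | zero => simp
      | succ n ih => rw [pow_succ, AlgEquiv.mul_apply, hσ, ih]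
    rcases Int.eq_nat_or_neg k with ⟨n, rfl | rfl⟩
    · simpa using hfix n
    · rw [zpow_neg, zpow_natCast]
      have := hfix n
      calc (σ ^ n)⁻¹ y = (σ ^ n)⁻¹ ((σ ^ n) y) := by rw [this]
        _ = y := (σ ^ n).symm_apply_apply y
  intro x hx
  have := hle hx
  rw [IntermediateField.mem_fixedField_iff] at this
  exact this σ (Subgroup.mem_zpowers σ)

/-- **Two-prime cyclotomic reciprocity**, intermediate-field form: if `M ≤ F⟮ζ₁⟯` and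
`M ≤ F⟮ζ₂⟯` then the product of the Frobenius elements over the prime factors of a principal ideal
`(γ)` prime to `ℓ₁ ℓ₂` fixes `M` pointwise. -/
theorem frobProd_fixes_intermediateField (hpos : ∀ x : 𝓞 F, x ≠ 0 → 0 < Algebra.norm ℤ x)
    {ℓ₁ ℓ₂ : ℕ} (hℓ₁ : ℓ₁.Prime) (hℓ₂ : ℓ₂.Prime) (hne : ℓ₁ ≠ ℓ₂)
    {ζ₁ ζ₂ : Ω} (hζ₁ : ζ₁ ^ ℓ₁ = 1) (hζ₂ : ζ₂ ^ ℓ₂ = 1) (M : IntermediateField F Ω)
    (hM₁ : M ≤ IntermediateField.adjoin F {ζ₁}) (hM₂ : M ≤ IntermediateField.adjoin F {ζ₂})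
    {γ : 𝓞 F} (hγ : γ ≠ 0) {l : List (Ideal (𝓞 Ω) × (Ω ≃ₐ[F] Ω))}
    (hl : IsFrobList (ℓ₁ * ℓ₂) l) (hprod : underProd l = Ideal.span {γ}) :
    ∀ x ∈ M, frobProd l x = x :=
  frobProd_fixes hpos hℓ₁ hℓ₂ hne hζ₁ hζ₂ (M : Set Ω)
    (fun σ hσ x hx => fixes_adjoin_of_fixes σ hσ x (hM₁ hx))
    (fun σ hσ x hx => fixes_adjoin_of_fixes σ hσ x (hM₂ hx)) hγ hl hprod

/-- Totally complex version of `frobProd_fixes_intermediateField`. -/
theorem frobProd_fixes_of_isTotallyComplex [IsTotallyComplex F]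
    {ℓ₁ ℓ₂ : ℕ} (hℓ₁ : ℓ₁.Prime) (hℓ₂ : ℓ₂.Prime) (hne : ℓ₁ ≠ ℓ₂)
    {ζ₁ ζ₂ : Ω} (hζ₁ : ζ₁ ^ ℓ₁ = 1) (hζ₂ : ζ₂ ^ ℓ₂ = 1) (M : IntermediateField F Ω)
    (hM₁ : M ≤ IntermediateField.adjoin F {ζ₁}) (hM₂ : M ≤ IntermediateField.adjoin F {ζ₂})
    {γ : 𝓞 F} (hγ : γ ≠ 0) {l : List (Ideal (𝓞 Ω) × (Ω ≃ₐ[F] Ω))}
    (hl : IsFrobList (ℓ₁ * ℓ₂) l) (hprod : underProd l = Ideal.span {γ}) :
    ∀ x ∈ M, frobProd l x = x :=
  frobProd_fixes_intermediateField (fun _ hx => norm_int_pos_of_isTotallyComplex hx)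
    hℓ₁ hℓ₂ hne hζ₁ hζ₂ M hM₁ hM₂ hγ hl hprod

end Main


end Fermat.Agent.S14.TwoPrime
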