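import Mathlib
import Fermat.Agent.S14.Defs
import Fermat.Agent.S14.TwoPrime

/-!
# S14 block (D-B): two-prime cyclotomic reciprocity in Artin-map vocabulary

`E ⊆ M ⊆ Ω` number fields, `Ω/E` and `M/E` Galois, `E` totally complex, `M/E` unramified
everywhere with Artin map `φ` (`IsArtinMap E M φ`).  If every automorphism of `Ω/E` fixing `ζ₁`
fixes `M`, and likewise for `ζ₂` (i.e. `M ⊆ E(ζ₁) ∩ E(ζ₂)`), `ζᵢ ^ ℓᵢ = 1` for distinct primes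
`ℓ₁, ℓ₂`, then `φ (γ) = 1` for every nonzero `γ ∈ 𝓞 E` prime to `ℓ₁ ℓ₂`.
-/

set_option autoImplicit false
set_option linter.unusedSectionVars false

open NumberField

namespace Fermat.Agent.S14.TwoPrimeArtin

open Fermat.Agent.S14 Fermat.Agent.S14.TwoPrime

section Coprime

variable {R : Type*} [CommRing R]

/-- Coprimality to `(m)` in terms of primes. -/
theorem isCoprime_span_natCast_iff (I : Ideal R) (m : ℕ) :
    IsCoprime I (Ideal.span {(m : R)}) ↔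
      ∀ 𝔮 : Ideal R, 𝔮.IsPrime → I ≤ 𝔮 → (m : R) ∉ 𝔮 := by
  rw [Ideal.isCoprime_iff_sup_eq]
  constructor
  · intro h 𝔮 h𝔮 hle hm
    have : (⊤ : Ideal R) ≤ 𝔮 := by
      rw [← h]
      exact sup_le hle ((Ideal.span_singleton_le_iff_mem _).mpr hm)
    exact h𝔮.ne_top (top_le_iff.mp this)
  · intro h
    by_contra hne
    obtain ⟨𝔮, h𝔮max, h𝔮le⟩ := Ideal.exists_le_maximal _ hne
    exact h 𝔮 h𝔮max.isPrime (le_sup_left.trans h𝔮le)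
      ((Ideal.span_singleton_le_iff_mem _).mp (le_sup_right.trans h𝔮le))

end Coprime

section Main

variable {E M Ω : Type*} [Field E] [NumberField E] [Field M] [NumberField M] [Field Ω]
  [NumberField Ω] [Algebra E M] [Algebra M Ω] [Algebra E Ω] [IsScalarTower E M Ω]
  [IsGalois E Ω] [IsGalois E M]

variable {φ : Ideal (𝓞 E) → (M ≃ₐ[E] M)}

theorem card_quot_eq_absNorm (P : Ideal (𝓞 E)) : Nat.card (𝓞 E ⧸ P) = Ideal.absNorm P := by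
  rw [Ideal.absNorm_apply, Submodule.cardQuot_apply]

/-- Uniqueness of the Frobenius in an everywhere unramified extension. -/
theorem eq_map_of_forall_sub_pow_mem (hφ : IsArtinMap E M φ) (hunr : UnramifiedEverywhere E M)
    (Q : Ideal (𝓞 M)) [hQp : Q.IsPrime] (hQ0 : Q ≠ ⊥) (σ : M ≃ₐ[E] M)
    (hσ : ∀ x : 𝓞 M, σ • x - x ^ Nat.card (𝓞 E ⧸ Q.under (𝓞 E)) ∈ Q) :
    σ = φ (Q.under (𝓞 E)) := by
  have h1 : σ * (φ (Q.under (𝓞 E)))⁻¹ = 1 := by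
    apply hunr Q hQp hQ0
    intro x
    have h2 := hσ ((φ (Q.under (𝓞 E)))⁻¹ • x)
    have h3 := hφ.isArithFrobAt Q hQp hQ0 ((φ (Q.under (𝓞 E)))⁻¹ • x)
    have h4 := sub_mem h2 h3
    simpa [mul_smul] using h4
  exact mul_inv_eq_one.mp h1

theorem algebraMap_restrictNormal_smul (σ : Ω ≃ₐ[E] Ω) (x : 𝓞 M) :
    algebraMap (𝓞 M) (𝓞 Ω) (AlgEquiv.restrictNormalHom M σ • x) =
      σ • algebraMap (𝓞 M) (𝓞 Ω) x := by
  apply RingOfIntegers.ext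
  exact AlgEquiv.restrictNormal_commutes σ M (x : M)

/-- The restriction to `M` of a Frobenius element of `Ω/E` at `𝔓` is `φ (𝔓 ∩ 𝓞 E)`. -/
theorem restrictNormal_eq_map (hφ : IsArtinMap E M φ) (hunr : UnramifiedEverywhere E M)
    {σ : Ω ≃ₐ[E] Ω} {𝔓 : Ideal (𝓞 Ω)} [h𝔓p : 𝔓.IsPrime] (h𝔓 : 𝔓.under (𝓞 E) ≠ ⊥)
    (hσ : IsArithFrobAt (𝓞 E) σ 𝔓) :
    AlgEquiv.restrictNormalHom M σ = φ (𝔓.under (𝓞 E)) := by
  set Q : Ideal (𝓞 M) := 𝔓.under (𝓞 M) with hQ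
  have hQp : Q.IsPrime := Ideal.IsPrime.under (𝓞 M) 𝔓
  have hQu : Q.under (𝓞 E) = 𝔓.under (𝓞 E) := by rw [hQ, Ideal.under_under]
  have hQ0 : Q ≠ ⊥ := by
    rintro h
    apply h𝔓
    rw [← hQu, h, Ideal.under_def]
    exact Ideal.comap_bot_of_injective _ (RingOfIntegers.algebraMap.injective E M)
  rw [← hQu]
  apply eq_map_of_forall_sub_pow_mem hφ hunr Q hQ0
  intro x
  rw [hQ, Ideal.under_def, Ideal.mem_comap, map_sub, map_pow, algebraMap_restrictNormal_smul,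
    ← Ideal.under_def, ← hQ, hQu]
  exact hσ (algebraMap (𝓞 M) (𝓞 Ω) x)

theorem map_one' (hφ : IsArtinMap E M φ) : φ 1 = 1 := by
  have h1 : (1 : Ideal (𝓞 E)) ≠ ⊥ := by
    rw [Ideal.one_eq_top]; exact top_ne_bot
  have := hφ.map_mul 1 1 h1 h1
  rw [mul_one] at this
  exact mul_eq_left.mp this.symm

/-- The restriction to `M` of the product of the Frobenius elements of a Frobenius list is the
Artin symbol of the product of the primes below. -/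
theorem restrictNormal_frobProd_eq_map (hφ : IsArtinMap E M φ) (hunr : UnramifiedEverywhere E M)
    {m : ℕ} {l : List (Ideal (𝓞 Ω) × (Ω ≃ₐ[E] Ω))} (hl : IsFrobList m l)
    (h0 : underProd l ≠ ⊥) :
    AlgEquiv.restrictNormalHom M (frobProd l) = φ (underProd l) := by
  induction l with
  | nil =>
    rw [frobProd_nil, underProd_nil, _root_.map_one, map_one' hφ]
  | cons p l ih =>
    rw [underProd_cons] at h0
    have hp0 : p.1.under (𝓞 E) ≠ ⊥ := fun h => h0 (by rw [h, Ideal.bot_mul])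
    have hl0 : underProd l ≠ ⊥ := fun h => h0 (by rw [h, Ideal.mul_bot])
    obtain ⟨hpp, -, hfrob⟩ := hl p List.mem_cons_self
    rw [frobProd_cons, underProd_cons, _root_.map_mul, hφ.map_mul _ _ hp0 hl0,
      ih (fun q hq => hl q (List.mem_cons_of_mem _ hq)) hl0,
      restrictNormal_eq_map hφ hunr hp0 hfrob]

/-- **(D-B), type-level form.** -/
theorem map_span_singleton_eq_one [IsTotallyComplex E]
    {ℓ₁ ℓ₂ : ℕ} (hℓ₁ : ℓ₁.Prime) (hℓ₂ : ℓ₂.Prime) (hne : ℓ₁ ≠ ℓ₂)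
    {ζ₁ ζ₂ : Ω} (hζ₁ : ζ₁ ^ ℓ₁ = 1) (hζ₂ : ζ₂ ^ ℓ₂ = 1)
    (hM₁ : ∀ σ : Ω ≃ₐ[E] Ω, σ ζ₁ = ζ₁ → ∀ x : M, σ (algebraMap M Ω x) = algebraMap M Ω x)
    (hM₂ : ∀ σ : Ω ≃ₐ[E] Ω, σ ζ₂ = ζ₂ → ∀ x : M, σ (algebraMap M Ω x) = algebraMap M Ω x)
    (hφ : IsArtinMap E M φ) (hunr : UnramifiedEverywhere E M)
    {γ : 𝓞 E} (hγ : γ ≠ 0)
    (hcop : IsCoprime (Ideal.span {γ}) (Ideal.span {((ℓ₁ * ℓ₂ : ℕ) : 𝓞 E)})) :
    φ (Ideal.span {γ}) = 1 := by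
  have hspan0 : Ideal.span {γ} ≠ ⊥ := by
    rwa [Ne, Ideal.span_singleton_eq_bot]
  obtain ⟨l, hl, hprod⟩ := exists_frobList (Ω := Ω) (m := ℓ₁ * ℓ₂) (Ideal.span {γ}) hspan0
    ((isCoprime_span_natCast_iff _ _).mp hcop)
  have hfix := frobProd_fixes (F := E) (Ω := Ω)
    (fun _ hx => norm_int_pos_of_isTotallyComplex hx) hℓ₁ hℓ₂ hne hζ₁ hζ₂
    (Set.range (algebraMap M Ω))
    (fun σ hσ x hx => by obtain ⟨y, rfl⟩ := hx; exact hM₁ σ hσ y)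
    (fun σ hσ x hx => by obtain ⟨y, rfl⟩ := hx; exact hM₂ σ hσ y) hγ hl hprod
  have h1 := restrictNormal_frobProd_eq_map (M := M) hφ hunr hl (hprod ▸ hspan0)
  rw [hprod] at h1
  rw [← h1]
  ext x
  apply (algebraMap M Ω).injective
  have := AlgEquiv.restrictNormal_commutes (frobProd l) M x
  rw [AlgEquiv.one_apply]
  exact this.trans (hfix _ ⟨x, rfl⟩)

end Main

section Intermediate

variable {E Ω : Type*} [Field E] [NumberField E] [Field Ω] [NumberField Ω] [Algebra E Ω]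
  [IsGalois E Ω]

/-- **(D-B), intermediate-field form**: `M ≤ E⟮ζ₁⟯ ⊓ E⟮ζ₂⟯`. -/
theorem map_span_singleton_eq_one_of_le [IsTotallyComplex E]
    {ℓ₁ ℓ₂ : ℕ} (hℓ₁ : ℓ₁.Prime) (hℓ₂ : ℓ₂.Prime) (hne : ℓ₁ ≠ ℓ₂)
    {ζ₁ ζ₂ : Ω} (hζ₁ : ζ₁ ^ ℓ₁ = 1) (hζ₂ : ζ₂ ^ ℓ₂ = 1) (M : IntermediateField E Ω)
    [IsGalois E M]
    (hM₁ : M ≤ IntermediateField.adjoin E {ζ₁}) (hM₂ : M ≤ IntermediateField.adjoin E {ζ₂})
    {φ : Ideal (𝓞 E) → (M ≃ₐ[E] M)}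
    (hφ : IsArtinMap E M φ) (hunr : UnramifiedEverywhere E M)
    {γ : 𝓞 E} (hγ : γ ≠ 0)
    (hcop : IsCoprime (Ideal.span {γ}) (Ideal.span {((ℓ₁ * ℓ₂ : ℕ) : 𝓞 E)})) :
    φ (Ideal.span {γ}) = 1 :=
  map_span_singleton_eq_one (M := M) (Ω := Ω) hℓ₁ hℓ₂ hne hζ₁ hζ₂
    (fun σ hσ x => fixes_adjoin_of_fixes σ hσ _ (hM₁ x.2))
    (fun σ hσ x => fixes_adjoin_of_fixes σ hσ _ (hM₂ x.2)) hφ hunr hγ hcop

end Intermediate

end Fermat.Agent.S14.TwoPrimeArtin
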