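import Mathlib
import Fermat.Agent.S14.Defs
import Fermat.Agent.S14.CrossField
import Fermat.Agent.S14.TwoPrimeArtin

/-!
# S14 block D: hypothesis (hB) for an auxiliary field `E`, `M = comp L E = E·L`

`K ⊆ L ⊆ Ω`, `Ω/K` Galois, `E` an intermediate field of `Ω/K` (totally complex), `ℓ₁ ≠ ℓ₂` primes,
`ζᵢ ∈ Ω` with `ζᵢ ^ ℓᵢ = 1`.  If every `g ∈ Gal(Ω/K)` fixing `E` and `ζᵢ` restricts to the identity
on `L` (`i = 1, 2`), then the Artin map of the unramified extension `comp L E / E` kills the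
principal ideals prime to `ℓ₁ ℓ₂` (two-prime cyclotomic reciprocity, `TwoPrimeArtin`).
-/

set_option autoImplicit false
set_option linter.unusedSectionVars false

open NumberField

namespace Fermat.Agent.S14.CrossHB

open Fermat.Agent.S14 Fermat.Agent.S14.Cross

variable {K L Ω : Type*} [Field K] [Field L] [Field Ω] [NumberField K] [NumberField L]
  [NumberField Ω] [Algebra K L] [Algebra K Ω] [Algebra L Ω] [IsScalarTower K L Ω] [IsGalois K L]

/-- An `E`-automorphism of `Ω` whose restriction of scalars to `K` acts trivially on `L`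
fixes `comp L E` pointwise. -/
theorem fixes_comp (E : IntermediateField K Ω) (σ : Ω ≃ₐ[E] Ω)
    (hσ : ∀ y : L, σ (algebraMap L Ω y) = algebraMap L Ω y) (x : comp L E) :
    σ (algebraMap (comp L E) Ω x) = algebraMap (comp L E) Ω x := by
  have h : ((σ : Ω →ₐ[E] Ω).comp (comp L E).val) = (comp L E).val := by
    apply IntermediateField.adjoin_algHom_ext
    rintro _ ⟨y, rfl⟩
    exact hσ y
  exact DFunLike.congr_fun h x

/-- If `g ∈ Gal(Ω/K)` restricts to `1` on `L` then it fixes the image of `L`. -/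
theorem apply_algebraMap_of_restrictNormalHom_eq_one {g : Ω ≃ₐ[K] Ω}
    (hg : AlgEquiv.restrictNormalHom L g = 1) (y : L) :
    g (algebraMap L Ω y) = algebraMap L Ω y := by
  have := AlgEquiv.restrictNormal_commutes g L y
  rw [← this]
  have h1 : g.restrictNormal L = AlgEquiv.restrictNormalHom L g := rfl
  rw [h1, hg, AlgEquiv.one_apply]

/-- **(hB) for an auxiliary field**, general form. -/
theorem map_span_singleton_eq_one [IsGalois K Ω] (E : IntermediateField K Ω)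
    [IsTotallyComplex E]
    {ℓ₁ ℓ₂ : ℕ} (hℓ₁ : ℓ₁.Prime) (hℓ₂ : ℓ₂.Prime) (hne : ℓ₁ ≠ ℓ₂)
    {ζ₁ ζ₂ : Ω} (hζ₁ : ζ₁ ^ ℓ₁ = 1) (hζ₂ : ζ₂ ^ ℓ₂ = 1)
    (hE₁ : ∀ g : Ω ≃ₐ[K] Ω, (∀ x ∈ E, g x = x) → g ζ₁ = ζ₁ → AlgEquiv.restrictNormalHom L g = 1)
    (hE₂ : ∀ g : Ω ≃ₐ[K] Ω, (∀ x ∈ E, g x = x) → g ζ₂ = ζ₂ → AlgEquiv.restrictNormalHom L g = 1)
    {ψ : Ideal (𝓞 E) → ((comp L E) ≃ₐ[E] (comp L E))}
    (hψ : IsArtinMap E (comp L E) ψ) (hunr : UnramifiedEverywhere E (comp L E))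
    {γ : 𝓞 E} (hγ : γ ≠ 0)
    (hcop : IsCoprime (Ideal.span {γ}) (Ideal.span {((ℓ₁ * ℓ₂ : ℕ) : 𝓞 E)})) :
    ψ (Ideal.span {γ}) = 1 := by
  have key : ∀ (ζ : Ω), (∀ g : Ω ≃ₐ[K] Ω, (∀ x ∈ E, g x = x) → g ζ = ζ →
      AlgEquiv.restrictNormalHom L g = 1) → ∀ σ : Ω ≃ₐ[E] Ω, σ ζ = ζ → ∀ x : comp L E,
      σ (algebraMap (comp L E) Ω x) = algebraMap (comp L E) Ω x := by
    intro ζ hE σ hσ x
    apply fixes_comp E σ
    intro y
    have hfix : ∀ x ∈ E, (σ.restrictScalars K) x = x := by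
      intro x hx
      exact σ.commutes ⟨x, hx⟩
    have h1 := hE (σ.restrictScalars K) hfix hσ
    exact apply_algebraMap_of_restrictNormalHom_eq_one h1 y
  exact TwoPrimeArtin.map_span_singleton_eq_one (E := E) (M := comp L E) (Ω := Ω)
    hℓ₁ hℓ₂ hne hζ₁ hζ₂ (key ζ₁ hE₁) (key ζ₂ hE₂) hψ hunr hγ hcop

/-- **(hB) for `E = fixedField H`**: it suffices that every `g ∈ H` fixing `ζᵢ` restricts to `1`
on `L`. -/
theorem map_span_singleton_eq_one_of_fixedField [IsGalois K Ω] (H : Subgroup (Ω ≃ₐ[K] Ω))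
    [IsTotallyComplex (IntermediateField.fixedField H)]
    {ℓ₁ ℓ₂ : ℕ} (hℓ₁ : ℓ₁.Prime) (hℓ₂ : ℓ₂.Prime) (hne : ℓ₁ ≠ ℓ₂)
    {ζ₁ ζ₂ : Ω} (hζ₁ : ζ₁ ^ ℓ₁ = 1) (hζ₂ : ζ₂ ^ ℓ₂ = 1)
    (hH₁ : ∀ g ∈ H, g ζ₁ = ζ₁ → AlgEquiv.restrictNormalHom L g = 1)
    (hH₂ : ∀ g ∈ H, g ζ₂ = ζ₂ → AlgEquiv.restrictNormalHom L g = 1)
    {ψ : Ideal (𝓞 (IntermediateField.fixedField H)) →
      ((comp L (IntermediateField.fixedField H)) ≃ₐ[IntermediateField.fixedField H]
        (comp L (IntermediateField.fixedField H)))}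
    (hψ : IsArtinMap (IntermediateField.fixedField H) (comp L (IntermediateField.fixedField H)) ψ)
    (hunr : UnramifiedEverywhere (IntermediateField.fixedField H)
      (comp L (IntermediateField.fixedField H)))
    {γ : 𝓞 (IntermediateField.fixedField H)} (hγ : γ ≠ 0)
    (hcop : IsCoprime (Ideal.span {γ})
      (Ideal.span {((ℓ₁ * ℓ₂ : ℕ) : 𝓞 (IntermediateField.fixedField H))})) :
    ψ (Ideal.span {γ}) = 1 := by
  have hmem : ∀ g : Ω ≃ₐ[K] Ω, (∀ x ∈ IntermediateField.fixedField H, g x = x) → g ∈ H := by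
    intro g hg
    have : g ∈ (IntermediateField.fixedField H).fixingSubgroup :=
      (IntermediateField.mem_fixingSubgroup_iff _ g).mpr hg
    rwa [IntermediateField.fixingSubgroup_fixedField] at this
  exact map_span_singleton_eq_one (IntermediateField.fixedField H) hℓ₁ hℓ₂ hne hζ₁ hζ₂
    (fun g hg => hH₁ g (hmem g hg)) (fun g hg => hH₂ g (hmem g hg)) hψ hunr hγ hcop

end Fermat.Agent.S14.CrossHB
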