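import Mathlib
import Fermat.Agent.S14.Defs

/-!
# S14 block (D-CR1): reciprocity kernel for an auxiliary extension, abstract form

`M/F` Galois of prime degree `p`, `φ` an Artin map, `𝔪` a nonzero ideal of `𝓞 F`.  Assume

* (hB) `φ (span {γ}) = 1` for every nonzero `γ` prime to `𝔪` (two-prime cyclotomic reciprocity),
* (hN) `φ (relNorm A) = 1` for every nonzero ideal `A` of `𝓞 M`,
* (hI2) `[Cl(F) : normClassSubgroup F M] ≤ p` (second inequality),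
* (hne) some ideal prime to `𝔪` has nontrivial Artin symbol.

Then for nonzero ideals `b, b'` prime to `𝔪`: `φ b = φ b' → [b] ≡ [b']` modulo norm classes.
The proof moves ideals inside their class away from `𝔪` (`IsDedekindDomain.exists_sup_span_eq`).
-/

set_option autoImplicit false
set_option linter.unusedSectionVars false

open NumberField
open scoped nonZeroDivisors

namespace Fermat.Agent.S14.AuxRec

section Moving

variable {R : Type*} [CommRing R] [IsDedekindDomain R]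

/-- **Moving lemma.** For nonzero ideals `A`, `𝔪` of a Dedekind domain there is an ideal `c`
coprime to `𝔪` with `A * c` principal (and nonzero). -/
theorem exists_mul_eq_span_singleton {A 𝔪 : Ideal R} (hA : A ≠ ⊥) (h𝔪 : 𝔪 ≠ ⊥) :
    ∃ (c : Ideal R) (a : R), c ≠ ⊥ ∧ a ≠ 0 ∧ A * c = Ideal.span {a} ∧ IsCoprime c 𝔪 := by
  have hA𝔪 : A * 𝔪 ≠ 0 := mul_ne_zero hA h𝔪
  obtain ⟨a, ha⟩ := IsDedekindDomain.exists_sup_span_eq (I := A * 𝔪) (J := A) Ideal.mul_le_left hA𝔪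
  have hale : Ideal.span {a} ≤ A := by rw [← ha]; exact le_sup_right
  obtain ⟨c, hc⟩ := Ideal.dvd_iff_le.mpr hale
  have hcop : IsCoprime c 𝔪 := by
    rw [Ideal.isCoprime_iff_sup_eq]
    have h1 : A * (𝔪 ⊔ c) = A * ⊤ := by
      rw [Ideal.mul_sup, ← hc, ha, Ideal.mul_top]
    have h2 := mul_left_cancel₀ hA h1
    rwa [sup_comm] at h2
  by_cases ha0 : a = 0
  · -- then `c = ⊥`, so `𝔪 = ⊤`; take any nonzero element of `A`
    have hc0 : c = ⊥ := by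
      have : A * c = ⊥ := by rw [← hc, ha0]; simp
      rcases mul_eq_zero.mp this with h | h
      · exact absurd h hA
      · exact h
    have h𝔪top : 𝔪 = ⊤ := by
      have := Ideal.isCoprime_iff_sup_eq.mp hcop
      rwa [hc0, bot_sup_eq] at this
    obtain ⟨a', ha'A, ha'0⟩ := Submodule.exists_mem_ne_zero_of_ne_bot hA
    have hale' : Ideal.span {a'} ≤ A := (Ideal.span_singleton_le_iff_mem _).mpr ha'A
    obtain ⟨c', hc'⟩ := Ideal.dvd_iff_le.mpr hale'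
    refine ⟨c', a', ?_, ha'0, hc'.symm, ?_⟩
    · rintro rfl
      rw [Ideal.mul_bot] at hc'
      exact ha'0 (Ideal.span_singleton_eq_bot.mp hc')
    · rw [h𝔪top, Ideal.isCoprime_iff_sup_eq]; simp
  · refine ⟨c, a, ?_, ha0, hc.symm, hcop⟩
    rintro rfl
    rw [Ideal.mul_bot] at hc
    exact ha0 (Ideal.span_singleton_eq_bot.mp hc)

/-- Every nonzero ideal can be moved, inside its class, to an ideal coprime to `𝔪`:
`span {y} * A = span {x} * A'` with `A'` coprime to `𝔪`. -/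
theorem exists_coprime_representative {A 𝔪 : Ideal R} (hA : A ≠ ⊥) (h𝔪 : 𝔪 ≠ ⊥) :
    ∃ (A' : Ideal R) (x y : R), A' ≠ ⊥ ∧ x ≠ 0 ∧ y ≠ 0 ∧
      Ideal.span {y} * A = Ideal.span {x} * A' ∧ IsCoprime A' 𝔪 := by
  obtain ⟨c, x, hc0, hx0, hcx, _⟩ := exists_mul_eq_span_singleton hA h𝔪
  obtain ⟨A', y, hA'0, hy0, hcy, hA'cop⟩ := exists_mul_eq_span_singleton hc0 h𝔪
  refine ⟨A', x, y, hA'0, hx0, hy0, ?_, hA'cop⟩
  rw [← hcy, ← hcx]
  ring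

end Moving

section RelNormCoprime

variable {F M : Type*} [Field F] [Field M] [NumberField F] [NumberField M] [Algebra F M]

/-- If a prime `𝔮` of `𝓞 F` contains `relNorm A`, some prime of `𝓞 M` above `𝔮` contains `A`. -/
theorem exists_prime_over_of_relNorm_le (A : Ideal (𝓞 M)) (𝔮 : Ideal (𝓞 F)) [h𝔮 : 𝔮.IsPrime]
    (hle : Ideal.relNorm (𝓞 F) A ≤ 𝔮) :
    ∃ 𝔔 : Ideal (𝓞 M), 𝔔.IsPrime ∧ A ≤ 𝔔 ∧ 𝔔.under (𝓞 F) = 𝔮 := by
  revert hle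
  refine UniqueFactorizationMonoid.induction_on_prime
    (P := fun A : Ideal (𝓞 M) => Ideal.relNorm (𝓞 F) A ≤ 𝔮 →
      ∃ 𝔔 : Ideal (𝓞 M), 𝔔.IsPrime ∧ A ≤ 𝔔 ∧ 𝔔.under (𝓞 F) = 𝔮) A ?_ ?_ ?_
  · intro _
    obtain ⟨⟨𝔔, h𝔔p, h𝔔o⟩⟩ := 𝔮.nonempty_primesOver (S := 𝓞 M)
    exact ⟨𝔔, h𝔔p, bot_le, h𝔔o.over.symm⟩
  · intro x hx hle
    rw [Ideal.isUnit_iff] at hx
    rw [hx, Ideal.relNorm_top] at hle
    exact absurd (top_le_iff.mp hle) h𝔮.ne_top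
  · intro a P ha hP ih hle
    have hPprime : P.IsPrime := Ideal.isPrime_of_prime hP
    have hP0 : P ≠ ⊥ := hP.ne_zero
    rw [map_mul] at hle
    rcases (Ideal.IsPrime.mul_le h𝔮).mp hle with h | h
    · -- `relNorm P ≤ 𝔮`
      have hPmax : P.IsMaximal := Ring.DimensionLEOne.maximalOfPrime hP0 hPprime
      have hu0 : P.under (𝓞 F) ≠ ⊥ := Ideal.under_ne_bot (𝓞 F) hP0
      have hup : (P.under (𝓞 F)).IsPrime := Ideal.IsPrime.under (𝓞 F) P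
      have humax : (P.under (𝓞 F)).IsMaximal := Ring.DimensionLEOne.maximalOfPrime hu0 hup
      have hlo : P.LiesOver (P.under (𝓞 F)) := ⟨rfl⟩
      rw [Ideal.relNorm_eq_pow_of_isMaximal P (P.under (𝓞 F))] at h
      have h2 : P.under (𝓞 F) ≤ 𝔮 := Ideal.IsPrime.le_of_pow_le h
      have h3 : P.under (𝓞 F) = 𝔮 := humax.eq_of_le h𝔮.ne_top h2
      exact ⟨P, hPprime, Ideal.mul_le_left, h3⟩
    · obtain ⟨𝔔, h𝔔p, h𝔔le, h𝔔u⟩ := ih h
      exact ⟨𝔔, h𝔔p, Ideal.mul_le_right.trans h𝔔le, h𝔔u⟩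

/-- The relative norm of an ideal coprime to `𝔪 𝓞 M` is coprime to `𝔪`. -/
theorem isCoprime_relNorm {A : Ideal (𝓞 M)} {𝔪 : Ideal (𝓞 F)}
    (h : IsCoprime A (𝔪.map (algebraMap (𝓞 F) (𝓞 M)))) :
    IsCoprime (Ideal.relNorm (𝓞 F) A) 𝔪 := by
  rw [Ideal.isCoprime_iff_sup_eq] at h ⊢
  by_contra hne
  obtain ⟨𝔮, h𝔮max, h𝔮le⟩ := Ideal.exists_le_maximal _ hne
  have h𝔮p : 𝔮.IsPrime := h𝔮max.isPrime
  obtain ⟨𝔔, h𝔔p, hA𝔔, h𝔔u⟩ :=
    exists_prime_over_of_relNorm_le A 𝔮 (le_sup_left.trans h𝔮le)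
  have h1 : 𝔪.map (algebraMap (𝓞 F) (𝓞 M)) ≤ 𝔔 := by
    rw [Ideal.map_le_iff_le_comap]
    have : 𝔪 ≤ 𝔮 := le_sup_right.trans h𝔮le
    rw [← h𝔔u] at this
    exact this
  have h2 : (⊤ : Ideal (𝓞 M)) ≤ 𝔔 := by
    rw [← h]; exact sup_le hA𝔔 h1
  exact h𝔔p.ne_top (top_le_iff.mp h2)

end RelNormCoprime

section Main

variable {p : ℕ} [hp : Fact p.Prime]
  {F M : Type*} [Field F] [Field M] [NumberField F] [NumberField M] [Algebra F M] [IsGalois F M]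

theorem coe_ne_bot (a : (Ideal (𝓞 F))⁰) : (a : Ideal (𝓞 F)) ≠ ⊥ :=
  mem_nonZeroDivisors_iff_ne_zero.mp a.2

theorem map_one {φ : Ideal (𝓞 F) → (M ≃ₐ[F] M)} (hφ : IsArtinMap F M φ) : φ 1 = 1 := by
  have h1 : (1 : Ideal (𝓞 F)) ≠ ⊥ := by
    rw [Ideal.one_eq_top]; exact top_ne_bot
  have := hφ.map_mul 1 1 h1 h1
  rw [mul_one] at this
  exact mul_eq_left.mp this.symm

theorem map_pow {φ : Ideal (𝓞 F) → (M ≃ₐ[F] M)} (hφ : IsArtinMap F M φ)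
    {a : Ideal (𝓞 F)} (ha : a ≠ ⊥) (k : ℕ) : φ (a ^ k) = φ a ^ k := by
  induction k with
  | zero => simpa using map_one hφ
  | succ k ih => rw [pow_succ, hφ.map_mul _ _ (pow_ne_zero k ha) ha, ih, pow_succ]

/-- (X1) Two ideals prime to `𝔪` in the same ideal class have the same Artin symbol. -/
theorem map_eq_of_mk0_eq {φ : Ideal (𝓞 F) → (M ≃ₐ[F] M)} (hφ : IsArtinMap F M φ)
    {𝔪 : Ideal (𝓞 F)} (h𝔪 : 𝔪 ≠ ⊥)
    (hB : ∀ γ : 𝓞 F, γ ≠ 0 → IsCoprime (Ideal.span {γ}) 𝔪 → φ (Ideal.span {γ}) = 1)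
    (b b' : (Ideal (𝓞 F))⁰) (hb : IsCoprime (b : Ideal (𝓞 F)) 𝔪)
    (hb' : IsCoprime (b' : Ideal (𝓞 F)) 𝔪) (h : ClassGroup.mk0 b = ClassGroup.mk0 b') :
    φ b = φ b' := by
  obtain ⟨c, a, hc0, ha0, hca, hccop⟩ := exists_mul_eq_span_singleton (coe_ne_bot b) h𝔪
  have hcmem : c ∈ (Ideal (𝓞 F))⁰ := mem_nonZeroDivisors_iff_ne_zero.mpr hc0
  -- `b' * c` is principal as well
  have h1 : ClassGroup.mk0 (b' * ⟨c, hcmem⟩) = 1 := by
    rw [_root_.map_mul, ← h, ← _root_.map_mul]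
    have hmem : (b : Ideal (𝓞 F)) * c ∈ (Ideal (𝓞 F))⁰ :=
      mem_nonZeroDivisors_iff_ne_zero.mpr (mul_ne_zero (coe_ne_bot b) hc0)
    have : b * ⟨c, hcmem⟩ = (⟨(b : Ideal (𝓞 F)) * c, hmem⟩ : (Ideal (𝓞 F))⁰) := rfl
    rw [this, ClassGroup.mk0_eq_one_iff hmem, hca]
    exact ⟨⟨a, rfl⟩⟩
  have hmem' : (b' : Ideal (𝓞 F)) * c ∈ (Ideal (𝓞 F))⁰ :=
    mem_nonZeroDivisors_iff_ne_zero.mpr (mul_ne_zero (coe_ne_bot b') hc0)
  have h2 : b' * ⟨c, hcmem⟩ = (⟨(b' : Ideal (𝓞 F)) * c, hmem'⟩ : (Ideal (𝓞 F))⁰) := rfl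
  rw [h2, ClassGroup.mk0_eq_one_iff hmem'] at h1
  obtain ⟨a', ha'⟩ := h1.principal
  have ha'span : (b' : Ideal (𝓞 F)) * c = Ideal.span {a'} := ha'
  have ha'0 : a' ≠ 0 := by
    rintro rfl
    have : (b' : Ideal (𝓞 F)) * c = ⊥ := by rw [ha'span]; simp
    exact (mul_ne_zero (coe_ne_bot b') hc0) this
  have e1 : φ b * φ c = 1 := by
    rw [← hφ.map_mul _ _ (coe_ne_bot b) hc0, hca]
    exact hB a ha0 (hca ▸ hb.mul_left hccop)
  have e2 : φ b' * φ c = 1 := by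
    rw [← hφ.map_mul _ _ (coe_ne_bot b') hc0, ha'span]
    exact hB a' ha'0 (ha'span ▸ hb'.mul_left hccop)
  exact mul_right_cancel (e1.trans e2.symm)

/-- Every element of `normClassSubgroup F M` is the class of the norm of a single ideal. -/
theorem exists_eq_mk0_relNorm0 {c : ClassGroup (𝓞 F)} (hc : c ∈ normClassSubgroup F M) :
    ∃ A : (Ideal (𝓞 M))⁰, c = ClassGroup.mk0 (relNorm0 F M A) := by
  classical
  unfold normClassSubgroup at hc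
  induction hc using Subgroup.closure_induction with
  | mem x hx =>
    obtain ⟨A, rfl⟩ := hx
    exact ⟨A, rfl⟩
  | one => exact ⟨1, by simp⟩
  | mul x y _ _ hx hy =>
    obtain ⟨A, rfl⟩ := hx
    obtain ⟨B, rfl⟩ := hy
    exact ⟨A * B, by simp⟩
  | inv x _ hx =>
    obtain ⟨A, rfl⟩ := hx
    refine ⟨A ^ (Fintype.card (ClassGroup (𝓞 F)) - 1), ?_⟩
    have hpos : 0 < Fintype.card (ClassGroup (𝓞 F)) := Fintype.card_pos
    rw [_root_.map_pow, _root_.map_pow]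
    apply inv_eq_of_mul_eq_one_right
    rw [← pow_succ', Nat.sub_add_cancel hpos]
    exact pow_card_eq_one

/-- (X2) An ideal prime to `𝔪` whose class is a norm class has trivial Artin symbol. -/
theorem map_eq_one_of_mk0_mem {φ : Ideal (𝓞 F) → (M ≃ₐ[F] M)} (hφ : IsArtinMap F M φ)
    {𝔪 : Ideal (𝓞 F)} (h𝔪 : 𝔪 ≠ ⊥)
    (hB : ∀ γ : 𝓞 F, γ ≠ 0 → IsCoprime (Ideal.span {γ}) 𝔪 → φ (Ideal.span {γ}) = 1)
    (hN : ∀ A : Ideal (𝓞 M), A ≠ ⊥ → φ (Ideal.relNorm (𝓞 F) A) = 1)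
    (b : (Ideal (𝓞 F))⁰) (hb : IsCoprime (b : Ideal (𝓞 F)) 𝔪)
    (h : ClassGroup.mk0 b ∈ normClassSubgroup F M) : φ b = 1 := by
  obtain ⟨A, hA⟩ := exists_eq_mk0_relNorm0 h
  have hA0 : (A : Ideal (𝓞 M)) ≠ ⊥ := mem_nonZeroDivisors_iff_ne_zero.mp A.2
  have h𝔪' : 𝔪.map (algebraMap (𝓞 F) (𝓞 M)) ≠ ⊥ := by
    rw [Ne, Ideal.map_eq_bot_iff_of_injective (FaithfulSMul.algebraMap_injective (𝓞 F) (𝓞 M))]
    exact h𝔪
  obtain ⟨A', x, y, hA'0, hx0, hy0, hxy, hA'cop⟩ := exists_coprime_representative hA0 h𝔪'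
  have hA'mem : A' ∈ (Ideal (𝓞 M))⁰ := mem_nonZeroDivisors_iff_ne_zero.mpr hA'0
  -- the norms of `A` and `A'` are in the same class
  have hcls : ClassGroup.mk0 (relNorm0 F M A) = ClassGroup.mk0 (relNorm0 F M ⟨A', hA'mem⟩) := by
    rw [ClassGroup.mk0_eq_mk0_iff]
    refine ⟨Algebra.intNorm (𝓞 F) (𝓞 M) y, Algebra.intNorm (𝓞 F) (𝓞 M) x, ?_, ?_, ?_⟩
    · rwa [Ne, Algebra.intNorm_eq_zero]
    · rwa [Ne, Algebra.intNorm_eq_zero]
    · have := congrArg (Ideal.relNorm (𝓞 F)) hxy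
      rw [_root_.map_mul, _root_.map_mul, Ideal.relNorm_singleton, Ideal.relNorm_singleton] at this
      exact this
  have hcop : IsCoprime ((relNorm0 F M ⟨A', hA'mem⟩ : (Ideal (𝓞 F))⁰) : Ideal (𝓞 F)) 𝔪 :=
    isCoprime_relNorm hA'cop
  rw [map_eq_of_mk0_eq hφ h𝔪 hB b (relNorm0 F M ⟨A', hA'mem⟩) hb hcop (hA.trans hcls)]
  exact hN A' hA'0

/-- (X3) Two ideals prime to `𝔪` whose classes agree modulo norm classes have the same symbol. -/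
theorem map_eq_of_mk0_div_mem {φ : Ideal (𝓞 F) → (M ≃ₐ[F] M)} (hφ : IsArtinMap F M φ)
    {𝔪 : Ideal (𝓞 F)} (h𝔪 : 𝔪 ≠ ⊥)
    (hB : ∀ γ : 𝓞 F, γ ≠ 0 → IsCoprime (Ideal.span {γ}) 𝔪 → φ (Ideal.span {γ}) = 1)
    (hN : ∀ A : Ideal (𝓞 M), A ≠ ⊥ → φ (Ideal.relNorm (𝓞 F) A) = 1)
    (b b' : (Ideal (𝓞 F))⁰) (hb : IsCoprime (b : Ideal (𝓞 F)) 𝔪)
    (hb' : IsCoprime (b' : Ideal (𝓞 F)) 𝔪)
    (h : ClassGroup.mk0 b * (ClassGroup.mk0 b')⁻¹ ∈ normClassSubgroup F M) : φ b = φ b' := by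
  classical
  set n := Fintype.card (ClassGroup (𝓞 F)) with hn
  have hpos : 0 < n := Fintype.card_pos
  have hb'0 := coe_ne_bot b'
  -- `(φ b')^n = 1`
  have h1 : φ (b' : Ideal (𝓞 F)) ^ n = 1 := by
    have hcl : ClassGroup.mk0 (b' ^ n) = ClassGroup.mk0 (1 : (Ideal (𝓞 F))⁰) := by
      rw [_root_.map_pow, _root_.map_one]; exact pow_card_eq_one
    have hc1 : IsCoprime (((b' ^ n : (Ideal (𝓞 F))⁰)) : Ideal (𝓞 F)) 𝔪 := by
      rw [SubmonoidClass.coe_pow]; exact hb'.pow_left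
    have hc2 : IsCoprime (((1 : (Ideal (𝓞 F))⁰)) : Ideal (𝓞 F)) 𝔪 := by
      rw [OneMemClass.coe_one]; exact isCoprime_one_left
    have := map_eq_of_mk0_eq hφ h𝔪 hB _ _ hc1 hc2 hcl
    rw [SubmonoidClass.coe_pow, map_pow hφ hb'0, OneMemClass.coe_one, map_one hφ] at this
    exact this
  -- `b'' = b * b'^(n-1)` has class in the norm group
  have h2 : φ ((b * b' ^ (n - 1) : (Ideal (𝓞 F))⁰) : Ideal (𝓞 F)) = 1 := by
    apply map_eq_one_of_mk0_mem hφ h𝔪 hB hN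
    · rw [Submonoid.coe_mul, SubmonoidClass.coe_pow]
      exact hb.mul_left hb'.pow_left
    · rw [_root_.map_mul, _root_.map_pow]
      have : ClassGroup.mk0 b' ^ (n - 1) = (ClassGroup.mk0 b')⁻¹ := by
        apply eq_inv_of_mul_eq_one_left
        rw [← pow_succ, Nat.sub_add_cancel hpos]
        exact pow_card_eq_one
      rwa [this]
  rw [Submonoid.coe_mul, SubmonoidClass.coe_pow,
    hφ.map_mul _ _ (coe_ne_bot b) (pow_ne_zero _ hb'0), map_pow hφ hb'0] at h2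
  have h3 : φ (b' : Ideal (𝓞 F)) ^ (n - 1) = (φ (b' : Ideal (𝓞 F)))⁻¹ := by
    apply eq_inv_of_mul_eq_one_left
    rw [← pow_succ, Nat.sub_add_cancel hpos]
    exact h1
  rw [h3] at h2
  exact mul_inv_eq_one.mp h2

/-- The Artin symbol of an ideal prime to `𝔪` is killed by the class number. -/
theorem map_pow_card_eq_one {φ : Ideal (𝓞 F) → (M ≃ₐ[F] M)} (hφ : IsArtinMap F M φ)
    {𝔪 : Ideal (𝓞 F)} (h𝔪 : 𝔪 ≠ ⊥)
    (hB : ∀ γ : 𝓞 F, γ ≠ 0 → IsCoprime (Ideal.span {γ}) 𝔪 → φ (Ideal.span {γ}) = 1)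
    (b' : (Ideal (𝓞 F))⁰) (hb' : IsCoprime (b' : Ideal (𝓞 F)) 𝔪) :
    φ (b' : Ideal (𝓞 F)) ^ Fintype.card (ClassGroup (𝓞 F)) = 1 := by
  classical
  set n := Fintype.card (ClassGroup (𝓞 F)) with hn
  have hb'0 := coe_ne_bot b'
  have hcl : ClassGroup.mk0 (b' ^ n) = ClassGroup.mk0 (1 : (Ideal (𝓞 F))⁰) := by
    rw [_root_.map_pow, _root_.map_one]; exact pow_card_eq_one
  have hc1 : IsCoprime (((b' ^ n : (Ideal (𝓞 F))⁰)) : Ideal (𝓞 F)) 𝔪 := by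
    rw [SubmonoidClass.coe_pow]; exact hb'.pow_left
  have hc2 : IsCoprime (((1 : (Ideal (𝓞 F))⁰)) : Ideal (𝓞 F)) 𝔪 := by
    rw [OneMemClass.coe_one]; exact isCoprime_one_left
  have := map_eq_of_mk0_eq hφ h𝔪 hB _ _ hc1 hc2 hcl
  rw [SubmonoidClass.coe_pow, map_pow hφ hb'0, OneMemClass.coe_one, map_one hφ] at this
  exact this

/-- **(D-CR1), kernel form.**  `M/F` Galois of prime degree `p`; principal ideals prime to `𝔪`
and norms have trivial symbol; second inequality; some ideal prime to `𝔪` has nontrivial symbol.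
Then an ideal prime to `𝔪` with trivial symbol has its class in `normClassSubgroup F M`. -/
theorem mk0_mem_of_map_eq_one (hdeg : Module.finrank F M = p)
    {φ : Ideal (𝓞 F) → (M ≃ₐ[F] M)} (hφ : IsArtinMap F M φ)
    {𝔪 : Ideal (𝓞 F)} (h𝔪 : 𝔪 ≠ ⊥)
    (hB : ∀ γ : 𝓞 F, γ ≠ 0 → IsCoprime (Ideal.span {γ}) 𝔪 → φ (Ideal.span {γ}) = 1)
    (hN : ∀ A : Ideal (𝓞 M), A ≠ ⊥ → φ (Ideal.relNorm (𝓞 F) A) = 1)
    (hI2 : (normClassSubgroup F M).index ≤ p)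
    (hne : ∃ b₀ : (Ideal (𝓞 F))⁰, IsCoprime (b₀ : Ideal (𝓞 F)) 𝔪 ∧ φ b₀ ≠ 1)
    (b : (Ideal (𝓞 F))⁰) (hb : IsCoprime (b : Ideal (𝓞 F)) 𝔪) (h1 : φ b = 1) :
    ClassGroup.mk0 b ∈ normClassSubgroup F M := by
  classical
  obtain ⟨b₀, hb₀, hg₀⟩ := hne
  have hb₀0 := coe_ne_bot b₀
  set g₀ := φ (b₀ : Ideal (𝓞 F)) with hg₀def
  have hcard : Nat.card (M ≃ₐ[F] M) = p := by rw [IsGalois.card_aut_eq_finrank, hdeg]
  have hg₀p : g₀ ^ p = 1 := by rw [← hcard]; exact pow_card_eq_one'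
  have hord : orderOf g₀ = p := orderOf_eq_prime hg₀p hg₀
  set H := normClassSubgroup F M with hH
  -- the classes of `b₀^k`, `k < p`, are pairwise distinct modulo `H`
  let f : Fin p → ClassGroup (𝓞 F) ⧸ H := fun k => QuotientGroup.mk (ClassGroup.mk0 (b₀ ^ (k : ℕ)))
  have hcopk : ∀ k : ℕ, IsCoprime (((b₀ ^ k : (Ideal (𝓞 F))⁰)) : Ideal (𝓞 F)) 𝔪 := by
    intro k; rw [SubmonoidClass.coe_pow]; exact hb₀.pow_left
  have hφk : ∀ k : ℕ, φ (((b₀ ^ k : (Ideal (𝓞 F))⁰)) : Ideal (𝓞 F)) = g₀ ^ k := by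
    intro k; rw [SubmonoidClass.coe_pow, map_pow hφ hb₀0]
  have hfinj : Function.Injective f := by
    intro k k' hkk'
    have h2 : (ClassGroup.mk0 (b₀ ^ (k : ℕ)))⁻¹ * ClassGroup.mk0 (b₀ ^ (k' : ℕ)) ∈ H :=
      QuotientGroup.eq.mp hkk'
    rw [mul_comm] at h2
    have h3 := map_eq_of_mk0_div_mem hφ h𝔪 hB hN _ _ (hcopk k') (hcopk k) h2
    rw [hφk, hφk] at h3
    have h4 := pow_injOn_Iio_orderOf (x := g₀)
      (by rw [hord]; exact k'.2) (by rw [hord]; exact k.2) h3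
    exact (Fin.ext h4).symm
  have hle : Nat.card (ClassGroup (𝓞 F) ⧸ H) ≤ Nat.card (Fin p) := by
    rw [Nat.card_fin, ← Subgroup.index_eq_card]; exact hI2
  have hbij := hfinj.bijective_of_nat_card_le hle
  obtain ⟨k, hk⟩ := hbij.2 (QuotientGroup.mk (ClassGroup.mk0 b))
  have h2 : (ClassGroup.mk0 (b₀ ^ (k : ℕ)))⁻¹ * ClassGroup.mk0 b ∈ H := QuotientGroup.eq.mp hk
  rw [mul_comm] at h2
  have h3 := map_eq_of_mk0_div_mem hφ h𝔪 hB hN _ _ hb (hcopk k) h2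
  rw [hφk, h1] at h3
  have h4 : p ∣ (k : ℕ) := by
    have h := orderOf_dvd_of_pow_eq_one h3.symm
    rwa [hord] at h
  have h5 : (k : ℕ) = 0 := Nat.eq_zero_of_dvd_of_lt h4 k.2
  rw [h5, pow_zero, _root_.map_one, inv_one, mul_one] at h2
  exact h2

/-- **(D-CR1), comparison form.**  Under the same hypotheses, two ideals prime to `𝔪` with the
same Artin symbol have the same class modulo `normClassSubgroup F M`. -/
theorem mk0_mul_inv_mem_of_map_eq (hdeg : Module.finrank F M = p)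
    {φ : Ideal (𝓞 F) → (M ≃ₐ[F] M)} (hφ : IsArtinMap F M φ)
    {𝔪 : Ideal (𝓞 F)} (h𝔪 : 𝔪 ≠ ⊥)
    (hB : ∀ γ : 𝓞 F, γ ≠ 0 → IsCoprime (Ideal.span {γ}) 𝔪 → φ (Ideal.span {γ}) = 1)
    (hN : ∀ A : Ideal (𝓞 M), A ≠ ⊥ → φ (Ideal.relNorm (𝓞 F) A) = 1)
    (hI2 : (normClassSubgroup F M).index ≤ p)
    (hne : ∃ b₀ : (Ideal (𝓞 F))⁰, IsCoprime (b₀ : Ideal (𝓞 F)) 𝔪 ∧ φ b₀ ≠ 1)
    (b b' : (Ideal (𝓞 F))⁰) (hb : IsCoprime (b : Ideal (𝓞 F)) 𝔪)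
    (hb' : IsCoprime (b' : Ideal (𝓞 F)) 𝔪) (h : φ b = φ b') :
    ClassGroup.mk0 b * (ClassGroup.mk0 b')⁻¹ ∈ normClassSubgroup F M := by
  classical
  set n := Fintype.card (ClassGroup (𝓞 F)) with hn
  have hpos : 0 < n := Fintype.card_pos
  have hb'0 := coe_ne_bot b'
  have h1 := map_pow_card_eq_one hφ h𝔪 hB b' hb'
  have h2 : φ ((b * b' ^ (n - 1) : (Ideal (𝓞 F))⁰) : Ideal (𝓞 F)) = 1 := by
    rw [Submonoid.coe_mul, SubmonoidClass.coe_pow,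
      hφ.map_mul _ _ (coe_ne_bot b) (pow_ne_zero _ hb'0), map_pow hφ hb'0, h, ← pow_succ',
      Nat.sub_add_cancel hpos]
    exact h1
  have h3 := mk0_mem_of_map_eq_one hdeg hφ h𝔪 hB hN hI2 hne (b * b' ^ (n - 1))
    (by rw [Submonoid.coe_mul, SubmonoidClass.coe_pow]; exact hb.mul_left hb'.pow_left) h2
  rw [_root_.map_mul, _root_.map_pow] at h3
  have : ClassGroup.mk0 b' ^ (n - 1) = (ClassGroup.mk0 b')⁻¹ := by
    apply eq_inv_of_mul_eq_one_left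
    rw [← pow_succ, Nat.sub_add_cancel hpos]
    exact pow_card_eq_one
  rwa [this] at h3

end Main

end Fermat.Agent.S14.AuxRec
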