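import Mathlib
import Fermat.Agent.S14.Defs
import Fermat.Agent.S14.ArtinSplit
import Fermat.Agent.S14.AuxRec

/-!
# S14 block D, leaves D1 + D3 in the S14 lead's exact shapes (thin wrappers over `AuxRec`)

* `exists_coprime_mul_isPrincipal`, `exists_mk0_eq_coprime` (D1),
* `mk0_mem_of_map_eq_one_of_coprime` (D3 = CR1): `M/F` Galois of prime degree `p`, unramified
  everywhere, `φ` an Artin map killing the principal ideals prime to `m`, second inequality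
  `[Cl(F) : normClassSubgroup F M] ≤ p`: an ideal `c` prime to `m` with `φ c = 1` has its class in
  `normClassSubgroup F M`.
-/

set_option autoImplicit false
set_option linter.unusedSectionVars false

open NumberField
open scoped nonZeroDivisors

namespace Fermat.Agent.S14.CROne

section D1

variable {R : Type*} [CommRing R] [IsDedekindDomain R]

theorem exists_coprime_mul_isPrincipal {I J : Ideal R} (hI : I ≠ ⊥) (hJ : J ≠ ⊥) :
    ∃ D : Ideal R, D ≠ ⊥ ∧ D ⊔ J = ⊤ ∧ (I * D).IsPrincipal := by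
  obtain ⟨c, a, hc0, -, hca, hcop⟩ := AuxRec.exists_mul_eq_span_singleton hI hJ
  exact ⟨c, hc0, Ideal.isCoprime_iff_sup_eq.mp hcop, hca ▸ ⟨⟨a, rfl⟩⟩⟩

theorem exists_mk0_eq_coprime (c : ClassGroup R) {J : Ideal R} (hJ : J ≠ ⊥) :
    ∃ I : (Ideal R)⁰, ClassGroup.mk0 I = c ∧ (I : Ideal R) ⊔ J = ⊤ := by
  obtain ⟨A, rfl⟩ := ClassGroup.mk0_surjective c
  have hA0 : (A : Ideal R) ≠ ⊥ := mem_nonZeroDivisors_iff_ne_zero.mp A.2
  obtain ⟨A', x, y, hA'0, hx0, hy0, hxy, hcop⟩ := AuxRec.exists_coprime_representative hA0 hJ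
  refine ⟨⟨A', mem_nonZeroDivisors_iff_ne_zero.mpr hA'0⟩, ?_,
    Ideal.isCoprime_iff_sup_eq.mp hcop⟩
  rw [ClassGroup.mk0_eq_mk0_iff]
  exact ⟨x, y, hx0, hy0, hxy.symm⟩

end D1

section D3

variable {p : ℕ} [hp : Fact p.Prime]
  {F M : Type*} [Field F] [Field M] [NumberField F] [NumberField M] [Algebra F M] [IsGalois F M]

/-- Outside the prime factors of `m` there is a prime with nontrivial Artin symbol. -/
theorem exists_coprime_map_ne_one (hdeg : Module.finrank F M = p)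
    {φ : Ideal (𝓞 F) → (M ≃ₐ[F] M)} (hφ : IsArtinMap F M φ) (hunr : UnramifiedEverywhere F M)
    {m : Ideal (𝓞 F)} (hm : m ≠ ⊥) :
    ∃ b₀ : (Ideal (𝓞 F))⁰, IsCoprime (b₀ : Ideal (𝓞 F)) m ∧ φ b₀ ≠ 1 := by
  classical
  have h1 : 1 < Module.finrank F M := by rw [hdeg]; exact hp.out.one_lt
  obtain ⟨q, hqp, hq0, hqT, hne⟩ := ArtinSplit.exists_prime_map_ne_one hφ hunr h1
    (UniqueFactorizationMonoid.normalizedFactors m).toFinset
  refine ⟨⟨q, mem_nonZeroDivisors_iff_ne_zero.mpr hq0⟩, ?_, hne⟩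
  rw [Ideal.isCoprime_iff_sup_eq]
  by_contra hsup
  have hqmax : q.IsMaximal := Ring.DimensionLEOne.maximalOfPrime hq0 hqp
  have hle : m ≤ q := by
    have := hqmax.eq_of_le hsup le_sup_left
    rw [this]
    exact le_sup_right
  apply hqT
  rw [Multiset.mem_toFinset, Ideal.mem_normalizedFactors_iff hm]
  exact ⟨hqp, hle⟩

/-- **D3 = CR1** in the S14 lead's shape. -/
theorem mk0_mem_of_map_eq_one_of_coprime (hdeg : Module.finrank F M = p)
    {φ : Ideal (𝓞 F) → (M ≃ₐ[F] M)} (hφ : IsArtinMap F M φ) (hunr : UnramifiedEverywhere F M)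
    {m : Ideal (𝓞 F)} (hm : m ≠ ⊥)
    (hB : ∀ γ : 𝓞 F, γ ≠ 0 → Ideal.span {γ} ⊔ m = ⊤ → φ (Ideal.span {γ}) = 1)
    (hI2 : (normClassSubgroup F M).index ≤ p)
    (c : (Ideal (𝓞 F))⁰) (hc : (c : Ideal (𝓞 F)) ⊔ m = ⊤) (h1 : φ c = 1) :
    ClassGroup.mk0 c ∈ normClassSubgroup F M :=
  AuxRec.mk0_mem_of_map_eq_one hdeg hφ hm
    (fun γ hγ hcop => hB γ hγ (Ideal.isCoprime_iff_sup_eq.mp hcop))
    (fun A hA => ArtinSplit.map_relNorm_eq_one hφ hunr hA) hI2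
    (exists_coprime_map_ne_one hdeg hφ hunr hm) c (Ideal.isCoprime_iff_sup_eq.mpr hc) h1

/-- Comparison form: two ideals prime to `m` with the same Artin symbol have the same class
modulo `normClassSubgroup F M`. -/
theorem mk0_mul_inv_mem_of_map_eq_of_coprime (hdeg : Module.finrank F M = p)
    {φ : Ideal (𝓞 F) → (M ≃ₐ[F] M)} (hφ : IsArtinMap F M φ) (hunr : UnramifiedEverywhere F M)
    {m : Ideal (𝓞 F)} (hm : m ≠ ⊥)
    (hB : ∀ γ : 𝓞 F, γ ≠ 0 → Ideal.span {γ} ⊔ m = ⊤ → φ (Ideal.span {γ}) = 1)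
    (hI2 : (normClassSubgroup F M).index ≤ p)
    (b b' : (Ideal (𝓞 F))⁰) (hb : (b : Ideal (𝓞 F)) ⊔ m = ⊤) (hb' : (b' : Ideal (𝓞 F)) ⊔ m = ⊤)
    (h : φ b = φ b') :
    ClassGroup.mk0 b * (ClassGroup.mk0 b')⁻¹ ∈ normClassSubgroup F M :=
  AuxRec.mk0_mul_inv_mem_of_map_eq hdeg hφ hm
    (fun γ hγ hcop => hB γ hγ (Ideal.isCoprime_iff_sup_eq.mp hcop))
    (fun A hA => ArtinSplit.map_relNorm_eq_one hφ hunr hA) hI2
    (exists_coprime_map_ne_one hdeg hφ hunr hm) b b' (Ideal.isCoprime_iff_sup_eq.mpr hb)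
    (Ideal.isCoprime_iff_sup_eq.mpr hb') h

end D3

end Fermat.Agent.S14.CROne
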