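import Mathlib
import Fermat.Agent.S14.Defs
import Fermat.Agent.S14.ArtinSplit
import Fermat.Agent.S14.AuxRec
import Fermat.Agent.S14.CROne
import Fermat.Agent.S14.CrossField
import Fermat.Agent.S14.SplitInFixed

/-!
# S14 block D: ideal bookkeeping for the crossing assembly

* (Q0) generic: coprimality to a natural number passes to relative norms
  (`isCoprime_relNorm_natCast`), transitivity `relNorm0_trans`, the algebra structure
  `algebraOfLE` of an inclusion of intermediate fields with its scalar towers;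
* (Q1) the degree-one prime `𝔮 = 𝔓 ∩ 𝓞 E` below a prime `𝔓` whose Frobenius fixes `E`
  (`degreeOnePrime`): prime, nonzero, norm `𝔓 ∩ 𝓞 K`, prime to `m` if `m ∉ 𝔓`;
* (Q2) an ideal `𝔅` of `E` prime to `m` with `φ (N_{E/K} 𝔅) ≠ 1` when `Gal(Ω/E)` maps onto
  `Gal(L/K)` (`exists_coprime_map_relNorm0_ne_one`).
-/

set_option autoImplicit false
set_option linter.unusedSectionVars false

open NumberField
open scoped nonZeroDivisors

namespace Fermat.Agent.S14.CrossPrimes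

open Fermat.Agent.S14 Fermat.Agent.S14.Cross

section Generic

variable {F F' : Type*} [Field F] [Field F'] [NumberField F] [NumberField F'] [Algebra F F']

/-- Coprimality to a natural number `m` passes to the relative norm (and to divisors of `m`). -/
theorem isCoprime_relNorm_natCast {𝔅 : Ideal (𝓞 F')} {m m' : ℕ} (hdvd : m' ∣ m)
    (h : IsCoprime 𝔅 (Ideal.span {(m : 𝓞 F')})) :
    IsCoprime (Ideal.relNorm (𝓞 F) 𝔅) (Ideal.span {(m' : 𝓞 F)}) := by
  apply AuxRec.isCoprime_relNorm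
  rw [Ideal.map_span, Set.image_singleton, map_natCast]
  rw [Ideal.isCoprime_iff_sup_eq] at h ⊢
  rw [eq_top_iff, ← h]
  refine sup_le_sup_left ?_ _
  rw [Ideal.span_singleton_le_span_singleton]
  exact Nat.cast_dvd_cast hdvd

/-- A maximal ideal not containing `m` is coprime to `(m)`. -/
theorem isCoprime_span_natCast_of_not_mem {𝔮 : Ideal (𝓞 F)} (h𝔮 : 𝔮.IsMaximal) {m : ℕ}
    (hm : (m : 𝓞 F) ∉ 𝔮) : IsCoprime 𝔮 (Ideal.span {(m : 𝓞 F)}) := by
  rw [Ideal.isCoprime_iff_sup_eq]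
  by_contra hne
  have := h𝔮.eq_of_le hne le_sup_left
  apply hm
  rw [this]
  exact Ideal.mem_sup_right (Ideal.mem_span_singleton_self _)

variable (K : Type*) [Field K] [NumberField K] [Algebra K F] [Algebra K F'] [IsScalarTower K F F']

/-- Transitivity of the relative norm on nonzero ideals. -/
theorem relNorm0_trans (𝔅 : (Ideal (𝓞 F'))⁰) :
    relNorm0 K F (relNorm0 F F' 𝔅) = relNorm0 K F' 𝔅 := by
  apply Subtype.ext
  rw [coe_relNorm0, coe_relNorm0, coe_relNorm0]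
  exact Ideal.relNorm_relNorm (𝓞 K) (𝓞 F) (𝔅 : Ideal (𝓞 F'))

end Generic

section Inclusion

variable {K Ω : Type*} [Field K] [Field Ω] [Algebra K Ω]

/-- The algebra structure `E₁ → E₂` of an inclusion of intermediate fields (use with `letI`). -/
noncomputable abbrev algebraOfLE {E₁ E₂ : IntermediateField K Ω} (h : E₁ ≤ E₂) : Algebra E₁ E₂ :=
  (IntermediateField.inclusion h).toRingHom.toAlgebra

theorem isScalarTower_of_le_left {E₁ E₂ : IntermediateField K Ω} (h : E₁ ≤ E₂) :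
    letI := algebraOfLE h
    IsScalarTower K E₁ E₂ := by
  letI := algebraOfLE h
  exact IsScalarTower.of_algebraMap_eq (fun _ => rfl)

theorem isScalarTower_of_le_right {E₁ E₂ : IntermediateField K Ω} (h : E₁ ≤ E₂) :
    letI := algebraOfLE h
    IsScalarTower E₁ E₂ Ω := by
  letI := algebraOfLE h
  exact IsScalarTower.of_algebraMap_eq (fun _ => rfl)

end Inclusion

section Q1

variable {K Ω : Type*} [Field K] [Field Ω] [NumberField K] [NumberField Ω] [Algebra K Ω]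

/-- **(Q1) the degree-one prime.**  `h` a Frobenius of `Ω/K` at `𝔓 ≠ ⊥` fixing `E` pointwise,
`m ∉ 𝔓`: then `𝔮 = 𝔓 ∩ 𝓞 E` is a nonzero prime of `E`, prime to `m`, with norm `𝔓 ∩ 𝓞 K`. -/
theorem degreeOnePrime (E : IntermediateField K Ω) (𝔓 : Ideal (𝓞 Ω)) [𝔓.IsPrime]
    (h𝔓 : 𝔓 ≠ ⊥) (h : Ω ≃ₐ[K] Ω) (hfrob : IsArithFrobAt (𝓞 K) h 𝔓)
    (hfix : ∀ x ∈ E, h x = x) {m : ℕ} (hm : (m : 𝓞 Ω) ∉ 𝔓) :
    ∃ 𝔮 : (Ideal (𝓞 E))⁰, (𝔮 : Ideal (𝓞 E)) = 𝔓.under (𝓞 E) ∧ (𝔮 : Ideal (𝓞 E)).IsPrime ∧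
      IsCoprime (𝔮 : Ideal (𝓞 E)) (Ideal.span {(m : 𝓞 E)}) ∧
      ((relNorm0 K E 𝔮 : (Ideal (𝓞 K))⁰) : Ideal (𝓞 K)) = 𝔓.under (𝓞 K) := by
  have hq0 : 𝔓.under (𝓞 E) ≠ ⊥ := Ideal.under_ne_bot (𝓞 E) h𝔓
  have hqp : (𝔓.under (𝓞 E)).IsPrime := Ideal.IsPrime.under (𝓞 E) 𝔓
  have hqmax : (𝔓.under (𝓞 E)).IsMaximal := Ring.DimensionLEOne.maximalOfPrime hq0 hqp
  refine ⟨⟨𝔓.under (𝓞 E), mem_nonZeroDivisors_iff_ne_zero.mpr hq0⟩, rfl, hqp, ?_, ?_⟩
  · apply isCoprime_span_natCast_of_not_mem hqmax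
    intro hmem
    apply hm
    have : algebraMap (𝓞 E) (𝓞 Ω) (m : 𝓞 E) ∈ 𝔓 := hmem
    rwa [map_natCast] at this
  · rw [coe_relNorm0]
    exact SplitInFixed.relNorm_under_eq_of_frob_fixes E 𝔓 h𝔓 h hfrob hfix

end Q1

section Q2

variable {p : ℕ} [hp : Fact p.Prime]
  {K L Ω : Type*} [Field K] [Field L] [Field Ω] [NumberField K] [NumberField L]
  [NumberField Ω] [Algebra K L] [Algebra K Ω] [Algebra L Ω] [IsScalarTower K L Ω] [IsGalois K L]

/-- **(Q2)** If every element of `Gal(L/K)` lifts to an automorphism of `Ω/K` fixing `E`, there is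
an ideal `𝔅` of `E` prime to `m` whose norm to `K` has nontrivial Artin symbol in `L/K`. -/
theorem exists_coprime_map_relNorm0_ne_one (hdeg : Module.finrank K L = p)
    {φ : Ideal (𝓞 K) → (L ≃ₐ[K] L)} (hφ : IsArtinMap K L φ) (hunr : UnramifiedEverywhere K L)
    (E : IntermediateField K Ω)
    (hE : ∀ g₀ : (L ≃ₐ[K] L), ∃ g : Ω ≃ₐ[K] Ω, (∀ x ∈ E, g x = x) ∧
      AlgEquiv.restrictNormalHom L g = g₀)
    {m : ℕ} (hm : m ≠ 0) :
    ∃ 𝔅 : (Ideal (𝓞 E))⁰, IsCoprime (𝔅 : Ideal (𝓞 E)) (Ideal.span {(m : 𝓞 E)}) ∧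
      φ ((relNorm0 K E 𝔅 : (Ideal (𝓞 K))⁰) : Ideal (𝓞 K)) ≠ 1 := by
  have hcomm : IsMulCommutative (L ≃ₐ[K] L) := by
    have : IsCyclic (L ≃ₐ[K] L) :=
      isCyclic_of_prime_card (p := p) (by rw [IsGalois.card_aut_eq_finrank, hdeg])
    infer_instance
  have hcommE : IsMulCommutative ((comp L E) ≃ₐ[E] (comp L E)) := isMulCommutative_comp E
  have hdegE : Module.finrank E (comp L E) = p := (finrank_comp E hE).trans hdeg
  have hunrE : UnramifiedEverywhere E (comp L E) := unramifiedEverywhere_comp E hunr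
  have hψ : IsArtinMap E (comp L E) (ArtinMap.artin E (comp L E)) := ArtinSplit.isArtinMap_artin
  have hm0 : Ideal.span {(m : 𝓞 E)} ≠ ⊥ := by
    rw [Ne, Ideal.span_singleton_eq_bot]
    exact_mod_cast hm
  obtain ⟨𝔅, hcop, hne⟩ := CROne.exists_coprime_map_ne_one hdegE hψ hunrE hm0
  refine ⟨𝔅, hcop, fun h1 => hne ?_⟩
  apply resComp_injective E
  rw [_root_.map_one]
  have := ArtinSplit.res_map (K := K) (L := L) (F := E) (M := comp L E) hφ hψ hunr
    (AuxRec.coe_ne_bot 𝔅)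
  rw [resComp, this]
  exact h1

end Q2

end Fermat.Agent.S14.CrossPrimes
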