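import Mathlib
import Fermat.Agent.S14.Defs

/-!
# S14 block (D-ND): norm-down

For towers of number fields `K ⊆ F ⊆ M` and `K ⊆ L ⊆ M`, the relative norm `N_{F/K}` maps ideal
classes of `F` lying in `normClassSubgroup F M` (classes of norms from `M`) to classes lying in
`normClassSubgroup K L`, because `N_{F/K} ∘ N_{M/F} = N_{M/K} = N_{L/K} ∘ N_{M/L}` and the norm of a
principal ideal is principal.
-/

set_option autoImplicit false
set_option linter.unusedSectionVars false

open NumberField
open scoped Pointwise nonZeroDivisors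

namespace Fermat.Agent.S14.NormDown

open Fermat.Agent.S14

section wellDefined

variable (K F : Type*) [Field K] [Field F] [NumberField K] [NumberField F] [Algebra K F]

theorem intNorm_ne_zero {x : 𝓞 F} (hx : x ≠ 0) : Algebra.intNorm (𝓞 K) (𝓞 F) x ≠ 0 := by
  rwa [Ne, Algebra.intNorm_eq_zero]

/-- The relative norm is well defined on ideal classes. -/
theorem mk0_relNorm0_eq_of_mk0_eq (a b : (Ideal (𝓞 F))⁰)
    (h : ClassGroup.mk0 a = ClassGroup.mk0 b) :
    ClassGroup.mk0 (relNorm0 K F a) = ClassGroup.mk0 (relNorm0 K F b) := by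
  obtain ⟨x, y, hx, hy, hxy⟩ := ClassGroup.mk0_eq_mk0_iff.mp h
  rw [ClassGroup.mk0_eq_mk0_iff]
  refine ⟨Algebra.intNorm (𝓞 K) (𝓞 F) x, Algebra.intNorm (𝓞 K) (𝓞 F) y,
    intNorm_ne_zero K F hx, intNorm_ne_zero K F hy, ?_⟩
  have := congrArg (Ideal.relNorm (𝓞 K)) hxy
  rw [map_mul, map_mul, Ideal.relNorm_singleton, Ideal.relNorm_singleton] at this
  exact this

/-- The relative norm of a principal class is principal. -/
theorem mk0_relNorm0_eq_one (a : (Ideal (𝓞 F))⁰) (h : ClassGroup.mk0 a = 1) :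
    ClassGroup.mk0 (relNorm0 K F a) = 1 := by
  have h1 : ClassGroup.mk0 a = ClassGroup.mk0 (1 : (Ideal (𝓞 F))⁰) := by rw [h, map_one]
  have h2 := mk0_relNorm0_eq_of_mk0_eq K F a 1 h1
  rw [h2, map_one, map_one]

end wellDefined

section towers

variable (K F L M : Type*) [Field K] [Field F] [Field L] [Field M]
  [NumberField K] [NumberField F] [NumberField L] [NumberField M]
  [Algebra K F] [Algebra K L] [Algebra F M] [Algebra L M] [Algebra K M]
  [IsScalarTower K F M] [IsScalarTower K L M]

/-- `N_{F/K} (N_{M/F} A) = N_{L/K} (N_{M/L} A)`. -/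
theorem relNorm0_relNorm0 (A : (Ideal (𝓞 M))⁰) :
    relNorm0 K F (relNorm0 F M A) = relNorm0 K L (relNorm0 L M A) := by
  apply Subtype.ext
  simp only [coe_relNorm0]
  rw [Ideal.relNorm_relNorm (R := 𝓞 K) (T := 𝓞 F) (S := 𝓞 M),
    Ideal.relNorm_relNorm (R := 𝓞 K) (T := 𝓞 L) (S := 𝓞 M)]

/-- **Norm-down**: `N_{F/K}` maps `normClassSubgroup F M` into `normClassSubgroup K L`. -/
theorem mk0_relNorm0_mem_of_mem (c : (Ideal (𝓞 F))⁰)
    (hc : ClassGroup.mk0 c ∈ normClassSubgroup F M) :
    ClassGroup.mk0 (relNorm0 K F c) ∈ normClassSubgroup K L := by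
  -- induction on the closure, for all representatives simultaneously
  have key : ∀ x ∈ normClassSubgroup F M, ∀ c : (Ideal (𝓞 F))⁰, ClassGroup.mk0 c = x →
      ClassGroup.mk0 (relNorm0 K F c) ∈ normClassSubgroup K L := by
    intro x hx
    induction hx using Subgroup.closure_induction with
    | mem x hx =>
      obtain ⟨A, rfl⟩ := hx
      intro c hc
      rw [mk0_relNorm0_eq_of_mk0_eq K F c _ hc, relNorm0_relNorm0 K F L M A]
      exact mk0_relNorm0_mem K L _
    | one =>
      intro c hc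
      rw [mk0_relNorm0_eq_one K F c hc]
      exact (normClassSubgroup K L).one_mem
    | mul x y _ _ ihx ihy =>
      intro c hc
      obtain ⟨cx, rfl⟩ := ClassGroup.mk0_surjective x
      obtain ⟨cy, rfl⟩ := ClassGroup.mk0_surjective y
      have h1 : ClassGroup.mk0 c = ClassGroup.mk0 (cx * cy) := by rw [hc, map_mul]
      rw [mk0_relNorm0_eq_of_mk0_eq K F c _ h1, map_mul, map_mul]
      exact (normClassSubgroup K L).mul_mem (ihx cx rfl) (ihy cy rfl)
    | inv x _ ihx =>
      intro c hc
      obtain ⟨cx, rfl⟩ := ClassGroup.mk0_surjective x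
      have h1 : ClassGroup.mk0 (c * cx) = 1 := by rw [map_mul, hc, inv_mul_cancel]
      have h2 := mk0_relNorm0_eq_one K F (c * cx) h1
      rw [map_mul, map_mul] at h2
      have h3 : ClassGroup.mk0 (relNorm0 K F c) = (ClassGroup.mk0 (relNorm0 K F cx))⁻¹ :=
        eq_inv_of_mul_eq_one_left h2
      rw [h3]
      exact (normClassSubgroup K L).inv_mem (ihx cx rfl)
  exact key _ hc c rfl

end towers

end Fermat.Agent.S14.NormDown
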