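import Mathlib
import Fermat.Agent.S14.Defs
import Fermat.Agent.S14.ArtinSplit
import Fermat.Agent.S14.AuxRec
import Fermat.Agent.S14.NormDown

/-!
# S14 block (D): abstract assembly of the crossing argument

`L/K` Galois of prime degree `p`, unramified everywhere, `φ` an Artin map of `L/K`,
`X = normClassSubgroup K L`.

* `crossing_group` : the pure bookkeeping in a group of prime order.
* `AuxOK φ 𝔭 𝔟` : `φ 𝔭 ^ u = φ 𝔟 ^ v → [𝔭]^u ≡ [𝔟]^v mod X` (what one auxiliary field gives).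
* `crossing` : if any two inert primes `𝔭₁ 𝔭₂` admit a common `𝔟` with `φ 𝔟 ≠ 1`,
  `AuxOK φ 𝔭₁ 𝔟`, `AuxOK φ 𝔭₂ 𝔟`, then `φ a = 1 → [a] ∈ X` (block (D)).
* `auxOK_of_auxField` : `AuxOK` from an auxiliary extension `M/E` (base change of `L/K`) in which
  principal ideals prime to `𝔪` have trivial symbol and the second inequality holds.
-/

set_option autoImplicit false
set_option linter.unusedSectionVars false

open NumberField
open scoped Pointwise nonZeroDivisors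

namespace Fermat.Agent.S14.CrossingAbs

open Fermat.Agent.S14

section Group

/-- In a group of prime order every non-trivial element generates (natural powers). -/
theorem exists_pow_eq_of_card_prime {G : Type*} [Group G] {p : ℕ} [hp : Fact p.Prime]
    (hG : Nat.card G = p) {g : G} (hg : g ≠ 1) (x : G) : ∃ k : ℕ, g ^ k = x := by
  have hfin : Finite G := Nat.finite_of_card_ne_zero (by rw [hG]; exact hp.out.ne_zero)
  have hgen : x ∈ Subgroup.zpowers g := by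
    rw [zpowers_eq_top_of_prime_card (G := G) (p := p) hG hg]
    exact Subgroup.mem_top _
  rw [← mem_powers_iff_mem_zpowers] at hgen
  exact hgen

/-- **Crossing, group theory.** `φ : I → G` (`|G| = p`), `c : I → Q` monoid homomorphisms, `S` a
set of "primes".  If `c` kills the primes killed by `φ`, and any two primes not killed by `φ` can
be compared with a common `𝔟`, then `c` kills every product of primes killed by `φ`. -/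
theorem crossing_group {I G Q : Type*} [CommMonoid I] [Group G] [CommGroup Q] {p : ℕ}
    [hp : Fact p.Prime] (hG : Nat.card G = p) (φ : I →* G) (c : I →* Q) (S : Set I)
    (hsplit : ∀ 𝔭 ∈ S, φ 𝔭 = 1 → c 𝔭 = 1)
    (hpair : ∀ 𝔭₁ ∈ S, ∀ 𝔭₂ ∈ S, φ 𝔭₁ ≠ 1 → φ 𝔭₂ ≠ 1 →
      ∃ 𝔟 : I, φ 𝔟 ≠ 1 ∧ (∀ u v : ℕ, φ 𝔭₁ ^ u = φ 𝔟 ^ v → c 𝔭₁ ^ u = c 𝔟 ^ v) ∧
        (∀ u v : ℕ, φ 𝔭₂ ^ u = φ 𝔟 ^ v → c 𝔭₂ ^ u = c 𝔟 ^ v))
    (a : I) (ha : a ∈ Submonoid.closure S) (h1 : φ a = 1) : c a = 1 := by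
  have hfin : Finite G := Nat.finite_of_card_ne_zero (by rw [hG]; exact hp.out.ne_zero)
  by_cases hall : ∀ 𝔭 ∈ S, φ 𝔭 = 1
  · -- all primes split: `c` kills everything
    have key : ∀ a ∈ Submonoid.closure S, c a = 1 := by
      intro a ha
      induction ha using Submonoid.closure_induction with
      | mem x hx => exact hsplit x hx (hall x hx)
      | one => exact map_one c
      | mul x y _ _ hx hy => rw [map_mul, hx, hy, mul_one]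
    exact key a ha
  · push Not at hall
    obtain ⟨𝔮, h𝔮S, hσ⟩ := hall
    set σ := φ 𝔮 with hσdef
    have hpowp : ∀ g : G, g ^ p = 1 := fun g => by rw [← hG]; exact pow_card_eq_one'
    have hord : orderOf σ = p := orderOf_eq_prime (hpowp σ) hσ
    -- `c 𝔮 ^ p = 1`
    have hc𝔮 : c 𝔮 ^ p = 1 := by
      obtain ⟨𝔟, -, h, -⟩ := hpair 𝔮 h𝔮S 𝔮 h𝔮S hσ hσ
      have := h p 0 (by rw [pow_zero]; exact hpowp _)
      rwa [pow_zero] at this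
    -- every prime is comparable with `𝔮`
    have hprime : ∀ 𝔭 ∈ S, ∃ k : ℕ, φ 𝔭 = σ ^ k ∧ c 𝔭 = c 𝔮 ^ k := by
      intro 𝔭 h𝔭S
      by_cases h𝔭 : φ 𝔭 = 1
      · exact ⟨0, by rw [h𝔭, pow_zero], by rw [hsplit 𝔭 h𝔭S h𝔭, pow_zero]⟩
      · obtain ⟨𝔟, hβ, h1, h2⟩ := hpair 𝔭 h𝔭S 𝔮 h𝔮S h𝔭 hσ
        obtain ⟨s, hs⟩ := exists_pow_eq_of_card_prime hG hβ (φ 𝔭)
        obtain ⟨t, ht⟩ := exists_pow_eq_of_card_prime hG hσ (φ 𝔟)
        have e1 : c 𝔭 = c 𝔟 ^ s := by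
          have := h1 1 s (by rw [pow_one, hs])
          rwa [pow_one] at this
        have e2 : c 𝔮 ^ t = c 𝔟 := by
          have := h2 t 1 (by rw [pow_one]; exact ht)
          rwa [pow_one] at this
        refine ⟨t * s, ?_, ?_⟩
        · rw [pow_mul, ht, hs]
        · rw [pow_mul, e2, e1]
    have hgen : ∀ a ∈ Submonoid.closure S, ∃ k : ℕ, φ a = σ ^ k ∧ c a = c 𝔮 ^ k := by
      intro a ha
      induction ha using Submonoid.closure_induction with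
      | mem x hx => exact hprime x hx
      | one => exact ⟨0, by rw [map_one, pow_zero], by rw [map_one, pow_zero]⟩
      | mul x y _ _ hx hy =>
        obtain ⟨k, hk1, hk2⟩ := hx
        obtain ⟨l, hl1, hl2⟩ := hy
        exact ⟨k + l, by rw [map_mul, hk1, hl1, pow_add], by rw [map_mul, hk2, hl2, pow_add]⟩
    obtain ⟨k, hk1, hk2⟩ := hgen a ha
    rw [h1] at hk1
    have hdvd : p ∣ k := by
      have := orderOf_dvd_of_pow_eq_one hk1.symm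
      rwa [hord] at this
    obtain ⟨j, rfl⟩ := hdvd
    rw [hk2, pow_mul, hc𝔮, one_pow]

end Group

section NF

variable {p : ℕ} [hp : Fact p.Prime]
  {K L : Type*} [Field K] [Field L] [NumberField K] [NumberField L] [Algebra K L] [IsGalois K L]

/-- What one auxiliary field provides: `φ 𝔭 ^ u = φ 𝔟 ^ v → [𝔭]^u ≡ [𝔟]^v` modulo norm classes. -/
def AuxOK (φ : Ideal (𝓞 K) → (L ≃ₐ[K] L)) (𝔭 𝔟 : (Ideal (𝓞 K))⁰) : Prop :=
  ∀ u v : ℕ, φ (𝔭 : Ideal (𝓞 K)) ^ u = φ (𝔟 : Ideal (𝓞 K)) ^ v →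
    ClassGroup.mk0 𝔭 ^ u * (ClassGroup.mk0 𝔟 ^ v)⁻¹ ∈ normClassSubgroup K L

/-- An Artin map as a monoid homomorphism on nonzero ideals. -/
noncomputable def artinHom {φ : Ideal (𝓞 K) → (L ≃ₐ[K] L)} (hφ : IsArtinMap K L φ) :
    (Ideal (𝓞 K))⁰ →* (L ≃ₐ[K] L) where
  toFun a := φ (a : Ideal (𝓞 K))
  map_one' := by
    rw [OneMemClass.coe_one]; exact AuxRec.map_one hφ
  map_mul' a b := by
    rw [Submonoid.coe_mul]
    exact hφ.map_mul _ _ (AuxRec.coe_ne_bot a) (AuxRec.coe_ne_bot b)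

@[simp] theorem artinHom_apply {φ : Ideal (𝓞 K) → (L ≃ₐ[K] L)} (hφ : IsArtinMap K L φ)
    (a : (Ideal (𝓞 K))⁰) : artinHom hφ a = φ (a : Ideal (𝓞 K)) := rfl

/-- Every nonzero ideal is a product of nonzero primes. -/
theorem mem_closure_primes (a : (Ideal (𝓞 K))⁰) :
    a ∈ Submonoid.closure {𝔭 : (Ideal (𝓞 K))⁰ | (𝔭 : Ideal (𝓞 K)).IsPrime} := by
  have key : ∀ I : Ideal (𝓞 K), I ≠ ⊥ → ∀ h : I ∈ (Ideal (𝓞 K))⁰,
      (⟨I, h⟩ : (Ideal (𝓞 K))⁰) ∈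
        Submonoid.closure {𝔭 : (Ideal (𝓞 K))⁰ | (𝔭 : Ideal (𝓞 K)).IsPrime} := by
    intro I hI
    refine ArtinMap.ideal_induction
      (C := fun I : Ideal (𝓞 K) => ∀ h : I ∈ (Ideal (𝓞 K))⁰, (⟨I, h⟩ : (Ideal (𝓞 K))⁰) ∈
        Submonoid.closure {𝔭 : (Ideal (𝓞 K))⁰ | (𝔭 : Ideal (𝓞 K)).IsPrime}) ?_ ?_ ?_ I hI
    · intro h
      have : (⟨⊤, h⟩ : (Ideal (𝓞 K))⁰) = 1 := Subtype.ext Ideal.one_eq_top.symm
      rw [this]; exact Submonoid.one_mem _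
    · intro P hP _ h
      exact Submonoid.subset_closure hP
    · intro I J hI hJ ihI ihJ h
      have hI' : I ∈ (Ideal (𝓞 K))⁰ := mem_nonZeroDivisors_iff_ne_zero.mpr hI
      have hJ' : J ∈ (Ideal (𝓞 K))⁰ := mem_nonZeroDivisors_iff_ne_zero.mpr hJ
      have : (⟨I * J, h⟩ : (Ideal (𝓞 K))⁰) = ⟨I, hI'⟩ * ⟨J, hJ'⟩ := rfl
      rw [this]
      exact Submonoid.mul_mem _ (ihI hI') (ihJ hJ')
  exact key a (AuxRec.coe_ne_bot a) a.2

/-- A prime with trivial Artin symbol is a norm. -/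
theorem mk0_mem_of_prime_of_map_eq_one {φ : Ideal (𝓞 K) → (L ≃ₐ[K] L)} (hφ : IsArtinMap K L φ)
    (hunr : UnramifiedEverywhere K L) (𝔭 : (Ideal (𝓞 K))⁰) (h𝔭 : (𝔭 : Ideal (𝓞 K)).IsPrime)
    (h1 : φ (𝔭 : Ideal (𝓞 K)) = 1) : ClassGroup.mk0 𝔭 ∈ normClassSubgroup K L := by
  have h𝔭0 := AuxRec.coe_ne_bot 𝔭
  obtain ⟨⟨𝔓, h𝔓p, h𝔓o⟩⟩ :=
    (inferInstance : Nonempty ((𝔭 : Ideal (𝓞 K)).primesOver (𝓞 L)))
  have h𝔓0 : 𝔓 ≠ ⊥ := ArtinMap.ne_bot_of_liesOver L h𝔭0 𝔓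
  have hf := (ArtinSplit.map_eq_one_iff hφ hunr h𝔭0 𝔓).mp h1
  have h𝔭max : (𝔭 : Ideal (𝓞 K)).IsMaximal := Ring.DimensionLEOne.maximalOfPrime h𝔭0 h𝔭
  have h𝔓max : 𝔓.IsMaximal := Ring.DimensionLEOne.maximalOfPrime h𝔓0 h𝔓p
  have hN : Ideal.relNorm (𝓞 K) 𝔓 = (𝔭 : Ideal (𝓞 K)) := by
    rw [Ideal.relNorm_eq_pow_of_isMaximal 𝔓 (𝔭 : Ideal (𝓞 K)), hf, pow_one]
  have h𝔓mem : 𝔓 ∈ (Ideal (𝓞 L))⁰ := mem_nonZeroDivisors_iff_ne_zero.mpr h𝔓0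
  have : 𝔭 = relNorm0 K L ⟨𝔓, h𝔓mem⟩ := Subtype.ext hN.symm
  rw [this]
  exact mk0_relNorm0_mem K L _

/-- **Block (D), abstract form.**  If any two inert primes can be compared through a common ideal
`𝔟` with non-trivial symbol, then the kernel of the Artin map consists of norm classes. -/
theorem crossing (hdeg : Module.finrank K L = p) {φ : Ideal (𝓞 K) → (L ≃ₐ[K] L)}
    (hφ : IsArtinMap K L φ) (hunr : UnramifiedEverywhere K L)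
    (hpair : ∀ 𝔭₁ 𝔭₂ : (Ideal (𝓞 K))⁰, (𝔭₁ : Ideal (𝓞 K)).IsPrime → (𝔭₂ : Ideal (𝓞 K)).IsPrime →
      φ (𝔭₁ : Ideal (𝓞 K)) ≠ 1 → φ (𝔭₂ : Ideal (𝓞 K)) ≠ 1 →
      ∃ 𝔟 : (Ideal (𝓞 K))⁰, φ (𝔟 : Ideal (𝓞 K)) ≠ 1 ∧ AuxOK φ 𝔭₁ 𝔟 ∧ AuxOK φ 𝔭₂ 𝔟)
    (a : (Ideal (𝓞 K))⁰) (h1 : φ (a : Ideal (𝓞 K)) = 1) :
    ClassGroup.mk0 a ∈ normClassSubgroup K L := by
  have hcard : Nat.card (L ≃ₐ[K] L) = p := by rw [IsGalois.card_aut_eq_finrank, hdeg]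
  set X := normClassSubgroup K L with hX
  let c : (Ideal (𝓞 K))⁰ →* (ClassGroup (𝓞 K) ⧸ X) :=
    (QuotientGroup.mk' X).comp ClassGroup.mk0
  have hc : ∀ b : (Ideal (𝓞 K))⁰, c b = 1 ↔ ClassGroup.mk0 b ∈ X := fun b =>
    QuotientGroup.eq_one_iff _
  have hcpow : ∀ (b b' : (Ideal (𝓞 K))⁰) (u v : ℕ),
      ClassGroup.mk0 b ^ u * (ClassGroup.mk0 b' ^ v)⁻¹ ∈ X → c b ^ u = c b' ^ v := by
    intro b b' u v h
    have : (QuotientGroup.mk' X) (ClassGroup.mk0 b ^ u * (ClassGroup.mk0 b' ^ v)⁻¹) = 1 :=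
      (QuotientGroup.eq_one_iff _).mpr h
    rw [map_mul, map_inv, map_pow, map_pow, mul_inv_eq_one] at this
    exact this
  rw [← hc]
  refine crossing_group hcard (artinHom hφ) c
    {𝔭 : (Ideal (𝓞 K))⁰ | (𝔭 : Ideal (𝓞 K)).IsPrime} ?_ ?_ a (mem_closure_primes a) h1
  · intro 𝔭 h𝔭 h
    exact (hc 𝔭).mpr (mk0_mem_of_prime_of_map_eq_one hφ hunr 𝔭 h𝔭 h)
  · intro 𝔭₁ h𝔭₁ 𝔭₂ h𝔭₂ h1 h2
    obtain ⟨𝔟, hb, hb1, hb2⟩ := hpair 𝔭₁ 𝔭₂ h𝔭₁ h𝔭₂ h1 h2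
    exact ⟨𝔟, hb, fun u v h => hcpow _ _ u v (hb1 u v h), fun u v h => hcpow _ _ u v (hb2 u v h)⟩

end NF

section Aux

variable {p : ℕ} [hp : Fact p.Prime]
  {K L E M : Type*} [Field K] [Field L] [Field E] [Field M]
  [NumberField K] [NumberField L] [NumberField E] [NumberField M]
  [Algebra K L] [Algebra K E] [Algebra L M] [Algebra E M] [Algebra K M]
  [IsScalarTower K L M] [IsScalarTower K E M]
  [IsGalois K L] [IsGalois E M]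

/-- The norm of the inverse class: `[N b]⁻¹ = [N (b ^ (h - 1))]`, `h` the class number. -/
theorem mk0_relNorm0_pow_card_sub_one (b : (Ideal (𝓞 E))⁰) :
    ClassGroup.mk0 (relNorm0 K E (b ^ (Fintype.card (ClassGroup (𝓞 E)) - 1))) =
      (ClassGroup.mk0 (relNorm0 K E b))⁻¹ := by
  classical
  set n := Fintype.card (ClassGroup (𝓞 E)) with hn
  have hpos : 0 < n := Fintype.card_pos
  have h1 : ClassGroup.mk0 (b ^ n) = 1 := by rw [map_pow]; exact pow_card_eq_one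
  have h2 := NormDown.mk0_relNorm0_eq_one K E (b ^ n) h1
  apply eq_inv_of_mul_eq_one_left
  rw [← map_mul, ← map_mul, ← pow_succ, Nat.sub_add_cancel hpos]
  exact h2

/-- **One auxiliary field.**  `M/E` a base change of `L/K` (restriction injective), of degree
`p`, unramified, in which principal ideals prime to `𝔪` have trivial symbol and the second
inequality holds.  Then the norms to `K` of two ideals `𝔮`, `𝔟'` of `E` prime to `𝔪` are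
comparable modulo norm classes of `L/K`. -/
theorem auxOK_of_auxField (hdegE : Module.finrank E M = p)
    {φ : Ideal (𝓞 K) → (L ≃ₐ[K] L)} (hφ : IsArtinMap K L φ)
    {ψ : Ideal (𝓞 E) → (M ≃ₐ[E] M)} (hψ : IsArtinMap E M ψ)
    (hunrL : UnramifiedEverywhere K L) (hunrM : UnramifiedEverywhere E M)
    (hres : Function.Injective (ArtinMap.res K L E M))
    {𝔪 : Ideal (𝓞 E)} (h𝔪 : 𝔪 ≠ ⊥)
    (hB : ∀ γ : 𝓞 E, γ ≠ 0 → IsCoprime (Ideal.span {γ}) 𝔪 → ψ (Ideal.span {γ}) = 1)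
    (hI2 : (normClassSubgroup E M).index ≤ p)
    (𝔮 𝔟' : (Ideal (𝓞 E))⁰) (h𝔮 : IsCoprime (𝔮 : Ideal (𝓞 E)) 𝔪)
    (h𝔟' : IsCoprime (𝔟' : Ideal (𝓞 E)) 𝔪)
    (hne : φ ((relNorm0 K E 𝔟' : (Ideal (𝓞 K))⁰) : Ideal (𝓞 K)) ≠ 1) :
    AuxOK φ (relNorm0 K E 𝔮) (relNorm0 K E 𝔟') := by
  classical
  intro u v huv
  have hresψ : ∀ b : (Ideal (𝓞 E))⁰, ArtinMap.res K L E M (ψ (b : Ideal (𝓞 E))) =
      φ ((relNorm0 K E b : (Ideal (𝓞 K))⁰) : Ideal (𝓞 K)) := fun b =>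
    ArtinSplit.res_map hφ hψ hunrL (AuxRec.coe_ne_bot b)
  have hφpow : ∀ (b : (Ideal (𝓞 E))⁰) (k : ℕ),
      φ ((relNorm0 K E (b ^ k) : (Ideal (𝓞 K))⁰) : Ideal (𝓞 K)) =
        φ ((relNorm0 K E b : (Ideal (𝓞 K))⁰) : Ideal (𝓞 K)) ^ k := by
    intro b k
    rw [map_pow, SubmonoidClass.coe_pow, AuxRec.map_pow hφ (AuxRec.coe_ne_bot _)]
  have hb : IsCoprime (((𝔮 ^ u : (Ideal (𝓞 E))⁰)) : Ideal (𝓞 E)) 𝔪 := by
    rw [SubmonoidClass.coe_pow]; exact h𝔮.pow_left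
  have hb' : IsCoprime (((𝔟' ^ v : (Ideal (𝓞 E))⁰)) : Ideal (𝓞 E)) 𝔪 := by
    rw [SubmonoidClass.coe_pow]; exact h𝔟'.pow_left
  have hψeq : ψ ((𝔮 ^ u : (Ideal (𝓞 E))⁰) : Ideal (𝓞 E)) =
      ψ ((𝔟' ^ v : (Ideal (𝓞 E))⁰) : Ideal (𝓞 E)) := by
    apply hres
    rw [hresψ, hresψ, hφpow, hφpow]
    exact huv
  have hne' : ∃ b₀ : (Ideal (𝓞 E))⁰, IsCoprime (b₀ : Ideal (𝓞 E)) 𝔪 ∧
      ψ (b₀ : Ideal (𝓞 E)) ≠ 1 :=
    ⟨𝔟', h𝔟', fun h => hne (by rw [← hresψ, h, map_one])⟩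
  have hN : ∀ A : Ideal (𝓞 M), A ≠ ⊥ → ψ (Ideal.relNorm (𝓞 E) A) = 1 := fun A hA =>
    ArtinSplit.map_relNorm_eq_one hψ hunrM hA
  have h3 := AuxRec.mk0_mul_inv_mem_of_map_eq hdegE hψ h𝔪 hB hN hI2 hne' _ _ hb hb' hψeq
  set n := Fintype.card (ClassGroup (𝓞 E)) with hn
  have hpos : 0 < n := Fintype.card_pos
  have hinv : ClassGroup.mk0 ((𝔟' ^ v) ^ (n - 1)) = (ClassGroup.mk0 (𝔟' ^ v))⁻¹ := by
    apply eq_inv_of_mul_eq_one_left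
    rw [← map_mul, ← pow_succ, Nat.sub_add_cancel hpos, map_pow]
    exact pow_card_eq_one
  have h4 := NormDown.mk0_relNorm0_mem_of_mem K E L M (𝔮 ^ u * (𝔟' ^ v) ^ (n - 1))
    (by rw [map_mul, hinv]; exact h3)
  rw [map_mul, map_mul, mk0_relNorm0_pow_card_sub_one, map_pow, map_pow, map_pow, map_pow] at h4
  exact h4

end Aux

end Fermat.Agent.S14.CrossingAbs
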