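import Mathlib

/-!
# S14 / (L1): lattice-point counting with an error term

For a `ℤ`-lattice `L` in a finite-dimensional real normed space `E` (dimension `d + 1`) and a bounded
measurable set `D` whose frontier is covered by finitely many Lipschitz images of the unit cube
`[0,1]^d`, we prove `#(L ∩ t • D) = μ(D) t^(d+1) / covol(L) + O(t^d)` for `t ≥ 1`.
-/

set_option autoImplicit false
set_option linter.unusedSectionVars false

open MeasureTheory Module Submodule Bornology Metric
open scoped Pointwise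

namespace Fermat.Agent.S14.Count

variable {E : Type*} [NormedAddCommGroup E] [NormedSpace ℝ E] [FiniteDimensional ℝ E]

section ball

variable (L : Submodule ℤ E) [DiscreteTopology L]

/-- Lattice points in a bounded set are finite in number. -/
lemma finite_inter_of_isBounded {s : Set E} (hs : IsBounded s) : ((L : Set E) ∩ s).Finite := by
  have hcl : IsClosed (L : Set E) := by
    have : IsClosed ((L.toAddSubgroup : AddSubgroup E) : Set E) :=
      AddSubgroup.isClosed_of_discrete
    exact this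
  rw [Set.inter_comm]
  exact Metric.finite_isBounded_inter_isClosed DiscreteTopology.isDiscrete hs hcl

/-- The number of lattice points in a closed ball of radius `R` is bounded independently of the
centre. -/
lemma exists_ncard_closedBall_le (R : ℝ) :
    ∃ M : ℕ, ∀ x : E, ((L : Set E) ∩ closedBall x R).ncard ≤ M := by
  refine ⟨((L : Set E) ∩ closedBall 0 (2 * R)).ncard, fun x => ?_⟩
  have hfin : ((L : Set E) ∩ closedBall 0 (2 * R)).Finite :=
    finite_inter_of_isBounded L isBounded_closedBall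
  by_cases hne : ((L : Set E) ∩ closedBall x R).Nonempty
  · obtain ⟨y₀, hy₀L, hy₀⟩ := hne
    refine Set.ncard_le_ncard_of_injOn (fun y => y - y₀) ?_ ?_ hfin
    · rintro y ⟨hyL, hy⟩
      refine ⟨L.sub_mem hyL hy₀L, ?_⟩
      rw [mem_closedBall, dist_zero_right]
      rw [mem_closedBall] at hy hy₀
      calc ‖y - y₀‖ = dist y y₀ := (dist_eq_norm _ _).symm
        _ ≤ dist y x + dist x y₀ := dist_triangle _ _ _
        _ ≤ R + R := add_le_add hy (by rwa [dist_comm])
        _ = 2 * R := by ring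
    · intro y _ y' _ h
      simpa using h
  · rw [Set.not_nonempty_iff_eq_empty] at hne
    rw [hne, Set.ncard_empty]
    exact Nat.zero_le _

end ball

section net

/-- A `1/k`-net of the unit cube `[0,1]^d` (sup norm) indexed by `Fin d → Fin k`. -/
lemma exists_net (d k : ℕ) (hk : 0 < k) (u : Fin d → ℝ) (hu : u ∈ Set.Icc (0 : Fin d → ℝ) 1) :
    ∃ j : Fin d → Fin k, ‖u - fun a => ((j a : ℕ) : ℝ) / k‖ ≤ 1 / k := by
  have hk' : (0 : ℝ) < k := Nat.cast_pos.mpr hk
  have h0 : ∀ a, 0 ≤ u a := fun a => hu.1 a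
  have h1 : ∀ a, u a ≤ 1 := fun a => hu.2 a
  refine ⟨fun a => ⟨min ⌊(k : ℝ) * u a⌋₊ (k - 1), by omega⟩, ?_⟩
  rw [pi_norm_le_iff_of_nonneg (by positivity)]
  intro a
  simp only [Pi.sub_apply, Real.norm_eq_abs]
  have hfl : (⌊(k : ℝ) * u a⌋₊ : ℝ) ≤ k * u a := Nat.floor_le (by have := h0 a; positivity)
  have hfl2 : (k : ℝ) * u a < ⌊(k : ℝ) * u a⌋₊ + 1 := Nat.lt_floor_add_one _
  have hku : (k : ℝ) * u a ≤ k := by
    have := h1 a
    nlinarith
  have key : ∀ m : ℕ, |(k : ℝ) * u a - m| ≤ 1 → |u a - (m : ℝ) / k| ≤ 1 / k := by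
    intro m hm
    have : u a - (m : ℝ) / k = ((k : ℝ) * u a - m) / k := by
      field_simp
    rw [this, abs_div, abs_of_pos hk']
    exact div_le_div_of_nonneg_right hm hk'.le
  apply key
  rw [abs_le]
  rcases le_total ⌊(k : ℝ) * u a⌋₊ (k - 1) with hle | hle
  · rw [min_eq_left hle]
    constructor <;> linarith
  · rw [min_eq_right hle]
    have hk1 : ((k - 1 : ℕ) : ℝ) = k - 1 := by
      rw [Nat.cast_sub hk]; simp
    have hle' : ((k - 1 : ℕ) : ℝ) ≤ ⌊(k : ℝ) * u a⌋₊ := by exact_mod_cast hle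
    rw [hk1] at hle' ⊢
    constructor <;> linarith

end net


/-- A preconnected set meeting `S` and its complement meets the frontier of `S`. -/
lemma inter_frontier_nonempty {X : Type*} [TopologicalSpace X] {C S : Set X}
    (hC : IsPreconnected C) (h1 : (C ∩ S).Nonempty) (h2 : (C ∩ Sᶜ).Nonempty) :
    (C ∩ frontier S).Nonempty := by
  by_contra hcon
  rw [Set.not_nonempty_iff_eq_empty] at hcon
  have hsub : C ⊆ interior S ∪ interior Sᶜ := by
    intro x hx
    by_cases hxc : x ∈ closure S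
    · left
      by_contra hxi
      have : x ∈ C ∩ frontier S := ⟨hx, hxc, hxi⟩
      rw [hcon] at this
      exact this
    · right
      rw [interior_compl]
      exact hxc
  have hdisj : Disjoint (interior S) (interior Sᶜ) :=
    Set.disjoint_of_subset interior_subset interior_subset disjoint_compl_right
  rcases hC.subset_or_subset isOpen_interior isOpen_interior hdisj hsub with h | h
  · obtain ⟨x, hxC, hxS⟩ := h2
    exact hxS (interior_subset (h hxC))
  · obtain ⟨x, hxC, hxS⟩ := h1
    exact (interior_subset (h hxC)) hxS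

variable [MeasurableSpace E] [BorelSpace E]
variable (L : Submodule ℤ E) [DiscreteTopology L] [IsZLattice ℝ L]
variable (μ : Measure E) [μ.IsAddHaarMeasure]

/-- A bounded convex measurable fundamental domain containing `0`. -/
lemma exists_fundamentalDomain : ∃ F : Set E, IsAddFundamentalDomain L F μ ∧ IsBounded F ∧
    (0 : E) ∈ F ∧ Convex ℝ F ∧ μ.real F = ZLattice.covolume L μ := by
  let b := Module.Free.chooseBasis ℤ L
  refine ⟨ZSpan.fundamentalDomain (b.ofZLatticeBasis ℝ L), ZLattice.isAddFundamentalDomain b μ,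
    ZSpan.fundamentalDomain_isBounded _, ?_, ?_, ?_⟩
  · rw [ZSpan.mem_fundamentalDomain]
    intro i
    simp
  · have : ZSpan.fundamentalDomain (b.ofZLatticeBasis ℝ L) =
        (b.ofZLatticeBasis ℝ L).equivFun ⁻¹' (Set.pi Set.univ fun _ => Set.Ico (0 : ℝ) 1) := by
      ext x
      simp [ZSpan.mem_fundamentalDomain]
    rw [this]
    exact (convex_pi fun i _ => convex_Ico 0 1).linear_preimage
      (b.ofZLatticeBasis ℝ L).equivFun.toLinearMap
  · exact (ZLattice.covolume_eq_measure_fundamentalDomain L μ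
      (ZLattice.isAddFundamentalDomain b μ)).symm


section sandwich

variable {L μ}
variable {F : Set E} (hF : IsAddFundamentalDomain L F μ) (hFb : IsBounded F) (hF0 : (0 : E) ∈ F)
  (hFc : Convex ℝ F)

include hF hFb hF0 hFc in
/-- **Sandwich.**  The number of lattice points in a bounded measurable set `S` differs from
`μ(S) / covol` by at most the number of translates of the fundamental domain meeting the frontier
of `S`. -/
lemma abs_ncard_sub_le {S : Set E} (hS : IsBounded S) :
    |(((L : Set E) ∩ S).ncard : ℝ) - μ.real S / μ.real F| ≤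
      ({g : E | g ∈ L ∧ ((((g : E) +ᵥ F) ∩ frontier S).Nonempty)}.ncard : ℝ) := by
  classical
  have : MeasurableVAdd L E := (inferInstance : MeasurableVAdd L.toAddSubgroup E)
  have : VAddInvariantMeasure L E μ := (inferInstance : VAddInvariantMeasure L.toAddSubgroup E μ)
  have hcpos : 0 < μ.real F := by
    have := ZLattice.covolume_pos L μ
    rwa [ZLattice.covolume_eq_measure_fundamentalDomain L μ hF] at this
  have hcfin : μ F ≠ ⊤ := hFb.measure_lt_top.ne
  have hSfin : μ S ≠ ⊤ := hS.measure_lt_top.ne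
  -- the finite set of relevant lattice points
  have hBfin : ((L : Set E) ∩ (S - F)).Finite := finite_inter_of_isBounded L (hS.sub hFb)
  have hmeet : ∀ g : L, (S ∩ (g +ᵥ F)).Nonempty → (g : E) ∈ (L : Set E) ∩ (S - F) := by
    rintro g ⟨x, hxS, f, hf, rfl⟩
    refine ⟨g.2, ?_⟩
    rw [Set.mem_sub]
    exact ⟨_, hxS, f, hf, by simp⟩
  let Bs : Set L := {g | (S ∩ (g +ᵥ F)).Nonempty}
  have hBsfin : Bs.Finite := by
    have : Bs ⊆ (fun g : L => (g : E)) ⁻¹' ((L : Set E) ∩ (S - F)) := fun g hg => hmeet g hg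
    exact (hBfin.preimage (Subtype.val_injective.injOn)).subset this
  let Bf : Finset L := hBsfin.toFinset
  have hBf : ∀ g : L, g ∈ Bf ↔ (S ∩ (g +ᵥ F)).Nonempty := fun g => by
    simp [Bf, Bs]
  -- measure of `S` as a finite sum
  have hsum : μ S = ∑ g ∈ Bf, μ (S ∩ (g +ᵥ F)) := by
    rw [hF.measure_eq_tsum' S]
    refine tsum_eq_sum fun g hg => ?_
    rw [hBf, Set.not_nonempty_iff_eq_empty] at hg
    rw [hg, measure_empty]
  have hvadd : ∀ g : L, μ (g +ᵥ F) = μ F := fun g => by
    show μ ((g : E) +ᵥ F) = μ F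
    exact measure_vadd μ (g : E) F
  let Af : Finset L := Bf.filter fun g => (g +ᵥ F : Set E) ⊆ S
  let Pf : Finset L := Bf.filter fun g => (g : E) ∈ S
  let Frf : Finset L := Bf.filter fun g => ((g +ᵥ F) ∩ frontier S : Set E).Nonempty
  have hmem0 : ∀ g : L, (g : E) ∈ (g +ᵥ F : Set E) := fun g =>
    ⟨0, hF0, by simp⟩
  have hAP : Af ⊆ Pf := by
    intro g hg
    rw [Finset.mem_filter] at hg ⊢
    exact ⟨hg.1, hg.2 (hmem0 g)⟩
  have hPB : Pf ⊆ Bf := Finset.filter_subset _ _
  have hBAF : Bf \ Af ⊆ Frf := by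
    intro g hg
    rw [Finset.mem_sdiff, Finset.mem_filter] at hg
    obtain ⟨hgB, hgA⟩ := hg
    rw [Finset.mem_filter]
    refine ⟨hgB, ?_⟩
    have hnot : ¬ (g +ᵥ F : Set E) ⊆ S := fun h => hgA ⟨hgB, h⟩
    have hpre : IsPreconnected (g +ᵥ F : Set E) := by
      show IsPreconnected ((fun x => (g : E) + x) '' F)
      exact hFc.isPreconnected.image _ (by fun_prop)
    apply inter_frontier_nonempty hpre
    · rw [Set.inter_comm]; exact (hBf g).mp hgB
    · rw [Set.not_subset] at hnot
      obtain ⟨x, hx, hxS⟩ := hnot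
      exact ⟨x, hx, hxS⟩
  -- bounds on the measure
  have hupper : μ S ≤ (Bf.card : ENNReal) * μ F := by
    rw [hsum]
    calc ∑ g ∈ Bf, μ (S ∩ (g +ᵥ F)) ≤ ∑ _g ∈ Bf, μ F :=
          Finset.sum_le_sum fun g _ => (measure_mono Set.inter_subset_right).trans (hvadd g).le
      _ = (Bf.card : ENNReal) * μ F := by rw [Finset.sum_const, nsmul_eq_mul]
  have hlower : (Af.card : ENNReal) * μ F ≤ μ S := by
    rw [hsum]
    calc (Af.card : ENNReal) * μ F = ∑ _g ∈ Af, μ F := by rw [Finset.sum_const, nsmul_eq_mul]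
      _ = ∑ g ∈ Af, μ (S ∩ (g +ᵥ F)) := by
          refine Finset.sum_congr rfl fun g hg => ?_
          rw [Finset.mem_filter] at hg
          rw [Set.inter_eq_right.mpr hg.2, hvadd]
      _ ≤ ∑ g ∈ Bf, μ (S ∩ (g +ᵥ F)) :=
          Finset.sum_le_sum_of_subset (Finset.filter_subset _ _)
  -- real versions
  have hupperR : μ.real S / μ.real F ≤ Bf.card := by
    rw [div_le_iff₀ hcpos]
    have := ENNReal.toReal_mono (ENNReal.mul_ne_top (ENNReal.natCast_ne_top _) hcfin) hupper
    rwa [ENNReal.toReal_mul, ENNReal.toReal_natCast] at this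
  have hlowerR : (Af.card : ℝ) ≤ μ.real S / μ.real F := by
    rw [le_div_iff₀ hcpos]
    have := ENNReal.toReal_mono hSfin hlower
    rwa [ENNReal.toReal_mul, ENNReal.toReal_natCast] at this
  -- cardinalities
  have hP : ((L : Set E) ∩ S).ncard = Pf.card := by
    have : (L : Set E) ∩ S = (fun g : L => (g : E)) '' (Pf : Set L) := by
      ext x
      simp only [Set.mem_inter_iff, SetLike.mem_coe, Set.mem_image,
        Finset.coe_filter, Set.mem_ofPred_eq, Pf]
      constructor
      · rintro ⟨hxL, hxS⟩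
        exact ⟨⟨x, hxL⟩, ⟨(hBf _).mpr ⟨x, hxS, hmem0 ⟨x, hxL⟩⟩, hxS⟩, rfl⟩
      · rintro ⟨g, ⟨_, hgS⟩, rfl⟩
        exact ⟨g.2, hgS⟩
    rw [this, Set.ncard_image_of_injective _ Subtype.val_injective, Set.ncard_coe_finset]
  have hFr : Frf.card ≤ {g : E | g ∈ L ∧ ((((g : E) +ᵥ F) ∩ frontier S).Nonempty)}.ncard := by
    have hfin : {g : E | g ∈ L ∧ ((((g : E) +ᵥ F) ∩ frontier S).Nonempty)}.Finite := by
      refine (finite_inter_of_isBounded L ((hS.closure).sub hFb)).subset ?_
      rintro g ⟨hgL, x, ⟨f, hf, rfl⟩, hx⟩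
      refine ⟨hgL, ?_⟩
      rw [Set.mem_sub]
      exact ⟨_, frontier_subset_closure hx, f, hf, by simp⟩
    have : (fun g : L => (g : E)) '' (Frf : Set L) ⊆
        {g : E | g ∈ L ∧ ((((g : E) +ᵥ F) ∩ frontier S).Nonempty)} := by
      rintro _ ⟨g, hg, rfl⟩
      simp only [Finset.coe_filter, Set.mem_ofPred_eq, Frf] at hg
      exact ⟨g.2, hg.2⟩
    calc Frf.card = ((fun g : L => (g : E)) '' (Frf : Set L)).ncard := by
          rw [Set.ncard_image_of_injective _ Subtype.val_injective, Set.ncard_coe_finset]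
      _ ≤ _ := Set.ncard_le_ncard this hfin
  have h1 : (Af.card : ℝ) ≤ Pf.card := by exact_mod_cast Finset.card_le_card hAP
  have h2 : (Pf.card : ℝ) ≤ Bf.card := by exact_mod_cast Finset.card_le_card hPB
  have h3 : (Bf.card : ℝ) - Af.card ≤ Frf.card := by
    have hAB : Af ⊆ Bf := Finset.filter_subset _ _
    have := Finset.card_le_card hBAF
    rw [Finset.card_sdiff_of_subset hAB] at this
    have h4 : Af.card ≤ Bf.card := Finset.card_le_card hAB
    have : (Bf.card : ℝ) - Af.card = ((Bf.card - Af.card : ℕ) : ℝ) := by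
      rw [Nat.cast_sub h4]
    rw [this]
    exact_mod_cast ‹Bf.card - Af.card ≤ Frf.card›
  have h5 : (Frf.card : ℝ) ≤
      ({g : E | g ∈ L ∧ ((((g : E) +ᵥ F) ∩ frontier S).Nonempty)}.ncard : ℝ) := by
    exact_mod_cast hFr
  rw [hP, abs_le]
  constructor <;> linarith

end sandwich

section main

open scoped NNReal

omit [MeasurableSpace E] [BorelSpace E] [FiniteDimensional ℝ E] in
lemma frontier_smul_set {t : ℝ} (ht : t ≠ 0) (D : Set E) : frontier (t • D) = t • frontier D := by
  have := (isHomeomorph_smul₀ (α := E) ht).image_frontier D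
  rw [Set.image_smul, Set.image_smul] at this
  exact this.symm

/-- **Lattice point counting with an error term.**  Let `D` be a bounded set in a real normed space
of dimension `d + 1` whose frontier is covered by `m` images of the unit cube `[0,1]^d` under
`K`-Lipschitz maps.  Then `#(L ∩ t • D) = μ(D) t^(d+1) / covol(L) + O(t^d)` for `t ≥ 1`. -/
theorem exists_abs_ncard_smul_sub_le {D : Set E} (hD : IsBounded D) {m d : ℕ}
    (hd : finrank ℝ E = d + 1) (φ : Fin m → (Fin d → ℝ) → E) {K : ℝ≥0}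
    (hφ : ∀ i, LipschitzWith K (φ i))
    (hcov : frontier D ⊆ ⋃ i, φ i '' Set.Icc (0 : Fin d → ℝ) 1) :
    ∃ C : ℝ, ∀ t : ℝ, 1 ≤ t →
      |(((L : Set E) ∩ t • D).ncard : ℝ) - μ.real D * t ^ (d + 1) / ZLattice.covolume L μ| ≤
        C * t ^ d := by
  classical
  obtain ⟨F, hF, hFb, hF0, hFc, hFcov⟩ := exists_fundamentalDomain L μ
  obtain ⟨r, hr⟩ := hFb.exists_norm_le
  obtain ⟨M, hM⟩ := exists_ncard_closedBall_le L ((K : ℝ) + r)
  refine ⟨m * M * 2 ^ d, fun t ht => ?_⟩
  have ht0 : 0 < t := lt_of_lt_of_le one_pos ht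
  -- the measure of the dilated set
  have hvol : μ.real (t • D) = μ.real D * t ^ (d + 1) := by
    rw [Measure.real, Measure.addHaar_smul_of_nonneg μ ht0.le, hd, ENNReal.toReal_mul,
      ENNReal.toReal_ofReal (pow_nonneg ht0.le _), mul_comm, Measure.real]
  rw [← hvol, ← hFcov]
  refine (abs_ncard_sub_le hF hFb hF0 hFc (hD.smul₀ t)).trans ?_
  -- the net
  set k : ℕ := ⌈t⌉₊ with hk
  have hkpos : 0 < k := Nat.ceil_pos.mpr ht0
  have hkt : t ≤ k := Nat.le_ceil t
  have hk2 : (k : ℝ) ≤ 2 * t := by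
    have := Nat.ceil_lt_add_one ht0.le
    linarith
  let pt : Fin m × (Fin d → Fin k) → E := fun ij =>
    t • φ ij.1 (fun a => ((ij.2 a : ℕ) : ℝ) / k)
  have hfin : ∀ ij, ((L : Set E) ∩ closedBall (pt ij) ((K : ℝ) + r)).Finite := fun ij =>
    finite_inter_of_isBounded L isBounded_closedBall
  have hsub : {g : E | g ∈ L ∧ ((((g : E) +ᵥ F) ∩ frontier (t • D)).Nonempty)} ⊆
      ↑(Finset.univ.biUnion fun ij => (hfin ij).toFinset) := by
    rintro g ⟨hgL, x, ⟨f, hf, rfl⟩, hx⟩
    rw [frontier_smul_set ht0.ne'] at hx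
    obtain ⟨y, hy, hyx⟩ := hx
    obtain ⟨i, hi⟩ := Set.mem_iUnion.mp (hcov hy)
    obtain ⟨u, hu, rfl⟩ := hi
    obtain ⟨j, hj⟩ := exists_net d k hkpos u hu
    simp only [Finset.coe_biUnion, Finset.coe_univ, Set.mem_univ, Set.iUnion_true,
      Set.Finite.coe_toFinset, Set.mem_iUnion, Set.mem_inter_iff, SetLike.mem_coe,
      mem_closedBall]
    refine ⟨(i, j), hgL, ?_⟩
    have h1 : dist (t • φ i u) (pt (i, j)) ≤ K := by
      simp only [pt]
      rw [dist_smul₀, Real.norm_of_nonneg ht0.le]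
      have h2 : dist (φ i u) (φ i fun a => ((j a : ℕ) : ℝ) / k) ≤ K * (1 / k) := by
        refine ((hφ i).dist_le_mul _ _).trans ?_
        rw [dist_eq_norm]
        exact mul_le_mul_of_nonneg_left hj K.2
      calc t * dist (φ i u) (φ i fun a => ((j a : ℕ) : ℝ) / k)
          ≤ t * (K * (1 / k)) := mul_le_mul_of_nonneg_left h2 ht0.le
        _ = K * (t / k) := by ring
        _ ≤ K * 1 := by
            refine mul_le_mul_of_nonneg_left ?_ K.2
            rw [div_le_one (Nat.cast_pos.mpr hkpos)]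
            exact hkt
        _ = K := mul_one _
    have h3 : g = t • φ i u - f := by
      have : t • φ i u = g + f := hyx
      rw [this]
      simp
    calc dist g (pt (i, j)) = dist (t • φ i u - f) (pt (i, j)) := by rw [h3]
      _ ≤ dist (t • φ i u - f) (t • φ i u) + dist (t • φ i u) (pt (i, j)) := dist_triangle _ _ _
      _ ≤ r + K := by
          refine add_le_add ?_ h1
          rw [dist_eq_norm]
          simpa using hr f hf
      _ = K + r := add_comm _ _
  have hcard : {g : E | g ∈ L ∧ ((((g : E) +ᵥ F) ∩ frontier (t • D)).Nonempty)}.ncard ≤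
      m * k ^ d * M := by
    calc _ ≤ (↑(Finset.univ.biUnion fun ij => (hfin ij).toFinset) : Set E).ncard :=
          Set.ncard_le_ncard hsub (Finset.finite_toSet _)
      _ = (Finset.univ.biUnion fun ij => (hfin ij).toFinset).card := Set.ncard_coe_finset _
      _ ≤ ∑ ij : Fin m × (Fin d → Fin k), ((hfin ij).toFinset).card := Finset.card_biUnion_le
      _ ≤ ∑ _ij : Fin m × (Fin d → Fin k), M := by
          refine Finset.sum_le_sum fun ij _ => ?_
          rw [← Set.ncard_eq_toFinset_card _ (hfin ij)]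
          exact hM _
      _ = m * k ^ d * M := by
          simp [Finset.card_univ, Fintype.card_prod, Fintype.card_pi]
  calc ({g : E | g ∈ L ∧ ((((g : E) +ᵥ F) ∩ frontier (t • D)).Nonempty)}.ncard : ℝ)
      ≤ ((m * k ^ d * M : ℕ) : ℝ) := by exact_mod_cast hcard
    _ = m * M * (k : ℝ) ^ d := by push_cast; ring
    _ ≤ m * M * (2 * t) ^ d := by
        refine mul_le_mul_of_nonneg_left ?_ (by positivity)
        exact pow_le_pow_left₀ (by positivity) hk2 d
    _ = m * M * 2 ^ d * t ^ d := by rw [mul_pow]; ring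

end main

end Fermat.Agent.S14.Count
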