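/-
S14 / (L3): the number of integral ideals of norm `≤ s` in a fixed ideal class, with an error term
`O(s^(d/(d+1)))`, `d + 1 = [K : ℚ]`.  Same proof as Mathlib's
`NumberField.Ideal.tendsto_norm_le_and_mk_eq_div_atTop`, with the lattice point count with error term
(L1, `LatticeCount.lean`, helper18) in place of the asymptotic count; the hypothesis on the frontier
of `normLeOne K` is (L2).
(helper6)
-/
import Mathlib
import Fermat.Agent.S14.LatticeCount

set_option autoImplicit false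

open NumberField NumberField.mixedEmbedding NumberField.mixedEmbedding.fundamentalCone
open NumberField.InfinitePlace NumberField.Units
open MeasureTheory Ideal Submodule
open scoped nonZeroDivisors Pointwise NNReal Real Classical

namespace Fermat.Agent.S14.IdealCountError

variable (K : Type*) [Field K] [NumberField K]

/-- The hypothesis delivered by (L2): the frontier of `normLeOne K` is covered by finitely many
Lipschitz images of the unit cube of dimension `d`. -/
def FrontierCover (d : ℕ) : Prop :=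
  ∃ (m : ℕ) (C : ℝ≥0) (φ : Fin m → (Fin d → ℝ) → mixedSpace K),
    (∀ i, LipschitzWith C (φ i)) ∧
      frontier (normLeOne K) ⊆ ⋃ i, φ i '' Set.Icc (0 : Fin d → ℝ) 1

variable {K}

/-- Dilating `normLeOne K`. -/
theorem smul_normLeOne {t : ℝ} (ht : 0 < t) :
    t • normLeOne K =
      {x | x ∈ fundamentalCone K ∧ mixedEmbedding.norm x ≤ t ^ Module.finrank ℚ K} := by
  ext x
  rw [Set.mem_smul_set_iff_inv_smul_mem₀ ht.ne']
  have h2 : normLeOne K = {x | x ∈ fundamentalCone K ∧ mixedEmbedding.norm x ≤ 1} := by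
    ext; simp
  rw [h2, Set.mem_setOf_eq, Set.mem_setOf_eq, smul_mem_iff_mem (inv_ne_zero ht.ne'),
    mixedEmbedding.norm_smul, abs_of_pos (inv_pos.mpr ht), inv_pow,
    inv_mul_le_iff₀ (pow_pos ht _), mul_one]

variable (K)

/-- Reformulation of the counting problem: ideals in the class `C` of norm `≤ s` versus principal
ideals divisible by `J` (with `[J] = C⁻¹`) of norm `≤ s * N J`. -/
theorem card_class_eq {C : ClassGroup (𝓞 K)} {J : (Ideal (𝓞 K))⁰} (s : ℝ)
    (hJ : ClassGroup.mk0 J = C⁻¹) :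
    Nat.card {I : (Ideal (𝓞 K))⁰ // absNorm (I : Ideal (𝓞 K)) ≤ s ∧ ClassGroup.mk0 I = C}
      = Nat.card {I : (Ideal (𝓞 K))⁰ // (J : Ideal (𝓞 K)) ∣ I ∧ IsPrincipal (I : Ideal (𝓞 K)) ∧
        absNorm (I : Ideal (𝓞 K)) ≤ s * absNorm (J : Ideal (𝓞 K))} := by
  simp_rw [← nonZeroDivisors_dvd_iff_dvd_coe]
  refine Nat.card_congr ?_
  refine ((Equiv.dvd J).subtypeEquiv fun I ↦ ?_).trans
    (Equiv.subtypeSubtypeEquivSubtypeInter (fun I : (Ideal (𝓞 K))⁰ ↦ J ∣ I) _)
  rw [← ClassGroup.mk0_eq_one_iff (SetLike.coe_mem _)]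
  simp_rw [Equiv.dvd_apply, Submonoid.coe_mul, ← Submonoid.mul_def, _root_.map_mul, hJ,
    inv_mul_eq_one, Nat.cast_mul, mul_comm s, eq_comm, and_comm, and_congr_left_iff]
  exact fun _ ↦
    (mul_le_mul_iff_of_pos_left (Nat.cast_pos.mpr (absNorm_pos_of_nonZeroDivisors J))).symm

/-- The points of `idealSet K J` of norm `≤ S` are the lattice points of the ideal lattice of `J`
in the truncated cone. -/
theorem card_idealSet_eq (J : (Ideal (𝓞 K))⁰) (S : ℝ) :
    Nat.card {a : idealSet K J // mixedEmbedding.norm (a : mixedSpace K) ≤ S} =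
      ((idealLattice K (FractionalIdeal.mk0 K J) : Set (mixedSpace K)) ∩
        {x | x ∈ fundamentalCone K ∧ mixedEmbedding.norm x ≤ S}).ncard := by
  rw [← Nat.card_coe_set_eq]
  refine Nat.card_congr ?_
  refine (Equiv.subtypeSubtypeEquivSubtypeInter _ (mixedEmbedding.norm · ≤ S)).trans
    (Equiv.subtypeEquivProp ?_)
  ext x
  simp only [Set.mem_inter_iff, SetLike.mem_coe, Set.mem_setOf_eq, mem_idealSet, mem_idealLattice,
    FractionalIdeal.coe_mk0]
  constructor
  · rintro ⟨⟨hx₁, a, ha, rfl⟩, hx₂⟩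
    exact ⟨⟨(a : K), by simpa using ha, rfl⟩, hx₁, hx₂⟩
  · rintro ⟨⟨y, hy, rfl⟩, hx₁, hx₂⟩
    rw [FractionalIdeal.mem_coeIdeal] at hy
    obtain ⟨a, ha, rfl⟩ := hy
    exact ⟨⟨hx₁, a, ha, rfl⟩, hx₂⟩


/-- The density of ideals in a class: `2^r₁ (2π)^r₂ Reg / (w √|disc|)`. -/
noncomputable def density : ℝ :=
  (2 ^ nrRealPlaces K * (2 * π) ^ nrComplexPlaces K * regulator K) /
    (torsionOrder K * Real.sqrt |discr K|)

theorem volume_div_covolume (J : (Ideal (𝓞 K))⁰) :
    (volume : Measure (mixedSpace K)).real (normLeOne K) * (absNorm (J : Ideal (𝓞 K)) : ℝ) /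
      (ZLattice.covolume (idealLattice K (FractionalIdeal.mk0 K J)) volume * torsionOrder K) =
      density K := by
  have h₃ : (absNorm J.1 : ℝ) ≠ 0 := (Nat.cast_ne_zero.mpr (absNorm_ne_zero_of_nonZeroDivisors J))
  rw [density, MeasureTheory.measureReal_def, volume_normLeOne, covolume_idealLattice,
    ENNReal.toReal_mul,
      ENNReal.toReal_mul, ENNReal.toReal_pow, ENNReal.toReal_pow, ENNReal.toReal_ofNat,
      ENNReal.coe_toReal, NNReal.coe_real_pi, ENNReal.toReal_ofReal (regulator_pos K).le,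
      FractionalIdeal.coe_mk0, FractionalIdeal.coeIdeal_absNorm, Rat.cast_natCast]
  have h4 : (Real.sqrt |(discr K : ℝ)|) ≠ 0 := by
    have : (0 : ℝ) < |(discr K : ℝ)| := abs_pos.mpr (by exact_mod_cast discr_ne_zero K)
    exact (Real.sqrt_pos.mpr this).ne'
  have h5 : (torsionOrder K : ℝ) ≠ 0 := Nat.cast_ne_zero.mpr (torsionOrder_ne_zero K)
  rw [mul_pow, inv_pow]
  field_simp


/-- **(L3)** The number of nonzero integral ideals of norm `≤ s` in the class `C` is
`density K * s + O(s^(d/(d+1)))`, `d + 1 = [K : ℚ]`. -/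
theorem exists_abs_card_sub_le {d : ℕ} (hd : Module.finrank ℚ K = d + 1)
    (hcov : FrontierCover K d) (C : ClassGroup (𝓞 K)) :
    ∃ B : ℝ, ∀ s : ℝ, 1 ≤ s →
      |(Nat.card {I : (Ideal (𝓞 K))⁰ //
          absNorm (I : Ideal (𝓞 K)) ≤ s ∧ ClassGroup.mk0 I = C} : ℝ) - density K * s| ≤
        B * s ^ ((d : ℝ) / (d + 1)) := by
  obtain ⟨J, hJ⟩ := ClassGroup.mk0_surjective C⁻¹
  obtain ⟨m, Clip, φ, hφ, hcov⟩ := hcov
  have hd' : Module.finrank ℝ (mixedSpace K) = d + 1 := by rw [mixedEmbedding.finrank, hd]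
  obtain ⟨C₁, hC₁⟩ := Count.exists_abs_ncard_smul_sub_le
    (L := idealLattice K (FractionalIdeal.mk0 K J)) (μ := volume)
    (isBounded_normLeOne K) hd' φ hφ hcov
  set a : ℝ := (absNorm (J : Ideal (𝓞 K)) : ℝ) with ha
  set w : ℝ := (torsionOrder K : ℝ) with hw
  have ha1 : 1 ≤ a := by
    rw [ha]
    exact_mod_cast Nat.one_le_iff_ne_zero.mpr (absNorm_ne_zero_of_nonZeroDivisors J)
  have ha0 : 0 < a := lt_of_lt_of_le one_pos ha1
  have hw0 : 0 < w := by
    rw [hw]
    exact_mod_cast Nat.pos_of_ne_zero (torsionOrder_ne_zero K)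
  have hn0 : (0 : ℝ) < (d : ℝ) + 1 := by positivity
  refine ⟨C₁ / w * a ^ ((d : ℝ) / (d + 1)), fun s hs => ?_⟩
  have hs0 : 0 < s := lt_of_lt_of_le one_pos hs
  set S : ℝ := s * a with hS
  have hS1 : 1 ≤ S := by
    rw [hS]; nlinarith
  have hS0 : 0 < S := lt_of_lt_of_le one_pos hS1
  set t : ℝ := S ^ ((1 : ℝ) / (d + 1)) with ht
  have ht1 : 1 ≤ t := Real.one_le_rpow hS1 (by positivity)
  have ht0 : 0 < t := lt_of_lt_of_le one_pos ht1
  have htn : t ^ (d + 1) = S := by
    rw [ht, ← Real.rpow_natCast, ← Real.rpow_mul hS0.le]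
    push_cast
    rw [one_div, inv_mul_cancel₀ hn0.ne', Real.rpow_one]
  have htd : t ^ d = a ^ ((d : ℝ) / (d + 1)) * s ^ ((d : ℝ) / (d + 1)) := by
    rw [ht, ← Real.rpow_natCast, ← Real.rpow_mul hS0.le, hS, mul_comm s a,
      Real.mul_rpow ha0.le hs0.le]
    congr 2 <;> ring
  -- the count
  have hcount : (Nat.card {I : (Ideal (𝓞 K))⁰ //
        absNorm (I : Ideal (𝓞 K)) ≤ s ∧ ClassGroup.mk0 I = C} : ℝ) * w =
      ((((idealLattice K (FractionalIdeal.mk0 K J) : Set (mixedSpace K)) ∩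
        t • normLeOne K).ncard : ℕ) : ℝ) := by
    rw [card_class_eq K s hJ, hw, ← Nat.cast_mul, card_isPrincipal_dvd_norm_le,
      card_idealSet_eq, smul_normLeOne ht0, hd, htn]
  have hmain := hC₁ t ht1
  rw [← hcount, htn] at hmain
  have hρ := volume_div_covolume K J
  rw [← ha, ← hw] at hρ
  have hcov0 : ZLattice.covolume (idealLattice K (FractionalIdeal.mk0 K J)) volume ≠ 0 :=
    (ZLattice.covolume_pos _ _).ne'
  -- divide by `w`
  have e1 : (Nat.card {I : (Ideal (𝓞 K))⁰ //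
        absNorm (I : Ideal (𝓞 K)) ≤ s ∧ ClassGroup.mk0 I = C} : ℝ) - density K * s =
      ((Nat.card {I : (Ideal (𝓞 K))⁰ //
        absNorm (I : Ideal (𝓞 K)) ≤ s ∧ ClassGroup.mk0 I = C} : ℝ) * w -
        (volume : Measure (mixedSpace K)).real (normLeOne K) * S /
          ZLattice.covolume (idealLattice K (FractionalIdeal.mk0 K J)) volume) / w := by
    rw [← hρ, hS]
    field_simp
  rw [e1, abs_div, abs_of_pos hw0, div_le_iff₀ hw0]
  refine hmain.trans (le_of_eq ?_)
  rw [htd]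
  field_simp

end Fermat.Agent.S14.IdealCountError
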