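import Mathlib

/-!
# S14 / I2 / L2: Lipschitz parametrisation of the frontier of `normLeOne K`

The frontier of Mathlib's `NumberField.mixedEmbedding.fundamentalCone.normLeOne K` is covered by
finitely many Lipschitz images of the unit cube of dimension `finrank ℚ K - 1`.
-/

set_option autoImplicit false

open scoped NNReal

namespace Fermat.Agent.S14.NormLeOneLip

section Generic

variable {E : Type*} [NormedAddCommGroup E] [NormedSpace ℝ E]

/-- A set is covered by finitely many Lipschitz images of the `d`-dimensional unit cube. -/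
def LipCoverable (d : ℕ) (S : Set E) : Prop :=
  ∃ (m : ℕ) (C : ℝ≥0) (φ : Fin m → (Fin d → ℝ) → E),
    (∀ i, LipschitzWith C (φ i)) ∧ S ⊆ ⋃ i, φ i '' Set.Icc (0 : Fin d → ℝ) 1

lemma LipCoverable.mono {d : ℕ} {S T : Set E} (hT : LipCoverable d T) (h : S ⊆ T) :
    LipCoverable d S := by
  obtain ⟨m, C, φ, hφ, hcov⟩ := hT
  exact ⟨m, C, φ, hφ, h.trans hcov⟩

lemma lipCoverable_empty (d : ℕ) : LipCoverable d (∅ : Set E) :=
  ⟨0, 0, fun i => Fin.elim0 i, fun i => Fin.elim0 i, Set.empty_subset _⟩

lemma LipCoverable.union {d : ℕ} {S T : Set E} (hS : LipCoverable d S) (hT : LipCoverable d T) :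
    LipCoverable d (S ∪ T) := by
  obtain ⟨m₁, C₁, φ₁, hφ₁, hcov₁⟩ := hS
  obtain ⟨m₂, C₂, φ₂, hφ₂, hcov₂⟩ := hT
  refine ⟨m₁ + m₂, max C₁ C₂, Fin.append φ₁ φ₂, fun i => ?_, ?_⟩
  · refine Fin.addCases (fun j => ?_) (fun j => ?_) i
    · rw [Fin.append_left]
      exact (hφ₁ j).weaken (le_max_left _ _)
    · rw [Fin.append_right]
      exact (hφ₂ j).weaken (le_max_right _ _)
  · rintro x (hx | hx)
    · obtain ⟨i, hi⟩ := Set.mem_iUnion.mp (hcov₁ hx)
      exact Set.mem_iUnion.mpr ⟨Fin.castAdd m₂ i, by rwa [Fin.append_left]⟩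
    · obtain ⟨i, hi⟩ := Set.mem_iUnion.mp (hcov₂ hx)
      exact Set.mem_iUnion.mpr ⟨Fin.natAdd m₁ i, by rwa [Fin.append_right]⟩

lemma lipCoverable_biUnion_finset {d : ℕ} {ι : Type*} (s : Finset ι) (S : ι → Set E)
    (h : ∀ i ∈ s, LipCoverable d (S i)) : LipCoverable d (⋃ i ∈ s, S i) := by
  classical
  induction s using Finset.induction_on with
  | empty => simpa using lipCoverable_empty (E := E) d
  | insert a s ha ih =>
    rw [Finset.set_biUnion_insert]
    exact (h a (Finset.mem_insert_self a s)).union
      (ih fun i hi => h i (Finset.mem_insert_of_mem hi))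

lemma lipCoverable_iUnion {d : ℕ} {ι : Type*} [Finite ι] (S : ι → Set E)
    (h : ∀ i, LipCoverable d (S i)) : LipCoverable d (⋃ i, S i) := by
  classical
  haveI := Fintype.ofFinite ι
  have := lipCoverable_biUnion_finset (Finset.univ : Finset ι) S fun i _ => h i
  simpa using this

/-- The clamp map onto the unit cube. -/
noncomputable def clamp {J : Type*} (p : J → ℝ) : J → ℝ := fun j => max 0 (min 1 (p j))

lemma clamp_mem {J : Type*} (p : J → ℝ) : clamp p ∈ Set.Icc (0 : J → ℝ) 1 :=
  ⟨fun j => le_max_left _ _, fun j => max_le zero_le_one (min_le_left _ _)⟩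

lemma clamp_eq_self {J : Type*} {p : J → ℝ} (hp : p ∈ Set.Icc (0 : J → ℝ) 1) : clamp p = p := by
  funext j
  have h1 : p j ≤ 1 := hp.2 j
  have h0 : 0 ≤ p j := hp.1 j
  simp only [clamp]
  rw [min_eq_right h1, max_eq_right h0]

lemma lipschitzWith_clamp {J : Type*} [Fintype J] : LipschitzWith 1 (clamp : (J → ℝ) → J → ℝ) := by
  refine LipschitzWith.of_dist_le_mul fun p q => ?_
  rw [NNReal.coe_one, one_mul, dist_pi_le_iff dist_nonneg]
  intro j
  refine le_trans ?_ (dist_le_pi_dist p q j)
  simp only [clamp, Real.dist_eq]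
  have h1 := abs_max_sub_max_le_max (0 : ℝ) (min 1 (p j)) 0 (min 1 (q j))
  have h2 := abs_min_sub_min_le_max (1 : ℝ) (p j) 1 (q j)
  simp only [sub_self, abs_zero, abs_nonneg, max_eq_right] at h1 h2
  exact h1.trans h2

/-- A `C¹` map on `J → ℝ` restricted to the unit cube, with `J` of cardinality `d`, has
Lipschitz-coverable image. -/
lemma lipCoverable_image_of_contDiff {d : ℕ} {J : Type*} [Fintype J] (hJ : Fintype.card J = d)
    (f : (J → ℝ) → E) (hf : ContDiff ℝ 1 f) :
    LipCoverable d (f '' Set.Icc (0 : J → ℝ) 1) := by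
  classical
  obtain ⟨C, hC⟩ := hf.contDiffOn.exists_lipschitzOnWith one_ne_zero
    (convex_Icc (0 : J → ℝ) 1) (isCompact_Icc)
  let e : J ≃ Fin d := Fintype.equivFinOfCardEq hJ
  let r : (Fin d → ℝ) → (J → ℝ) := fun q j => q (e j)
  have hr : LipschitzWith 1 r := by
    refine LipschitzWith.of_dist_le_mul fun p q => ?_
    rw [NNReal.coe_one, one_mul, dist_pi_le_iff dist_nonneg]
    exact fun j => dist_le_pi_dist p q (e j)
  refine ⟨1, C, fun _ q => f (clamp (r q)), fun _ => ?_, ?_⟩
  · have h1 : LipschitzWith C (fun p : J → ℝ => f (clamp p)) := by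
      refine LipschitzWith.of_dist_le_mul fun p q => ?_
      refine (hC.dist_le_mul _ (clamp_mem p) _ (clamp_mem q)).trans ?_
      refine mul_le_mul_of_nonneg_left ?_ C.2
      simpa using lipschitzWith_clamp.dist_le_mul p q
    have := h1.comp hr
    rw [mul_one] at this
    exact this
  · rintro _ ⟨p, hp, rfl⟩
    refine Set.mem_iUnion.mpr ⟨0, fun i => p (e.symm i), ⟨fun i => hp.1 _, fun i => hp.2 _⟩, ?_⟩
    have : r (fun i => p (e.symm i)) = p := by
      funext j
      simp [r]
    simp only [this, clamp_eq_self hp]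

end Generic

section NF

open NumberField NumberField.InfinitePlace NumberField.mixedEmbedding
  NumberField.mixedEmbedding.fundamentalCone NumberField.Units
  NumberField.Units.dirichletUnitTheorem

open scoped Classical

variable (K : Type*) [Field K] [NumberField K]

/-- The index type of the parameters: one coordinate per infinite place different from `w₀`
and one angle per complex place. -/
abbrev Param : Type _ := {w : InfinitePlace K // w ≠ w₀} ⊕ {w : InfinitePlace K // IsComplex w}

variable {K}

/-- The general parametrisation: signs `s` at the real places, a scaling factor `c`, logarithmic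
coordinates `y`, and angles `θ` at the complex places. -/
noncomputable def G (s : {w : InfinitePlace K // IsReal w} → ℝ) (c : ℝ) (y : realSpace K)
    (θ : {w : InfinitePlace K // IsComplex w} → ℝ) : mixedSpace K :=
  (fun w => s w * (c * expMapBasis y w.1),
   fun w => ((c * expMapBasis y w.1 : ℝ) : ℂ) *
      Complex.exp (((2 * Real.pi * θ w - Real.pi : ℝ) : ℂ) * Complex.I))

lemma contDiff_expMapBasis_comp {X : Type*} [NormedAddCommGroup X] [NormedSpace ℝ X]
    {Y : X → realSpace K} (hY : ContDiff ℝ 1 Y) (w : InfinitePlace K) :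
    ContDiff ℝ 1 (fun p => expMapBasis (Y p) w) := by
  have h : (fun p => expMapBasis (Y p) w) =
      fun p => Real.exp ((w.mult : ℝ)⁻¹ * ((completeBasis K).equivFunL.symm (Y p)) w) := by
    funext p
    rfl
  rw [h]
  exact Real.contDiff_exp.comp (contDiff_const.mul
    ((contDiff_apply ℝ ℝ w).comp ((completeBasis K).equivFunL.symm.contDiff.comp hY)))

lemma contDiff_G {X : Type*} [NormedAddCommGroup X] [NormedSpace ℝ X]
    (s : {w : InfinitePlace K // IsReal w} → ℝ) {cf : X → ℝ} (hcf : ContDiff ℝ 1 cf)
    {Y : X → realSpace K} (hY : ContDiff ℝ 1 Y)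
    {Θ : X → {w : InfinitePlace K // IsComplex w} → ℝ} (hΘ : ContDiff ℝ 1 Θ) :
    ContDiff ℝ 1 (fun p => G s (cf p) (Y p) (Θ p)) := by
  unfold G
  refine ContDiff.prodMk (contDiff_pi.mpr fun w => ?_) (contDiff_pi.mpr fun w => ?_)
  · exact contDiff_const.mul (hcf.mul (contDiff_expMapBasis_comp hY w.1))
  · refine (Complex.ofRealCLM.contDiff.comp (hcf.mul (contDiff_expMapBasis_comp hY w.1))).mul
      (Complex.contDiff_exp.comp ((Complex.ofRealCLM.contDiff.comp ?_).mul contDiff_const))
    exact (contDiff_const.mul ((contDiff_apply ℝ ℝ w).comp hΘ)).sub contDiff_const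

/-- Sign vectors. -/
noncomputable def sgn (b : {w : InfinitePlace K // IsReal w} → Bool) :
    {w : InfinitePlace K // IsReal w} → ℝ := fun w => if b w then 1 else -1

/-- Polar decomposition of a point of the mixed space. -/
lemma exists_polar (x : mixedSpace K) :
    ∃ (b : {w : InfinitePlace K // IsReal w} → Bool)
      (θ : {w : InfinitePlace K // IsComplex w} → ℝ),
      (∀ w, θ w ∈ Set.Icc (0 : ℝ) 1) ∧
      ∀ (c : ℝ) (y : realSpace K), (∀ w, c * expMapBasis y w = normAtPlace w x) →
        G (sgn b) c y θ = x := by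
  refine ⟨fun w => decide (0 ≤ x.1 w), fun w => (Complex.arg (x.2 w) + Real.pi) / (2 * Real.pi),
    fun w => ⟨?_, ?_⟩, fun c y h => ?_⟩
  · have := Complex.neg_pi_lt_arg (x.2 w)
    have hpi := Real.pi_pos
    exact div_nonneg (by linarith) (by positivity)
  · have := Complex.arg_le_pi (x.2 w)
    have hpi := Real.pi_pos
    rw [div_le_one (by positivity)]
    linarith
  · refine Prod.ext (funext fun w => ?_) (funext fun w => ?_)
    · simp only [G, sgn]
      rw [h w.1, normAtPlace_apply_of_isReal w.2, Real.norm_eq_abs]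
      by_cases hx : 0 ≤ x.1 w
      · simp [hx, abs_of_nonneg hx]
      · simp only [hx, decide_false, Bool.false_eq_true, if_false]
        rw [abs_of_neg (not_le.mp hx)]
        ring
    · simp only [G]
      rw [h w.1, normAtPlace_apply_of_isComplex w.2]
      have hpi : (2 * Real.pi) ≠ 0 := by positivity
      have : (2 * Real.pi * ((Complex.arg (x.2 w) + Real.pi) / (2 * Real.pi)) - Real.pi : ℝ) =
          Complex.arg (x.2 w) := by
        field_simp
        ring
      rw [this]
      exact Complex.norm_mul_exp_arg_mul_I (x.2 w)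

/-- Logarithmic coordinates on the face `x_{w₀} = 0`. -/
noncomputable def Y0 (p : Param K → ℝ) : realSpace K :=
  fun w => if h : w = w₀ then 0 else p (Sum.inl ⟨w, h⟩)

/-- Logarithmic coordinates on the face `x_{w₁} = ε` (the parameter at `w₁` is used for the
scaling factor). -/
noncomputable def Y1 (w₁ : {w : InfinitePlace K // w ≠ w₀}) (ε : ℝ) (p : Param K → ℝ) :
    realSpace K :=
  fun w => if h : w = w₀ then 0 else if w = w₁.1 then ε else p (Sum.inl ⟨w, h⟩)

lemma contDiff_Y0 : ContDiff ℝ 1 (Y0 : (Param K → ℝ) → realSpace K) := by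
  refine contDiff_pi.mpr fun w => ?_
  by_cases h : w = w₀
  · simp only [Y0, h, dif_pos]
    exact contDiff_const
  · simp only [Y0, h, dif_neg, not_false_eq_true]
    exact contDiff_apply ℝ ℝ _

lemma contDiff_Y1 (w₁ : {w : InfinitePlace K // w ≠ w₀}) (ε : ℝ) :
    ContDiff ℝ 1 (Y1 w₁ ε : (Param K → ℝ) → realSpace K) := by
  refine contDiff_pi.mpr fun w => ?_
  by_cases h : w = w₀
  · simp only [Y1, h, dif_pos]
    exact contDiff_const
  · by_cases h' : w = w₁.1
    · simp only [Y1, h, dif_neg, not_false_eq_true, h', if_true]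
      exact contDiff_const
    · simp only [Y1, h, dif_neg, not_false_eq_true, h', if_false]
      exact contDiff_apply ℝ ℝ _

/-- The parametrisations of the pieces of the frontier. -/
noncomputable def faceMap :
    ({w : InfinitePlace K // IsReal w} → Bool) × Option ({w : InfinitePlace K // w ≠ w₀} × Bool) →
      (Param K → ℝ) → mixedSpace K
  | (b, none) => fun p => G (sgn b) 1 (Y0 p) (fun w => p (Sum.inr w))
  | (b, some (w₁, e)) => fun p =>
      G (sgn b) (p (Sum.inl w₁)) (Y1 w₁ (if e then 1 else 0) p) (fun w => p (Sum.inr w))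

lemma contDiff_faceMap
    (i : ({w : InfinitePlace K // IsReal w} → Bool) ×
      Option ({w : InfinitePlace K // w ≠ w₀} × Bool)) :
    ContDiff ℝ 1 (faceMap i) := by
  have hΘ : ContDiff ℝ 1 (fun (p : Param K → ℝ) (w : {w : InfinitePlace K // IsComplex w}) =>
      p (Sum.inr w)) := contDiff_pi.mpr fun w => contDiff_apply ℝ ℝ _
  obtain ⟨b, _ | ⟨w₁, e⟩⟩ := i
  · exact contDiff_G (sgn b) contDiff_const contDiff_Y0 hΘ
  · exact contDiff_G (sgn b) (contDiff_apply ℝ ℝ _) (contDiff_Y1 w₁ _) hΘ

variable (K) in
lemma card_param {d : ℕ} (hd : Module.finrank ℚ K = d + 1) : Fintype.card (Param K) = d := by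
  have h1 := card_add_two_mul_card_eq_rank K
  have h2 := card_eq_nrRealPlaces_add_nrComplexPlaces K
  have h3 : Fintype.card {w : InfinitePlace K // w ≠ w₀} = Fintype.card (InfinitePlace K) - 1 := by
    rw [Fintype.card_subtype_compl, Fintype.card_subtype_eq]
  have h4 : 0 < Fintype.card (InfinitePlace K) := Fintype.card_pos
  rw [Fintype.card_sum, h3]
  unfold nrComplexPlaces nrRealPlaces at *
  omega

/-- The frontier of `normLeOne K` is contained in `{0}` and the images of the face maps. -/
lemma frontier_normLeOne_subset :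
    frontier (normLeOne K) ⊆
      {0} ∪ ⋃ i, (faceMap (K := K) i) '' Set.Icc (0 : Param K → ℝ) 1 := by
  intro x hx
  have h1 : normAtAllPlaces x ∈ compactSet K :=
    closure_normLeOne_subset K (frontier_subset_closure hx)
  have h2 : normAtAllPlaces x ∉ expMapBasis '' interior (paramSet K) :=
    fun h => hx.2 (subset_interior_normLeOne K h)
  rw [compactSet_eq_union] at h1
  rcases h1 with ⟨z, hz, hzx⟩ | h0
  · right
    have hzi : z ∉ interior (paramSet K) := fun h => h2 ⟨z, h, hzx⟩
    rw [closure_paramSet] at hz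
    rw [interior_paramSet] at hzi
    simp only [Set.mem_univ_pi, not_forall] at hz hzi
    obtain ⟨w, hw⟩ := hzi
    have hzw := hz w
    obtain ⟨b, θ, hθ, hpol⟩ := exists_polar x
    have hnorm : ∀ w', expMapBasis z w' = normAtPlace w' x := fun w' => by
      rw [hzx]
    by_cases hww : w = w₀
    · -- the face `z w₀ = 0`
      subst hww
      simp only [if_true, Set.mem_Iic, Set.mem_Iio] at hzw hw
      have hz0 : z w₀ = 0 := le_antisymm hzw (not_lt.mp hw)
      refine Set.mem_iUnion.mpr ⟨(b, none), Sum.elim (fun w' => z w'.1) θ, ⟨?_, ?_⟩, ?_⟩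
      · rintro (w' | w')
        · have := hz w'.1
          rw [if_neg w'.2] at this
          exact this.1
        · exact (hθ w').1
      · rintro (w' | w')
        · have := hz w'.1
          rw [if_neg w'.2] at this
          exact this.2
        · exact (hθ w').2
      · simp only [faceMap, Sum.elim_inr]
        have hY : Y0 (Sum.elim (fun w' : {w : InfinitePlace K // w ≠ w₀} => z w'.1) θ) = z := by
          funext w'
          by_cases h : w' = w₀
          · simp [Y0, h, hz0]
          · simp [Y0, h]
        rw [hY]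
        exact hpol 1 z fun w' => by rw [one_mul, hnorm]
    · -- a face `z w = ε`
      rw [if_neg hww] at hzw hw
      have hε : ∃ e : Bool, z w = if e then 1 else 0 := by
        by_cases h : z w = 0
        · exact ⟨false, by simpa using h⟩
        · refine ⟨true, ?_⟩
          simp only [if_true]
          by_contra h1
          exact hw ⟨lt_of_le_of_ne hzw.1 (Ne.symm h), lt_of_le_of_ne hzw.2 h1⟩
      obtain ⟨e, he⟩ := hε
      have hzw0 := hz w₀
      rw [if_pos rfl] at hzw0
      set c : ℝ := Real.exp (z w₀) with hc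
      obtain ⟨w₁, rfl⟩ : ∃ w₁ : {w : InfinitePlace K // w ≠ w₀}, w₁.1 = w := ⟨⟨w, hww⟩, rfl⟩
      refine Set.mem_iUnion.mpr ⟨(b, some (w₁, e)),
        Sum.elim (fun w' => if w' = w₁ then c else z w'.1) θ, ⟨?_, ?_⟩, ?_⟩
      · rintro (w' | w')
        · simp only [Sum.elim_inl, Pi.zero_apply]
          split_ifs
          · exact (Real.exp_pos _).le
          · have := hz w'.1
            rw [if_neg w'.2] at this
            exact this.1
        · exact (hθ w').1
      · rintro (w' | w')
        · simp only [Sum.elim_inl, Pi.one_apply]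
          split_ifs
          · exact Real.exp_le_one_iff.mpr hzw0
          · have := hz w'.1
            rw [if_neg w'.2] at this
            exact this.2
        · exact (hθ w').2
      · simp only [faceMap, Sum.elim_inr, Sum.elim_inl, if_true]
        have hY : Y1 w₁ (if e then 1 else 0)
            (Sum.elim (fun w' : {w : InfinitePlace K // w ≠ w₀} => if w' = w₁ then c else z w'.1) θ)
            = fun i => if i = w₀ then 0 else z i := by
          funext w'
          by_cases h : w' = w₀
          · simp [Y1, h]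
          · by_cases h' : w' = w₁.1
            · simp [Y1, h, h', he]
            · have : (⟨w', h⟩ : {w : InfinitePlace K // w ≠ w₀}) ≠ w₁ := fun hh =>
                h' (congrArg Subtype.val hh)
              simp [Y1, h, h', this]
        rw [hY]
        refine hpol c _ fun w' => ?_
        rw [← hnorm, expMapBasis_apply'' z]
        rfl
  · left
    rw [Set.mem_singleton_iff] at h0 ⊢
    exact forall_normAtPlace_eq_zero_iff.mp fun w => congrFun h0 w

variable (K) in
/-- **L2**: the frontier of `normLeOne K` is covered by finitely many Lipschitz images of the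
unit cube of dimension `finrank ℚ K - 1`. -/
theorem exists_lipschitz_cover_frontier_normLeOne {d : ℕ} (hd : Module.finrank ℚ K = d + 1) :
    ∃ (m : ℕ) (C : ℝ≥0) (φ : Fin m → (Fin d → ℝ) → mixedSpace K),
      (∀ i, LipschitzWith C (φ i)) ∧
      frontier (normLeOne K) ⊆ ⋃ i, φ i '' Set.Icc (0 : Fin d → ℝ) 1 := by
  have hJ := card_param K hd
  have h0 : LipCoverable d ({0} : Set (mixedSpace K)) := by
    refine (lipCoverable_image_of_contDiff hJ (fun _ : Param K → ℝ => (0 : mixedSpace K))
      contDiff_const).mono ?_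
    rintro _ rfl
    exact ⟨0, ⟨le_rfl, zero_le_one⟩, rfl⟩
  have h1 : LipCoverable d (⋃ i, (faceMap (K := K) i) '' Set.Icc (0 : Param K → ℝ) 1) :=
    lipCoverable_iUnion _ fun i => lipCoverable_image_of_contDiff hJ _ (contDiff_faceMap i)
  exact (h0.union h1).mono frontier_normLeOne_subset

end NF

end Fermat.Agent.S14.NormLeOneLip
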