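import Mathlib
import Fermat.Agent.S14.NormLeOneLip
import Fermat.Agent.S14.IdealCountError

/-!
# S14 / I2: unconditional ideal counting per ideal class with error term (L1 + L2 + L3)
-/

set_option autoImplicit false

open NumberField NumberField.mixedEmbedding NumberField.mixedEmbedding.fundamentalCone
open scoped nonZeroDivisors Classical

namespace Fermat.Agent.S14.IdealCount

variable (K : Type*) [Field K] [NumberField K]

/-- The hypothesis `FrontierCover` of `IdealCountError` always holds. -/
theorem frontierCover {d : ℕ} (hd : Module.finrank ℚ K = d + 1) :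
    IdealCountError.FrontierCover K d :=
  NormLeOneLip.exists_lipschitz_cover_frontier_normLeOne K hd

/-- **Ideal counting with error term, per ideal class**: the number of nonzero integral ideals of
norm `≤ s` in the class `C` is `density K * s + O(s ^ (1 - 1/n))`, `n = [K : ℚ]`, with the same
`density K` for every class. -/
theorem exists_abs_card_sub_le {d : ℕ} (hd : Module.finrank ℚ K = d + 1)
    (C : ClassGroup (𝓞 K)) :
    ∃ B : ℝ, ∀ s : ℝ, 1 ≤ s →
      |(Nat.card {I : (Ideal (𝓞 K))⁰ //
          Ideal.absNorm (I : Ideal (𝓞 K)) ≤ s ∧ ClassGroup.mk0 I = C} : ℝ) -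
        IdealCountError.density K * s| ≤ B * s ^ ((d : ℝ) / (d + 1)) :=
  IdealCountError.exists_abs_card_sub_le K hd (frontierCover K hd) C

/-- Version without the auxiliary `d`. -/
theorem exists_abs_card_sub_le' (C : ClassGroup (𝓞 K)) :
    ∃ B : ℝ, ∀ s : ℝ, 1 ≤ s →
      |(Nat.card {I : (Ideal (𝓞 K))⁰ //
          Ideal.absNorm (I : Ideal (𝓞 K)) ≤ s ∧ ClassGroup.mk0 I = C} : ℝ) -
        IdealCountError.density K * s| ≤
        B * s ^ (1 - 1 / (Module.finrank ℚ K : ℝ)) := by
  obtain ⟨d, hd⟩ : ∃ d, Module.finrank ℚ K = d + 1 :=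
    Nat.exists_eq_succ_of_ne_zero Module.finrank_pos.ne'
  obtain ⟨B, hB⟩ := exists_abs_card_sub_le K hd C
  refine ⟨B, fun s hs => ?_⟩
  have : (1 - 1 / (Module.finrank ℚ K : ℝ)) = (d : ℝ) / (d + 1) := by
    rw [hd]
    push_cast
    field_simp
    ring
  rw [this]
  exact hB s hs

end Fermat.Agent.S14.IdealCount
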