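/-
S14 block (L4): boundedness on `(1, 2]` of the class L-series `∑ ψ([I]) N(I)^(-s)` of a nontrivial
character `ψ` of the ideal class group of a number field, given the lattice-point count with error
term of block (L3) (`Fermat.Agent.S14.IdealCount`), first as a hypothesis (Mathlib-only part), then
unconditionally.
-/
import Mathlib
import Fermat.Agent.S14.IdealCount

namespace Fermat.Agent.S14.ClassLSeries

open Finset Filter MeasureTheory Topology Complex Asymptotics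

/-- Generic bound: if the partial sums of `f` are `≤ B * n ^ r` with `0 ≤ r < 1`, and the L-series
converges at the real point `s ∈ (1, 2]`, then `‖LSeries f s‖ ≤ 2 * B / (1 - r)`. -/
theorem norm_LSeries_le_of_sum_le {f : ℕ → ℂ} {r B : ℝ} (hr : 0 ≤ r) (hr1 : r < 1)
    (hsum : ∀ n : ℕ, ‖∑ k ∈ Icc 1 n, f k‖ ≤ B * (n : ℝ) ^ r)
    {s : ℝ} (hs : 1 < s) (hs2 : s ≤ 2) (hS : LSeriesSummable f s) :
    ‖LSeries f s‖ ≤ 2 * B / (1 - r) := by
  have hB : 0 ≤ B := by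
    have := hsum 1
    simp only [Nat.cast_one, Real.one_rpow, mul_one] at this
    exact (norm_nonneg _).trans this
  have hsr : r < (s : ℂ).re := by simpa using hr1.trans hs
  have hO : (fun n : ℕ ↦ ∑ k ∈ Icc 1 n, f k) =O[atTop] fun n ↦ (n : ℝ) ^ r := by
    refine IsBigO.of_bound B (Eventually.of_forall fun n ↦ ?_)
    rw [Real.norm_of_nonneg (Real.rpow_nonneg (Nat.cast_nonneg n) r)]
    exact hsum n
  rw [LSeries_eq_mul_integral f hr hsr hS hO, norm_mul, Complex.norm_real,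
    Real.norm_of_nonneg (by linarith : (0:ℝ) ≤ s)]
  have hexp : r - s - 1 < -1 := by linarith
  have hint : IntegrableOn (fun t : ℝ ↦ B * t ^ (r - s - 1)) (Set.Ioi 1) :=
    (integrableOn_Ioi_rpow_of_lt hexp zero_lt_one).const_mul B
  have hle : ‖∫ t in Set.Ioi (1:ℝ), (∑ k ∈ Icc 1 ⌊t⌋₊, f k) * (t : ℂ) ^ (-((s : ℂ) + 1))‖
      ≤ ∫ t in Set.Ioi (1:ℝ), B * t ^ (r - s - 1) := by
    refine norm_integral_le_of_norm_le hint ?_
    refine (ae_restrict_iff' measurableSet_Ioi).mpr (Eventually.of_forall fun t ht ↦ ?_)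
    have ht0 : (0:ℝ) < t := zero_lt_one.trans ht
    rw [norm_mul, Complex.norm_cpow_eq_rpow_re_of_pos ht0]
    have h1 : ‖∑ k ∈ Icc 1 ⌊t⌋₊, f k‖ ≤ B * t ^ r := by
      refine (hsum _).trans (mul_le_mul_of_nonneg_left ?_ hB)
      exact Real.rpow_le_rpow (Nat.cast_nonneg _) (Nat.floor_le ht0.le) hr
    have h2 : (-((s : ℂ) + 1)).re = -(s + 1) := by simp
    rw [h2]
    calc ‖∑ k ∈ Icc 1 ⌊t⌋₊, f k‖ * t ^ (-(s + 1))
        ≤ (B * t ^ r) * t ^ (-(s + 1)) :=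
          mul_le_mul_of_nonneg_right h1 (Real.rpow_nonneg ht0.le _)
      _ = B * t ^ (r - s - 1) := by
          rw [mul_assoc, ← Real.rpow_add ht0]; congr 2; ring
  rw [integral_const_mul, integral_Ioi_rpow_of_lt hexp zero_lt_one] at hle
  have hsr' : 0 < s - r := by linarith
  have h1r : 0 < 1 - r := by linarith
  have hval : B * (-(1:ℝ) ^ (r - s - 1 + 1) / (r - s - 1 + 1)) = B / (s - r) := by
    rw [Real.one_rpow]
    have : r - s - 1 + 1 = -(s - r) := by ring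
    rw [this, neg_div_neg_eq, mul_one_div]
  rw [hval] at hle
  calc s * ‖∫ t in Set.Ioi (1:ℝ), (∑ k ∈ Icc 1 ⌊t⌋₊, f k) * (t : ℂ) ^ (-((s : ℂ) + 1))‖
      ≤ s * (B / (s - r)) := mul_le_mul_of_nonneg_left hle (by linarith)
    _ ≤ 2 * (B / (1 - r)) := by
        refine mul_le_mul hs2 ?_ (div_nonneg hB hsr'.le) zero_le_two
        exact div_le_div_of_nonneg_left hB h1r (by linarith)
    _ = 2 * B / (1 - r) := by ring

section Abstract

variable {ι : Type*} {N : ι → ℕ}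

/-- The `n`-th Dirichlet coefficient of the family `a` with respect to the norm function `N`. -/
noncomputable def coeff (N : ι → ℕ) (a : ι → ℂ) (n : ℕ) : ℂ := ∑' i : N ⁻¹' {n}, a i

theorem coeff_eq_sum (hfin : ∀ n : ℕ, {i | N i ≤ n}.Finite) (a : ι → ℂ) {n k : ℕ} (hk : k ≤ n) :
    coeff N a k = ∑ i ∈ (hfin n).toFinset with N i = k, a i := by
  classical
  unfold coeff
  have : N ⁻¹' {k} = ↑((hfin n).toFinset.filter (N · = k)) := by
    ext i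
    simp only [Set.mem_preimage, Set.mem_singleton_iff, coe_filter, Set.Finite.mem_toFinset,
      Set.mem_ofPred_eq]
    constructor
    · intro h; exact ⟨h ▸ hk, h⟩
    · intro h; exact h.2
  rw [this, Finset.tsum_subtype']

theorem sum_Icc_coeff (hN : ∀ i, 1 ≤ N i) (hfin : ∀ n : ℕ, {i | N i ≤ n}.Finite) (a : ι → ℂ)
    (n : ℕ) : ∑ k ∈ Icc 1 n, coeff N a k = ∑ i ∈ (hfin n).toFinset, a i := by
  classical
  rw [← Finset.sum_fiberwise_of_maps_to (s := (hfin n).toFinset) (t := Icc 1 n) (g := N)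
    (fun i hi ↦ mem_Icc.mpr ⟨hN i, by simpa using hi⟩)]
  exact Finset.sum_congr rfl fun k hk ↦ coeff_eq_sum hfin a (mem_Icc.mp hk).2

theorem coeff_zero (hN : ∀ i, 1 ≤ N i) (a : ι → ℂ) : coeff N a 0 = 0 := by
  unfold coeff
  have : IsEmpty (N ⁻¹' {0}) := ⟨fun ⟨i, hi⟩ ↦ by
    have := hN i
    simp only [Set.mem_preimage, Set.mem_singleton_iff] at hi
    omega⟩
  exact tsum_empty

theorem norm_coeff_le (hfin : ∀ n : ℕ, {i | N i ≤ n}.Finite) (a : ι → ℂ) {n k : ℕ} (hk : k ≤ n) :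
    ‖coeff N a k‖ ≤ ∑ i ∈ (hfin n).toFinset with N i = k, ‖a i‖ := by
  classical
  rw [coeff_eq_sum hfin a hk]
  exact norm_sum_le _ _

theorem sum_Icc_norm_coeff_le (hN : ∀ i, 1 ≤ N i) (hfin : ∀ n : ℕ, {i | N i ≤ n}.Finite)
    (a : ι → ℂ) (n : ℕ) :
    ∑ k ∈ Icc 1 n, ‖coeff N a k‖ ≤ ∑ i ∈ (hfin n).toFinset, ‖a i‖ := by
  classical
  rw [← Finset.sum_fiberwise_of_maps_to (s := (hfin n).toFinset) (t := Icc 1 n) (g := N)
    (fun i hi ↦ mem_Icc.mpr ⟨hN i, by simpa using hi⟩)]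
  exact Finset.sum_le_sum fun k hk ↦ norm_coeff_le hfin a (mem_Icc.mp hk).2

/-- Summability of the Dirichlet series with bounded coefficients, if the counting function is
`O(n)`. -/
theorem lseriesSummable_coeff (hN : ∀ i, 1 ≤ N i) (hfin : ∀ n : ℕ, {i | N i ≤ n}.Finite)
    (hcard : (fun n : ℕ ↦ ((hfin n).toFinset.card : ℝ)) =O[atTop] fun n ↦ (n : ℝ) ^ (1 : ℝ))
    {a : ι → ℂ} (ha : ∀ i, ‖a i‖ ≤ 1) {s : ℂ} (hs : 1 < s.re) :
    LSeriesSummable (coeff N a) s := by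
  refine LSeriesSummable_of_sum_norm_bigO ?_ zero_le_one hs
  refine IsBigO.trans (IsBigO.of_bound 1 (Eventually.of_forall fun n ↦ ?_)) hcard
  rw [one_mul, Real.norm_of_nonneg (Finset.sum_nonneg fun _ _ ↦ norm_nonneg _),
    Real.norm_of_nonneg (Nat.cast_nonneg _)]
  refine (sum_Icc_norm_coeff_le hN hfin a n).trans ?_
  calc ∑ i ∈ (hfin n).toFinset, ‖a i‖ ≤ ∑ _i ∈ (hfin n).toFinset, (1 : ℝ) :=
        Finset.sum_le_sum fun i _ ↦ ha i
    _ = ((hfin n).toFinset.card : ℝ) := by simp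

theorem summable_rpow_neg (hN : ∀ i, 1 ≤ N i) (hfin : ∀ n : ℕ, {i | N i ≤ n}.Finite)
    (hcard : (fun n : ℕ ↦ ((hfin n).toFinset.card : ℝ)) =O[atTop] fun n ↦ (n : ℝ) ^ (1 : ℝ))
    {σ : ℝ} (hσ : 1 < σ) : Summable fun i : ι ↦ (N i : ℝ) ^ (-σ) := by
  have hpart : ∀ i : ι, ∃! n : ℕ, i ∈ N ⁻¹' {n} := fun i ↦ ⟨N i, rfl, fun n hn ↦ hn.symm⟩
  have hfib : ∀ n : ℕ, Finite (N ⁻¹' {n}) := fun n ↦
    ((hfin n).subset fun i hi ↦ le_of_eq hi).to_subtype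
  rw [summable_partition (fun i ↦ Real.rpow_nonneg (Nat.cast_nonneg _) _) hpart]
  refine ⟨fun n ↦ Summable.of_finite, ?_⟩
  have hS := (lseriesSummable_coeff hN hfin hcard (a := fun _ ↦ ((1 : ℝ) : ℂ))
    (fun _ ↦ by simp) (s := (σ : ℂ)) (by simpa using hσ)).norm
  refine hS.congr fun n ↦ ?_
  rw [LSeries.norm_term_eq]
  have h1 : ∑' i : N ⁻¹' {n}, ((N (i : ι) : ℝ)) ^ (-σ) = (∑' _i : N ⁻¹' {n}, (1 : ℝ)) * (n : ℝ) ^ (-σ) := by
    rw [← tsum_mul_right]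
    refine tsum_congr fun i ↦ ?_
    have : N (i : ι) = n := i.2
    rw [this, one_mul]
  rw [h1]
  have h2 : ‖coeff N (fun _ ↦ ((1 : ℝ) : ℂ)) n‖ = ∑' _i : N ⁻¹' {n}, (1 : ℝ) := by
    unfold coeff
    rw [← Complex.ofReal_tsum, Complex.norm_real,
      Real.norm_of_nonneg (tsum_nonneg fun _ ↦ zero_le_one)]
  rw [h2]
  split_ifs with hn
  · subst hn
    have : IsEmpty (N ⁻¹' {0}) := ⟨fun ⟨i, hi⟩ ↦ by
      have := hN i
      simp only [Set.mem_preimage, Set.mem_singleton_iff] at hi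
      omega⟩
    simp
  · simp only [ofReal_re]
    rw [Real.rpow_neg (Nat.cast_nonneg _), div_eq_mul_inv]

/-- The sum over `ι` of `a i * N i ^ (-s)` is the L-series of the coefficient function. -/
theorem hasSum_coeff (hN : ∀ i, 1 ≤ N i) (hfin : ∀ n : ℕ, {i | N i ≤ n}.Finite)
    (hcard : (fun n : ℕ ↦ ((hfin n).toFinset.card : ℝ)) =O[atTop] fun n ↦ (n : ℝ) ^ (1 : ℝ))
    {a : ι → ℂ} (ha : ∀ i, ‖a i‖ ≤ 1) {s : ℂ} (hs : 1 < s.re) :
    HasSum (fun i ↦ a i * (N i : ℂ) ^ (-s)) (LSeries (coeff N a) s) := by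
  have hsumm : Summable fun i ↦ a i * (N i : ℂ) ^ (-s) := by
    refine Summable.of_norm_bounded (summable_rpow_neg hN hfin hcard hs) fun i ↦ ?_
    have hNi : (0 : ℝ) < N i := Nat.cast_pos.mpr (hN i)
    rw [norm_mul, ← Complex.ofReal_natCast, Complex.norm_cpow_eq_rpow_re_of_pos hNi, neg_re]
    calc ‖a i‖ * (N i : ℝ) ^ (-s.re) ≤ 1 * (N i : ℝ) ^ (-s.re) :=
          mul_le_mul_of_nonneg_right (ha i) (Real.rpow_nonneg hNi.le _)
      _ = _ := one_mul _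
  have h := hsumm.hasSum.tsum_fiberwise N
  have hterm : (fun n : ℕ ↦ ∑' i : N ⁻¹' {n}, a i * (N (i : ι) : ℂ) ^ (-s))
      = LSeries.term (coeff N a) s := by
    funext n
    rw [LSeries.term_def₀ (coeff_zero hN a), coeff, ← tsum_mul_right]
    refine tsum_congr fun i ↦ ?_
    have : N (i : ι) = n := i.2
    rw [this]
  rw [hterm] at h
  rw [LSeries, h.tsum_eq]
  exact hsumm.hasSum

end Abstract

section NumberField

open NumberField Ideal nonZeroDivisors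

variable (K : Type*) [Field K] [NumberField K]

theorem finite_absNorm_le (n : ℕ) :
    {I : (Ideal (𝓞 K))⁰ | absNorm (I : Ideal (𝓞 K)) ≤ n}.Finite :=
  finite_setOfPred_absNorm_le₀ n

theorem card_toFinset_eq (n : ℕ) :
    (finite_absNorm_le K n).toFinset.card =
      Nat.card {I : (Ideal (𝓞 K))⁰ // (absNorm (I : Ideal (𝓞 K)) : ℝ) ≤ (n : ℝ)} := by
  rw [Nat.subtype_card (finite_absNorm_le K n).toFinset]
  intro I
  simp only [Set.Finite.mem_toFinset, Set.mem_ofPred_eq, Nat.cast_le]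

theorem card_toFinset_isBigO :
    (fun n : ℕ ↦ ((finite_absNorm_le K n).toFinset.card : ℝ)) =O[atTop]
      fun n ↦ (n : ℝ) ^ (1 : ℝ) := by
  refine isBigO_atTop_natCast_rpow_of_tendsto_div_rpow (𝕜 := ℝ)
    (a := ((2 ^ InfinitePlace.nrRealPlaces K * (2 * Real.pi) ^ InfinitePlace.nrComplexPlaces K *
      Units.regulator K * classNumber K) / (Units.torsionOrder K * Real.sqrt |discr K|))) ?_
  have := (NumberField.Ideal.tendsto_norm_le_div_atTop₀ K).comp tendsto_natCast_atTop_atTop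
  refine this.congr fun n ↦ ?_
  simp only [Function.comp_apply, Real.rpow_one, card_toFinset_eq, RCLike.ofReal_real_eq_id, id_eq]

variable {K}

theorem norm_classChar (ψ : ClassGroup (𝓞 K) →* ℂˣ) (c : ClassGroup (𝓞 K)) :
    ‖(ψ c : ℂ)‖ = 1 := by
  have h : (ψ c : ℂ) ^ (Fintype.card (ClassGroup (𝓞 K))) = 1 := by
    rw [← Units.val_pow_eq_pow_val, ← map_pow, pow_card_eq_one, map_one, Units.val_one]
  exact Complex.norm_eq_one_of_pow_eq_one h Fintype.card_ne_zero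

theorem sum_classChar_eq_zero {ψ : ClassGroup (𝓞 K) →* ℂˣ} (hψ : ψ ≠ 1) :
    ∑ c : ClassGroup (𝓞 K), (ψ c : ℂ) = 0 := by
  have := sum_hom_units_eq_zero ((Units.coeHom ℂ).comp ψ) (fun h ↦ hψ ?_)
  · simpa using this
  · ext c
    have := DFunLike.congr_fun h c
    simpa using this

/-- Regrouping the partial sums by ideal classes. -/
theorem sum_toFinset_classChar (ψ : ClassGroup (𝓞 K) →* ℂˣ) (n : ℕ) :
    ∑ I ∈ (finite_absNorm_le K n).toFinset, (ψ (ClassGroup.mk0 I) : ℂ) =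
      ∑ c : ClassGroup (𝓞 K), (ψ c : ℂ) *
        (Nat.card {I : (Ideal (𝓞 K))⁰ //
          (absNorm (I : Ideal (𝓞 K)) : ℝ) ≤ (n : ℝ) ∧ ClassGroup.mk0 I = c} : ℂ) := by
  classical
  rw [← Finset.sum_fiberwise (finite_absNorm_le K n).toFinset (fun I ↦ ClassGroup.mk0 I)]
  refine Finset.sum_congr rfl fun c _ ↦ ?_
  rw [Finset.sum_congr rfl (g := fun _ ↦ (ψ c : ℂ))
    (fun I hI ↦ by rw [(Finset.mem_filter.mp hI).2]), Finset.sum_const, nsmul_eq_mul, mul_comm]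
  congr 2
  rw [Nat.subtype_card]
  intro I
  simp only [Finset.mem_filter, Set.Finite.mem_toFinset, Set.mem_ofPred_eq, Nat.cast_le]

/-- The coefficient function of the class L-series of `ψ`. -/
noncomputable def classCoeff (ψ : ClassGroup (𝓞 K) →* ℂˣ) : ℕ → ℂ :=
  coeff (fun I : (Ideal (𝓞 K))⁰ ↦ absNorm (I : Ideal (𝓞 K)))
    (fun I ↦ (ψ (ClassGroup.mk0 I) : ℂ))

theorem norm_sum_Icc_classCoeff_le {ψ : ClassGroup (𝓞 K) →* ℂˣ} (hψ : ψ ≠ 1) {ρ r : ℝ}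
    (hL3 : ∀ c : ClassGroup (𝓞 K), ∃ B : ℝ, ∀ s : ℝ, 1 ≤ s →
      |(Nat.card {I : (Ideal (𝓞 K))⁰ //
        (absNorm (I : Ideal (𝓞 K)) : ℝ) ≤ s ∧ ClassGroup.mk0 I = c} : ℝ) - ρ * s| ≤ B * s ^ r) :
    ∃ B : ℝ, ∀ n : ℕ, ‖∑ k ∈ Icc 1 n, classCoeff ψ k‖ ≤ B * (n : ℝ) ^ r := by
  classical
  choose B hB using hL3
  have hB0 : ∀ c, 0 ≤ B c := fun c ↦ by
    have := hB c 1 le_rfl
    simp only [Real.one_rpow, mul_one] at this
    exact (abs_nonneg _).trans this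
  refine ⟨∑ c, B c, fun n ↦ ?_⟩
  unfold classCoeff
  rw [sum_Icc_coeff (fun I ↦ absNorm_pos_of_nonZeroDivisors I) (finite_absNorm_le K),
    sum_toFinset_classChar]
  rcases Nat.eq_zero_or_pos n with rfl | hn
  · have h0 : ∀ c : ClassGroup (𝓞 K), Nat.card {I : (Ideal (𝓞 K))⁰ //
        (absNorm (I : Ideal (𝓞 K)) : ℝ) ≤ ((0 : ℕ) : ℝ) ∧ ClassGroup.mk0 I = c} = 0 := by
      intro c
      have : IsEmpty {I : (Ideal (𝓞 K))⁰ //
          (absNorm (I : Ideal (𝓞 K)) : ℝ) ≤ ((0 : ℕ) : ℝ) ∧ ClassGroup.mk0 I = c} :=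
        ⟨fun ⟨I, hI, _⟩ ↦ by
          have h1 := absNorm_pos_of_nonZeroDivisors I
          have h2 : absNorm (I : Ideal (𝓞 K)) ≤ 0 := by exact_mod_cast hI
          omega⟩
      exact Nat.card_of_isEmpty
    simp only [h0]
    simp only [Nat.cast_zero, mul_zero, Finset.sum_const_zero, norm_zero]
    exact mul_nonneg (Finset.sum_nonneg fun c _ ↦ hB0 c) (Real.rpow_nonneg le_rfl _)
  · have hn1 : (1 : ℝ) ≤ n := by exact_mod_cast hn
    have key : ∑ c : ClassGroup (𝓞 K), (ψ c : ℂ) * (Nat.card {I : (Ideal (𝓞 K))⁰ //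
          (absNorm (I : Ideal (𝓞 K)) : ℝ) ≤ (n : ℝ) ∧ ClassGroup.mk0 I = c} : ℂ) =
        ∑ c : ClassGroup (𝓞 K), (ψ c : ℂ) * (((Nat.card {I : (Ideal (𝓞 K))⁰ //
          (absNorm (I : Ideal (𝓞 K)) : ℝ) ≤ (n : ℝ) ∧ ClassGroup.mk0 I = c} : ℝ) - ρ * n : ℝ) : ℂ)
        := by
      push_cast
      simp_rw [mul_sub]
      rw [Finset.sum_sub_distrib, ← Finset.sum_mul, sum_classChar_eq_zero hψ, zero_mul, sub_zero]
    rw [key]
    calc _ ≤ ∑ c : ClassGroup (𝓞 K), ‖(ψ c : ℂ) * (((Nat.card {I : (Ideal (𝓞 K))⁰ //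
          (absNorm (I : Ideal (𝓞 K)) : ℝ) ≤ (n : ℝ) ∧ ClassGroup.mk0 I = c} : ℝ) - ρ * n : ℝ) : ℂ)‖
          := norm_sum_le _ _
      _ = ∑ c : ClassGroup (𝓞 K), |(Nat.card {I : (Ideal (𝓞 K))⁰ //
          (absNorm (I : Ideal (𝓞 K)) : ℝ) ≤ (n : ℝ) ∧ ClassGroup.mk0 I = c} : ℝ) - ρ * n| := by
          refine Finset.sum_congr rfl fun c _ ↦ ?_
          rw [norm_mul, norm_classChar, one_mul, Complex.norm_real, Real.norm_eq_abs]
      _ ≤ ∑ c : ClassGroup (𝓞 K), B c * (n : ℝ) ^ r :=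
          Finset.sum_le_sum fun c _ ↦ hB c n hn1
      _ = (∑ c, B c) * (n : ℝ) ^ r := (Finset.sum_mul _ _ _).symm

/-- **L4**: the class L-series of a nontrivial class character is bounded on `(1, 2]`. -/
theorem exists_bound_classLSeries {ψ : ClassGroup (𝓞 K) →* ℂˣ} (hψ : ψ ≠ 1) {ρ r : ℝ}
    (hr : 0 ≤ r) (hr1 : r < 1)
    (hL3 : ∀ c : ClassGroup (𝓞 K), ∃ B : ℝ, ∀ s : ℝ, 1 ≤ s →
      |(Nat.card {I : (Ideal (𝓞 K))⁰ //
        (absNorm (I : Ideal (𝓞 K)) : ℝ) ≤ s ∧ ClassGroup.mk0 I = c} : ℝ) - ρ * s| ≤ B * s ^ r) :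
    ∃ C : ℝ, ∀ s : ℝ, 1 < s → s ≤ 2 →
      Summable (fun I : (Ideal (𝓞 K))⁰ ↦
        (ψ (ClassGroup.mk0 I) : ℂ) * (absNorm (I : Ideal (𝓞 K)) : ℂ) ^ (-(s : ℂ))) ∧
      ‖∑' I : (Ideal (𝓞 K))⁰,
        (ψ (ClassGroup.mk0 I) : ℂ) * (absNorm (I : Ideal (𝓞 K)) : ℂ) ^ (-(s : ℂ))‖ ≤ C := by
  obtain ⟨B, hB⟩ := norm_sum_Icc_classCoeff_le hψ hL3
  refine ⟨2 * B / (1 - r), fun s hs hs2 ↦ ?_⟩
  have hsre : 1 < (s : ℂ).re := by simpa using hs
  have hN : ∀ I : (Ideal (𝓞 K))⁰, 1 ≤ absNorm (I : Ideal (𝓞 K)) :=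
    fun I ↦ absNorm_pos_of_nonZeroDivisors I
  have ha : ∀ I : (Ideal (𝓞 K))⁰, ‖(ψ (ClassGroup.mk0 I) : ℂ)‖ ≤ 1 :=
    fun I ↦ (norm_classChar ψ _).le
  have hsum := hasSum_coeff hN (finite_absNorm_le K) (card_toFinset_isBigO K) ha hsre
  have hS := lseriesSummable_coeff hN (finite_absNorm_le K) (card_toFinset_isBigO K) ha hsre
  refine ⟨hsum.summable, ?_⟩
  rw [hsum.tsum_eq]
  exact norm_LSeries_le_of_sum_le hr hr1 hB hs hs2 hS

variable (K)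

/-- **L4**, unconditional: the class L-series of a nontrivial class character is summable and
uniformly bounded for real `s ∈ (1, 2]`. -/
theorem exists_bound_classLSeries' {ψ : ClassGroup (𝓞 K) →* ℂˣ} (hψ : ψ ≠ 1) :
    ∃ C : ℝ, ∀ s : ℝ, 1 < s → s ≤ 2 →
      Summable (fun I : (Ideal (𝓞 K))⁰ ↦
        (ψ (ClassGroup.mk0 I) : ℂ) * (absNorm (I : Ideal (𝓞 K)) : ℂ) ^ (-(s : ℂ))) ∧
      ‖∑' I : (Ideal (𝓞 K))⁰,
        (ψ (ClassGroup.mk0 I) : ℂ) * (absNorm (I : Ideal (𝓞 K)) : ℂ) ^ (-(s : ℂ))‖ ≤ C := by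
  have hn : (1 : ℝ) ≤ (Module.finrank ℚ K : ℝ) := by
    exact_mod_cast (Module.finrank_pos : 0 < Module.finrank ℚ K)
  have hr : (0 : ℝ) ≤ 1 - 1 / (Module.finrank ℚ K : ℝ) := by
    rw [sub_nonneg, div_le_one (by linarith)]
    exact hn
  have hr1 : 1 - 1 / (Module.finrank ℚ K : ℝ) < 1 := by
    have : (0 : ℝ) < 1 / (Module.finrank ℚ K : ℝ) := by positivity
    linarith
  exact exists_bound_classLSeries hψ hr hr1
    (fun c ↦ Fermat.Agent.S14.IdealCount.exists_abs_card_sub_le' K c)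

/-- **L4** in the shape consumed by `NormIndexBound` (hypothesis `hL` of
`index_le_finrank_of_classLSeries_bounded`). -/
theorem eventually_bound_classLSeries {ψ : ClassGroup (𝓞 K) →* ℂˣ} (hψ : ψ ≠ 1) :
    ∃ C : ℝ, ∀ᶠ s : ℝ in 𝓝[>] 1,
      ‖∑' I : (Ideal (𝓞 K))⁰,
        (ψ (ClassGroup.mk0 I) : ℂ) * (absNorm (I : Ideal (𝓞 K)) : ℂ) ^ (-(s : ℂ))‖ ≤ C := by
  obtain ⟨C, hC⟩ := exists_bound_classLSeries' K hψ
  refine ⟨C, ?_⟩
  filter_upwards [Ioc_mem_nhdsGT (one_lt_two : (1 : ℝ) < 2)] with s hs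
  exact (hC s hs.1 hs.2).2

end NumberField

end Fermat.Agent.S14.ClassLSeries
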