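import Mathlib

/-!
# S14 / I2: the character product identity

For a finite commutative group `G`, `g : G` and `x : ℂ`:
`∏ χ : G →* ℂˣ, (1 - χ g * x) = (1 - x ^ orderOf g) ^ (Nat.card G / orderOf g)`.
-/

set_option autoImplicit false

open Finset

namespace Fermat.Agent.S14.CharProd

/-- `∏_{u ^ n = 1} (1 - u x) = 1 - x ^ n`. -/
theorem prod_nthRootsFinset_one_sub_mul {n : ℕ} (hn : n ≠ 0) (x : ℂ) :
    ∏ u ∈ Polynomial.nthRootsFinset n (1 : ℂ), (1 - u * x) = 1 - x ^ n := by
  have hprim := Complex.isPrimitiveRoot_exp n hn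
  have hcard : (Polynomial.nthRootsFinset n (1 : ℂ)).card = n := hprim.card_nthRootsFinset
  by_cases hx : x = 0
  · subst hx
    simp [hn]
  · have h := Polynomial.X_pow_sub_one_eq_prod (Nat.pos_of_ne_zero hn) hprim
    have h2 := congrArg (Polynomial.eval x⁻¹) h
    simp only [Polynomial.eval_sub, Polynomial.eval_pow, Polynomial.eval_X, Polynomial.eval_one,
      Polynomial.eval_prod, Polynomial.eval_C] at h2
    have h3 : ∀ u ∈ Polynomial.nthRootsFinset n (1 : ℂ), (1 - u * x) = x * (x⁻¹ - u) := by
      intro u _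
      field_simp
    rw [Finset.prod_congr rfl h3, Finset.prod_mul_distrib, Finset.prod_const, hcard, ← h2, inv_pow,
      mul_sub, mul_inv_cancel₀ (pow_ne_zero n hx), mul_one]

variable {G : Type*} [CommGroup G] [Finite G]

/-- **Character product identity.** -/
theorem prod_one_sub_char_mul [Fintype (G →* ℂˣ)] (g : G) (x : ℂ) :
    ∏ χ : G →* ℂˣ, (1 - ((χ g : ℂˣ) : ℂ) * x) =
      (1 - x ^ orderOf g) ^ (Nat.card G / orderOf g) := by
  classical
  set f := orderOf g with hf
  have hf0 : f ≠ 0 := (orderOf_pos g).ne'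
  have hfdvd : f ∣ Nat.card G := orderOf_dvd_natCard g
  have hGpos : 0 < Nat.card G := Nat.card_pos
  -- the evaluation homomorphism
  let ev : (G →* ℂˣ) →* ℂˣ := MonoidHom.eval g
  have hev : ∀ χ : G →* ℂˣ, ev χ = χ g := fun _ => rfl
  let e : (G →* ℂˣ) → ℂ := fun χ => ((χ g : ℂˣ) : ℂ)
  -- cardinalities
  have hcardG : Fintype.card (G →* ℂˣ) = Nat.card G := by
    rw [← Nat.card_eq_fintype_card]
    exact CommGroup.card_monoidHom_of_hasEnoughRootsOfUnity G ℂ
  have hker : Nat.card ev.ker = Nat.card G / f := by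
    have h1 : ev.ker = (MonoidHom.domRestrictHom (Subgroup.zpowers g) ℂˣ).ker := by
      ext χ
      rw [MonoidHom.mem_ker, MonoidHom.mem_ker, hev]
      constructor
      · intro h
        ext ⟨y, hy⟩
        obtain ⟨k, rfl⟩ := Subgroup.mem_zpowers_iff.mp hy
        simp [MonoidHom.domRestrictHom, map_zpow, h]
      · intro h
        have := DFunLike.congr_fun h ⟨g, Subgroup.mem_zpowers g⟩
        simpa [MonoidHom.domRestrictHom] using this
    rw [h1, CommGroup.card_domRestrictHom_ker (M := ℂ) (Subgroup.zpowers g)]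
    have h2 := (Subgroup.zpowers g).card_eq_card_quotient_mul_card_subgroup
    rw [Nat.card_zpowers] at h2
    rw [h2, Nat.mul_div_cancel _ (orderOf_pos g)]
  set k := Nat.card G / f with hk
  have hkf : k * f = Nat.card G := Nat.div_mul_cancel hfdvd
  have hk0 : k ≠ 0 := by
    intro h
    rw [h, zero_mul] at hkf
    omega
  -- fibres of `e`
  have hfib1 : (Finset.univ.filter fun χ : G →* ℂˣ => e χ = 1).card = k := by
    rw [← hker, Nat.card_eq_fintype_card, Fintype.card_subtype]
    congr 1
    ext χ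
    simp only [Finset.mem_filter, Finset.mem_univ, true_and, MonoidHom.mem_ker, hev, e]
    exact ⟨fun h => Units.ext (by simpa using h), fun h => by simp [h]⟩
  have hfib : ∀ u ∈ (Finset.univ : Finset (G →* ℂˣ)).image e,
      (Finset.univ.filter fun χ : G →* ℂˣ => e χ = u).card = k := by
    intro u hu
    obtain ⟨χ₀, -, rfl⟩ := Finset.mem_image.mp hu
    rw [← hfib1]
    have h1 := MonoidHom.card_fiber_eq_of_mem_range ev (x := ev χ₀) (y := 1) ⟨χ₀, rfl⟩ ⟨1, map_one _⟩
    convert h1 using 2
    · ext χ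
      simp only [Finset.mem_filter, Finset.mem_univ, true_and, hev, e]
      exact ⟨fun h => Units.ext h, fun h => by rw [h]⟩
    · ext χ
      simp only [Finset.mem_filter, Finset.mem_univ, true_and, hev, e]
      exact ⟨fun h => Units.ext (by simpa using h), fun h => by simp [h]⟩
  -- the image of `e` is the set of `f`-th roots of unity
  have himage : (Finset.univ : Finset (G →* ℂˣ)).image e = Polynomial.nthRootsFinset f (1 : ℂ) := by
    refine Finset.eq_of_subset_of_card_le ?_ ?_
    · intro u hu
      obtain ⟨χ, -, rfl⟩ := Finset.mem_image.mp hu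
      rw [Polynomial.mem_nthRootsFinset (Nat.pos_of_ne_zero hf0)]
      simp only [e]
      rw [← Units.val_pow_eq_pow_val, ← map_pow, hf, pow_orderOf_eq_one, map_one, Units.val_one]
    · rw [(Complex.isPrimitiveRoot_exp f hf0).card_nthRootsFinset]
      have h1 := Finset.card_eq_sum_card_image e (Finset.univ : Finset (G →* ℂˣ))
      rw [Finset.sum_congr rfl hfib, Finset.sum_const, smul_eq_mul, Finset.card_univ, hcardG,
        ← hkf, mul_comm] at h1
      exact (Nat.eq_of_mul_eq_mul_right (Nat.pos_of_ne_zero hk0) h1).le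
  -- the product
  have h1 := Finset.prod_comp (s := (Finset.univ : Finset (G →* ℂˣ)))
    (fun u : ℂ => 1 - u * x) e
  rw [h1, Finset.prod_congr rfl fun u hu => by rw [hfib u hu], Finset.prod_pow, himage,
    prod_nthRootsFinset_one_sub_mul hf0]

end Fermat.Agent.S14.CharProd
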