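/-
S14 block G2 (helper20): Euler products over the ideals of a Dedekind domain, and the
Dedekind zeta function of a number field as a sum over ideals and as an Euler product.

Main results (namespace `Fermat.Agent.S14.Zeta`):
* `smoothIdeals T` : nonzero ideals whose prime factors lie in the finite set `T`.
* `summable_and_hasSum_smoothIdeals`, `tsum_smoothIdeals` :
    `∑' I : smoothIdeals T, f I = ∏ v ∈ T, (1 - f v)⁻¹` for `f : Ideal R →*₀ F`.
* `eulerProduct_hasProd`, `eulerProduct_tprod` : the Euler product for a norm-summable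
    completely multiplicative `f : Ideal R →*₀ F`.
* `summable_norm_normPow`, `hasSum_normPow`, `dedekindZeta_eq_tsum` : for `1 < re s`,
    `dedekindZeta K s = ∑' I : Ideal (𝓞 K), (absNorm I : ℂ) ^ (-s)`.
* `dedekindZeta_eulerProduct` : Euler product of `NumberField.dedekindZeta`.
-/
import Mathlib

set_option autoImplicit false
set_option linter.unusedSectionVars false

open IsDedekindDomain Filter Topology NumberField Ideal

namespace Fermat.Agent.S14.Zeta

section A1


variable {R : Type*} [CommRing R] [IsDedekindDomain R]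

/-- Nonzero ideals all of whose prime factors lie in `T`. -/
def smoothIdeals (T : Finset (HeightOneSpectrum R)) : Set (Ideal R) :=
  {I | I ≠ ⊥ ∧ ∀ v : HeightOneSpectrum R, v.asIdeal ∣ I → v ∈ T}

theorem mem_smoothIdeals {T : Finset (HeightOneSpectrum R)} {I : Ideal R} :
    I ∈ smoothIdeals T ↔ I ≠ ⊥ ∧ ∀ v : HeightOneSpectrum R, v.asIdeal ∣ I → v ∈ T := Iff.rfl

theorem smoothIdeals_mono {T T' : Finset (HeightOneSpectrum R)} (h : T ⊆ T') :
    smoothIdeals T ⊆ smoothIdeals T' := fun _ hI ↦ ⟨hI.1, fun v hv ↦ h (hI.2 v hv)⟩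

theorem eq_top_of_no_prime_dvd {I : Ideal R} (h0 : I ≠ ⊥)
    (h : ∀ v : HeightOneSpectrum R, ¬ v.asIdeal ∣ I) : I = ⊤ := by
  by_contra hI
  obtain ⟨M, hM, hIM⟩ := Ideal.exists_le_maximal I hI
  have hM0 : M ≠ ⊥ := fun h' ↦ h0 (le_bot_iff.mp (h' ▸ hIM))
  exact h ⟨M, hM.isPrime, hM0⟩ (Ideal.dvd_iff_le.mpr hIM)

theorem smoothIdeals_empty : smoothIdeals (∅ : Finset (HeightOneSpectrum R)) = {⊤} := by
  ext I
  simp only [mem_smoothIdeals, Finset.notMem_empty, imp_false, Set.mem_singleton_iff]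
  constructor
  · rintro ⟨h0, h⟩
    exact eq_top_of_no_prime_dvd h0 h
  · rintro rfl
    refine ⟨top_ne_bot, fun v hv ↦ ?_⟩
    exact v.isPrime.ne_top (top_le_iff.mp (Ideal.dvd_iff_le.mp hv))

theorem heightOneSpectrum_eq_of_dvd {v w : HeightOneSpectrum R} (h : v.asIdeal ∣ w.asIdeal) :
    v = w := by
  have := (w.prime.irreducible.dvd_iff.mp h)
  rcases this with h1 | h2
  · exact absurd (Ideal.isUnit_iff.mp h1) v.isPrime.ne_top
  · exact HeightOneSpectrum.ext (associated_iff_eq.mp h2).symm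

theorem not_dvd_of_mem_smoothIdeals {T : Finset (HeightOneSpectrum R)} {v : HeightOneSpectrum R}
    (hv : v ∉ T) {I : Ideal R} (hI : I ∈ smoothIdeals T) : ¬ v.asIdeal ∣ I :=
  fun h ↦ hv (hI.2 v h)

variable [DecidableEq (HeightOneSpectrum R)]

theorem pow_mul_mem_smoothIdeals {T : Finset (HeightOneSpectrum R)} (v : HeightOneSpectrum R)
    (k : ℕ) {I : Ideal R} (hI : I ∈ smoothIdeals T) :
    v.asIdeal ^ k * I ∈ smoothIdeals (insert v T) := by
  refine ⟨mul_ne_zero (pow_ne_zero _ v.ne_bot) hI.1, fun w hw ↦ ?_⟩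
  rcases w.prime.dvd_or_dvd hw with h | h
  · have := w.prime.dvd_of_dvd_pow h
    rw [heightOneSpectrum_eq_of_dvd this]
    exact Finset.mem_insert_self _ _
  · exact Finset.mem_insert_of_mem (hI.2 w h)

theorem pow_mul_injective {v : HeightOneSpectrum R} {k l : ℕ} {I J : Ideal R}
    (hI : ¬ v.asIdeal ∣ I) (hJ : ¬ v.asIdeal ∣ J)
    (h : v.asIdeal ^ k * I = v.asIdeal ^ l * J) : k = l ∧ I = J := by
  wlog hkl : k ≤ l generalizing k l I J
  · obtain ⟨h1, h2⟩ := this hJ hI h.symm (le_of_not_ge hkl)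
    exact ⟨h1.symm, h2.symm⟩
  obtain ⟨d, rfl⟩ := Nat.exists_eq_add_of_le hkl
  rw [pow_add, mul_assoc] at h
  have h' := mul_left_cancel₀ (pow_ne_zero k v.ne_bot) h
  rcases Nat.eq_zero_or_pos d with rfl | hd
  · simpa using h'
  · exfalso
    apply hI
    rw [h']
    exact Dvd.dvd.mul_right (dvd_pow_self _ hd.ne') _

/-- The bijection `(k, I) ↦ v ^ k * I` between `ℕ × smoothIdeals T` and
`smoothIdeals (insert v T)` for `v ∉ T`. -/
noncomputable def equivProdNatSmoothIdeals {T : Finset (HeightOneSpectrum R)}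
    {v : HeightOneSpectrum R} (hv : v ∉ T) :
    ℕ × smoothIdeals T ≃ smoothIdeals (insert v T) :=
  Equiv.ofBijective (fun p ↦ ⟨v.asIdeal ^ p.1 * p.2.1, pow_mul_mem_smoothIdeals v p.1 p.2.2⟩) <| by
    constructor
    · rintro ⟨k, I, hI⟩ ⟨l, J, hJ⟩ h
      simp only [Subtype.mk.injEq] at h
      obtain ⟨h1, h2⟩ := pow_mul_injective (not_dvd_of_mem_smoothIdeals hv hI)
        (not_dvd_of_mem_smoothIdeals hv hJ) h
      subst h1 h2
      rfl
    · rintro ⟨J, hJ⟩
      have hfin : FiniteMultiplicity v.asIdeal J :=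
        FiniteMultiplicity.of_not_isUnit v.prime.not_isUnit hJ.1
      obtain ⟨I, hI, hvI⟩ := hfin.exists_eq_pow_mul_and_not_dvd
      have hI0 : I ≠ ⊥ := by
        rintro rfl
        exact hJ.1 (by simpa using hI)
      refine ⟨⟨multiplicity v.asIdeal J, I, hI0, fun w hw ↦ ?_⟩, Subtype.ext hI.symm⟩
      have hwJ : w.asIdeal ∣ J := hI ▸ Dvd.dvd.mul_left hw _
      rcases Finset.mem_insert.mp (hJ.2 w hwJ) with rfl | h
      · exact absurd hw hvI
      · exact h

@[simp]
theorem equivProdNatSmoothIdeals_apply {T : Finset (HeightOneSpectrum R)}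
    {v : HeightOneSpectrum R} (hv : v ∉ T) (p : ℕ × smoothIdeals T) :
    (equivProdNatSmoothIdeals hv p : Ideal R) = v.asIdeal ^ p.1 * p.2.1 := rfl


end A1

section A2


section abstract

variable {F : Type*} [NormedField F] [CompleteSpace F]

theorem geometric_step {A B : Type*} (e : ℕ × A ≃ B) (g : A → F) (g' : B → F) (a S : F)
    (ha : ‖a‖ < 1) (hg' : ∀ k x, g' (e (k, x)) = a ^ k * g x)
    (hs : Summable (fun x ↦ ‖g x‖)) (hS : HasSum g S) :
    Summable (fun y ↦ ‖g' y‖) ∧ HasSum g' ((1 - a)⁻¹ * S) := by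
  have hgeo : HasSum (fun k : ℕ ↦ a ^ k) (1 - a)⁻¹ := hasSum_geometric_of_norm_lt_one ha
  have hgeon : Summable (fun k : ℕ ↦ ‖a ^ k‖) := by
    simp only [norm_pow]
    exact summable_geometric_of_lt_one (norm_nonneg _) ha
  constructor
  · rw [← e.summable_iff]
    have : (fun y ↦ ‖g' y‖) ∘ e = fun p : ℕ × A ↦ ‖a ^ p.1‖ * ‖g p.2‖ := by
      funext p
      simp only [Function.comp_apply]
      rw [show p = (p.1, p.2) from rfl, hg', norm_mul]
    rw [this]
    exact Summable.mul_of_nonneg hgeon hs (fun _ ↦ norm_nonneg _) (fun _ ↦ norm_nonneg _)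
  · rw [← e.hasSum_iff]
    have : g' ∘ e = fun p : ℕ × A ↦ a ^ p.1 * g p.2 := by
      funext p
      simp only [Function.comp_apply]
      rw [show p = (p.1, p.2) from rfl, hg']
    rw [this]
    exact hgeo.mul hS (summable_mul_of_summable_norm hgeon hs)

theorem hasSum_subtype_singleton {A : Type*} (s : Set A) (a : A) (hs : s = {a}) (g : A → F) :
    Summable (fun x : s ↦ ‖g x‖) ∧ HasSum (fun x : s ↦ g x) (g a) := by
  subst hs
  refine ⟨(Set.finite_singleton a).summable (fun x ↦ ‖g x‖), ?_⟩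
  exact hasSum_singleton a g

end abstract

variable {R : Type*} [CommRing R] [IsDedekindDomain R]
variable {F : Type*} [NormedField F] [CompleteSpace F]

theorem summable_and_hasSum_smoothIdeals (f : Ideal R →*₀ F)
    (h : ∀ v : HeightOneSpectrum R, ‖f v.asIdeal‖ < 1) (T : Finset (HeightOneSpectrum R)) :
    Summable (fun I : smoothIdeals T ↦ ‖f I‖) ∧
      HasSum (fun I : smoothIdeals T ↦ f I) (∏ v ∈ T, (1 - f v.asIdeal)⁻¹) := by
  classical
  induction T using Finset.induction with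
  | empty =>
    have h1 : f (⊤ : Ideal R) = 1 := by rw [← Ideal.one_eq_top]; exact map_one f
    have := hasSum_subtype_singleton _ _ (smoothIdeals_empty (R := R)) (fun I ↦ f I)
    simpa only [Finset.prod_empty, h1] using this
  | insert v T hv ih =>
    rw [Finset.prod_insert hv]
    refine geometric_step (equivProdNatSmoothIdeals hv) (fun I : smoothIdeals T ↦ f I)
      (fun I : smoothIdeals (insert v T) ↦ f I) (f v.asIdeal) _ (h v) (fun k x ↦ ?_) ih.1 ih.2
    rw [equivProdNatSmoothIdeals_apply, map_mul, map_pow]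

theorem tsum_smoothIdeals (f : Ideal R →*₀ F)
    (h : ∀ v : HeightOneSpectrum R, ‖f v.asIdeal‖ < 1) (T : Finset (HeightOneSpectrum R)) :
    ∑' I : smoothIdeals T, f I = ∏ v ∈ T, (1 - f v.asIdeal)⁻¹ :=
  (summable_and_hasSum_smoothIdeals f h T).2.tsum_eq


end A2

section A3


variable {R : Type*} [CommRing R] [IsDedekindDomain R]
variable {F : Type*} [NormedField F] [CompleteSpace F]

theorem norm_lt_one_of_summable (f : Ideal R →*₀ F) (hsum : Summable (fun I ↦ ‖f I‖))
    (v : HeightOneSpectrum R) : ‖f v.asIdeal‖ < 1 := by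
  refine summable_geometric_iff_norm_lt_one.mp ?_
  have hinj : Function.Injective (fun k : ℕ ↦ v.asIdeal ^ k) :=
    (Ideal.pow_right_strictAnti v.asIdeal v.ne_bot v.isPrime.ne_top).injective
  have := (hsum.of_norm).comp_injective hinj
  simpa only [Function.comp_def, map_pow] using this

/-- Every nonzero ideal is `T`-smooth as soon as `T` contains its prime factors. -/
theorem exists_finset_forall_mem_smoothIdeals (A : Finset (Ideal R)) :
    ∃ T₀ : Finset (HeightOneSpectrum R), ∀ T, T₀ ⊆ T → ∀ I ∈ A, I ≠ ⊥ → I ∈ smoothIdeals T := by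
  classical
  have hfin : ∀ I : Ideal R, I ≠ ⊥ → {v : HeightOneSpectrum R | v.asIdeal ∣ I}.Finite :=
    fun I hI ↦ Ideal.finite_factors hI
  refine ⟨A.biUnion fun I ↦ if hI : I = ⊥ then ∅ else (hfin I hI).toFinset, ?_⟩
  intro T hT I hIA hI
  refine ⟨hI, fun v hv ↦ hT ?_⟩
  rw [Finset.mem_biUnion]
  refine ⟨I, hIA, ?_⟩
  rw [dif_neg hI, Set.Finite.mem_toFinset]
  exact hv

theorem norm_tsum_sub_tsum_smoothIdeals_lt (f : Ideal R →*₀ F) (hsum : Summable (fun I ↦ f I))
    {ε : ℝ} (hε : 0 < ε) :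
    ∃ T₀ : Finset (HeightOneSpectrum R), ∀ T, T₀ ⊆ T →
      ‖(∑' I, f I) - ∑' I : smoothIdeals T, f I‖ < ε := by
  obtain ⟨A, hA⟩ := hsum.tsum_vanishing (Metric.ball_mem_nhds (0 : F) hε)
  simp_rw [mem_ball_zero_iff] at hA
  obtain ⟨T₀, hT₀⟩ := exists_finset_forall_mem_smoothIdeals A
  refine ⟨T₀, fun T hT ↦ ?_⟩
  have h0 : f (⊥ : Ideal R) = 0 := by rw [← Ideal.zero_eq_bot]; exact map_zero f
  rw [← hsum.tsum_subtype_add_tsum_subtype_compl (smoothIdeals T), add_sub_cancel_left,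
    tsum_eq_tsum_sdiff_singleton (smoothIdeals T)ᶜ (f := fun I ↦ f I) h0]
  apply hA
  rw [Set.disjoint_left]
  rintro I ⟨hI1, hI2⟩ hIA
  exact hI1 (hT₀ T hT I hIA hI2)

/-- **Euler product** for completely multiplicative functions on the ideals of a Dedekind
domain. -/
theorem eulerProduct_hasProd (f : Ideal R →*₀ F) (hsum : Summable (fun I ↦ ‖f I‖)) :
    HasProd (fun v : HeightOneSpectrum R ↦ (1 - f v.asIdeal)⁻¹) (∑' I, f I) := by
  classical
  rw [HasProd, SummationFilter.unconditional_filter, Metric.tendsto_atTop]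
  intro ε hε
  obtain ⟨T₀, hT₀⟩ := norm_tsum_sub_tsum_smoothIdeals_lt f hsum.of_norm hε
  refine ⟨T₀, fun T hT ↦ ?_⟩
  rw [dist_eq_norm, ← tsum_smoothIdeals f (norm_lt_one_of_summable f hsum) T, norm_sub_rev]
  exact hT₀ T hT

theorem eulerProduct_tprod (f : Ideal R →*₀ F) (hsum : Summable (fun I ↦ ‖f I‖)) :
    ∏' v : HeightOneSpectrum R, (1 - f v.asIdeal)⁻¹ = ∑' I, f I :=
  (eulerProduct_hasProd f hsum).tprod_eq


end A3

section B1


variable (K : Type*) [Field K] [NumberField K]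

/-- The completely multiplicative function `I ↦ N(I)^(-s)` on ideals (`s ≠ 0`). -/
noncomputable def normPow (s : ℂ) (hs : s ≠ 0) : Ideal (𝓞 K) →*₀ ℂ where
  toFun I := (absNorm I : ℂ) ^ (-s)
  map_zero' := by
    simp [Complex.zero_cpow (neg_ne_zero.mpr hs)]
  map_one' := by simp
  map_mul' I J := by
    simp only [map_mul, Nat.cast_mul]
    exact Complex.natCast_mul_natCast_cpow _ _ _

@[simp]
theorem normPow_apply (s : ℂ) (hs : s ≠ 0) (I : Ideal (𝓞 K)) :
    normPow K s hs I = (absNorm I : ℂ) ^ (-s) := rfl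

theorem tendsto_sum_card_absNorm_eq_div :
    Tendsto (fun n : ℕ ↦
      (∑ k ∈ Finset.Icc 1 n, (Nat.card {I : Ideal (𝓞 K) // absNorm I = k} : ℝ)) / (n : ℝ))
      atTop (𝓝 (dedekindZeta_residue K)) := by
  refine ((Ideal.tendsto_norm_le_div_atTop₀ K).comp tendsto_natCast_atTop_atTop).congr fun n ↦ ?_
  simp only [Function.comp_apply, Nat.cast_le, ← Nat.cast_sum]
  congr
  rw [← add_left_inj 1, ← card_norm_le_eq_card_norm_le_add_one,
    show Finset.Icc 1 n = Finset.Ioc 0 n from Finset.Icc_succ_left_eq_Ioc _ _,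
    show 1 = Nat.card {I : Ideal (𝓞 K) // absNorm I = 0} by simp [Ideal.absNorm_eq_zero_iff],
    Finset.sum_Ioc_add_eq_sum_Icc (n.zero_le),
    ← Finset.card_preimage_eq_sum_card_image_eq (fun k _ ↦ finite_setOfPred_absNorm_eq k)]
  simp [Set.coe_eq_subtype]

theorem lseriesSummable_card_absNorm_eq {s : ℂ} (hs : 1 < s.re) :
    LSeriesSummable (fun n ↦ ((Nat.card {I : Ideal (𝓞 K) // absNorm I = n} : ℝ) : ℂ)) s := by
  refine LSeriesSummable_of_sum_norm_bigO_and_nonneg ?_ (fun _ ↦ Nat.cast_nonneg _) zero_le_one hs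
  exact Asymptotics.isBigO_atTop_natCast_rpow_of_tendsto_div_rpow
    (by simpa using tendsto_sum_card_absNorm_eq_div K)


end B1

section B2


variable (K : Type*) [Field K] [NumberField K]

/-- Summing a function of the norm over all ideals, fibrewise. -/
theorem summable_and_hasSum_comp_absNorm (g : ℕ → ℂ)
    (hg : Summable (fun n ↦ (Nat.card {I : Ideal (𝓞 K) // absNorm I = n} : ℝ) * ‖g n‖)) :
    Summable (fun I : Ideal (𝓞 K) ↦ ‖g (absNorm I)‖) ∧
      HasSum (fun I : Ideal (𝓞 K) ↦ g (absNorm I))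
        (∑' n, (Nat.card {I : Ideal (𝓞 K) // absNorm I = n} : ℂ) * g n) := by
  let e := Equiv.sigmaFiberEquiv (fun I : Ideal (𝓞 K) ↦ absNorm I)
  have hfin : ∀ n : ℕ, Finite {I : Ideal (𝓞 K) // absNorm I = n} :=
    fun n ↦ (finite_setOfPred_absNorm_eq n).to_subtype
  have hcomp : ∀ (p : Σ n : ℕ, {I : Ideal (𝓞 K) // absNorm I = n}),
      absNorm (e p) = p.1 := by
    rintro ⟨n, I, hI⟩
    simp [e, hI]
  have hnorm : Summable (fun I : Ideal (𝓞 K) ↦ ‖g (absNorm I)‖) := by
    rw [← e.summable_iff]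
    have : (fun I : Ideal (𝓞 K) ↦ ‖g (absNorm I)‖) ∘ e = fun p ↦ ‖g p.1‖ := by
      funext p
      simp only [Function.comp_apply]
      rw [hcomp]
    rw [this, summable_sigma_of_nonneg (fun _ ↦ norm_nonneg _)]
    refine ⟨fun n ↦ ?_, ?_⟩
    · have := hfin n
      exact Summable.of_finite
    · refine hg.congr fun n ↦ ?_
      have := hfin n
      have := Fintype.ofFinite {I : Ideal (𝓞 K) // absNorm I = n}
      rw [tsum_fintype]
      simp only [Finset.sum_const, Finset.card_univ, nsmul_eq_mul, Nat.card_eq_fintype_card]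
  refine ⟨hnorm, ?_⟩
  rw [← e.hasSum_iff]
  have hsum' : Summable ((fun I : Ideal (𝓞 K) ↦ g (absNorm I)) ∘ e) :=
    (e.summable_iff).mpr hnorm.of_norm
  have hfib : ∀ n : ℕ, HasSum (fun c : {I : Ideal (𝓞 K) // absNorm I = n} ↦
      ((fun I : Ideal (𝓞 K) ↦ g (absNorm I)) ∘ e) ⟨n, c⟩)
      ((Nat.card {I : Ideal (𝓞 K) // absNorm I = n} : ℂ) * g n) := by
    intro n
    have := hfin n
    have := Fintype.ofFinite {I : Ideal (𝓞 K) // absNorm I = n}
    have : (fun c : {I : Ideal (𝓞 K) // absNorm I = n} ↦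
        ((fun I : Ideal (𝓞 K) ↦ g (absNorm I)) ∘ e) ⟨n, c⟩) = fun _ ↦ g n := by
      funext c
      simp only [Function.comp_apply]
      rw [hcomp]
    rw [this]
    convert hasSum_fintype (fun _ : {I : Ideal (𝓞 K) // absNorm I = n} ↦ g n) using 1
    simp only [Finset.sum_const, Finset.card_univ, nsmul_eq_mul, Nat.card_eq_fintype_card]
  have hs : Summable (fun n ↦ (Nat.card {I : Ideal (𝓞 K) // absNorm I = n} : ℂ) * g n) := by
    refine Summable.of_norm (hg.congr fun n ↦ ?_)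
    rw [norm_mul, Complex.norm_natCast]
  exact HasSum.sigma_of_hasSum hs.hasSum hfib hsum'


end B2

section B3


variable (K : Type*) [Field K] [NumberField K]

theorem term_card_eq (s : ℂ) (hs : s ≠ 0) (n : ℕ) :
    LSeries.term (fun n ↦ (Nat.card {I : Ideal (𝓞 K) // absNorm I = n} : ℂ)) s n =
      (Nat.card {I : Ideal (𝓞 K) // absNorm I = n} : ℂ) * (n : ℂ) ^ (-s) := by
  rcases Nat.eq_zero_or_pos n with rfl | hn
  · simp [Complex.zero_cpow (neg_ne_zero.mpr hs)]
  · rw [LSeries.term_of_ne_zero hn.ne', Complex.cpow_neg, div_eq_mul_inv]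

theorem summable_card_mul_norm {s : ℂ} (hs : 1 < s.re) :
    Summable (fun n : ℕ ↦ (Nat.card {I : Ideal (𝓞 K) // absNorm I = n} : ℝ) *
      ‖(n : ℂ) ^ (-s)‖) := by
  have hs0 : s ≠ 0 := by
    rintro rfl
    simp at hs
    linarith
  have h := (lseriesSummable_card_absNorm_eq K hs).norm
  refine h.congr fun n ↦ ?_
  simp only [Complex.ofReal_natCast]
  rw [term_card_eq K s hs0, norm_mul, Complex.norm_natCast]

theorem summable_norm_normPow {s : ℂ} (hs : 1 < s.re) :
    Summable (fun I : Ideal (𝓞 K) ↦ ‖(absNorm I : ℂ) ^ (-s)‖) :=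
  (summable_and_hasSum_comp_absNorm K (fun n ↦ (n : ℂ) ^ (-s)) (summable_card_mul_norm K hs)).1

theorem hasSum_normPow {s : ℂ} (hs : 1 < s.re) :
    HasSum (fun I : Ideal (𝓞 K) ↦ (absNorm I : ℂ) ^ (-s)) (dedekindZeta K s) := by
  have hs0 : s ≠ 0 := by
    rintro rfl
    simp at hs
    linarith
  convert (summable_and_hasSum_comp_absNorm K (fun n ↦ (n : ℂ) ^ (-s))
    (summable_card_mul_norm K hs)).2 using 1
  rw [dedekindZeta, LSeries]
  exact tsum_congr fun n ↦ term_card_eq K s hs0 n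

theorem dedekindZeta_eq_tsum {s : ℂ} (hs : 1 < s.re) :
    dedekindZeta K s = ∑' I : Ideal (𝓞 K), (absNorm I : ℂ) ^ (-s) :=
  (hasSum_normPow K hs).tsum_eq.symm

/-- **Euler product** of the Dedekind zeta function. -/
theorem dedekindZeta_eulerProduct {s : ℂ} (hs : 1 < s.re) :
    HasProd (fun v : HeightOneSpectrum (𝓞 K) ↦ (1 - (absNorm v.asIdeal : ℂ) ^ (-s))⁻¹)
      (dedekindZeta K s) := by
  have hs0 : s ≠ 0 := by
    rintro rfl
    simp at hs
    linarith
  have := eulerProduct_hasProd (normPow K s hs0) (summable_norm_normPow K hs)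
  simpa only [normPow_apply, ← dedekindZeta_eq_tsum K hs] using this


end B3

end Fermat.Agent.S14.Zeta
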