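/-
S14 block I2 (helper20): the analytic core of the second inequality
(universal norm index inequality), in an abstract form and in class group form.

Main results (namespace `Fermat.Agent.S14.Zeta`):
* `zetaR K s` : the Dedekind zeta function at real `s` as a real sum over ideals;
  `ofReal_zetaR`, `tendsto_sub_one_mul_zetaR`, `zetaR_eulerProduct`, `prod_le_zetaR`.
* `card_le_finrank_of_bounded` : abstract analytic index bound `#G ≤ [M : F]`.
* `index_le_finrank_of_classLSeries_bounded` (and the primed variant with bounds on `(1, 2]`):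
  `[Cl(F) : H] ≤ [M : F]` if `H` contains the classes of the primes of `F` with a degree one
  prime above them in `M` and the class `L`-series of the nontrivial characters of `Cl(F)/H`
  are bounded near `s = 1`.
-/
import Fermat.Agent.S14.EulerProduct
import Fermat.Agent.S14.CharProd

set_option autoImplicit false
set_option linter.deprecated false
set_option linter.unusedSectionVars false

open IsDedekindDomain Filter Topology NumberField Ideal nonZeroDivisors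

namespace Fermat.Agent.S14.Zeta

section D1


variable (K : Type*) [Field K] [NumberField K]

/-- The real completely multiplicative function `I ↦ N(I)^(-s)` (`s ≠ 0`). -/
noncomputable def normPowR (s : ℝ) (hs : s ≠ 0) : Ideal (𝓞 K) →*₀ ℝ where
  toFun I := (absNorm I : ℝ) ^ (-s)
  map_zero' := by
    simp [Real.zero_rpow (neg_ne_zero.mpr hs)]
  map_one' := by simp
  map_mul' I J := by
    simp only [map_mul, Nat.cast_mul]
    exact Real.mul_rpow (Nat.cast_nonneg _) (Nat.cast_nonneg _)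

@[simp]
theorem normPowR_apply (s : ℝ) (hs : s ≠ 0) (I : Ideal (𝓞 K)) :
    normPowR K s hs I = (absNorm I : ℝ) ^ (-s) := rfl

/-- The Dedekind zeta function at a real argument, as a real sum over all ideals. -/
noncomputable def zetaR (s : ℝ) : ℝ := ∑' I : Ideal (𝓞 K), (absNorm I : ℝ) ^ (-s)

theorem norm_natCast_cpow_neg (n : ℕ) {s : ℝ} (hs : s ≠ 0) :
    ‖(n : ℂ) ^ (-(s : ℂ))‖ = (n : ℝ) ^ (-s) := by
  have := Complex.norm_cpow_eq_rpow_re_of_nonneg (x := (n : ℝ)) (Nat.cast_nonneg n)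
    (y := -(s : ℂ)) (by simpa using hs)
  simpa using this

theorem summable_rpow {s : ℝ} (hs : 1 < s) :
    Summable (fun I : Ideal (𝓞 K) ↦ (absNorm I : ℝ) ^ (-s)) := by
  have h := summable_norm_normPow K (s := (s : ℂ)) (by simpa using hs)
  refine h.congr fun I ↦ ?_
  exact norm_natCast_cpow_neg _ (by linarith)

theorem ofReal_zetaR {s : ℝ} (hs : 1 < s) : ((zetaR K s : ℝ) : ℂ) = dedekindZeta K s := by
  rw [dedekindZeta_eq_tsum K (s := (s : ℂ)) (by simpa using hs), zetaR, Complex.ofReal_tsum]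
  refine tsum_congr fun I ↦ ?_
  rw [Complex.ofReal_cpow (Nat.cast_nonneg _)]
  simp

theorem zetaR_nonneg (s : ℝ) : 0 ≤ zetaR K s :=
  tsum_nonneg fun _ ↦ Real.rpow_nonneg (Nat.cast_nonneg _) _

theorem tendsto_sub_one_mul_zetaR :
    Tendsto (fun s : ℝ ↦ (s - 1) * zetaR K s) (𝓝[>] 1) (𝓝 (dedekindZeta_residue K)) := by
  have h := (Complex.continuous_re.tendsto _).comp (tendsto_sub_one_mul_dedekindZeta_nhdsGT K)
  simp only [Complex.ofReal_re] at h
  refine h.congr' ?_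
  filter_upwards [self_mem_nhdsWithin] with s hs
  simp only [Function.comp_apply]
  rw [← ofReal_zetaR K hs, ← Complex.ofReal_one, ← Complex.ofReal_sub, ← Complex.ofReal_mul,
    Complex.ofReal_re]

/-- Real **Euler product** of the Dedekind zeta function. -/
theorem zetaR_eulerProduct {s : ℝ} (hs : 1 < s) :
    HasProd (fun v : HeightOneSpectrum (𝓞 K) ↦ (1 - (absNorm v.asIdeal : ℝ) ^ (-s))⁻¹)
      (zetaR K s) := by
  have hs0 : s ≠ 0 := by linarith
  have hsum : Summable (fun I : Ideal (𝓞 K) ↦ ‖normPowR K s hs0 I‖) := by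
    refine (summable_rpow K hs).congr fun I ↦ ?_
    rw [normPowR_apply, Real.norm_of_nonneg (Real.rpow_nonneg (Nat.cast_nonneg _) _)]
  exact eulerProduct_hasProd (normPowR K s hs0) hsum

/-- Partial Euler products are bounded by the zeta value. -/
theorem prod_le_zetaR {s : ℝ} (hs : 1 < s) (T : Finset (HeightOneSpectrum (𝓞 K))) :
    ∏ v ∈ T, (1 - (absNorm v.asIdeal : ℝ) ^ (-s))⁻¹ ≤ zetaR K s := by
  have hs0 : s ≠ 0 := by linarith
  have hsum : Summable (fun I : Ideal (𝓞 K) ↦ ‖normPowR K s hs0 I‖) := by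
    refine (summable_rpow K hs).congr fun I ↦ ?_
    rw [normPowR_apply, Real.norm_of_nonneg (Real.rpow_nonneg (Nat.cast_nonneg _) _)]
  have h := tsum_smoothIdeals (normPowR K s hs0) (norm_lt_one_of_summable _ hsum) T
  simp only [normPowR_apply] at h
  rw [← h]
  exact (summable_rpow K hs).tsum_subtype_le _ (smoothIdeals T)
    (fun _ ↦ Real.rpow_nonneg (Nat.cast_nonneg _) _)


end D1

section D2


section basic

variable {K : Type*} [Field K] [NumberField K]

theorem two_le_absNorm (v : HeightOneSpectrum (𝓞 K)) : 2 ≤ absNorm v.asIdeal := by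
  have h0 : absNorm v.asIdeal ≠ 0 := by
    rw [Ne, Ideal.absNorm_eq_zero_iff]
    exact v.ne_bot
  have h1 : absNorm v.asIdeal ≠ 1 := by
    rw [Ne, Ideal.absNorm_eq_one_iff]
    exact v.isPrime.ne_top
  omega

theorem rpow_neg_le_half {N : ℕ} (hN : 2 ≤ N) {s : ℝ} (hs : 1 ≤ s) :
    (N : ℝ) ^ (-s) ≤ 1 / 2 := by
  have h2 : (2 : ℝ) ≤ N := by exact_mod_cast hN
  have hpos : (0 : ℝ) < N := by linarith
  rw [Real.rpow_neg hpos.le, one_div]
  apply inv_anti₀ (by norm_num)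
  calc (2 : ℝ) ≤ N := h2
    _ = (N : ℝ) ^ (1 : ℝ) := (Real.rpow_one _).symm
    _ ≤ (N : ℝ) ^ s := Real.rpow_le_rpow_of_exponent_le (by linarith) hs

theorem rpow_neg_pos {N : ℕ} (hN : 2 ≤ N) (s : ℝ) : 0 < (N : ℝ) ^ (-s) :=
  Real.rpow_pos_of_pos (by exact_mod_cast (by omega : 0 < N)) _

/-- Antitonicity of the local Euler factor in the norm. -/
theorem factor_le_factor {N N' : ℕ} (hN : 2 ≤ N) (hNN' : N ≤ N') {s : ℝ} (hs : 1 ≤ s) :
    (1 - (N' : ℝ) ^ (-s))⁻¹ ≤ (1 - (N : ℝ) ^ (-s))⁻¹ := by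
  have h1 := rpow_neg_le_half hN hs
  have hle : (N' : ℝ) ^ (-s) ≤ (N : ℝ) ^ (-s) := by
    apply Real.rpow_le_rpow_of_nonpos (by exact_mod_cast (by omega : 0 < N))
      (by exact_mod_cast hNN') (by linarith)
  apply inv_anti₀ (by linarith)
  linarith

theorem one_le_factor {N : ℕ} (hN : 2 ≤ N) {s : ℝ} (hs : 1 ≤ s) :
    1 ≤ (1 - (N : ℝ) ^ (-s))⁻¹ := by
  have h1 := rpow_neg_le_half hN hs
  have h2 := rpow_neg_pos hN s
  rw [one_le_inv₀ (by linarith)]
  linarith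

theorem factor_le_two {N : ℕ} (hN : 2 ≤ N) {s : ℝ} (hs : 1 ≤ s) :
    (1 - (N : ℝ) ^ (-s))⁻¹ ≤ 2 := by
  have h1 := rpow_neg_le_half hN hs
  rw [inv_le_comm₀ (by linarith) (by norm_num)]
  linarith

end basic

section relative

variable {F M : Type*} [Field F] [NumberField F] [Field M] [NumberField M] [Algebra F M]

theorem absNorm_under_le (w : HeightOneSpectrum (𝓞 M)) :
    absNorm (w.under (𝓞 F)).asIdeal ≤ absNorm w.asIdeal := by
  have hlies : w.asIdeal.LiesOver (w.under (𝓞 F)).asIdeal := ⟨rfl⟩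
  have h := Ideal.absNorm_eq_pow_inertiaDeg'_of_liesOver w.asIdeal (w.under (𝓞 F)).asIdeal
    (w.under (𝓞 F)).isPrime (w.under (𝓞 F)).ne_bot
  rw [h]
  have hpos : 0 < (w.under (𝓞 F)).asIdeal.inertiaDeg' w.asIdeal := by
    haveI := (w.under (𝓞 F)).isMaximal
    haveI := w.isPrime
    exact Ideal.inertiaDeg'_pos _ _
  exact Nat.le_self_pow hpos.ne' _

theorem noZeroSMulDivisors_ringOfIntegers : NoZeroSMulDivisors (𝓞 F) (𝓞 M) := by
  refine ⟨fun {c x} h ↦ ?_⟩
  rw [Algebra.smul_def, mul_eq_zero] at h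
  rcases h with h | h
  · left
    exact (FaithfulSMul.algebraMap_injective (𝓞 F) (𝓞 M)) (by rw [h, map_zero])
  · exact Or.inr h

/-- At most `[M : F]` primes of `M` lie over a given prime of `F`. -/
theorem card_filter_under_le [DecidableEq (HeightOneSpectrum (𝓞 F))]
    (T : Finset (HeightOneSpectrum (𝓞 M))) (v : HeightOneSpectrum (𝓞 F)) :
    (T.filter fun w ↦ w.under (𝓞 F) = v).card ≤ Module.finrank F M := by
  classical
  haveI := v.isMaximal
  haveI := noZeroSMulDivisors_ringOfIntegers (F := F) (M := M)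
  refine le_trans ?_ (Ideal.card_primesOverFinset_le_finrank (𝓞 M) F M v.ne_bot)
  refine Finset.card_le_card_of_injOn (fun w ↦ w.asIdeal) ?_ ?_
  · intro w hw
    simp only [Finset.coe_filter, Set.mem_setOf_eq] at hw
    rw [Finset.mem_coe, IsDedekindDomain.mem_primesOverFinset_iff v.ne_bot]
    refine ⟨w.isPrime, ⟨?_⟩⟩
    rw [← hw.2]
    rfl
  · intro w _ w' _ h
    exact HeightOneSpectrum.ext h

end relative


end D2

section D3


section general

/-- fibrewise bound for a product of a function factoring through `π`. -/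
theorem prod_comp_le_pow {α β : Type*} [DecidableEq β] (T : Finset α) (π : α → β) (u : β → ℝ)
    (hu : ∀ b, 1 ≤ u b) (n : ℕ) (hn : ∀ b, (T.filter fun a ↦ π a = b).card ≤ n) :
    ∏ a ∈ T, u (π a) ≤ (∏ b ∈ T.image π, u b) ^ n := by
  rw [Finset.prod_comp, ← Finset.prod_pow]
  refine Finset.prod_le_prod (fun b _ ↦ pow_nonneg (by linarith [hu b]) _) fun b _ ↦ ?_
  exact pow_le_pow_right₀ (hu b) (hn b)

/-- A lower bound for the limit of a convergent product with factors `≥ 1`. -/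
theorem le_of_hasProd_of_one_le {ι : Type*} {f : ι → ℝ} {a : ℝ} (hf : HasProd f a)
    (h1 : ∀ i, 1 ≤ f i) (T : Finset ι) : ∏ i ∈ T, f i ≤ a := by
  classical
  rw [HasProd, SummationFilter.unconditional_filter] at hf
  refine ge_of_tendsto hf ?_
  filter_upwards [eventually_ge_atTop T] with T' hT'
  exact Finset.prod_le_prod_of_subset_of_one_le hT' (fun i _ ↦ by linarith [h1 i])
    (fun i _ _ ↦ h1 i)

/-- An upper bound for the limit of a convergent product. -/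
theorem hasProd_le_of_prod_le {ι : Type*} {f : ι → ℝ} {a c : ℝ} (hf : HasProd f a)
    (h : ∀ T : Finset ι, ∏ i ∈ T, f i ≤ c) : a ≤ c := by
  rw [HasProd, SummationFilter.unconditional_filter] at hf
  exact le_of_tendsto hf (Eventually.of_forall h)

end general

section chars

variable {G : Type*} [CommGroup G] [Finite G]

/-- Extension by zero of a character to `WithZero G`. -/
noncomputable def charExt (χ : G →* ℂˣ) : WithZero G →*₀ ℂ :=
  WithZero.lift' ((Units.coeHom ℂ).comp χ)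

@[simp]
theorem charExt_coe (χ : G →* ℂˣ) (g : G) : charExt χ (g : WithZero G) = (χ g : ℂ) := by
  simp [charExt]

theorem norm_char (χ : G →* ℂˣ) (g : G) : ‖(χ g : ℂ)‖ = 1 := by
  have h : (χ g) ^ orderOf g = 1 := by
    rw [← map_pow, pow_orderOf_eq_one, map_one]
  have h' : (χ g : ℂ) ^ orderOf g = 1 := by
    have := congrArg (fun u : ℂˣ ↦ (u : ℂ)) h
    simpa using this
  exact Complex.norm_eq_one_of_pow_eq_one h' (orderOf_pos g).ne'

theorem norm_charExt_le (χ : G →* ℂˣ) (a : WithZero G) : ‖charExt χ a‖ ≤ 1 := by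
  induction a using WithZero.recZeroCoe with
  | zero => simp
  | coe g => rw [charExt_coe, norm_char]

theorem charExt_one_apply (a : WithZero G) (ha : a ≠ 0) : charExt (1 : G →* ℂˣ) a = 1 := by
  induction a using WithZero.recZeroCoe with
  | zero => exact absurd rfl ha
  | coe g => simp

end chars


end D3

section D4


section twist

variable {F : Type*} [Field F] [NumberField F]
variable {G : Type*} [CommGroup G] [Finite G]

/-- The completely multiplicative function `I ↦ χ(Φ I) N(I)^(-s)`. -/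
noncomputable def twist (Φ : Ideal (𝓞 F) →*₀ WithZero G) (χ : G →* ℂˣ) (s : ℂ) (hs : s ≠ 0) :
    Ideal (𝓞 F) →*₀ ℂ where
  toFun I := charExt χ (Φ I) * normPow F s hs I
  map_zero' := by rw [map_zero Φ, map_zero, zero_mul]
  map_one' := by rw [map_one Φ, map_one, map_one, one_mul]
  map_mul' I J := by
    simp only [map_mul]
    ring

theorem twist_apply (Φ : Ideal (𝓞 F) →*₀ WithZero G) (χ : G →* ℂˣ) (s : ℂ) (hs : s ≠ 0)
    (I : Ideal (𝓞 F)) :
    twist Φ χ s hs I = charExt χ (Φ I) * (absNorm I : ℂ) ^ (-s) := rfl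

theorem norm_twist_le (Φ : Ideal (𝓞 F) →*₀ WithZero G) (χ : G →* ℂˣ) (s : ℂ) (hs : s ≠ 0)
    (I : Ideal (𝓞 F)) : ‖twist Φ χ s hs I‖ ≤ ‖(absNorm I : ℂ) ^ (-s)‖ := by
  rw [twist_apply, norm_mul]
  exact mul_le_of_le_one_left (norm_nonneg _) (norm_charExt_le χ _)

theorem summable_norm_twist (Φ : Ideal (𝓞 F) →*₀ WithZero G) (χ : G →* ℂˣ) {s : ℂ}
    (hs : 1 < s.re) (hs0 : s ≠ 0) : Summable (fun I ↦ ‖twist Φ χ s hs0 I‖) :=
  Summable.of_nonneg_of_le (fun _ ↦ norm_nonneg _) (norm_twist_le Φ χ s hs0)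
    (summable_norm_normPow F hs)

/-- The `L`-series attached to `Φ` and `χ` at a real argument. -/
noncomputable def LPhi (Φ : Ideal (𝓞 F) →*₀ WithZero G) (χ : G →* ℂˣ) (s : ℝ) : ℂ :=
  ∑' I : Ideal (𝓞 F), charExt χ (Φ I) * (absNorm I : ℂ) ^ (-(s : ℂ))

theorem ofReal_ne_zero_of_one_lt {s : ℝ} (hs : 1 < s) : (s : ℂ) ≠ 0 := by
  rw [Ne, Complex.ofReal_eq_zero]
  linarith

theorem LPhi_hasProd (Φ : Ideal (𝓞 F) →*₀ WithZero G) (χ : G →* ℂˣ) {s : ℝ} (hs : 1 < s) :
    HasProd (fun v : HeightOneSpectrum (𝓞 F) ↦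
      (1 - charExt χ (Φ v.asIdeal) * (absNorm v.asIdeal : ℂ) ^ (-(s : ℂ)))⁻¹) (LPhi Φ χ s) := by
  have h := eulerProduct_hasProd (twist Φ χ (s : ℂ) (ofReal_ne_zero_of_one_lt hs))
    (summable_norm_twist Φ χ (by simpa using hs) _)
  simp only [twist_apply] at h
  exact h

theorem norm_LPhi_le_zetaR (Φ : Ideal (𝓞 F) →*₀ WithZero G) (χ : G →* ℂˣ) {s : ℝ} (hs : 1 < s) :
    ‖LPhi Φ χ s‖ ≤ zetaR F s := by
  have hs0 := ofReal_ne_zero_of_one_lt hs
  have hsum := summable_norm_twist Φ χ (s := (s : ℂ)) (by simpa using hs) hs0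
  refine (norm_tsum_le_tsum_norm hsum).trans ?_
  refine hsum.tsum_le_tsum (fun I ↦ ?_) (summable_rpow F hs)
  refine (norm_twist_le Φ χ _ hs0 I).trans_eq ?_
  exact norm_natCast_cpow_neg _ (by linarith)

end twist


end D4

section D5


section localFactor

variable {F : Type*} [Field F] [NumberField F]
variable {G : Type*} [CommGroup G] [Finite G] [Fintype (G →* ℂˣ)]

/-- The Euler factor at `v` of `∏_χ L(s, χ)`. -/
noncomputable def localFactor (Φ : Ideal (𝓞 F) →*₀ WithZero G) (s : ℝ)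
    (v : HeightOneSpectrum (𝓞 F)) : ℂ :=
  ∏ χ : G →* ℂˣ, (1 - charExt χ (Φ v.asIdeal) * (absNorm v.asIdeal : ℂ) ^ (-(s : ℂ)))⁻¹

theorem cpow_eq_ofReal (v : HeightOneSpectrum (𝓞 F)) (s : ℝ) :
    (absNorm v.asIdeal : ℂ) ^ (-(s : ℂ)) = (((absNorm v.asIdeal : ℝ) ^ (-s) : ℝ) : ℂ) := by
  rw [Complex.ofReal_cpow (Nat.cast_nonneg _)]
  simp

/-- `‖∏_χ (1 - χ(g) x)⁻¹‖ = ((1 - x^f)^(h/f))⁻¹` for real `0 ≤ x < 1`. -/
theorem norm_prod_char_inv (g : G) {x : ℝ} (hx0 : 0 ≤ x) (hx1 : x < 1) :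
    ‖∏ χ : G →* ℂˣ, (1 - (χ g : ℂ) * (x : ℂ))⁻¹‖ =
      ((1 - x ^ orderOf g) ^ (Nat.card G / orderOf g))⁻¹ := by
  rw [Finset.prod_inv_distrib, norm_inv, CharProd.prod_one_sub_char_mul]
  have h : ((1 : ℂ) - (x : ℂ) ^ orderOf g) = ((1 - x ^ orderOf g : ℝ) : ℂ) := by
    push_cast
    ring
  rw [h, ← Complex.ofReal_pow, Complex.norm_real, Real.norm_of_nonneg]
  apply pow_nonneg
  have : x ^ orderOf g ≤ 1 := pow_le_one₀ hx0 hx1.le
  linarith

theorem one_le_norm_localFactor (Φ : Ideal (𝓞 F) →*₀ WithZero G) {s : ℝ} (hs : 1 ≤ s)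
    (v : HeightOneSpectrum (𝓞 F)) : 1 ≤ ‖localFactor Φ s v‖ := by
  have hx0 := (rpow_neg_pos (two_le_absNorm v) s).le
  have hx1 : (absNorm v.asIdeal : ℝ) ^ (-s) < 1 := by
    linarith [rpow_neg_le_half (two_le_absNorm v) hs]
  unfold localFactor
  rw [cpow_eq_ofReal]
  induction hΦ : Φ v.asIdeal using WithZero.recZeroCoe with
  | zero => simp
  | coe g =>
    simp only [charExt_coe]
    rw [norm_prod_char_inv g hx0 hx1]
    rw [one_le_inv₀]
    · apply pow_le_one₀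
      · have : ((absNorm v.asIdeal : ℝ) ^ (-s)) ^ orderOf g ≤ 1 := pow_le_one₀ hx0 hx1.le
        linarith
      · have : 0 ≤ ((absNorm v.asIdeal : ℝ) ^ (-s)) ^ orderOf g := pow_nonneg hx0 _
        linarith
    · apply pow_pos
      have : ((absNorm v.asIdeal : ℝ) ^ (-s)) ^ orderOf g < 1 :=
        pow_lt_one₀ hx0 hx1 (orderOf_pos g).ne'
      linarith

theorem norm_localFactor_of_eq_one (Φ : Ideal (𝓞 F) →*₀ WithZero G) {s : ℝ} (hs : 1 ≤ s)
    (v : HeightOneSpectrum (𝓞 F)) (hv : Φ v.asIdeal = 1) :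
    ‖localFactor Φ s v‖ = ((1 - (absNorm v.asIdeal : ℝ) ^ (-s))⁻¹) ^ Nat.card G := by
  have hx0 := (rpow_neg_pos (two_le_absNorm v) s).le
  have hx1 : (absNorm v.asIdeal : ℝ) ^ (-s) < 1 := by
    linarith [rpow_neg_le_half (two_le_absNorm v) hs]
  unfold localFactor
  rw [cpow_eq_ofReal, hv]
  have h1 : ((1 : WithZero G)) = ((1 : G) : WithZero G) := rfl
  simp only [h1, charExt_coe]
  rw [norm_prod_char_inv (1 : G) hx0 hx1]
  simp

end localFactor


end D5

section D6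


section kerProd

variable {F : Type*} [Field F] [NumberField F]
variable {G : Type*} [CommGroup G] [Finite G]

open scoped Classical in
/-- Partial Euler product over the primes `v ∈ T` with `Φ v = 1`. -/
noncomputable def kerProd (Φ : Ideal (𝓞 F) →*₀ WithZero G) (s : ℝ)
    (T : Finset (HeightOneSpectrum (𝓞 F))) : ℝ :=
  ∏ v ∈ T.filter (fun v ↦ Φ v.asIdeal = 1), (1 - (absNorm v.asIdeal : ℝ) ^ (-s))⁻¹

theorem kerProd_nonneg (Φ : Ideal (𝓞 F) →*₀ WithZero G) {s : ℝ} (hs : 1 ≤ s)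
    (T : Finset (HeightOneSpectrum (𝓞 F))) : 0 ≤ kerProd Φ s T :=
  Finset.prod_nonneg fun v _ ↦ by linarith [one_le_factor (two_le_absNorm v) hs]

variable [Fintype (G →* ℂˣ)]

theorem hasProd_localFactor (Φ : Ideal (𝓞 F) →*₀ WithZero G) {s : ℝ} (hs : 1 < s) :
    HasProd (localFactor Φ s) (∏ χ : G →* ℂˣ, LPhi Φ χ s) := by
  have := hasProd_prod (s := (Finset.univ : Finset (G →* ℂˣ)))
    (f := fun χ (v : HeightOneSpectrum (𝓞 F)) ↦
      (1 - charExt χ (Φ v.asIdeal) * (absNorm v.asIdeal : ℂ) ^ (-(s : ℂ)))⁻¹)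
    (a := fun χ ↦ LPhi Φ χ s) (fun χ _ ↦ LPhi_hasProd Φ χ hs)
  exact this

theorem kerProd_pow_le (Φ : Ideal (𝓞 F) →*₀ WithZero G) {s : ℝ} (hs : 1 < s)
    (T : Finset (HeightOneSpectrum (𝓞 F))) :
    kerProd Φ s T ^ Nat.card G ≤ ‖∏ χ : G →* ℂˣ, LPhi Φ χ s‖ := by
  classical
  have h := (hasProd_localFactor Φ hs).norm
  have h2 := le_of_hasProd_of_one_le h (fun v ↦ one_le_norm_localFactor Φ hs.le v)
    (T.filter (fun v ↦ Φ v.asIdeal = 1))
  refine le_trans (le_of_eq ?_) h2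
  rw [kerProd, ← Finset.prod_pow]
  refine Finset.prod_congr rfl fun v hv ↦ ?_
  rw [norm_localFactor_of_eq_one Φ hs.le v (Finset.mem_filter.mp hv).2]

end kerProd

section Mside

variable {F M : Type*} [Field F] [NumberField F] [Field M] [NumberField M] [Algebra F M]
variable {G : Type*} [CommGroup G] [Finite G]

theorem rpow_neg_le_rpow_neg_two {N N' : ℕ} (hN : 2 ≤ N) (h : N ^ 2 ≤ N') {s : ℝ} (hs : 1 ≤ s) :
    (N' : ℝ) ^ (-s) ≤ (N : ℝ) ^ (-(2 : ℝ)) := by
  have hN0 : (0 : ℝ) < N := by exact_mod_cast (by omega : 0 < N)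
  have hN'1 : (1 : ℝ) ≤ N' := by
    have : 1 ≤ N' := le_trans (Nat.one_le_pow _ _ (by omega)) h
    exact_mod_cast this
  calc (N' : ℝ) ^ (-s) ≤ (N' : ℝ) ^ (-(1 : ℝ)) :=
        Real.rpow_le_rpow_of_exponent_le hN'1 (by linarith)
    _ = ((N' : ℝ))⁻¹ := by rw [Real.rpow_neg_one]
    _ ≤ ((N : ℝ) ^ 2)⁻¹ := by
        apply inv_anti₀ (by positivity)
        exact_mod_cast h
    _ = (N : ℝ) ^ (-(2 : ℝ)) := by
        rw [Real.rpow_neg hN0.le, Real.rpow_two]

theorem factor_le_of_sq_le {N N' : ℕ} (hN : 2 ≤ N) (h : N ^ 2 ≤ N') {s : ℝ} (hs : 1 ≤ s) :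
    (1 - (N' : ℝ) ^ (-s))⁻¹ ≤ (1 - (N : ℝ) ^ (-(2 : ℝ)))⁻¹ := by
  have h1 := rpow_neg_le_rpow_neg_two hN h hs
  have h2 := rpow_neg_le_half hN (s := 2) (by norm_num)
  apply inv_anti₀ (by linarith)
  linarith

open scoped Classical in
/-- The key bound on the `M`-side: a partial Euler product of `ζ_M` is bounded by a constant
times the `n`-th power of a partial product over the primes of `F` in the kernel of `Φ`. -/
theorem prod_M_le (Φ : Ideal (𝓞 F) →*₀ WithZero G)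
    (B : Set (HeightOneSpectrum (𝓞 M))) (hB : B.Finite)
    (hΦ : ∀ w : HeightOneSpectrum (𝓞 M), w ∉ B → Φ (w.under (𝓞 F)).asIdeal ≠ 1 →
        absNorm (w.under (𝓞 F)).asIdeal ^ 2 ≤ absNorm w.asIdeal)
    {s : ℝ} (hs : 1 < s) (T' : Finset (HeightOneSpectrum (𝓞 M))) :
    ∏ w ∈ T', (1 - (absNorm w.asIdeal : ℝ) ^ (-s))⁻¹ ≤
      2 ^ hB.toFinset.card * zetaR F 2 ^ Module.finrank F M *
        kerProd Φ s (T'.image fun w ↦ w.under (𝓞 F)) ^ Module.finrank F M := by
  set n := Module.finrank F M with hn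
  let π : HeightOneSpectrum (𝓞 M) → HeightOneSpectrum (𝓞 F) := fun w ↦ w.under (𝓞 F)
  let u : HeightOneSpectrum (𝓞 F) → ℝ := fun v ↦
    if Φ v.asIdeal = 1 then (1 - (absNorm v.asIdeal : ℝ) ^ (-s))⁻¹ else 1
  let c : HeightOneSpectrum (𝓞 F) → ℝ := fun v ↦ (1 - (absNorm v.asIdeal : ℝ) ^ (-(2 : ℝ)))⁻¹
  let b : HeightOneSpectrum (𝓞 M) → ℝ := fun w ↦ if w ∈ B then 2 else 1
  have hu1 : ∀ v, 1 ≤ u v := by
    intro v
    simp only [u]
    split_ifs
    · exact one_le_factor (two_le_absNorm v) hs.le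
    · exact le_rfl
  have hc1 : ∀ v, 1 ≤ c v := fun v ↦ one_le_factor (two_le_absNorm v) (by norm_num)
  have hb1 : ∀ w, 1 ≤ b w := by
    intro w
    simp only [b]
    split_ifs <;> norm_num
  -- pointwise bound
  have hpt : ∀ w ∈ T', (1 - (absNorm w.asIdeal : ℝ) ^ (-s))⁻¹ ≤ u (π w) * c (π w) * b w := by
    intro w _
    by_cases hwB : w ∈ B
    · have h1 : (1 - (absNorm w.asIdeal : ℝ) ^ (-s))⁻¹ ≤ 2 :=
        factor_le_two (two_le_absNorm w) hs.le
      have h2 : b w = 2 := by simp [b, hwB]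
      have huc : 1 ≤ u (π w) * c (π w) := one_le_mul_of_one_le_of_one_le (hu1 _) (hc1 _)
      rw [h2]
      linarith
    · have hbw : b w = 1 := by simp [b, hwB]
      by_cases hk : Φ (π w).asIdeal = 1
      · have h1 : (1 - (absNorm w.asIdeal : ℝ) ^ (-s))⁻¹ ≤ u (π w) := by
          simp only [u, if_pos hk]
          exact factor_le_factor (two_le_absNorm _) (absNorm_under_le w) hs.le
        rw [hbw, mul_one]
        exact h1.trans (le_mul_of_one_le_right (by linarith [hu1 (π w)]) (hc1 _))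
      · have h1 : (1 - (absNorm w.asIdeal : ℝ) ^ (-s))⁻¹ ≤ c (π w) :=
          factor_le_of_sq_le (two_le_absNorm _) (hΦ w hwB hk) hs.le
        rw [hbw, mul_one]
        exact h1.trans (le_mul_of_one_le_left (by linarith [hc1 (π w)]) (hu1 _))
  have hnonneg : ∀ w ∈ T', 0 ≤ (1 - (absNorm w.asIdeal : ℝ) ^ (-s))⁻¹ := fun w _ ↦ by
    linarith [one_le_factor (two_le_absNorm w) hs.le]
  refine (Finset.prod_le_prod hnonneg hpt).trans ?_
  rw [Finset.prod_mul_distrib, Finset.prod_mul_distrib]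
  have hfib : ∀ v, (T'.filter fun w ↦ π w = v).card ≤ n := fun v ↦ card_filter_under_le T' v
  -- the three products
  have hU : ∏ w ∈ T', u (π w) ≤ kerProd Φ s (T'.image π) ^ n := by
    refine (prod_comp_le_pow T' π u hu1 n hfib).trans (le_of_eq ?_)
    congr 1
    rw [kerProd, Finset.prod_filter]
  have hC : ∏ w ∈ T', c (π w) ≤ zetaR F 2 ^ n := by
    refine (prod_comp_le_pow T' π c hc1 n hfib).trans ?_
    refine pow_le_pow_left₀ (Finset.prod_nonneg fun v _ ↦ by linarith [hc1 v]) ?_ n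
    exact prod_le_zetaR F (by norm_num) _
  have hBd : ∏ w ∈ T', b w ≤ 2 ^ hB.toFinset.card := by
    simp only [b]
    rw [Finset.prod_ite, Finset.prod_const, Finset.prod_const_one, mul_one]
    apply pow_le_pow_right₀ (by norm_num)
    apply Finset.card_le_card
    intro w hw
    simpa using (Finset.mem_filter.mp hw).2
  have hUnn : 0 ≤ ∏ w ∈ T', u (π w) := Finset.prod_nonneg fun w _ ↦ by linarith [hu1 (π w)]
  have hCnn : 0 ≤ ∏ w ∈ T', c (π w) := Finset.prod_nonneg fun w _ ↦ by linarith [hc1 (π w)]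
  have hBnn : 0 ≤ ∏ w ∈ T', b w := Finset.prod_nonneg fun w _ ↦ by linarith [hb1 w]
  have hKn : 0 ≤ kerProd Φ s (T'.image π) ^ n := pow_nonneg (kerProd_nonneg Φ hs.le _) n
  have hZn : 0 ≤ zetaR F 2 ^ n := pow_nonneg (zetaR_nonneg F 2) n
  calc (∏ w ∈ T', u (π w)) * (∏ w ∈ T', c (π w)) * ∏ w ∈ T', b w
      ≤ kerProd Φ s (T'.image π) ^ n * zetaR F 2 ^ n * 2 ^ hB.toFinset.card :=
        mul_le_mul (mul_le_mul hU hC hCnn hKn) hBd hBnn (mul_nonneg hKn hZn)
    _ = 2 ^ hB.toFinset.card * zetaR F 2 ^ n * kerProd Φ s (T'.image π) ^ n := by ring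

end Mside


end D6

section D7


section main

variable {F M : Type*} [Field F] [NumberField F] [Field M] [NumberField M] [Algebra F M]
variable {G : Type*} [CommGroup G] [Finite G]

theorem exists_uniform_bound [Fintype (G →* ℂˣ)] (Φ : Ideal (𝓞 F) →*₀ WithZero G)
    (hL : ∀ χ : G →* ℂˣ, χ ≠ 1 → ∃ C : ℝ, ∀ᶠ s : ℝ in 𝓝[>] 1, ‖LPhi Φ χ s‖ ≤ C) :
    ∃ C : ℝ, 1 ≤ C ∧ ∀ᶠ s : ℝ in 𝓝[>] 1, ∀ χ : G →* ℂˣ, χ ≠ 1 → ‖LPhi Φ χ s‖ ≤ C := by
  classical
  choose! C hC using hL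
  refine ⟨1 + ∑ χ : G →* ℂˣ, |C χ|, ?_, ?_⟩
  · have : 0 ≤ ∑ χ : G →* ℂˣ, |C χ| := Finset.sum_nonneg fun _ _ ↦ abs_nonneg _
    linarith
  · rw [Filter.eventually_all]
    intro χ
    by_cases hχ : χ = 1
    · exact Eventually.of_forall fun s h ↦ absurd hχ h
    · filter_upwards [hC χ hχ] with s hs _
      refine hs.trans ((le_abs_self _).trans ?_)
      have : |C χ| ≤ ∑ χ : G →* ℂˣ, |C χ| :=
        Finset.single_le_sum (f := fun χ ↦ |C χ|) (fun _ _ ↦ abs_nonneg _) (Finset.mem_univ χ)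
      linarith

theorem norm_prod_LPhi_le [Fintype (G →* ℂˣ)] [DecidableEq (G →* ℂˣ)]
    (Φ : Ideal (𝓞 F) →*₀ WithZero G) {C : ℝ} (_hC : 1 ≤ C)
    {s : ℝ} (hs : 1 < s) (hb : ∀ χ : G →* ℂˣ, χ ≠ 1 → ‖LPhi Φ χ s‖ ≤ C) :
    ‖∏ χ : G →* ℂˣ, LPhi Φ χ s‖ ≤
      zetaR F s * C ^ (Finset.univ.erase (1 : G →* ℂˣ)).card := by
  rw [norm_prod, ← Finset.mul_prod_erase Finset.univ _ (Finset.mem_univ (1 : G →* ℂˣ))]
  refine mul_le_mul (norm_LPhi_le_zetaR Φ 1 hs) ?_ (Finset.prod_nonneg fun _ _ ↦ norm_nonneg _)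
    (zetaR_nonneg F s)
  rw [← Finset.prod_const]
  refine Finset.prod_le_prod (fun _ _ ↦ norm_nonneg _) fun χ hχ ↦ ?_
  exact hb χ (Finset.ne_of_mem_erase hχ)

/-- The main inequality, for a fixed real `s > 1`. -/
theorem zetaR_pow_le [Fintype (G →* ℂˣ)] [DecidableEq (G →* ℂˣ)]
    (Φ : Ideal (𝓞 F) →*₀ WithZero G)
    (B : Set (HeightOneSpectrum (𝓞 M))) (hB : B.Finite)
    (hΦ : ∀ w : HeightOneSpectrum (𝓞 M), w ∉ B → Φ (w.under (𝓞 F)).asIdeal ≠ 1 →
        absNorm (w.under (𝓞 F)).asIdeal ^ 2 ≤ absNorm w.asIdeal)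
    {C : ℝ} (hC : 1 ≤ C) {s : ℝ} (hs : 1 < s)
    (hb : ∀ χ : G →* ℂˣ, χ ≠ 1 → ‖LPhi Φ χ s‖ ≤ C) :
    zetaR M s ^ Nat.card G ≤
      (2 ^ hB.toFinset.card * zetaR F 2 ^ Module.finrank F M) ^ Nat.card G *
        (zetaR F s * C ^ (Finset.univ.erase (1 : G →* ℂˣ)).card) ^ Module.finrank F M := by
  classical
  set n := Module.finrank F M
  set h := Nat.card G
  set C₂ : ℝ := 2 ^ hB.toFinset.card * zetaR F 2 ^ n with hC₂
  have hC₂nn : 0 ≤ C₂ := mul_nonneg (by positivity) (pow_nonneg (zetaR_nonneg F 2) n)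
  have hprod := (zetaR_eulerProduct M hs).pow h
  refine hasProd_le_of_prod_le hprod fun T' ↦ ?_
  rw [Finset.prod_pow]
  have h1 := prod_M_le Φ B hB hΦ hs T'
  have hK := kerProd_pow_le Φ hs (T'.image fun w ↦ w.under (𝓞 F))
  have hKnn := kerProd_nonneg Φ hs.le (T'.image fun w ↦ w.under (𝓞 F))
  have hnn : 0 ≤ ∏ w ∈ T', (1 - (absNorm w.asIdeal : ℝ) ^ (-s))⁻¹ :=
    Finset.prod_nonneg fun w _ ↦ by linarith [one_le_factor (two_le_absNorm w) hs.le]
  calc (∏ w ∈ T', (1 - (absNorm w.asIdeal : ℝ) ^ (-s))⁻¹) ^ h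
      ≤ (C₂ * kerProd Φ s (T'.image fun w ↦ w.under (𝓞 F)) ^ n) ^ h :=
        pow_le_pow_left₀ hnn h1 h
    _ = C₂ ^ h * (kerProd Φ s (T'.image fun w ↦ w.under (𝓞 F)) ^ h) ^ n := by
        rw [mul_pow, ← pow_mul, ← pow_mul, mul_comm n h]
    _ ≤ C₂ ^ h * (zetaR F s * C ^ (Finset.univ.erase (1 : G →* ℂˣ)).card) ^ n := by
        refine mul_le_mul_of_nonneg_left ?_ (pow_nonneg hC₂nn h)
        refine pow_le_pow_left₀ (pow_nonneg hKnn h) ?_ n
        exact hK.trans (norm_prod_LPhi_le Φ hC hs hb)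

/-- **Abstract analytic index bound** (universal norm index inequality).
If `Φ` is a class map on ideals of `F` with values in a finite abelian group `G`,
all primes of `F` outside the kernel of `Φ` have residue degree `≥ 2` in `M` (up to finitely
many primes of `M`), and the `L`-series of all nontrivial characters of `G` stay bounded as
`s → 1⁺`, then `#G ≤ [M : F]`. -/
theorem card_le_finrank_of_bounded (Φ : Ideal (𝓞 F) →*₀ WithZero G)
    (B : Set (HeightOneSpectrum (𝓞 M))) (hB : B.Finite)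
    (hΦ : ∀ w : HeightOneSpectrum (𝓞 M), w ∉ B → Φ (w.under (𝓞 F)).asIdeal ≠ 1 →
        absNorm (w.under (𝓞 F)).asIdeal ^ 2 ≤ absNorm w.asIdeal)
    (hL : ∀ χ : G →* ℂˣ, χ ≠ 1 → ∃ C : ℝ, ∀ᶠ s : ℝ in 𝓝[>] 1,
      ‖∑' I : Ideal (𝓞 F), (WithZero.lift' ((Units.coeHom ℂ).comp χ)) (Φ I) *
        (absNorm I : ℂ) ^ (-(s : ℂ))‖ ≤ C) :
    Nat.card G ≤ Module.finrank F M := by
  classical
  haveI : Fintype (G →* ℂˣ) := Fintype.ofFinite _
  by_contra hlt
  rw [not_le] at hlt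
  set n := Module.finrank F M with hn
  set h := Nat.card G with hh
  obtain ⟨C, hC1, hCev⟩ := exists_uniform_bound Φ hL
  set D : ℝ := C ^ (Finset.univ.erase (1 : G →* ℂˣ)).card with hD
  set C₂ : ℝ := 2 ^ hB.toFinset.card * zetaR F 2 ^ n with hC₂
  -- the inequality near `1`
  have hineq : ∀ᶠ s : ℝ in 𝓝[>] 1, ((s - 1) * zetaR M s) ^ h ≤
      C₂ ^ h * (((s - 1) * zetaR F s) * D) ^ n * (s - 1) ^ (h - n) := by
    filter_upwards [hCev, self_mem_nhdsWithin] with s hs hs1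
    have hs1' : (1 : ℝ) < s := hs1
    have hmain := zetaR_pow_le Φ B hB hΦ hC1 hs1' hs
    have hpos : 0 ≤ s - 1 := by linarith
    calc ((s - 1) * zetaR M s) ^ h = (s - 1) ^ h * zetaR M s ^ h := mul_pow _ _ _
      _ ≤ (s - 1) ^ h * (C₂ ^ h * (zetaR F s * D) ^ n) :=
          mul_le_mul_of_nonneg_left hmain (pow_nonneg hpos h)
      _ = C₂ ^ h * (((s - 1) * zetaR F s) * D) ^ n * (s - 1) ^ (h - n) := by
          have : (s - 1) ^ h = (s - 1) ^ n * (s - 1) ^ (h - n) := by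
            rw [← pow_add, Nat.add_sub_cancel' hlt.le]
          have e : (((s - 1) * zetaR F s) * D) ^ n = (s - 1) ^ n * (zetaR F s * D) ^ n := by
            rw [mul_assoc, mul_pow]
          rw [this, e]
          ring
  -- limits
  have hlim1 : Tendsto (fun s : ℝ ↦ ((s - 1) * zetaR M s) ^ h) (𝓝[>] 1)
      (𝓝 (dedekindZeta_residue M ^ h)) := (tendsto_sub_one_mul_zetaR M).pow h
  have hpow0 : Tendsto (fun s : ℝ ↦ (s - 1) ^ (h - n)) (𝓝[>] 1) (𝓝 0) := by
    have hc : Continuous fun s : ℝ ↦ (s - 1) ^ (h - n) := by fun_prop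
    have := hc.tendsto 1
    simp only [sub_self] at this
    rw [zero_pow (Nat.sub_ne_zero_of_lt hlt)] at this
    exact tendsto_nhdsWithin_of_tendsto_nhds this
  have hlim2 : Tendsto (fun s : ℝ ↦
      C₂ ^ h * (((s - 1) * zetaR F s) * D) ^ n * (s - 1) ^ (h - n)) (𝓝[>] 1)
      (𝓝 (C₂ ^ h * ((dedekindZeta_residue F) * D) ^ n * 0)) :=
    ((((tendsto_sub_one_mul_zetaR F).mul_const D).pow n).const_mul (C₂ ^ h)).mul hpow0
  rw [mul_zero] at hlim2
  have := le_of_tendsto_of_tendsto hlim1 hlim2 hineq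
  exact absurd this (not_le.mpr (pow_pos (dedekindZeta_residue_pos M) h))

end main


end D7

section D8


section classGroup

variable {F M : Type*} [Field F] [NumberField F] [Field M] [NumberField M] [Algebra F M]

/-- The class of a nonzero ideal, `0` at `⊥`, as a monoid-with-zero hom to
`WithZero (ClassGroup ⧸ H)`. -/
noncomputable def classPhi (H : Subgroup (ClassGroup (𝓞 F))) :
    Ideal (𝓞 F) →*₀ WithZero (ClassGroup (𝓞 F) ⧸ H) where
  toFun I := if h : I = ⊥ then 0 else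
    ((QuotientGroup.mk (ClassGroup.mk0 ⟨I, mem_nonZeroDivisors_of_ne_zero h⟩) :
      ClassGroup (𝓞 F) ⧸ H) : WithZero (ClassGroup (𝓞 F) ⧸ H))
  map_zero' := by simp
  map_one' := by
    have h1 : (1 : Ideal (𝓞 F)) ≠ ⊥ := by
      rw [Ideal.one_eq_top]; exact top_ne_bot
    rw [dif_neg h1]
    have : (⟨(1 : Ideal (𝓞 F)), mem_nonZeroDivisors_of_ne_zero h1⟩ : (Ideal (𝓞 F))⁰) = 1 := rfl
    rw [this, map_one]
    rfl
  map_mul' I J := by
    by_cases hI : I = ⊥
    · simp [hI]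
    by_cases hJ : J = ⊥
    · simp [hJ]
    have hIJ : I * J ≠ ⊥ := mul_ne_zero hI hJ
    rw [dif_neg hI, dif_neg hJ, dif_neg hIJ]
    have : (⟨I * J, mem_nonZeroDivisors_of_ne_zero hIJ⟩ : (Ideal (𝓞 F))⁰) =
        ⟨I, mem_nonZeroDivisors_of_ne_zero hI⟩ * ⟨J, mem_nonZeroDivisors_of_ne_zero hJ⟩ := rfl
    rw [this, map_mul, QuotientGroup.mk_mul]
    rfl

theorem classPhi_of_ne_bot (H : Subgroup (ClassGroup (𝓞 F))) {I : Ideal (𝓞 F)} (h : I ≠ ⊥) :
    classPhi H I = ((QuotientGroup.mk (ClassGroup.mk0 ⟨I, mem_nonZeroDivisors_of_ne_zero h⟩) :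
      ClassGroup (𝓞 F) ⧸ H) : WithZero (ClassGroup (𝓞 F) ⧸ H)) := by
  change (if h : I = ⊥ then _ else _) = _
  rw [dif_neg h]

theorem classPhi_bot (H : Subgroup (ClassGroup (𝓞 F))) : classPhi H (⊥ : Ideal (𝓞 F)) = 0 := by
  change (if h : (⊥ : Ideal (𝓞 F)) = ⊥ then _ else _) = _
  rw [dif_pos rfl]

end classGroup


end D8

section D9


section classGroup

variable {F M : Type*} [Field F] [NumberField F] [Field M] [NumberField M] [Algebra F M]

/-- either `N w = N v` or `N v ^ 2 ≤ N w` for `v = w ∩ 𝓞 F`. -/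
theorem absNorm_eq_or_sq_le (w : HeightOneSpectrum (𝓞 M)) :
    absNorm w.asIdeal = absNorm (w.under (𝓞 F)).asIdeal ∨
      absNorm (w.under (𝓞 F)).asIdeal ^ 2 ≤ absNorm w.asIdeal := by
  have hlies : w.asIdeal.LiesOver (w.under (𝓞 F)).asIdeal := ⟨rfl⟩
  have h := Ideal.absNorm_eq_pow_inertiaDeg'_of_liesOver w.asIdeal (w.under (𝓞 F)).asIdeal
    (w.under (𝓞 F)).isPrime (w.under (𝓞 F)).ne_bot
  have hpos : 0 < (w.under (𝓞 F)).asIdeal.inertiaDeg' w.asIdeal := by
    haveI := (w.under (𝓞 F)).isMaximal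
    haveI := w.isPrime
    exact Ideal.inertiaDeg'_pos _ _
  rcases Nat.lt_or_ge ((w.under (𝓞 F)).asIdeal.inertiaDeg' w.asIdeal) 2 with h2 | h2
  · left
    have : (w.under (𝓞 F)).asIdeal.inertiaDeg' w.asIdeal = 1 := by omega
    rw [h, this, pow_one]
  · right
    rw [h]
    exact Nat.pow_le_pow_right (by have := two_le_absNorm (w.under (𝓞 F)); omega) h2

/-- **Second inequality, class group form (analytic part).**
Let `H` be a subgroup of the class group of `F` containing the classes of all (but finitely many)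
primes of `F` having a prime of residue degree one above them in `M`. If the class `L`-series of
all nontrivial characters of `Cl(F)/H` are bounded as `s → 1⁺`, then `[Cl(F) : H] ≤ [M : F]`. -/
theorem index_le_finrank_of_classLSeries_bounded (H : Subgroup (ClassGroup (𝓞 F)))
    (B : Set (HeightOneSpectrum (𝓞 M))) (hB : B.Finite)
    (hH : ∀ w : HeightOneSpectrum (𝓞 M), w ∉ B →
      absNorm w.asIdeal = absNorm (w.under (𝓞 F)).asIdeal →
      ClassGroup.mk0 ⟨(w.under (𝓞 F)).asIdeal,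
        mem_nonZeroDivisors_of_ne_zero (w.under (𝓞 F)).ne_bot⟩ ∈ H)
    (hL : ∀ ψ : ClassGroup (𝓞 F) →* ℂˣ, ψ ≠ 1 → (∀ c ∈ H, ψ c = 1) →
      ∃ C : ℝ, ∀ᶠ s : ℝ in 𝓝[>] 1,
        ‖∑' I : (Ideal (𝓞 F))⁰, (ψ (ClassGroup.mk0 I) : ℂ) *
          (absNorm (I : Ideal (𝓞 F)) : ℂ) ^ (-(s : ℂ))‖ ≤ C) :
    H.index ≤ Module.finrank F M := by
  classical
  rw [Subgroup.index_eq_card]
  refine card_le_finrank_of_bounded (classPhi H) B hB ?_ ?_
  · intro w hwB hne
    rcases absNorm_eq_or_sq_le (F := F) w with h | h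
    · exfalso
      apply hne
      rw [classPhi_of_ne_bot H (w.under (𝓞 F)).ne_bot]
      have := hH w hwB h
      rw [(QuotientGroup.eq_one_iff _).mpr this]
      rfl
    · exact h
  · intro χ hχ
    let ψ : ClassGroup (𝓞 F) →* ℂˣ := χ.comp (QuotientGroup.mk' H)
    have hψ1 : ψ ≠ 1 := by
      intro h
      apply hχ
      ext q
      have := DFunLike.congr_fun h q
      simp only [ψ, MonoidHom.comp_apply, MonoidHom.one_apply] at this ⊢
      rw [this]
    have hψH : ∀ c ∈ H, ψ c = 1 := by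
      intro c hc
      simp only [ψ, MonoidHom.comp_apply, QuotientGroup.mk'_apply]
      rw [(QuotientGroup.eq_one_iff c).mpr hc, map_one]
    obtain ⟨C, hC⟩ := hL ψ hψ1 hψH
    refine ⟨C, ?_⟩
    filter_upwards [hC] with s hs
    convert hs using 2
    -- the two series agree
    have hsupp : Function.support (fun I : Ideal (𝓞 F) ↦
        (WithZero.lift' ((Units.coeHom ℂ).comp χ)) (classPhi H I) *
          (absNorm I : ℂ) ^ (-(s : ℂ))) ⊆ ((Ideal (𝓞 F))⁰ : Set (Ideal (𝓞 F))) := by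
      intro I hI
      rw [Function.mem_support] at hI
      rw [SetLike.mem_coe]
      apply mem_nonZeroDivisors_of_ne_zero
      rintro rfl
      apply hI
      rw [Submodule.zero_eq_bot, classPhi_bot, map_zero, zero_mul]
    rw [← tsum_subtype_eq_of_support_subset hsupp]
    refine tsum_congr fun I ↦ ?_
    have hI : (I : Ideal (𝓞 F)) ≠ ⊥ := nonZeroDivisors.coe_ne_zero I
    rw [classPhi_of_ne_bot H hI]
    simp [ψ]

end classGroup


end D9

section corollary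

variable {F M : Type*} [Field F] [NumberField F] [Field M] [NumberField M] [Algebra F M]

/-- Variant of `index_le_finrank_of_classLSeries_bounded` with bounds on the interval `(1, 2]`. -/
theorem index_le_finrank_of_classLSeries_bounded' (H : Subgroup (ClassGroup (𝓞 F)))
    (B : Set (HeightOneSpectrum (𝓞 M))) (hB : B.Finite)
    (hH : ∀ w : HeightOneSpectrum (𝓞 M), w ∉ B →
      absNorm w.asIdeal = absNorm (w.under (𝓞 F)).asIdeal →
      ClassGroup.mk0 ⟨(w.under (𝓞 F)).asIdeal,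
        mem_nonZeroDivisors_of_ne_zero (w.under (𝓞 F)).ne_bot⟩ ∈ H)
    (hL : ∀ ψ : ClassGroup (𝓞 F) →* ℂˣ, ψ ≠ 1 → (∀ c ∈ H, ψ c = 1) →
      ∃ C : ℝ, ∀ s : ℝ, 1 < s → s ≤ 2 →
        ‖∑' I : (Ideal (𝓞 F))⁰, (ψ (ClassGroup.mk0 I) : ℂ) *
          (absNorm (I : Ideal (𝓞 F)) : ℂ) ^ (-(s : ℂ))‖ ≤ C) :
    H.index ≤ Module.finrank F M := by
  refine index_le_finrank_of_classLSeries_bounded H B hB hH fun ψ h1 h2 ↦ ?_
  obtain ⟨C, hC⟩ := hL ψ h1 h2
  refine ⟨C, ?_⟩
  filter_upwards [Ioc_mem_nhdsGT (one_lt_two (α := ℝ))] with s hs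
  exact hC s hs.1 hs.2

end corollary

end Fermat.Agent.S14.Zeta
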