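import Mathlib
import Fermat.Agent.S14.Defs
import Fermat.Agent.S14.ClassLSeries
import Fermat.Agent.S14.NormIndexBound

/-!
# S14 / I2: the second inequality in class-group form

`(normClassSubgroup F M).index ≤ Module.finrank F M`.
-/

set_option autoImplicit false

open NumberField IsDedekindDomain
open scoped nonZeroDivisors

namespace Fermat.Agent.S14.SecondIneq

variable (F M : Type*) [Field F] [Field M] [NumberField F] [NumberField M] [Algebra F M]

/-- A prime of `M` of relative residue degree one (detected by absolute norms) lies over a prime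
of `F` that is a norm. -/
theorem relNorm_eq_under_of_absNorm_eq (w : HeightOneSpectrum (𝓞 M))
    (h : Ideal.absNorm w.asIdeal = Ideal.absNorm (w.under (𝓞 F)).asIdeal) :
    Ideal.relNorm (𝓞 F) w.asIdeal = (w.under (𝓞 F)).asIdeal := by
  have : w.asIdeal.IsMaximal := w.isMaximal
  have : (w.under (𝓞 F)).asIdeal.IsMaximal := (w.under (𝓞 F)).isMaximal
  have : w.asIdeal.LiesOver (w.under (𝓞 F)).asIdeal := ⟨rfl⟩
  have h1 := Ideal.relNorm_eq_pow_of_isMaximal w.asIdeal (w.under (𝓞 F)).asIdeal
  have h2 := Ideal.absNorm_relNorm (𝓞 F) (𝓞 M) w.asIdeal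
  rw [h1, map_pow, h] at h2
  have h3 : 1 < Ideal.absNorm (w.under (𝓞 F)).asIdeal := by
    have hne : Ideal.absNorm (w.under (𝓞 F)).asIdeal ≠ 0 := by
      rw [Ne, Ideal.absNorm_eq_zero_iff]
      exact (w.under (𝓞 F)).ne_bot
    have hne1 : Ideal.absNorm (w.under (𝓞 F)).asIdeal ≠ 1 := by
      rw [Ne, Ideal.absNorm_eq_one_iff]
      exact (w.under (𝓞 F)).isPrime.ne_top
    omega
  have h4 : w.asIdeal.inertiaDeg (𝓞 F) = 1 := by
    have := Nat.pow_right_injective h3 (h2.trans (pow_one _).symm)
    exact this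
  rw [h1, h4, pow_one]

theorem mk0_under_mem_normClassSubgroup (w : HeightOneSpectrum (𝓞 M))
    (h : Ideal.absNorm w.asIdeal = Ideal.absNorm (w.under (𝓞 F)).asIdeal)
    (hmem : (w.under (𝓞 F)).asIdeal ∈ (Ideal (𝓞 F))⁰) :
    ClassGroup.mk0 ⟨(w.under (𝓞 F)).asIdeal, hmem⟩ ∈ normClassSubgroup F M := by
  have hw : w.asIdeal ∈ (Ideal (𝓞 M))⁰ := mem_nonZeroDivisors_iff_ne_zero.mpr w.ne_bot
  have := mk0_relNorm0_mem F M ⟨w.asIdeal, hw⟩
  convert this using 2
  exact Subtype.ext (relNorm_eq_under_of_absNorm_eq F M w h).symm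

/-- **The second inequality, class-group form** (universal norm index inequality, modulus 1):
for any extension `M / F` of number fields, `[Cl(F) : N_{M/F} Cl(M)] ≤ [M : F]`. -/
theorem second_inequality : (normClassSubgroup F M).index ≤ Module.finrank F M := by
  refine Zeta.index_le_finrank_of_classLSeries_bounded (normClassSubgroup F M) ∅ Set.finite_empty
    (fun w _ h => mk0_under_mem_normClassSubgroup F M w h _)
    (fun ψ hψ _ => ClassLSeries.eventually_bound_classLSeries F hψ)

/-- The index is moreover nonzero (the class group is finite). -/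
theorem index_normClassSubgroup_ne_zero : (normClassSubgroup F M).index ≠ 0 :=
  Subgroup.index_ne_zero_of_finite

end Fermat.Agent.S14.SecondIneq
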