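import Mathlib
import Fermat.Agent.S14.Defs
import Fermat.Agent.S14.ArtinSplit
import Fermat.Agent.S14.CrossField
import Fermat.Agent.S14.CrossHB
import Fermat.Agent.S14.CrossPrimes
import Fermat.Agent.S14.CrossingAbs
import Fermat.Agent.S14.SecondInequality

/-!
# S14 block (D): the crossing assembly, `Ω`-abstract half

`K ⊆ L ⊆ Ω` number fields, `L/K` Galois of prime degree `p`, unramified, with Artin map `φ`;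
`Ω/K` Galois, all intermediate fields totally complex.

* `auxOK_of_subgroup` : ONE auxiliary field `E = Ω^H`.  If `H` contains a Frobenius `h` at `𝔓`
  (so `𝔭 = 𝔓 ∩ 𝓞 K` is the norm of a degree-one prime of `E`), elements of `H` fixing `ζ` or `ζ'`
  (`ζ ^ ℓ = 1`, `ζ' ^ ℓ' = 1`) are trivial on `L`, and `𝔅` is an ideal of a larger field
  `E' ⊇ E` prime to `m` (`ℓ ℓ' ∣ m`) then `AuxOK φ 𝔭 (N_{E'/K} 𝔅)`.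
* `exists_auxOK_pair` : two such subgroups `H₁ H₂` whose intersection still maps onto `Gal(L/K)`
  give the hypothesis `hpair` of `CrossingAbs.crossing` for `𝔭₁`, `𝔭₂`.
-/

set_option autoImplicit false
set_option linter.unusedSectionVars false
set_option linter.style.haveILetI false

open NumberField
open scoped nonZeroDivisors

namespace Fermat.Agent.S14.CrossPair

open Fermat.Agent.S14 Fermat.Agent.S14.Cross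

variable {p : ℕ} [hp : Fact p.Prime]
  {K L Ω : Type*} [Field K] [Field L] [Field Ω] [NumberField K] [NumberField L]
  [NumberField Ω] [Algebra K L] [Algebra K Ω] [Algebra L Ω] [IsScalarTower K L Ω]
  [IsGalois K L] [IsGalois K Ω]

/-- Elements of `H` fix `fixedField H` pointwise. -/
theorem apply_eq_of_mem_fixedField {H : Subgroup (Ω ≃ₐ[K] Ω)} {g : Ω ≃ₐ[K] Ω} (hg : g ∈ H)
    {x : Ω} (hx : x ∈ IntermediateField.fixedField H) : g x = x :=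
  (IntermediateField.mem_fixedField_iff H x).mp hx g hg

/-- **One auxiliary field.** -/
theorem auxOK_of_subgroup (hdeg : Module.finrank K L = p)
    {φ : Ideal (𝓞 K) → (L ≃ₐ[K] L)} (hφ : IsArtinMap K L φ) (hunr : UnramifiedEverywhere K L)
    (hTC : ∀ E : IntermediateField K Ω, IsTotallyComplex E)
    (H : Subgroup (Ω ≃ₐ[K] Ω)) (E' : IntermediateField K Ω)
    (hle : IntermediateField.fixedField H ≤ E')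
    (hE' : ∀ g₀ : (L ≃ₐ[K] L), ∃ g : Ω ≃ₐ[K] Ω, (∀ x ∈ E', g x = x) ∧
      AlgEquiv.restrictNormalHom L g = g₀)
    {ℓ ℓ' : ℕ} (hℓ : ℓ.Prime) (hℓ' : ℓ'.Prime) (hne : ℓ ≠ ℓ')
    {ζ ζ' : Ω} (hζ : ζ ^ ℓ = 1) (hζ' : ζ' ^ ℓ' = 1)
    (hfix : ∀ g ∈ H, g ζ = ζ → AlgEquiv.restrictNormalHom L g = 1)
    (hfix' : ∀ g ∈ H, g ζ' = ζ' → AlgEquiv.restrictNormalHom L g = 1)
    (𝔓 : Ideal (𝓞 Ω)) [𝔓.IsPrime] (h𝔓 : 𝔓 ≠ ⊥) {h : Ω ≃ₐ[K] Ω} (hH : h ∈ H)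
    (hfrob : IsArithFrobAt (𝓞 K) h 𝔓) (h𝔓m : ((ℓ * ℓ' : ℕ) : 𝓞 Ω) ∉ 𝔓)
    {m : ℕ} (hdvd : ℓ * ℓ' ∣ m)
    (𝔅 : (Ideal (𝓞 E'))⁰) (hcop : IsCoprime (𝔅 : Ideal (𝓞 E')) (Ideal.span {(m : 𝓞 E')}))
    (hne𝔅 : φ ((relNorm0 K E' 𝔅 : (Ideal (𝓞 K))⁰) : Ideal (𝓞 K)) ≠ 1)
    (𝔭 : (Ideal (𝓞 K))⁰) (h𝔭 : 𝔓.under (𝓞 K) = (𝔭 : Ideal (𝓞 K))) :
    CrossingAbs.AuxOK φ 𝔭 (relNorm0 K E' 𝔅) := by
  set E : IntermediateField K Ω := IntermediateField.fixedField H with hEdef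
  have hTCE : IsTotallyComplex E := hTC E
  -- every element of `Gal(L/K)` lifts to an automorphism fixing `E`
  have hE : ∀ g₀ : (L ≃ₐ[K] L), ∃ g : Ω ≃ₐ[K] Ω, (∀ x ∈ E, g x = x) ∧
      AlgEquiv.restrictNormalHom L g = g₀ := by
    intro g₀
    obtain ⟨g, hg, hg₀⟩ := hE' g₀
    exact ⟨g, fun x hx => hg x (hle hx), hg₀⟩
  have hcomm : IsMulCommutative (L ≃ₐ[K] L) := by
    have : IsCyclic (L ≃ₐ[K] L) :=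
      isCyclic_of_prime_card (p := p) (by rw [IsGalois.card_aut_eq_finrank, hdeg])
    infer_instance
  have hcommE : IsMulCommutative ((comp L E) ≃ₐ[E] (comp L E)) := isMulCommutative_comp E
  have hdegE : Module.finrank E (comp L E) = p := (finrank_comp E hE).trans hdeg
  have hunrE : UnramifiedEverywhere E (comp L E) := unramifiedEverywhere_comp E hunr
  have hψ : IsArtinMap E (comp L E) (ArtinMap.artin E (comp L E)) := ArtinSplit.isArtinMap_artin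
  have hI2 : (normClassSubgroup E (comp L E)).index ≤ p :=
    (SecondIneq.second_inequality E (comp L E)).trans_eq hdegE
  have hℓℓ' : ℓ * ℓ' ≠ 0 := Nat.mul_ne_zero hℓ.ne_zero hℓ'.ne_zero
  have h𝔪 : Ideal.span {((ℓ * ℓ' : ℕ) : 𝓞 E)} ≠ ⊥ := by
    rw [Ne, Ideal.span_singleton_eq_bot]
    exact_mod_cast hℓℓ'
  have hB : ∀ γ : 𝓞 E, γ ≠ 0 →
      IsCoprime (Ideal.span {γ}) (Ideal.span {((ℓ * ℓ' : ℕ) : 𝓞 E)}) →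
      ArtinMap.artin E (comp L E) (Ideal.span {γ}) = 1 := fun γ hγ hcopγ =>
    CrossHB.map_span_singleton_eq_one_of_fixedField H hℓ hℓ' hne hζ hζ' hfix hfix' hψ hunrE hγ
      hcopγ
  -- the degree-one prime below `𝔓`
  obtain ⟨𝔮, -, -, h𝔮cop, h𝔮N⟩ := CrossPrimes.degreeOnePrime E 𝔓 h𝔓 h hfrob
    (fun x hx => apply_eq_of_mem_fixedField hH hx) h𝔓m
  -- the norm of `𝔅` from `E'` to `E`
  letI : Algebra E E' := CrossPrimes.algebraOfLE hle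
  have htower : IsScalarTower K E E' := CrossPrimes.isScalarTower_of_le_left hle
  set 𝔟' : (Ideal (𝓞 E))⁰ := relNorm0 E E' 𝔅 with h𝔟'
  have h𝔟'cop : IsCoprime (𝔟' : Ideal (𝓞 E)) (Ideal.span {((ℓ * ℓ' : ℕ) : 𝓞 E)}) := by
    rw [h𝔟', coe_relNorm0]
    exact CrossPrimes.isCoprime_relNorm_natCast hdvd hcop
  have h𝔟'N : relNorm0 K E 𝔟' = relNorm0 K E' 𝔅 := CrossPrimes.relNorm0_trans K 𝔅
  have h𝔮N' : relNorm0 K E 𝔮 = 𝔭 := Subtype.ext (h𝔮N.trans h𝔭)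
  have key := CrossingAbs.auxOK_of_auxField (K := K) (L := L) (E := E) (M := comp L E) hdegE hφ hψ
    hunr hunrE (resComp_injective E) h𝔪 hB hI2 𝔮 𝔟' h𝔮cop h𝔟'cop (by rw [h𝔟'N]; exact hne𝔅)
  rw [h𝔮N', h𝔟'N] at key
  exact key

/-- **The pair statement.**  Two crossing subgroups `H₁ H₂` whose intersection maps onto
`Gal(L/K)` give, for the primes `𝔭₁ 𝔭₂` below the Frobenius data, a common ideal `𝔟` with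
non-trivial symbol comparable with both. -/
theorem exists_auxOK_pair (hdeg : Module.finrank K L = p)
    {φ : Ideal (𝓞 K) → (L ≃ₐ[K] L)} (hφ : IsArtinMap K L φ) (hunr : UnramifiedEverywhere K L)
    (hTC : ∀ E : IntermediateField K Ω, IsTotallyComplex E)
    (H₁ H₂ : Subgroup (Ω ≃ₐ[K] Ω))
    (hH : ∀ g₀ : (L ≃ₐ[K] L), ∃ g ∈ H₁ ⊓ H₂, AlgEquiv.restrictNormalHom L g = g₀)
    -- data for `𝔭₁`
    {ℓ₁ ℓ₁' : ℕ} (hℓ₁ : ℓ₁.Prime) (hℓ₁' : ℓ₁'.Prime) (hne₁ : ℓ₁ ≠ ℓ₁')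
    {ζ₁ ζ₁' : Ω} (hζ₁ : ζ₁ ^ ℓ₁ = 1) (hζ₁' : ζ₁' ^ ℓ₁' = 1)
    (hfix₁ : ∀ g ∈ H₁, g ζ₁ = ζ₁ → AlgEquiv.restrictNormalHom L g = 1)
    (hfix₁' : ∀ g ∈ H₁, g ζ₁' = ζ₁' → AlgEquiv.restrictNormalHom L g = 1)
    (𝔓₁ : Ideal (𝓞 Ω)) [𝔓₁.IsPrime] (h𝔓₁ : 𝔓₁ ≠ ⊥) {h₁ : Ω ≃ₐ[K] Ω} (hH₁ : h₁ ∈ H₁)
    (hfrob₁ : IsArithFrobAt (𝓞 K) h₁ 𝔓₁) (h𝔓₁m : ((ℓ₁ * ℓ₁' : ℕ) : 𝓞 Ω) ∉ 𝔓₁)
    (𝔭₁ : (Ideal (𝓞 K))⁰) (h𝔭₁ : 𝔓₁.under (𝓞 K) = (𝔭₁ : Ideal (𝓞 K)))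
    -- data for `𝔭₂`
    {ℓ₂ ℓ₂' : ℕ} (hℓ₂ : ℓ₂.Prime) (hℓ₂' : ℓ₂'.Prime) (hne₂ : ℓ₂ ≠ ℓ₂')
    {ζ₂ ζ₂' : Ω} (hζ₂ : ζ₂ ^ ℓ₂ = 1) (hζ₂' : ζ₂' ^ ℓ₂' = 1)
    (hfix₂ : ∀ g ∈ H₂, g ζ₂ = ζ₂ → AlgEquiv.restrictNormalHom L g = 1)
    (hfix₂' : ∀ g ∈ H₂, g ζ₂' = ζ₂' → AlgEquiv.restrictNormalHom L g = 1)
    (𝔓₂ : Ideal (𝓞 Ω)) [𝔓₂.IsPrime] (h𝔓₂ : 𝔓₂ ≠ ⊥) {h₂ : Ω ≃ₐ[K] Ω} (hH₂ : h₂ ∈ H₂)
    (hfrob₂ : IsArithFrobAt (𝓞 K) h₂ 𝔓₂) (h𝔓₂m : ((ℓ₂ * ℓ₂' : ℕ) : 𝓞 Ω) ∉ 𝔓₂)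
    (𝔭₂ : (Ideal (𝓞 K))⁰) (h𝔭₂ : 𝔓₂.under (𝓞 K) = (𝔭₂ : Ideal (𝓞 K))) :
    ∃ 𝔟 : (Ideal (𝓞 K))⁰, φ (𝔟 : Ideal (𝓞 K)) ≠ 1 ∧
      CrossingAbs.AuxOK φ 𝔭₁ 𝔟 ∧ CrossingAbs.AuxOK φ 𝔭₂ 𝔟 := by
  set E' : IntermediateField K Ω := IntermediateField.fixedField (H₁ ⊓ H₂) with hE'def
  have hE' : ∀ g₀ : (L ≃ₐ[K] L), ∃ g : Ω ≃ₐ[K] Ω, (∀ x ∈ E', g x = x) ∧
      AlgEquiv.restrictNormalHom L g = g₀ := by
    intro g₀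
    obtain ⟨g, hg, hg₀⟩ := hH g₀
    exact ⟨g, fun x hx => apply_eq_of_mem_fixedField hg hx, hg₀⟩
  have hle₁ : IntermediateField.fixedField H₁ ≤ E' :=
    IntermediateField.fixedField_antitone inf_le_left
  have hle₂ : IntermediateField.fixedField H₂ ≤ E' :=
    IntermediateField.fixedField_antitone inf_le_right
  set m : ℕ := (ℓ₁ * ℓ₁') * (ℓ₂ * ℓ₂') with hm
  have hm0 : m ≠ 0 :=
    Nat.mul_ne_zero (Nat.mul_ne_zero hℓ₁.ne_zero hℓ₁'.ne_zero)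
      (Nat.mul_ne_zero hℓ₂.ne_zero hℓ₂'.ne_zero)
  obtain ⟨𝔅, hcop, hne𝔅⟩ :=
    CrossPrimes.exists_coprime_map_relNorm0_ne_one hdeg hφ hunr E' hE' hm0
  refine ⟨relNorm0 K E' 𝔅, hne𝔅, ?_, ?_⟩
  · exact auxOK_of_subgroup hdeg hφ hunr hTC H₁ E' hle₁ hE' hℓ₁ hℓ₁' hne₁ hζ₁ hζ₁' hfix₁ hfix₁'
      𝔓₁ h𝔓₁ hH₁ hfrob₁ h𝔓₁m (Dvd.intro _ rfl) 𝔅 hcop hne𝔅 𝔭₁ h𝔭₁
  · exact auxOK_of_subgroup hdeg hφ hunr hTC H₂ E' hle₂ hE' hℓ₂ hℓ₂' hne₂ hζ₂ hζ₂' hfix₂ hfix₂'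
      𝔓₂ h𝔓₂ hH₂ hfrob₂ h𝔓₂m (Dvd.intro_left _ rfl) 𝔅 hcop hne𝔅 𝔭₂ h𝔭₂

end Fermat.Agent.S14.CrossPair
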