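/-
S14 block (C), addendum for helper13's two-prime trick (board #470): for `a ≥ 2`, an odd prime `p`
and any bound `B` there are arbitrarily large primes `ℓ` with `p ∣ orderOf (a : ZMod ℓ)`; in
particular two distinct such primes `ℓ₁ ≠ ℓ₂`, both larger than `B` (hence prime to `B`), different
from `p` and not dividing `a`.  Mathlib + `ArtinLemma.lean` only.
-/
import Mathlib
import Fermat.Agent.S14.ArtinLemma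

set_option autoImplicit false

namespace Fermat.Agent.S14.ArtinLemma

/-- For every bound `B` there is a prime `ℓ > B`, `ℓ ≠ p`, `ℓ ∤ a`, such that the order of `a`
modulo `ℓ` is exactly `p ^ (B + 1)` (in particular divisible by `p`). -/
theorem exists_prime_gt_orderOf_eq {a : ℕ} (ha : 2 ≤ a) {p : ℕ} (hp : p.Prime) (hp2 : p ≠ 2)
    (B : ℕ) :
    ∃ ℓ : ℕ, ℓ.Prime ∧ ℓ ≠ p ∧ B < ℓ ∧ a.Coprime ℓ ∧ orderOf ((a : ZMod ℓ)) = p ^ (B + 1) := by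
  obtain ⟨ℓ, hℓ, hne, ho⟩ := exists_prime_orderOf_eq ha hp hp2 (r := B + 1) (by omega)
  obtain ⟨hc, hlt⟩ := facts_of_orderOf hℓ hp ho
  have hBlt : B < p ^ (B + 1) :=
    lt_of_lt_of_le (lt_trans B.lt_two_pow_self (Nat.pow_lt_pow_right (by norm_num) (Nat.lt_succ_self B)))
      (Nat.pow_le_pow_left hp.two_le (B + 1))
  exact ⟨ℓ, hℓ, hne, lt_trans hBlt hlt, hc, ho⟩

/-- Arbitrarily large primes `ℓ` with `p ∣ orderOf (a : ZMod ℓ)`. -/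
theorem exists_prime_gt_dvd_orderOf {a : ℕ} (ha : 2 ≤ a) {p : ℕ} (hp : p.Prime) (hp2 : p ≠ 2)
    (B : ℕ) :
    ∃ ℓ : ℕ, ℓ.Prime ∧ ℓ ≠ p ∧ B < ℓ ∧ a.Coprime ℓ ∧ p ∣ orderOf ((a : ZMod ℓ)) := by
  obtain ⟨ℓ, hℓ, hne, hB, hc, ho⟩ := exists_prime_gt_orderOf_eq ha hp hp2 B
  exact ⟨ℓ, hℓ, hne, hB, hc, ho ▸ dvd_pow_self p (Nat.succ_ne_zero B)⟩

/-- A prime larger than `B ≠ 0` is coprime to `B`. -/
lemma coprime_of_prime_gt {ℓ B : ℕ} (hℓ : ℓ.Prime) (hB : B ≠ 0) (h : B < ℓ) : ℓ.Coprime B := by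
  rw [Nat.Prime.coprime_iff_not_dvd hℓ]
  intro hd
  have := Nat.le_of_dvd (Nat.pos_of_ne_zero hB) hd
  omega

/-- **Two-prime form** (for the two-prime trick): two distinct primes `ℓ₁ < ℓ₂`, both `> B`,
both `≠ p`, both prime to `a`, with `p` dividing the order of `a` modulo each. -/
theorem exists_two_primes_dvd_orderOf {a : ℕ} (ha : 2 ≤ a) {p : ℕ} (hp : p.Prime) (hp2 : p ≠ 2)
    (B : ℕ) :
    ∃ ℓ₁ ℓ₂ : ℕ, ℓ₁.Prime ∧ ℓ₂.Prime ∧ ℓ₁ < ℓ₂ ∧ ℓ₁ ≠ p ∧ ℓ₂ ≠ p ∧ B < ℓ₁ ∧ B < ℓ₂ ∧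
      a.Coprime ℓ₁ ∧ a.Coprime ℓ₂ ∧ p ∣ orderOf ((a : ZMod ℓ₁)) ∧ p ∣ orderOf ((a : ZMod ℓ₂)) := by
  obtain ⟨ℓ₁, hℓ₁, hne₁, hB₁, hc₁, ho₁⟩ := exists_prime_gt_dvd_orderOf ha hp hp2 B
  obtain ⟨ℓ₂, hℓ₂, hne₂, hB₂, hc₂, ho₂⟩ := exists_prime_gt_dvd_orderOf ha hp hp2 ℓ₁
  exact ⟨ℓ₁, ℓ₂, hℓ₁, hℓ₂, hB₂, hne₁, hne₂, hB₁, lt_trans hB₁ hB₂, hc₁, hc₂, ho₁, ho₂⟩

/-- The set of primes `ℓ` with `p ∣ orderOf (a : ZMod ℓ)` is infinite. -/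
theorem infinite_setOf_prime_dvd_orderOf {a : ℕ} (ha : 2 ≤ a) {p : ℕ} (hp : p.Prime)
    (hp2 : p ≠ 2) :
    {ℓ : ℕ | ℓ.Prime ∧ ℓ ≠ p ∧ a.Coprime ℓ ∧ p ∣ orderOf ((a : ZMod ℓ))}.Infinite := by
  rw [Set.infinite_iff_exists_gt]
  intro B
  obtain ⟨ℓ, hℓ, hne, hB, hc, ho⟩ := exists_prime_gt_dvd_orderOf ha hp hp2 B
  exact ⟨ℓ, ⟨hℓ, hne, hc, ho⟩, hB⟩

end Fermat.Agent.S14.ArtinLemma
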