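import Mathlib
import Fermat.Agent.S14.ArtinLemmaTwo

/-!
# S14 block (D): selection of the auxiliary primes for the crossing argument

* `natCast_not_mem_of_coprime_absNorm` : a natural number prime to `N𝔭` is not in `𝔭`;
* `natCast_not_mem_of_dvd` : if `m' ∣ m` and `m ∉ 𝔓` then `m' ∉ 𝔓`;
* `exists_four_primes` : for `q₁ q₂ ≥ 2`, an odd prime `p` and a bound `B` there are primes
  `B < ℓ₁ < ℓ₁' < ℓ₂ < ℓ₂'` with `p ∣ ord_{ℓ₁}(q₁), ord_{ℓ₁'}(q₁), ord_{ℓ₂}(q₂), ord_{ℓ₂'}(q₂)`;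
* `coprime_mul_four_of_lt` : a product of four primes larger than `B ≠ 0` is prime to `B`.
-/

set_option autoImplicit false

open NumberField

namespace Fermat.Agent.S14.CrossSelect

section Ideals

variable {R : Type*} [CommRing R]

/-- If `m' ∣ m` and `m` is not in the ideal `𝔓` then neither is `m'`. -/
theorem natCast_not_mem_of_dvd {𝔓 : Ideal R} {m m' : ℕ} (hdvd : m' ∣ m) (hm : (m : R) ∉ 𝔓) :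
    (m' : R) ∉ 𝔓 := by
  intro h
  apply hm
  obtain ⟨k, rfl⟩ := hdvd
  rw [Nat.cast_mul]
  exact 𝔓.mul_mem_right _ h

end Ideals

section NF

variable {K : Type*} [Field K] [NumberField K]

/-- A natural number prime to the absolute norm of a proper ideal does not lie in it. -/
theorem natCast_not_mem_of_coprime_absNorm {𝔭 : Ideal (𝓞 K)} (h𝔭 : 𝔭 ≠ ⊤) {m : ℕ}
    (hm : (Ideal.absNorm 𝔭).Coprime m) : (m : 𝓞 K) ∉ 𝔭 := by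
  intro hmem
  apply h𝔭
  rw [Ideal.eq_top_iff_one]
  have hq : ((Ideal.absNorm 𝔭 : ℕ) : 𝓞 K) ∈ 𝔭 := Ideal.absNorm_mem 𝔭
  obtain ⟨a, b, hab⟩ := (Nat.isCoprime_iff_coprime.mpr hm)
  have h1 : ((a : ℤ) : 𝓞 K) * ((Ideal.absNorm 𝔭 : ℕ) : 𝓞 K) + ((b : ℤ) : 𝓞 K) * (m : 𝓞 K) = 1 := by
    have := congrArg (fun z : ℤ => (z : 𝓞 K)) hab
    simpa using this
  rw [← h1]
  exact 𝔭.add_mem (𝔭.mul_mem_left _ hq) (𝔭.mul_mem_left _ hmem)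

end NF

section Primes

open Fermat.Agent.S14.ArtinLemma

/-- Four distinct large primes, two for each of `q₁`, `q₂`. -/
theorem exists_four_primes {q₁ q₂ : ℕ} (h₁ : 2 ≤ q₁) (h₂ : 2 ≤ q₂) {p : ℕ} (hp : p.Prime)
    (hp2 : p ≠ 2) (B : ℕ) :
    ∃ ℓ₁ ℓ₁' ℓ₂ ℓ₂' : ℕ, ℓ₁.Prime ∧ ℓ₁'.Prime ∧ ℓ₂.Prime ∧ ℓ₂'.Prime ∧
      B < ℓ₁ ∧ ℓ₁ < ℓ₁' ∧ ℓ₁' < ℓ₂ ∧ ℓ₂ < ℓ₂' ∧
      p ∣ orderOf ((q₁ : ZMod ℓ₁)) ∧ p ∣ orderOf ((q₁ : ZMod ℓ₁')) ∧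
      p ∣ orderOf ((q₂ : ZMod ℓ₂)) ∧ p ∣ orderOf ((q₂ : ZMod ℓ₂')) := by
  obtain ⟨ℓ₁, ℓ₁', hℓ₁, hℓ₁', hlt₁, -, -, hB₁, -, -, -, ho₁, ho₁'⟩ :=
    exists_two_primes_dvd_orderOf h₁ hp hp2 B
  obtain ⟨ℓ₂, ℓ₂', hℓ₂, hℓ₂', hlt₂, -, -, hB₂, -, -, -, ho₂, ho₂'⟩ :=
    exists_two_primes_dvd_orderOf h₂ hp hp2 ℓ₁'
  exact ⟨ℓ₁, ℓ₁', ℓ₂, ℓ₂', hℓ₁, hℓ₁', hℓ₂, hℓ₂', hB₁, hlt₁, hB₂, hlt₂, ho₁, ho₁', ho₂, ho₂'⟩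

/-- A product of four primes, all larger than `B ≠ 0`, is prime to `B`. -/
theorem coprime_mul_four_of_lt {ℓ₁ ℓ₁' ℓ₂ ℓ₂' B : ℕ} (hℓ₁ : ℓ₁.Prime) (hℓ₁' : ℓ₁'.Prime)
    (hℓ₂ : ℓ₂.Prime) (hℓ₂' : ℓ₂'.Prime) (hB : B ≠ 0) (h1 : B < ℓ₁) (h2 : B < ℓ₁') (h3 : B < ℓ₂)
    (h4 : B < ℓ₂') : Nat.Coprime (ℓ₁ * ℓ₁' * (ℓ₂ * ℓ₂')) B :=
  Nat.Coprime.mul_left
    (Nat.Coprime.mul_left (coprime_of_prime_gt hℓ₁ hB h1) (coprime_of_prime_gt hℓ₁' hB h2))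
    (Nat.Coprime.mul_left (coprime_of_prime_gt hℓ₂ hB h3) (coprime_of_prime_gt hℓ₂' hB h4))

end Primes

end Fermat.Agent.S14.CrossSelect
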