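import Mathlib

/-!
# S14 block (D), sub-block (X-A), first half: `Ω = L(ζ_m)` over `K`

`K ⊆ L` Galois, `Ω/L` cyclotomic of conductor `m`.  Then `Ω/K` is Galois and
`Gal(Ω/K) → Gal(L/K) × (ℤ/m)ˣ`, `g ↦ (g|_L, χ_m(g))`, is injective.
(Surjectivity, under `gcd(m, disc L) = 1`, is helper12's `CycloDisjoint.lean`.)
-/

set_option autoImplicit false
set_option linter.unusedSectionVars false
set_option linter.style.haveILetI false

namespace Fermat.Agent.S14.Cross

open Polynomial

variable {K L Ω : Type*} [Field K] [Field L] [Field Ω]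
  [Algebra K L] [Algebra K Ω] [Algebra L Ω] [IsScalarTower K L Ω]

/-- `Ω = L(ζ_m)` is normal over `K` when `L/K` is finite Galois. -/
theorem normal_top (m : ℕ) [NeZero m] [IsCyclotomicExtension {m} L Ω]
    [FiniteDimensional K L] [IsGalois K L] : Normal K Ω := by
  obtain ⟨f, hfsep, hfsplit⟩ := IsGalois.is_separable_splitting_field K L
  have hf0 : f ≠ 0 := hfsep.ne_zero
  have hg0 : (X ^ m - 1 : K[X]) ≠ 0 := X_pow_sub_C_ne_zero (NeZero.pos m) (1 : K)
  haveI : IsSplittingField L Ω (Polynomial.map (algebraMap K L) (X ^ m - 1)) := by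
    have h := IsCyclotomicExtension.isSplittingField_X_pow_sub_one (n := m) L Ω
    simpa using h
  haveI := IsSplittingField.mul (F := K) (K := L) Ω f (X ^ m - 1) hf0 hg0
  exact Normal.of_isSplittingField (f * (X ^ m - 1))

/-- `Ω = L(ζ_m)` is Galois over `K` when `L/K` is finite Galois (characteristic zero or, more
generally, `Ω/K` separable). -/
theorem isGalois_top (m : ℕ) [NeZero m] [IsCyclotomicExtension {m} L Ω]
    [FiniteDimensional K L] [IsGalois K L] [Algebra.IsSeparable K Ω] :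
    IsGalois K Ω :=
  haveI := normal_top (K := K) (L := L) (Ω := Ω) m
  ⟨⟩

/-- Number field version, no separability hypothesis needed. -/
theorem isGalois_top' (m : ℕ) [NeZero m] [IsCyclotomicExtension {m} L Ω]
    [NumberField K] [NumberField L] [NumberField Ω] [IsGalois K L] :
    IsGalois K Ω :=
  isGalois_top (K := K) (L := L) (Ω := Ω) m

/-- An element of `Gal(Ω/K)` that is trivial on `L` and fixes `ζ` is trivial. -/
theorem eq_one_of_restrict_eq_one_of_apply_eq {m : ℕ} [NeZero m]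
    [IsCyclotomicExtension {m} L Ω] [Normal K L] {ζ : Ω} (hζ : IsPrimitiveRoot ζ m)
    (g : Ω ≃ₐ[K] Ω) (hL : AlgEquiv.restrictNormalHom L g = 1) (hgζ : g ζ = ζ) : g = 1 := by
  have hfix : ∀ x : L, g (algebraMap L Ω x) = algebraMap L Ω x := by
    intro x
    have := AlgEquiv.restrictNormal_commutes g L x
    rw [← this]
    have h1 : g.restrictNormal L = 1 := hL
    rw [h1, AlgEquiv.one_apply]
  let g' : Ω ≃ₐ[L] Ω := AlgEquiv.ofRingEquiv (f := g.toRingEquiv) hfix
  have hg' : (g' : Ω →ₐ[L] Ω) = AlgHom.id L Ω := by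
    apply (hζ.powerBasis L).algHom_ext
    rw [IsPrimitiveRoot.powerBasis_gen L hζ]
    exact hgζ
  ext x
  have := DFunLike.congr_fun hg' x
  exact this

/-- `g ↦ (g|_L, χ_m(g))` is injective on `Gal(L(ζ_m)/K)`. -/
theorem prod_injective {m : ℕ} [NeZero m] [IsCyclotomicExtension {m} L Ω] [Normal K L]
    {ζ : Ω} (hζ : IsPrimitiveRoot ζ m) :
    Function.Injective (fun g : Ω ≃ₐ[K] Ω =>
      ((AlgEquiv.restrictNormalHom L g : L ≃ₐ[K] L), hζ.autToPow K g)) := by
  have key : ∀ g : Ω ≃ₐ[K] Ω, AlgEquiv.restrictNormalHom L g = 1 → hζ.autToPow K g = 1 →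
      g = 1 := by
    intro g h1 h2
    refine eq_one_of_restrict_eq_one_of_apply_eq hζ g h1 ?_
    have hs := hζ.autToPow_spec K g
    rw [h2, Units.val_one, ZMod.val_one_eq_one_mod, hζ.eq_orderOf, pow_mod_orderOf,
      pow_one] at hs
    exact hs.symm
  intro g₁ g₂ h
  simp only [Prod.mk.injEq] at h
  have h1 : AlgEquiv.restrictNormalHom L (g₁⁻¹ * g₂) = 1 := by
    rw [map_mul, map_inv, h.1, inv_mul_cancel]
  have h2 : hζ.autToPow K (g₁⁻¹ * g₂) = 1 := by
    rw [map_mul, map_inv, h.2, inv_mul_cancel]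
  have := key _ h1 h2
  exact inv_mul_eq_one.mp this

end Fermat.Agent.S14.Cross
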