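/-
S14 block (D-LD): linear disjointness of cyclotomic fields from number fields of coprime
discriminant, and lifting of pairs `(s, c) ∈ Gal(L/K) × (ℤ/m)ˣ` to `Gal(L(ζ_m)/K)`.

Mathlib only.
-/
import Mathlib

set_option autoImplicit false

namespace Fermat.Agent.S14.CycloDisjoint

open NumberField IntermediateField Polynomial

/-- The cyclotomic polynomial `Φ_m` stays irreducible over a number field `L` whose discriminant is
prime to `m`. -/
theorem irreducible_cyclotomic_of_coprime_discr (L : Type*) [Field L] [NumberField L] {m : ℕ}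
    [NeZero m] (h : Nat.Coprime m (NumberField.discr L).natAbs) :
    Irreducible (cyclotomic m L) := by
  let Ω := CyclotomicField m L
  have : NumberField Ω := IsCyclotomicExtension.numberField {m} L Ω
  have hζ : IsPrimitiveRoot (IsCyclotomicExtension.zeta m L Ω) m :=
    IsCyclotomicExtension.zeta_spec m L Ω
  set ζ : Ω := IsCyclotomicExtension.zeta m L Ω with hζdef
  let K₁ : IntermediateField ℚ Ω := ℚ⟮ζ⟯
  let K₂ : IntermediateField ℚ Ω := (IsScalarTower.toAlgHom ℚ L Ω).fieldRange
  have : IsCyclotomicExtension {m} ℚ K₁ := hζ.intermediateField_adjoin_isCyclotomicExtension ℚ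
  have : IsGalois ℚ K₁ := IsCyclotomicExtension.isGalois {m} ℚ K₁
  let e : L ≃ₐ[ℚ] K₂ := AlgEquiv.ofInjectiveField (IsScalarTower.toAlgHom ℚ L Ω)
  have hd2 : discr K₂ = discr L := (discr_eq_discr_of_algEquiv L e).symm
  have hcop : IsCoprime (discr K₁) (discr K₂) := by
    rw [Int.isCoprime_iff_nat_coprime, IsCyclotomicExtension.Rat.natAbs_discr m K₁, hd2]
    refine Nat.Coprime.coprime_div_left ?_
      (Nat.prod_primeFactors_pow_totient_ediv_dvd (NeZero.pos _))
    exact Nat.Coprime.pow_left _ h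
  have hdisj : K₁.LinearDisjoint K₂ := linearDisjoint_of_isGalois_isCoprime_discr Ω K₁ K₂ hcop
  have htop : K₁ ⊔ K₂ = ⊤ := by
    rw [eq_top_iff]
    rintro x -
    have hx : x ∈ Algebra.adjoin L ({ζ} : Set Ω) := by
      rw [IsCyclotomicExtension.adjoin_primitive_root_eq_top hζ]; trivial
    induction hx using Algebra.adjoin_induction with
    | mem y hy =>
      rw [Set.mem_singleton_iff] at hy
      subst hy
      exact (le_sup_left : K₁ ≤ K₁ ⊔ K₂) (mem_adjoin_simple_self ℚ _)
    | algebraMap l =>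
      exact (le_sup_right : K₂ ≤ K₁ ⊔ K₂) ⟨l, rfl⟩
    | add x y _ _ hx hy => exact add_mem hx hy
    | mul x y _ _ hx hy => exact mul_mem hx hy
  -- degree count
  have h1 : Module.finrank ℚ Ω = m.totient * Module.finrank ℚ L := by
    have := hdisj.finrank_sup
    rw [htop, IntermediateField.finrank_top', IsCyclotomicExtension.Rat.finrank m K₁,
      ← e.toLinearEquiv.finrank_eq] at this
    exact this
  have h2 : Module.finrank L Ω = m.totient := by
    have := Module.finrank_mul_finrank ℚ L Ω
    rw [h1, mul_comm (Module.finrank ℚ L)] at this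
    exact Nat.eq_of_mul_eq_mul_right (Module.finrank_pos (R := ℚ) (M := L)) this
  -- conclude: the minimal polynomial of `ζ` over `L` is the cyclotomic polynomial
  have hint : IsIntegral L ζ := (hζ.isIntegral (NeZero.pos m)).tower_top
  have hdvd : minpoly L ζ ∣ cyclotomic m L := by
    refine minpoly.dvd L ζ ?_
    rw [aeval_def, eval₂_eq_eval_map, map_cyclotomic]
    exact isRoot_cyclotomic_iff.mpr hζ
  have hdeg : (minpoly L ζ).natDegree = m.totient := by
    rw [← IntermediateField.adjoin.finrank hint, ← h2]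
    have : L⟮ζ⟯ = ⊤ := by
      rw [← IntermediateField.toSubalgebra_injective.eq_iff,
        IntermediateField.adjoin_simple_toSubalgebra_of_isAlgebraic hint.isAlgebraic,
        IsCyclotomicExtension.adjoin_primitive_root_eq_top hζ, IntermediateField.top_toSubalgebra]
    rw [this, IntermediateField.finrank_top']
  have heq : minpoly L ζ = cyclotomic m L := by
    refine (Polynomial.eq_of_monic_of_dvd_of_natDegree_le (minpoly.monic hint)
      (cyclotomic.monic m L) hdvd ?_).symm
    rw [hdeg, natDegree_cyclotomic]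
  rw [← heq]
  exact minpoly.irreducible hint

section Lift

variable (K L Ω : Type*) [Field K] [Field L] [Field Ω] [Algebra K L] [Algebra L Ω] [Algebra K Ω]
  [IsScalarTower K L Ω]

/-- A cyclotomic extension `Ω = L(ζ_m)` of a normal extension `L/K` is normal over `K`. -/
theorem normal_of_isCyclotomicExtension (m : ℕ) [NeZero m] [IsCyclotomicExtension {m} L Ω]
    [Normal K L] : Normal K Ω := by
  have : Algebra.IsIntegral L Ω := IsCyclotomicExtension.integral {m} L Ω
  have : Algebra.IsIntegral K L := ⟨Normal.isIntegral inferInstance⟩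
  have : Algebra.IsIntegral K Ω := Algebra.IsIntegral.trans (R := K) (A := L) (B := Ω)
  have hζ : IsPrimitiveRoot (IsCyclotomicExtension.zeta m L Ω) m :=
    IsCyclotomicExtension.zeta_spec m L Ω
  set ζ : Ω := IsCyclotomicExtension.zeta m L Ω
  let E₁ : IntermediateField K Ω := (IsScalarTower.toAlgHom K L Ω).fieldRange
  let E₂ : IntermediateField K Ω := K⟮ζ⟯
  have : Normal K E₁ :=
    Normal.of_algEquiv (AlgEquiv.ofInjectiveField (IsScalarTower.toAlgHom K L Ω))
  have : IsCyclotomicExtension {m} K E₂ := hζ.intermediateField_adjoin_isCyclotomicExtension K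
  have : IsGalois K E₂ := IsCyclotomicExtension.isGalois {m} K E₂
  have hsup : Normal K ↥(E₁ ⊔ E₂) := IntermediateField.normal_sup K Ω E₁ E₂
  have htop : E₁ ⊔ E₂ = ⊤ := by
    rw [eq_top_iff]
    rintro x -
    have hx : x ∈ Algebra.adjoin L ({ζ} : Set Ω) := by
      rw [IsCyclotomicExtension.adjoin_primitive_root_eq_top hζ]; trivial
    induction hx using Algebra.adjoin_induction with
    | mem y hy =>
      rw [Set.mem_singleton_iff] at hy
      subst hy
      exact (le_sup_right : E₂ ≤ E₁ ⊔ E₂) (mem_adjoin_simple_self K _)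
    | algebraMap l =>
      exact (le_sup_left : E₁ ≤ E₁ ⊔ E₂) ⟨l, rfl⟩
    | add x y _ _ hx hy => exact add_mem hx hy
    | mul x y _ _ hx hy => exact mul_mem hx hy
  rw [htop] at hsup
  exact Normal.of_algEquiv (IntermediateField.topEquiv (F := K) (E := Ω))

variable {m : ℕ} [NeZero m] [IsCyclotomicExtension {m} L Ω]

variable {Ω} in
/-- If `Φ_m` is irreducible over `L`, the Galois group of `L(ζ_m)/L` acts transitively on the
primitive `m`-th roots of unity. -/
theorem exists_algEquiv_map_eq (hirr : Irreducible (cyclotomic m L)) {ζ μ : Ω}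
    (hζ : IsPrimitiveRoot ζ m) (hμ : IsPrimitiveRoot μ m) : ∃ t : Ω ≃ₐ[L] Ω, t ζ = μ := by
  have := IsCyclotomicExtension.neZero' m L Ω
  have h1 := hζ.minpoly_eq_cyclotomic_of_irreducible hirr
  have h2 := hμ.minpoly_eq_cyclotomic_of_irreducible hirr
  have hmin : minpoly L (hζ.powerBasis L).gen = minpoly L (hμ.powerBasis L).gen := by
    simp only [IsPrimitiveRoot.powerBasis_gen]
    rw [← h1, ← h2]
  refine ⟨(hζ.powerBasis L).equivOfMinpoly (hμ.powerBasis L) hmin, ?_⟩
  have := (hζ.powerBasis L).equivOfMinpoly_gen (hμ.powerBasis L) hmin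
  simpa only [IsPrimitiveRoot.powerBasis_gen] using this

variable {Ω} in
/-- **Lifting**: `Gal(L(ζ_m)/K) → Gal(L/K) × (ℤ/m)ˣ` is surjective when `Φ_m` is irreducible over
`L`. -/
theorem exists_lift [Normal K L] (hirr : Irreducible (cyclotomic m L)) {ζ : Ω}
    (hζ : IsPrimitiveRoot ζ m) (s : L ≃ₐ[K] L) (c : (ZMod m)ˣ) :
    ∃ g : Ω ≃ₐ[K] Ω, (∀ x : L, g (algebraMap L Ω x) = algebraMap L Ω (s x)) ∧
      g ζ = ζ ^ (c : ZMod m).val := by
  have : Normal K Ω := normal_of_isCyclotomicExtension K L Ω m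
  let g₀ : Ω ≃ₐ[K] Ω := s.liftNormal Ω
  have hg₀ : ∀ x : L, g₀ (algebraMap L Ω x) = algebraMap L Ω (s x) :=
    fun x ↦ s.liftNormal_commutes Ω x
  have hμ₀ : IsPrimitiveRoot (g₀ ζ) m := hζ.map_of_injective g₀.injective
  have hμ : IsPrimitiveRoot (ζ ^ (c : ZMod m).val) m :=
    hζ.pow_of_coprime _ (ZMod.val_coe_unit_coprime c)
  obtain ⟨t, ht⟩ := exists_algEquiv_map_eq L hirr hμ₀ hμ
  refine ⟨g₀.trans (t.restrictScalars K), fun x ↦ ?_, ?_⟩
  · simp only [AlgEquiv.trans_apply, AlgEquiv.restrictScalars_apply, hg₀, AlgEquiv.commutes]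
  · simp only [AlgEquiv.trans_apply, AlgEquiv.restrictScalars_apply, ht]

omit [Algebra K L] [IsScalarTower K L Ω] in
variable {Ω} in
/-- **Uniqueness**: an automorphism of `L(ζ_m)` over `K` is determined by its restriction to `L`
and its value at `ζ`. -/
theorem algEquiv_ext_of_agree {ζ : Ω} (hζ : IsPrimitiveRoot ζ m) {g₁ g₂ : Ω ≃ₐ[K] Ω}
    (hL : ∀ x : L, g₁ (algebraMap L Ω x) = g₂ (algebraMap L Ω x)) (hz : g₁ ζ = g₂ ζ) :
    g₁ = g₂ := by
  ext x
  have hx : x ∈ Algebra.adjoin L ({ζ} : Set Ω) := by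
    rw [IsCyclotomicExtension.adjoin_primitive_root_eq_top hζ]; trivial
  induction hx using Algebra.adjoin_induction with
  | mem y hy =>
    rw [Set.mem_singleton_iff] at hy
    subst hy
    exact hz
  | algebraMap l => exact hL l
  | add x y _ _ hx hy => rw [map_add, map_add, hx, hy]
  | mul x y _ _ hx hy => rw [map_mul, map_mul, hx, hy]

end Lift

section NumberField

variable (K L Ω : Type*) [Field K] [Field L] [NumberField L] [Field Ω] [Algebra K L] [Algebra L Ω]
  [Algebra K Ω] [IsScalarTower K L Ω] {m : ℕ} [NeZero m] [IsCyclotomicExtension {m} L Ω]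

variable {Ω} in
/-- **(D-LD)**: for a number field `L`, normal over `K`, and `m` prime to the discriminant of `L`,
every pair `(s, c) ∈ Gal(L/K) × (ℤ/m)ˣ` is induced by an automorphism of `Ω = L(ζ_m)` over `K`. -/
theorem exists_lift_of_coprime_discr [Normal K L]
    (h : Nat.Coprime m (NumberField.discr L).natAbs) {ζ : Ω} (hζ : IsPrimitiveRoot ζ m)
    (s : L ≃ₐ[K] L) (c : (ZMod m)ˣ) :
    ∃ g : Ω ≃ₐ[K] Ω, (∀ x : L, g (algebraMap L Ω x) = algebraMap L Ω (s x)) ∧
      g ζ = ζ ^ (c : ZMod m).val :=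
  exists_lift K L (irreducible_cyclotomic_of_coprime_discr L h) hζ s c

/-- The degree of `L(ζ_m)/L` is `φ(m)` when `m` is prime to the discriminant of `L`. -/
theorem finrank_of_coprime_discr (h : Nat.Coprime m (NumberField.discr L).natAbs) :
    Module.finrank L Ω = m.totient :=
  IsCyclotomicExtension.finrank Ω (irreducible_cyclotomic_of_coprime_discr L h)

end NumberField

end Fermat.Agent.S14.CycloDisjoint
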