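/-
S14 block (D), sub-block (X-A), second half: `Gal(L(ζ_m)/K) → Gal(L/K) × (ℤ/m)ˣ`,
`g ↦ (g|_L, χ_m(g))`, is surjective when `Φ_m` is irreducible over `L`, in particular when `L` is a
number field whose discriminant is prime to `m`.  (First half = `CycloTop.lean`.)
-/
import Mathlib
import Fermat.Agent.S14.CycloDisjoint
import Fermat.Agent.S14.CycloTop

set_option autoImplicit false

namespace Fermat.Agent.S14.Cross

open NumberField Polynomial

variable {K L Ω : Type*} [Field K] [Field L] [Field Ω]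
  [Algebra K L] [Algebra K Ω] [Algebra L Ω] [IsScalarTower K L Ω]
  {m : ℕ} [NeZero m] [IsCyclotomicExtension {m} L Ω] [Normal K L]

/-- Surjectivity of `g ↦ (g|_L, χ_m(g))` when `Φ_m` is irreducible over `L`. -/
theorem prod_surjective_of_irreducible {ζ : Ω} (hζ : IsPrimitiveRoot ζ m)
    (hirr : Irreducible (cyclotomic m L)) :
    Function.Surjective (fun g : Ω ≃ₐ[K] Ω =>
      ((AlgEquiv.restrictNormalHom L g : L ≃ₐ[K] L), hζ.autToPow K g)) := by
  rintro ⟨s, c⟩
  obtain ⟨g, hg1, hg2⟩ := CycloDisjoint.exists_lift K L hirr hζ s c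
  refine ⟨g, ?_⟩
  simp only [Prod.mk.injEq]
  constructor
  · ext x
    apply (algebraMap L Ω).injective
    have e1 := AlgEquiv.restrictNormal_commutes g L x
    change algebraMap L Ω (AlgEquiv.restrictNormal g L x) = _
    rw [e1, hg1]
  · have hspec := hζ.autToPow_spec K g
    rw [hg2] at hspec
    have hlt1 : (hζ.autToPow K g : ZMod m).val < m := ZMod.val_lt _
    have hlt2 : (c : ZMod m).val < m := ZMod.val_lt _
    have := hζ.pow_inj hlt1 hlt2 hspec
    exact Units.ext (ZMod.val_injective m this)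

/-- **(X-A) surjectivity**: `L` a number field with discriminant prime to `m`. -/
theorem prod_surjective [NumberField L] {ζ : Ω} (hζ : IsPrimitiveRoot ζ m)
    (hm : Nat.Coprime m (NumberField.discr L).natAbs) :
    Function.Surjective (fun g : Ω ≃ₐ[K] Ω =>
      ((AlgEquiv.restrictNormalHom L g : L ≃ₐ[K] L), hζ.autToPow K g)) :=
  prod_surjective_of_irreducible hζ (CycloDisjoint.irreducible_cyclotomic_of_coprime_discr L hm)

/-- The bundled isomorphism `Gal(L(ζ_m)/K) ≃* Gal(L/K) × (ℤ/m)ˣ`. -/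
noncomputable def prodEquiv [NumberField L] {ζ : Ω} (hζ : IsPrimitiveRoot ζ m)
    (hm : Nat.Coprime m (NumberField.discr L).natAbs) :
    (Ω ≃ₐ[K] Ω) ≃* (L ≃ₐ[K] L) × (ZMod m)ˣ :=
  MulEquiv.ofBijective ((AlgEquiv.restrictNormalHom L).prod (hζ.autToPow K))
    ⟨prod_injective hζ, prod_surjective hζ hm⟩

theorem prodEquiv_apply [NumberField L] {ζ : Ω} (hζ : IsPrimitiveRoot ζ m)
    (hm : Nat.Coprime m (NumberField.discr L).natAbs) (g : Ω ≃ₐ[K] Ω) :
    prodEquiv (K := K) hζ hm g = (AlgEquiv.restrictNormalHom L g, hζ.autToPow K g) := rfl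

end Fermat.Agent.S14.Cross
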