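import Mathlib
import Fermat.Agent.S14.Defs
import Fermat.Agent.S14.TwoPrime
import Fermat.Agent.S14.TwoPrimeArtin

/-!
# S14 block D (P4): Frobenius elements of the top field `Ω/K`

* `restrictNormalHom_frob_eq_map`: the restriction to `L` of a Frobenius element of `Ω/K` at `𝔓`
  is the Artin symbol `φ (𝔓 ∩ 𝓞 K)` of the unramified extension `L/K`
  (`= TwoPrimeArtin.restrictNormal_eq_map`).
* `autToPow_frob_coe`, `autToPow_frob`: a Frobenius element at `𝔓` acts on a primitive `n`-th root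
  of unity (`n ∉ 𝔓`) through the exponent `N(𝔓 ∩ 𝓞 K) mod n`.
* `exists_frob`: Frobenius elements exist above every nonzero prime of `𝓞 K`.
-/

set_option autoImplicit false
set_option linter.unusedSectionVars false

open NumberField

namespace Fermat.Agent.S14.FrobTop

open Fermat.Agent.S14

section Restrict

variable {K L Ω : Type*} [Field K] [NumberField K] [Field L] [NumberField L] [Field Ω]
  [NumberField Ω] [Algebra K L] [Algebra L Ω] [Algebra K Ω] [IsScalarTower K L Ω]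
  [IsGalois K Ω] [IsGalois K L]

/-- The restriction to `L` of a Frobenius of `Ω/K` at `𝔓` is `φ (𝔓 ∩ 𝓞 K)`. -/
theorem restrictNormalHom_frob_eq_map {φ : Ideal (𝓞 K) → (L ≃ₐ[K] L)} (hφ : IsArtinMap K L φ)
    (hunr : UnramifiedEverywhere K L) {h : Ω ≃ₐ[K] Ω} {𝔓 : Ideal (𝓞 Ω)} [𝔓.IsPrime]
    (h𝔓 : 𝔓 ≠ ⊥) (hfrob : IsArithFrobAt (𝓞 K) h 𝔓) :
    AlgEquiv.restrictNormalHom L h = φ (𝔓.under (𝓞 K)) :=
  TwoPrimeArtin.restrictNormal_eq_map hφ hunr (Ideal.under_ne_bot (𝓞 K) h𝔓) hfrob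

end Restrict

section Cyclo

variable {K Ω : Type*} [Field K] [NumberField K] [Field Ω] [NumberField Ω] [Algebra K Ω]
  [IsGalois K Ω]

/-- Two equal powers of a primitive `n`-th root in a field have exponents equal in `ZMod n`. -/
theorem natCast_eq_of_pow_eq {n : ℕ} [NeZero n] {ζ : Ω} (hζ : IsPrimitiveRoot ζ n) {a b : ℕ}
    (h : ζ ^ a = ζ ^ b) : (a : ZMod n) = (b : ZMod n) := by
  have hζ0 : ζ ≠ 0 := hζ.ne_zero (NeZero.ne n)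
  have h1 : ζ ^ ((a : ℤ) - b) = 1 := by
    rw [zpow_sub₀ hζ0, zpow_natCast, zpow_natCast, h, div_self (pow_ne_zero _ hζ0)]
  have h2 : (n : ℤ) ∣ (a : ℤ) - b := (hζ.zpow_eq_one_iff_dvd _).mp h1
  have h3 : (((a : ℤ) - b : ℤ) : ZMod n) = 0 := (ZMod.intCast_zmod_eq_zero_iff_dvd _ _).mpr h2
  push_cast at h3
  exact sub_eq_zero.mp h3

/-- A Frobenius element at `𝔓` acts on a primitive `n`-th root of unity, `n ∉ 𝔓`, through the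
exponent `N(𝔓 ∩ 𝓞 K) mod n`. -/
theorem autToPow_frob_coe {n : ℕ} [NeZero n] {ζ : Ω} (hζ : IsPrimitiveRoot ζ n)
    {h : Ω ≃ₐ[K] Ω} {𝔓 : Ideal (𝓞 Ω)} (hfrob : IsArithFrobAt (𝓞 K) h 𝔓)
    (hn : (n : 𝓞 Ω) ∉ 𝔓) :
    ((hζ.autToPow K h : (ZMod n)ˣ) : ZMod n) = (Ideal.absNorm (𝔓.under (𝓞 K)) : ZMod n) := by
  have h1 : h ζ = ζ ^ Ideal.absNorm (𝔓.under (𝓞 K)) :=
    TwoPrime.frob_apply_of_pow_eq_one hfrob (NeZero.pos n) hζ.pow_eq_one hn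
  have h2 := hζ.autToPow_spec K h
  have h3 := natCast_eq_of_pow_eq hζ (h2.trans h1)
  rwa [ZMod.natCast_zmod_val] at h3

/-- The norm of the prime below is prime to `n`. -/
theorem coprime_absNorm_under {n : ℕ} [NeZero n] {ζ : Ω} (hζ : IsPrimitiveRoot ζ n)
    {h : Ω ≃ₐ[K] Ω} {𝔓 : Ideal (𝓞 Ω)} (hfrob : IsArithFrobAt (𝓞 K) h 𝔓)
    (hn : (n : 𝓞 Ω) ∉ 𝔓) : (Ideal.absNorm (𝔓.under (𝓞 K))).Coprime n := by
  have h1 := autToPow_frob_coe hζ hfrob hn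
  have h2 : IsUnit ((Ideal.absNorm (𝔓.under (𝓞 K)) : ℕ) : ZMod n) := by
    rw [← h1]; exact Units.isUnit _
  exact (ZMod.isUnit_iff_coprime _ _).mp h2

/-- Unit form of `autToPow_frob_coe`. -/
theorem autToPow_frob {n : ℕ} [NeZero n] {ζ : Ω} (hζ : IsPrimitiveRoot ζ n)
    {h : Ω ≃ₐ[K] Ω} {𝔓 : Ideal (𝓞 Ω)} (hfrob : IsArithFrobAt (𝓞 K) h 𝔓)
    (hn : (n : 𝓞 Ω) ∉ 𝔓) :
    hζ.autToPow K h = ZMod.unitOfCoprime (Ideal.absNorm (𝔓.under (𝓞 K)))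
      (coprime_absNorm_under hζ hfrob hn) := by
  apply Units.ext
  rw [autToPow_frob_coe hζ hfrob hn, ZMod.coe_unitOfCoprime]

/-- Frobenius elements exist above every nonzero prime `𝔭 ∌ n` of `𝓞 K`. -/
theorem exists_frob {n : ℕ} (𝔭 : Ideal (𝓞 K)) [𝔭.IsPrime] (h0 : 𝔭 ≠ ⊥) (hn : (n : 𝓞 K) ∉ 𝔭) :
    ∃ (𝔓 : Ideal (𝓞 Ω)) (h : Ω ≃ₐ[K] Ω), 𝔓.IsPrime ∧ 𝔓 ≠ ⊥ ∧ 𝔓.under (𝓞 K) = 𝔭 ∧
      (n : 𝓞 Ω) ∉ 𝔓 ∧ IsArithFrobAt (𝓞 K) h 𝔓 := by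
  obtain ⟨𝔓, h, h𝔓, hunder, hn𝔓, hfrob⟩ := TwoPrime.exists_frob_over (Ω := Ω) 𝔭 h0 hn
  refine ⟨𝔓, h, h𝔓, ?_, hunder, hn𝔓, hfrob⟩
  rintro rfl
  apply h0
  rw [← hunder]
  exact Ideal.under_bot _ _

end Cyclo

end Fermat.Agent.S14.FrobTop
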