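import Mathlib
import Fermat.Agent.S14.Defs
import Fermat.Agent.S14.CrossGal
import Fermat.Agent.S14.CycloTop
import Fermat.Agent.S14.CycloTopSurj
import Fermat.Agent.S14.FrobTop
import Fermat.Agent.S14.CrossSelect
import Fermat.Agent.S14.CrossingAbs
import Fermat.Agent.S14.CrossPair

/-!
# S14 block (D): the crossing assembly, cyclotomic half

`K ⊆ L` number fields, `L/K` Galois of prime degree `p`, unramified, with Artin map `φ`;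
`Ω = L(ζ_m)`, `m = (ℓ₁ ℓ₁') (ℓ₂ ℓ₂')` a product of four distinct primes prime to `disc L`.
For two inert primes `𝔭₁ 𝔭₂` of `K` with `p ∣ ord_{ℓᵢ}(N𝔭ᵢ), ord_{ℓᵢ'}(N𝔭ᵢ)` the crossing subgroups
`Hᵢ = crossSub π χᵢ hᵢ` (`hᵢ` a Frobenius over `𝔭ᵢ`) satisfy the hypotheses of
`CrossPair.exists_auxOK_pair`; hence the pair statement `hpair` of `CrossingAbs.crossing`.
-/

set_option autoImplicit false
set_option linter.unusedSectionVars false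
set_option linter.style.haveILetI false

open NumberField
open scoped nonZeroDivisors

namespace Fermat.Agent.S14.CrossCyclo

open Fermat.Agent.S14

/-- CRT for units. -/
theorem exists_unit_of_coprime {m₁ m₂ : ℕ} (h : m₁.Coprime m₂) (c₁ : (ZMod m₁)ˣ)
    (c₂ : (ZMod m₂)ˣ) :
    ∃ c : (ZMod (m₁ * m₂))ˣ, ZMod.unitsMap (Dvd.intro _ rfl) c = c₁ ∧
      ZMod.unitsMap (Dvd.intro_left _ rfl) c = c₂ := by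
  let e := ZMod.chineseRemainder h
  let c : (ZMod (m₁ * m₂))ˣ :=
    Units.map e.symm.toMonoidHom (MulEquiv.prodUnits.symm (c₁, c₂))
  have hc : e (c : ZMod (m₁ * m₂)) = ((c₁ : ZMod m₁), (c₂ : ZMod m₂)) := by
    show e (e.symm _) = _
    rw [RingEquiv.apply_symm_apply]
    rfl
  have he : ∀ x : ZMod (m₁ * m₂), e x = ((x.cast : ZMod m₁), (x.cast : ZMod m₂)) := by
    intro x
    show (ZMod.cast x : ZMod m₁ × ZMod m₂) = _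
    ext
    · exact Prod.fst_zmod_cast x
    · exact Prod.snd_zmod_cast x
  rw [he] at hc
  refine ⟨c, Units.ext ?_, Units.ext ?_⟩
  · rw [ZMod.unitsMap_val]; exact congrArg Prod.fst hc
  · rw [ZMod.unitsMap_val]; exact congrArg Prod.snd hc

section Chars

variable {K Ω : Type*} [Field K] [Field Ω] [Algebra K Ω]

/-- Equal powers of a primitive `n`-th root have exponents congruent modulo `n`. -/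
theorem natCast_eq_of_pow_eq' {n : ℕ} [NeZero n] {ζ : Ω} (hζ : IsPrimitiveRoot ζ n) {a b : ℕ}
    (h : ζ ^ a = ζ ^ b) : (a : ZMod n) = (b : ZMod n) := by
  have hfin : IsOfFinOrder ζ :=
    isOfFinOrder_iff_pow_eq_one.mpr ⟨n, Nat.pos_of_ne_zero (NeZero.ne n), hζ.pow_eq_one⟩
  have h2 := hfin.pow_eq_pow_iff_modEq.mp h
  rw [← hζ.eq_orderOf] at h2
  exact (ZMod.natCast_eq_natCast_iff _ _ n).mpr h2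

/-- If `g` fixes the `ℓ`-th root of unity `ζ ^ e` (`m = e * ℓ`) then its cyclotomic character is
trivial modulo `ℓ`. -/
theorem unitsMap_autToPow_eq_one_of_fixes {m ℓ e : ℕ} [NeZero m] [NeZero ℓ] {ζ : Ω}
    (hζ : IsPrimitiveRoot ζ m) (hm : m = e * ℓ) (g : Ω ≃ₐ[K] Ω) (hg : g (ζ ^ e) = ζ ^ e) :
    ZMod.unitsMap (Dvd.intro_left e hm.symm) (hζ.autToPow K g) = 1 := by
  have hζe : IsPrimitiveRoot (ζ ^ e) ℓ := hζ.pow (Nat.pos_of_ne_zero (NeZero.ne m)) hm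
  have h1 := hζ.autToPow_spec K g
  have h2 : (ζ ^ e) ^ (hζ.autToPow K g : ZMod m).val = (ζ ^ e) ^ 1 := by
    rw [pow_one, ← pow_mul, mul_comm, pow_mul, h1, ← map_pow, hg]
  have h3 := natCast_eq_of_pow_eq' hζe h2
  apply Units.ext
  rw [ZMod.unitsMap_val, Units.val_one, ← ZMod.natCast_val]
  simpa using h3

/-- The order of the reduction modulo `ℓ` of a unit congruent to `q`. -/
theorem dvd_orderOf_unitsMap {m ℓ q p : ℕ} (hdvd : ℓ ∣ m) [NeZero m] (u : (ZMod m)ˣ)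
    (hu : (u : ZMod m) = (q : ZMod m)) (h : p ∣ orderOf ((q : ZMod ℓ))) :
    p ∣ orderOf (ZMod.unitsMap hdvd u) := by
  have h1 : ((ZMod.unitsMap hdvd u : (ZMod ℓ)ˣ) : ZMod ℓ) = (q : ZMod ℓ) := by
    rw [ZMod.unitsMap_val, hu, ZMod.cast_natCast hdvd]
  rw [← orderOf_units, h1]
  exact h

end Chars

section Main

variable {p : ℕ} [hp : Fact p.Prime]
  {K L Ω : Type*} [Field K] [Field L] [Field Ω] [NumberField K] [NumberField L]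
  [NumberField Ω] [Algebra K L] [Algebra K Ω] [Algebra L Ω] [IsScalarTower K L Ω] [IsGalois K L]

/-- **The pair statement for `Ω = L(ζ_m)`.** -/
theorem exists_auxOK_pair_cyclotomic (hdeg : Module.finrank K L = p)
    {φ : Ideal (𝓞 K) → (L ≃ₐ[K] L)} (hφ : IsArtinMap K L φ) (hunr : UnramifiedEverywhere K L)
    (hTC : ∀ E : IntermediateField K Ω, IsTotallyComplex E)
    {ℓ₁ ℓ₁' ℓ₂ ℓ₂' : ℕ} (hℓ₁ : ℓ₁.Prime) (hℓ₁' : ℓ₁'.Prime) (hℓ₂ : ℓ₂.Prime) (hℓ₂' : ℓ₂'.Prime)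
    (hne₁ : ℓ₁ ≠ ℓ₁') (hne₂ : ℓ₂ ≠ ℓ₂') (hcop : Nat.Coprime (ℓ₁ * ℓ₁') (ℓ₂ * ℓ₂'))
    [hcyc : IsCyclotomicExtension {ℓ₁ * ℓ₁' * (ℓ₂ * ℓ₂')} L Ω]
    (hdisc : Nat.Coprime (ℓ₁ * ℓ₁' * (ℓ₂ * ℓ₂')) (NumberField.discr L).natAbs)
    (𝔭₁ 𝔭₂ : (Ideal (𝓞 K))⁰) (h𝔭₁ : (𝔭₁ : Ideal (𝓞 K)).IsPrime)
    (h𝔭₂ : (𝔭₂ : Ideal (𝓞 K)).IsPrime)
    (hφ₁ : φ (𝔭₁ : Ideal (𝓞 K)) ≠ 1) (hφ₂ : φ (𝔭₂ : Ideal (𝓞 K)) ≠ 1)
    (hq₁ : (Ideal.absNorm (𝔭₁ : Ideal (𝓞 K))).Coprime (ℓ₁ * ℓ₁' * (ℓ₂ * ℓ₂')))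
    (hq₂ : (Ideal.absNorm (𝔭₂ : Ideal (𝓞 K))).Coprime (ℓ₁ * ℓ₁' * (ℓ₂ * ℓ₂')))
    (ho₁ : p ∣ orderOf ((Ideal.absNorm (𝔭₁ : Ideal (𝓞 K)) : ZMod ℓ₁)))
    (ho₁' : p ∣ orderOf ((Ideal.absNorm (𝔭₁ : Ideal (𝓞 K)) : ZMod ℓ₁')))
    (ho₂ : p ∣ orderOf ((Ideal.absNorm (𝔭₂ : Ideal (𝓞 K)) : ZMod ℓ₂)))
    (ho₂' : p ∣ orderOf ((Ideal.absNorm (𝔭₂ : Ideal (𝓞 K)) : ZMod ℓ₂'))) :
    ∃ 𝔟 : (Ideal (𝓞 K))⁰, φ (𝔟 : Ideal (𝓞 K)) ≠ 1 ∧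
      CrossingAbs.AuxOK φ 𝔭₁ 𝔟 ∧ CrossingAbs.AuxOK φ 𝔭₂ 𝔟 := by
  classical
  -- notation
  set m₁ : ℕ := ℓ₁ * ℓ₁' with hm₁
  set m₂ : ℕ := ℓ₂ * ℓ₂' with hm₂
  set m : ℕ := m₁ * m₂ with hm
  have hm₁0 : m₁ ≠ 0 := Nat.mul_ne_zero hℓ₁.ne_zero hℓ₁'.ne_zero
  have hm₂0 : m₂ ≠ 0 := Nat.mul_ne_zero hℓ₂.ne_zero hℓ₂'.ne_zero
  have hm0 : m ≠ 0 := Nat.mul_ne_zero hm₁0 hm₂0
  haveI : NeZero m := ⟨hm0⟩
  haveI : NeZero m₁ := ⟨hm₁0⟩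
  haveI : NeZero m₂ := ⟨hm₂0⟩
  haveI : NeZero ℓ₁ := ⟨hℓ₁.ne_zero⟩
  haveI : NeZero ℓ₁' := ⟨hℓ₁'.ne_zero⟩
  haveI : NeZero ℓ₂ := ⟨hℓ₂.ne_zero⟩
  haveI : NeZero ℓ₂' := ⟨hℓ₂'.ne_zero⟩
  haveI hGal : IsGalois K Ω := Cross.isGalois_top' (K := K) (L := L) (Ω := Ω) m
  obtain ⟨ζ, hζ⟩ := hcyc.exists_isPrimitiveRoot (Set.mem_singleton m) hm0
  -- the projections
  let π : (Ω ≃ₐ[K] Ω) →* (L ≃ₐ[K] L) := AlgEquiv.restrictNormalHom L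
  let χ : (Ω ≃ₐ[K] Ω) →* (ZMod m)ˣ := hζ.autToPow K
  have hd₁ : m₁ ∣ m := Dvd.intro _ rfl
  have hd₂ : m₂ ∣ m := Dvd.intro_left _ rfl
  let χ₁ : (Ω ≃ₐ[K] Ω) →* (ZMod m₁)ˣ := (ZMod.unitsMap hd₁).comp χ
  let χ₂ : (Ω ≃ₐ[K] Ω) →* (ZMod m₂)ˣ := (ZMod.unitsMap hd₂).comp χ
  -- joint surjectivity
  have hsurj : ∀ (g₀ : L ≃ₐ[K] L) (c₁ : (ZMod m₁)ˣ) (c₂ : (ZMod m₂)ˣ),
      ∃ g : Ω ≃ₐ[K] Ω, π g = g₀ ∧ χ₁ g = c₁ ∧ χ₂ g = c₂ := by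
    intro g₀ c₁ c₂
    obtain ⟨c, hc1, hc2⟩ := exists_unit_of_coprime hcop c₁ c₂
    obtain ⟨g, hg⟩ := Cross.prod_surjective (K := K) hζ hdisc (g₀, c)
    have hg1 : π g = g₀ := congrArg Prod.fst hg
    have hg2 : χ g = c := congrArg Prod.snd hg
    refine ⟨g, hg1, ?_, ?_⟩
    · show ZMod.unitsMap hd₁ (χ g) = c₁
      rw [hg2]; exact hc1
    · show ZMod.unitsMap hd₂ (χ g) = c₂
      rw [hg2]; exact hc2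
  have hcard : Nat.card (L ≃ₐ[K] L) = p := by rw [IsGalois.card_aut_eq_finrank, hdeg]
  have hpow : ∀ g : L ≃ₐ[K] L, g ^ p = 1 := fun g => by rw [← hcard]; exact pow_card_eq_one'
  -- Frobenius data
  have hm𝔭₁ : (m : 𝓞 K) ∉ (𝔭₁ : Ideal (𝓞 K)) :=
    CrossSelect.natCast_not_mem_of_coprime_absNorm h𝔭₁.ne_top hq₁
  have hm𝔭₂ : (m : 𝓞 K) ∉ (𝔭₂ : Ideal (𝓞 K)) :=
    CrossSelect.natCast_not_mem_of_coprime_absNorm h𝔭₂.ne_top hq₂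
  obtain ⟨𝔓₁, h₁, h𝔓₁p, h𝔓₁0, h𝔓₁u, h𝔓₁m, hfrob₁⟩ :=
    FrobTop.exists_frob (Ω := Ω) (n := m) (𝔭₁ : Ideal (𝓞 K)) (AuxRec.coe_ne_bot 𝔭₁) hm𝔭₁
  obtain ⟨𝔓₂, h₂, h𝔓₂p, h𝔓₂0, h𝔓₂u, h𝔓₂m, hfrob₂⟩ :=
    FrobTop.exists_frob (Ω := Ω) (n := m) (𝔭₂ : Ideal (𝓞 K)) (AuxRec.coe_ne_bot 𝔭₂) hm𝔭₂
  have hπ₁ : π h₁ = φ (𝔭₁ : Ideal (𝓞 K)) := by
    rw [← h𝔓₁u]; exact FrobTop.restrictNormalHom_frob_eq_map hφ hunr h𝔓₁0 hfrob₁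
  have hπ₂ : π h₂ = φ (𝔭₂ : Ideal (𝓞 K)) := by
    rw [← h𝔓₂u]; exact FrobTop.restrictNormalHom_frob_eq_map hφ hunr h𝔓₂0 hfrob₂
  have hχ₁ : ((χ h₁ : (ZMod m)ˣ) : ZMod m) = (Ideal.absNorm (𝔭₁ : Ideal (𝓞 K)) : ZMod m) := by
    rw [← h𝔓₁u]; exact FrobTop.autToPow_frob_coe hζ hfrob₁ h𝔓₁m
  have hχ₂ : ((χ h₂ : (ZMod m)ˣ) : ZMod m) = (Ideal.absNorm (𝔭₂ : Ideal (𝓞 K)) : ZMod m) := by
    rw [← h𝔓₂u]; exact FrobTop.autToPow_frob_coe hζ hfrob₂ h𝔓₂m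
  have hπ₁ne : π h₁ ≠ 1 := by rw [hπ₁]; exact hφ₁
  have hπ₂ne : π h₂ ≠ 1 := by rw [hπ₂]; exact hφ₂
  -- the crossing subgroups
  let H₁ : Subgroup (Ω ≃ₐ[K] Ω) := Cross.crossSub π χ₁ h₁
  let H₂ : Subgroup (Ω ≃ₐ[K] Ω) := Cross.crossSub π χ₂ h₂
  have hH : ∀ g₀ : (L ≃ₐ[K] L), ∃ g ∈ H₁ ⊓ H₂, AlgEquiv.restrictNormalHom L g = g₀ :=
    fun g₀ => Cross.exists_mem_inf_crossSub hcard π χ₁ χ₂ hsurj hπ₁ne hπ₂ne g₀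
  -- the key: elements of `Hᵢ` fixing a root of unity of order `ℓ ∣ mᵢ` are trivial on `L`
  have key : ∀ (i : Bool) (ℓ e : ℕ) [NeZero ℓ] (hme : m = e * ℓ)
      (hℓi : ℓ ∣ (if i then m₁ else m₂))
      (ho : p ∣ orderOf (((Ideal.absNorm (((if i then 𝔭₁ else 𝔭₂) : (Ideal (𝓞 K))⁰) :
        Ideal (𝓞 K)) : ℕ) : ZMod ℓ))),
      ∀ g ∈ (if i then H₁ else H₂), g (ζ ^ e) = ζ ^ e → AlgEquiv.restrictNormalHom L g = 1 := by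
    intro i ℓ e _ hme hℓi ho g hg hgζ
    have h1 := unitsMap_autToPow_eq_one_of_fixes (K := K) hζ hme g hgζ
    cases i with
    | true =>
      simp only [if_true] at hℓi ho hg
      refine Cross.map_eq_one_of_mem_crossSub π χ₁ (ZMod.unitsMap hℓi) (hpow _) ?_ hg ?_
      · show p ∣ orderOf (ZMod.unitsMap hℓi (ZMod.unitsMap hd₁ (χ h₁)))
        have : ZMod.unitsMap hℓi (ZMod.unitsMap hd₁ (χ h₁)) =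
            ZMod.unitsMap (hℓi.trans hd₁) (χ h₁) := by
          rw [← ZMod.unitsMap_comp hℓi hd₁]; rfl
        rw [this]
        exact dvd_orderOf_unitsMap (hℓi.trans hd₁) (χ h₁) hχ₁ ho
      · show ZMod.unitsMap hℓi (ZMod.unitsMap hd₁ (χ g)) = 1
        have : ZMod.unitsMap hℓi (ZMod.unitsMap hd₁ (χ g)) =
            ZMod.unitsMap (hℓi.trans hd₁) (χ g) := by
          rw [← ZMod.unitsMap_comp hℓi hd₁]; rfl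
        rw [this]
        exact h1
    | false =>
      simp only [Bool.false_eq_true, if_false] at hℓi ho hg
      refine Cross.map_eq_one_of_mem_crossSub π χ₂ (ZMod.unitsMap hℓi) (hpow _) ?_ hg ?_
      · show p ∣ orderOf (ZMod.unitsMap hℓi (ZMod.unitsMap hd₂ (χ h₂)))
        have : ZMod.unitsMap hℓi (ZMod.unitsMap hd₂ (χ h₂)) =
            ZMod.unitsMap (hℓi.trans hd₂) (χ h₂) := by
          rw [← ZMod.unitsMap_comp hℓi hd₂]; rfl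
        rw [this]
        exact dvd_orderOf_unitsMap (hℓi.trans hd₂) (χ h₂) hχ₂ ho
      · show ZMod.unitsMap hℓi (ZMod.unitsMap hd₂ (χ g)) = 1
        have : ZMod.unitsMap hℓi (ZMod.unitsMap hd₂ (χ g)) =
            ZMod.unitsMap (hℓi.trans hd₂) (χ g) := by
          rw [← ZMod.unitsMap_comp hℓi hd₂]; rfl
        rw [this]
        exact h1
  -- the four roots of unity
  have hpow_one : ∀ (ℓ e : ℕ), m = e * ℓ → (ζ ^ e) ^ ℓ = 1 := by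
    intro ℓ e hme
    rw [← pow_mul, ← hme]; exact hζ.pow_eq_one
  have e₁ : m = (ℓ₁' * m₂) * ℓ₁ := by rw [hm, hm₁]; ring
  have e₁' : m = (ℓ₁ * m₂) * ℓ₁' := by rw [hm, hm₁]; ring
  have e₂ : m = (m₁ * ℓ₂') * ℓ₂ := by rw [hm, hm₂]; ring
  have e₂' : m = (m₁ * ℓ₂) * ℓ₂' := by rw [hm, hm₂]; ring
  have h𝔓₁m' : ((ℓ₁ * ℓ₁' : ℕ) : 𝓞 Ω) ∉ 𝔓₁ := CrossSelect.natCast_not_mem_of_dvd hd₁ h𝔓₁m
  have h𝔓₂m' : ((ℓ₂ * ℓ₂' : ℕ) : 𝓞 Ω) ∉ 𝔓₂ := CrossSelect.natCast_not_mem_of_dvd hd₂ h𝔓₂m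
  exact CrossPair.exists_auxOK_pair hdeg hφ hunr hTC H₁ H₂ hH
    hℓ₁ hℓ₁' hne₁ (hpow_one ℓ₁ _ e₁) (hpow_one ℓ₁' _ e₁')
    (key true ℓ₁ _ e₁ (Dvd.intro _ rfl) ho₁) (key true ℓ₁' _ e₁' (Dvd.intro_left _ rfl) ho₁')
    𝔓₁ h𝔓₁0 (Cross.self_mem_crossSub π χ₁ h₁) hfrob₁ h𝔓₁m' 𝔭₁ h𝔓₁u
    hℓ₂ hℓ₂' hne₂ (hpow_one ℓ₂ _ e₂) (hpow_one ℓ₂' _ e₂')
    (key false ℓ₂ _ e₂ (Dvd.intro _ rfl) ho₂) (key false ℓ₂' _ e₂' (Dvd.intro_left _ rfl) ho₂')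
    𝔓₂ h𝔓₂0 (Cross.self_mem_crossSub π χ₂ h₂) hfrob₂ h𝔓₂m' 𝔭₂ h𝔓₂u

end Main

end Fermat.Agent.S14.CrossCyclo
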