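import Mathlib

/-!
# S14: number fields containing a root of unity of order `≥ 3` are totally complex

Used for the auxiliary fields `E ⊇ K = ℚ(ζ_p)` of the crossing argument (block D): positivity of
norms in `TwoPrime` / `TwoPrimeArtin` needs `IsTotallyComplex E`.
-/

set_option autoImplicit false

open NumberField

namespace Fermat.Agent.S14.TotallyComplex

/-- A real number `r` with `(r : ℂ) ^ n = 1` satisfies `r ^ 2 = 1`. -/
theorem real_sq_eq_one_of_pow_eq_one {r : ℝ} {n : ℕ} (hn : n ≠ 0) (h : r ^ n = 1) : r ^ 2 = 1 := by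
  have habs : |r| = 1 := by
    have h1 : |r| ^ n = 1 := by rw [← abs_pow, h, abs_one]
    exact (pow_eq_one_iff_of_nonneg (abs_nonneg r) hn).mp h1
  rw [← sq_abs, habs, one_pow]

/-- A field with a primitive `n`-th root of unity, `n ≥ 3`, has no real embedding. -/
theorem not_isReal_of_isPrimitiveRoot {E : Type*} [Field E] {ζ : E} {n : ℕ}
    (hζ : IsPrimitiveRoot ζ n) (hn : 3 ≤ n) (φ : E →+* ℂ) : ¬ ComplexEmbedding.IsReal φ := by
  intro hreal
  have hz : IsPrimitiveRoot (φ ζ) n := hζ.map_of_injective φ.injective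
  have hconj : (starRingEnd ℂ) (φ ζ) = φ ζ := by
    have := ComplexEmbedding.isReal_iff.mp hreal
    exact RingHom.congr_fun this ζ
  obtain ⟨r, hr⟩ := Complex.conj_eq_iff_real.mp hconj
  have hrn : r ^ n = 1 := by
    have h1 : ((r ^ n : ℝ) : ℂ) = 1 := by
      rw [Complex.ofReal_pow, ← hr]; exact hz.pow_eq_one
    exact_mod_cast h1
  have hr2 : r ^ 2 = 1 := real_sq_eq_one_of_pow_eq_one (by omega) hrn
  have h2 : (φ ζ) ^ 2 = 1 := by
    rw [hr, ← Complex.ofReal_pow, hr2, Complex.ofReal_one]
  have := hz.dvd_of_pow_eq_one 2 h2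
  have := Nat.le_of_dvd (by norm_num) this
  omega

/-- A number field containing a primitive `n`-th root of unity with `n ≥ 3` is totally complex. -/
theorem isTotallyComplex_of_isPrimitiveRoot {E : Type*} [Field E] [NumberField E] {ζ : E} {n : ℕ}
    (hζ : IsPrimitiveRoot ζ n) (hn : 3 ≤ n) : IsTotallyComplex E := by
  refine ⟨fun w => ?_⟩
  by_contra hw
  rw [InfinitePlace.not_isComplex_iff_isReal, InfinitePlace.isReal_iff] at hw
  exact not_isReal_of_isPrimitiveRoot hζ hn _ hw

/-- An extension of a field containing a primitive `n`-th root of unity (`n ≥ 3`) is totally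
complex. -/
theorem isTotallyComplex_of_algebra {K E : Type*} [Field K] [Field E] [NumberField E]
    [Algebra K E] {ζ : K} {n : ℕ} (hζ : IsPrimitiveRoot ζ n) (hn : 3 ≤ n) : IsTotallyComplex E :=
  isTotallyComplex_of_isPrimitiveRoot
    (hζ.map_of_injective (algebraMap K E).injective) hn

/-- Extensions of the `p`-th cyclotomic field (`p ≥ 3`) are totally complex. -/
theorem isTotallyComplex_of_isCyclotomicExtension {p : ℕ} (hp : 3 ≤ p) (K E : Type*) [Field K]
    [NumberField K] [Field E] [NumberField E] [Algebra K E] [IsCyclotomicExtension {p} ℚ K] :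
    IsTotallyComplex E := by
  have : NeZero p := ⟨by omega⟩
  obtain ⟨ζ, hζ⟩ := IsCyclotomicExtension.exists_isPrimitiveRoot ℚ K (Set.mem_singleton p)
    (NeZero.ne p)
  exact isTotallyComplex_of_algebra hζ hp

end Fermat.Agent.S14.TotallyComplex
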