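/-
S14 block G1: the Artin map on ideals for abelian extensions (via Mathlib `IsArithFrobAt`),
uniqueness of Frobenius at unramified primes, conjugation equivariance and
functoriality (restriction / base change / norms).

Everything is stated at the level of rings `A ⊆ B` with a finite group `G` acting on `B`
with fixed ring `A` (`Algebra.IsInvariant A B G`, e.g. `A = 𝓞 K`, `B = 𝓞 L`, `G = Gal(L/K)`).
-/
import Mathlib

set_option autoImplicit false

open scoped Pointwise

namespace Fermat.Agent.S14.Artin

/-! ### Frobenius-like elements with an explicit exponent -/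

section FrobPow

variable {B G : Type*} [CommRing B] [Group G] [MulSemiringAction G B]

/-- `σ` acts as `x ↦ x ^ N` modulo `Q`. -/
def IsFrobPow (σ : G) (Q : Ideal B) (N : ℕ) : Prop :=
  ∀ x : B, σ • x - x ^ N ∈ Q

theorem isFrobPow_one (Q : Ideal B) : IsFrobPow (1 : G) Q 1 := fun x => by simp

theorem IsFrobPow.mul {σ τ : G} {Q : Ideal B} {N M : ℕ} (hσ : IsFrobPow σ Q N)
    (hτ : IsFrobPow τ Q M) : IsFrobPow (σ * τ) Q (M * N) := by
  intro x
  have h1 : σ • (τ • x) - (τ • x) ^ N ∈ Q := hσ (τ • x)
  have h2 : (τ • x) ^ N - (x ^ M) ^ N ∈ Q :=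
    Q.mem_of_dvd (sub_dvd_pow_sub_pow _ _ N) (hτ x)
  have : (σ * τ) • x - x ^ (M * N) =
      (σ • (τ • x) - (τ • x) ^ N) + ((τ • x) ^ N - (x ^ M) ^ N) := by
    rw [mul_smul, pow_mul]; ring
  rw [this]
  exact Q.add_mem h1 h2

theorem IsFrobPow.pow {σ : G} {Q : Ideal B} {N : ℕ} (hσ : IsFrobPow σ Q N) (k : ℕ) :
    IsFrobPow (σ ^ k) Q (N ^ k) := by
  induction k with
  | zero => simpa using isFrobPow_one (G := G) Q
  | succ k ih =>
    have := hσ.mul ih
    rwa [← pow_succ', ← pow_succ] at this

/-- Two Frobenius-like elements with the same exponent differ by an element of the inertia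
group. -/
theorem IsFrobPow.mul_inv_mem_inertia {σ σ' : G} {Q : Ideal B} {N : ℕ} (h : IsFrobPow σ Q N)
    (h' : IsFrobPow σ' Q N) : σ * σ'⁻¹ ∈ Q.inertia G := by
  intro x
  simpa [mul_smul] using sub_mem (h (σ'⁻¹ • x)) (h' (σ'⁻¹ • x))

theorem IsFrobPow.eq_of_inertia_eq_bot {σ σ' : G} {Q : Ideal B} {N : ℕ}
    (hQ : Q.inertia G = ⊥) (h : IsFrobPow σ Q N) (h' : IsFrobPow σ' Q N) : σ = σ' := by
  have := h.mul_inv_mem_inertia h'
  rw [hQ, Subgroup.mem_bot] at this
  exact mul_inv_eq_one.mp this

end FrobPow

/-! ### Link with Mathlib's `IsArithFrobAt`, uniqueness -/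

section Arith

variable {A B G : Type*} [CommRing A] [CommRing B] [Algebra A B] [Group G]
  [MulSemiringAction G B] [SMulCommClass G A B]

theorem isArithFrobAt_iff_isFrobPow {σ : G} {Q : Ideal B} :
    IsArithFrobAt A σ Q ↔ IsFrobPow σ Q (Nat.card (A ⧸ Q.under A)) := Iff.rfl

/-- Uniqueness of the Frobenius at a prime with trivial inertia group. -/
theorem isArithFrobAt_unique {Q : Ideal B} (hQ : Q.inertia G = ⊥) {σ σ' : G}
    (h : IsArithFrobAt A σ Q) (h' : IsArithFrobAt A σ' Q) : σ = σ' :=
  IsFrobPow.eq_of_inertia_eq_bot hQ (isArithFrobAt_iff_isFrobPow.mp h)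
    (isArithFrobAt_iff_isFrobPow.mp h')

/-- Inertia groups of conjugate primes are conjugate; in particular triviality is
conjugation invariant. -/
theorem inertia_smul_eq_bot_iff (τ : G) (Q : Ideal B) :
    (τ • Q).inertia G = ⊥ ↔ Q.inertia G = ⊥ := by
  have key : ∀ (τ : G) (Q : Ideal B), Q.inertia G = ⊥ → (τ • Q).inertia G = ⊥ := by
    intro τ Q h
    rw [eq_bot_iff]
    intro g hg
    have : τ⁻¹ * g * τ ∈ Q.inertia G := by
      intro x
      have h1 := hg (τ • x)
      rw [Submodule.mem_toAddSubgroup, Ideal.mem_pointwise_smul_iff_inv_smul_mem] at h1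
      simpa [mul_smul, smul_sub] using h1
    rw [h, Subgroup.mem_bot] at this
    rw [Subgroup.mem_bot]
    have h2 : g * τ = τ := by
      have := congrArg (fun z => τ * z) this
      simpa [mul_assoc] using this
    exact mul_eq_right.mp h2 |> fun h => by simpa using h
  constructor
  · intro h
    have := key τ⁻¹ (τ • Q) h
    rwa [inv_smul_smul] at this
  · exact key τ Q

end Arith

/-! ### Restriction (functoriality of Frobenius elements) -/

section Restrict

variable {B B' G G' : Type*} [CommRing B] [CommRing B'] [Algebra B B']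
  [Group G] [Group G'] [MulSemiringAction G B] [MulSemiringAction G' B']

/-- A Frobenius-like element upstairs restricts to a Frobenius-like element downstairs
(same exponent). -/
theorem IsFrobPow.restrict (r : G' → G)
    (hr : ∀ (g : G') (x : B), algebraMap B B' (r g • x) = g • algebraMap B B' x)
    {σ' : G'} {Q' : Ideal B'} {N : ℕ} (h : IsFrobPow σ' Q' N) :
    IsFrobPow (r σ') (Q'.under B) N := by
  intro x
  rw [Ideal.under_def, Ideal.mem_comap, map_sub, map_pow, hr]
  exact h _

/-- Inertia groups restrict into inertia groups. -/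
theorem mem_inertia_restrict (r : G' → G)
    (hr : ∀ (g : G') (x : B), algebraMap B B' (r g • x) = g • algebraMap B B' x)
    {g' : G'} {Q' : Ideal B'} (h : g' ∈ Q'.inertia G') : r g' ∈ (Q'.under B).inertia G := by
  intro x
  rw [Submodule.mem_toAddSubgroup, Ideal.under_def, Ideal.mem_comap, map_sub, hr]
  exact h _

variable {A A' : Type*} [CommRing A] [CommRing A'] [Algebra A B] [Algebra A' B']
  [Algebra A A'] [Algebra A B'] [IsScalarTower A A' B'] [IsScalarTower A B B']
  [SMulCommClass G A B] [SMulCommClass G' A' B']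

omit [Algebra A A'] [IsScalarTower A A' B'] in
/-- **Base change of Frobenius elements.**  `A ⊆ A'`, `B ⊆ B'`, `G'` acts on `B'/A'`, `G` on
`B/A`, `r : G' → G` is compatible with the actions.  If `σ'` is a Frobenius at `Q'` (over `A'`),
`σ` a Frobenius at `Q' ∩ B` (over `A`), the residue field of `Q' ∩ A'` has `q ^ f` elements where
`q` is the cardinality of the residue field of `Q' ∩ A`, and the inertia group of `Q' ∩ B` in `G` is
trivial, then `r σ' = σ ^ f`. -/
theorem restrict_eq_pow_of_isArithFrobAt (r : G' → G)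
    (hr : ∀ (g : G') (x : B), algebraMap B B' (r g • x) = g • algebraMap B B' x)
    {Q' : Ideal B'} {σ' : G'} (hσ' : IsArithFrobAt A' σ' Q')
    {σ : G} (hσ : IsArithFrobAt A σ (Q'.under B)) (hI : (Q'.under B).inertia G = ⊥)
    {f : ℕ} (hf : Nat.card (A' ⧸ Q'.under A') = Nat.card (A ⧸ Q'.under A) ^ f) :
    r σ' = σ ^ f := by
  have h1 : IsFrobPow (r σ') (Q'.under B) (Nat.card (A' ⧸ Q'.under A')) :=
    IsFrobPow.restrict r hr (isArithFrobAt_iff_isFrobPow.mp hσ')
  have h2 : IsFrobPow (σ ^ f) (Q'.under B) (Nat.card (A ⧸ (Q'.under B).under A) ^ f) :=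
    (isArithFrobAt_iff_isFrobPow.mp hσ).pow f
  rw [Ideal.under_under, ← hf] at h2
  exact IsFrobPow.eq_of_inertia_eq_bot hI h1 h2

end Restrict

/-! ### Conjugation by a ring automorphism normalising the base ring -/

section Conj

variable {A B G : Type*} [CommRing A] [CommRing B] [Algebra A B] [Group G]
  [MulSemiringAction G B]

/-- Transport of a Frobenius-like element along a ring automorphism `τ` of `B`:
if `τ (σ • x) = σ' • τ x` then `σ'` is Frobenius-like at `τ Q` (same exponent). -/
theorem IsFrobPow.map_ringEquiv (τ : B ≃+* B) {σ σ' : G} (hc : ∀ x, τ (σ • x) = σ' • τ x)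
    {Q : Ideal B} {N : ℕ} (h : IsFrobPow σ Q N) : IsFrobPow σ' (Q.map τ) N := by
  intro y
  obtain ⟨x, rfl⟩ := τ.surjective y
  have : σ' • τ x - τ x ^ N = τ (σ • x - x ^ N) := by
    rw [map_sub, map_pow, hc]
  rw [this]
  exact Ideal.mem_map_of_mem _ (h x)

/-- If `τ` is a ring automorphism of `B` inducing the automorphism `τA` of `A`, then
`(τ Q) ∩ A = τA (Q ∩ A)`. -/
theorem under_map_ringEquiv (τ : B ≃+* B) (τA : A ≃+* A)
    (hτ : ∀ a, τ (algebraMap A B a) = algebraMap A B (τA a)) (Q : Ideal B) :
    (Q.map τ).under A = (Q.under A).map τA := by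
  ext a
  have h1 : τ.symm (algebraMap A B a) = algebraMap A B (τA.symm a) := by
    rw [RingEquiv.symm_apply_eq, hτ, RingEquiv.apply_symm_apply]
  rw [Ideal.under_def, Ideal.mem_comap, ← Ideal.symm_apply_mem_of_equiv_iff, h1,
    ← Ideal.symm_apply_mem_of_equiv_iff, Ideal.under_def, Ideal.mem_comap]

/-- The inertia group of `τ Q` is the conjugate of the inertia group of `Q`. -/
theorem mem_inertia_map_ringEquiv (τ : B ≃+* B) {σ σ' : G} (hc : ∀ x, τ (σ • x) = σ' • τ x)
    {Q : Ideal B} (h : σ ∈ Q.inertia G) : σ' ∈ (Q.map τ).inertia G := by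
  intro y
  obtain ⟨x, rfl⟩ := τ.surjective y
  have : σ' • τ x - τ x = τ (σ • x - x) := by rw [map_sub, hc]
  rw [this]
  exact Ideal.mem_map_of_mem _ (h x)

variable [SMulCommClass G A B]

/-- **Conjugation of Frobenius elements.** `τ` a ring automorphism of `B` inducing `τA` on `A`,
`σ' = τ σ τ⁻¹` (as automorphisms of `B`).  If `σ` is a Frobenius at `Q` then `σ'` is a Frobenius
at `τ Q`. -/
theorem isArithFrobAt_map_ringEquiv (τ : B ≃+* B) (τA : A ≃+* A)
    (hτ : ∀ a, τ (algebraMap A B a) = algebraMap A B (τA a))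
    {σ σ' : G} (hc : ∀ x, τ (σ • x) = σ' • τ x) {Q : Ideal B} (h : IsArithFrobAt A σ Q) :
    IsArithFrobAt A σ' (Q.map τ) := by
  rw [isArithFrobAt_iff_isFrobPow] at h ⊢
  rw [under_map_ringEquiv τ τA hτ Q,
    ← Nat.card_congr (Ideal.quotientEquiv (Q.under A) ((Q.under A).map τA) τA rfl).toEquiv]
  exact h.map_ringEquiv τ hc

end Conj

/-! ### The Frobenius of a prime of the base ring (abelian case) -/

section FrobAt

variable (A B G : Type*) [CommRing A] [CommRing B] [Algebra A B] [Group G]
  [MulSemiringAction G B] [SMulCommClass G A B] [Finite G] [Algebra.IsInvariant A B G]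

open Classical in
/-- The Frobenius element of a prime `p` of `A`: the (Mathlib) Frobenius of a chosen prime of `B`
above `p` with finite residue field; `1` if there is no such prime.  For abelian `G` it is a
Frobenius at *every* prime above `p` (`isArithFrobAt_frobAt`). -/
noncomputable def frobAt (p : Ideal A) : G :=
  if h : ∃ P : Ideal B, P.IsPrime ∧ Finite (B ⧸ P) ∧ P.under A = p then
    @arithFrobAt A B _ _ _ G _ _ _ h.choose _ _ h.choose_spec.1 h.choose_spec.2.1
  else 1

variable {A B G}

theorem frobAt_of_not_exists {p : Ideal A}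
    (h : ¬ ∃ P : Ideal B, P.IsPrime ∧ Finite (B ⧸ P) ∧ P.under A = p) :
    frobAt A B G p = 1 := by
  rw [frobAt, dif_neg h]

/-- In the abelian case `frobAt` is a Frobenius at every prime above `p`. -/
theorem isArithFrobAt_frobAt [IsMulCommutative G] (P : Ideal B) [P.IsPrime] [Finite (B ⧸ P)] :
    IsArithFrobAt A (frobAt A B G (P.under A)) P := by
  have h : ∃ P' : Ideal B, P'.IsPrime ∧ Finite (B ⧸ P') ∧ P'.under A = P.under A :=
    ⟨P, inferInstance, inferInstance, rfl⟩
  rw [frobAt, dif_pos h]
  have := h.choose_spec.1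
  have := h.choose_spec.2.1
  obtain ⟨τ, hτ⟩ := Algebra.IsInvariant.exists_smul_of_under_eq A B G h.choose P h.choose_spec.2.2
  have h1 := (IsArithFrobAt.arithFrobAt A G h.choose).conj τ
  rw [← hτ] at h1
  have h2 : τ * arithFrobAt A G h.choose * τ⁻¹ = arithFrobAt A G h.choose := by
    rw [mul_comm' τ, mul_inv_cancel_right]
  rwa [h2] at h1

theorem isArithFrobAt_frobAt' [IsMulCommutative G] {p : Ideal A} (P : Ideal B) [P.IsPrime]
    [Finite (B ⧸ P)] (hP : P.under A = p) : IsArithFrobAt A (frobAt A B G p) P := by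
  subst hP; exact isArithFrobAt_frobAt P

/-- Characterisation of `frobAt` at a prime with trivial inertia. -/
theorem frobAt_eq_iff [IsMulCommutative G] {p : Ideal A} (P : Ideal B) [P.IsPrime]
    [Finite (B ⧸ P)] (hP : P.under A = p) (hI : P.inertia G = ⊥) (σ : G) :
    frobAt A B G p = σ ↔ IsArithFrobAt A σ P :=
  ⟨fun h => h ▸ isArithFrobAt_frobAt' P hP,
    fun h => isArithFrobAt_unique hI (isArithFrobAt_frobAt' P hP) h⟩

end FrobAt

/-! ### The Artin map on (integral) ideals -/

section ArtinMap

open UniqueFactorizationMonoid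

variable (A B G : Type*) [CommRing A] [CommRing B] [Algebra A B] [Group G]
  [MulSemiringAction G B] [SMulCommClass G A B] [Finite G] [Algebra.IsInvariant A B G]
  [IsDedekindDomain A] [IsMulCommutative G]

/-- The commutative group structure on `G` coming from `IsMulCommutative` (same `Group`
structure, so no diamond). -/
@[reducible] def commGroupOf (G : Type*) [Group G] [IsMulCommutative G] : CommGroup G :=
  { (inferInstance : Group G) with mul_comm := mul_comm' }

/-- The Artin map on integral ideals of `A`: the product of the Frobenius elements of the prime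
factors (with multiplicity).  It is `1` on `⊥` and `⊤`. -/
noncomputable def artin (I : Ideal A) : G :=
  letI := commGroupOf G
  ((normalizedFactors I).map (frobAt A B G)).prod

variable {A B G}

@[simp] theorem artin_bot : artin A B G ⊥ = 1 := by
  let _ := commGroupOf G
  rw [artin, ← Ideal.zero_eq_bot, normalizedFactors_zero, Multiset.map_zero, Multiset.prod_zero]

@[simp] theorem artin_one : artin A B G 1 = 1 := by
  let _ := commGroupOf G
  rw [artin, normalizedFactors_one, Multiset.map_zero, Multiset.prod_zero]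

@[simp] theorem artin_top : artin A B G ⊤ = 1 := by
  rw [← Ideal.one_eq_top, artin_one]

theorem artin_mul {I J : Ideal A} (hI : I ≠ ⊥) (hJ : J ≠ ⊥) :
    artin A B G (I * J) = artin A B G I * artin A B G J := by
  let _ := commGroupOf G
  rw [artin, normalizedFactors_mul hI hJ, Multiset.map_add, Multiset.prod_add]
  rfl

theorem artin_pow (I : Ideal A) (n : ℕ) : artin A B G (I ^ n) = artin A B G I ^ n := by
  let _ := commGroupOf G
  rw [artin, normalizedFactors_pow, Multiset.map_nsmul, Multiset.prod_nsmul]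
  rfl

theorem artin_prime {p : Ideal A} (hp : p.IsPrime) (hp0 : p ≠ ⊥) :
    artin A B G p = frobAt A B G p := by
  let _ := commGroupOf G
  have hirr : Irreducible p := (Ideal.prime_of_isPrime hp0 hp).irreducible
  rw [artin, normalizedFactors_irreducible hirr, normalize_eq, Multiset.map_singleton,
    Multiset.prod_singleton]

/-- If every prime factor has trivial Frobenius then the Artin symbol is trivial. -/
theorem artin_eq_one_of_forall {I : Ideal A}
    (h : ∀ p ∈ normalizedFactors I, frobAt A B G p = 1) : artin A B G I = 1 := by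
  let _ := commGroupOf G
  rw [artin]
  apply Multiset.prod_eq_one
  intro x hx
  obtain ⟨p, hp, rfl⟩ := Multiset.mem_map.mp hx
  exact h p hp

end ArtinMap

end Fermat.Agent.S14.Artin
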