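/-
S14 block G8a: the class-field-theoretic core statement `CFTCore` (there is no unramified cyclic
extension `L/ℚ(ζ_p)` of degree `p`, Galois over `ℚ`, on which `Gal(ℚ(ζ_p)/ℚ)` acts through the
twist `τ⁻¹ g τ = g ^ ω(τ)`) follows from *reciprocity* for `L/K` (nonzero principal ideals have
trivial Artin symbol).  Glue between G1 (`ArtinMap`), G7 (`StickEnd`) and Z4 (`NonSplit`).
-/
import Fermat.Agent.S14.ArtinMap
import Fermat.Agent.S14.Artin
import Fermat.Agent.S14.StickEnd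
import Fermat.Agent.S14.NonSplit

set_option autoImplicit false
set_option linter.unusedSectionVars false

open NumberField
open scoped Pointwise

namespace Fermat.Agent.S14.Endgame

open Fermat.Agent.S14

section General

variable {K L : Type*} [Field K] [Field L] [NumberField K] [NumberField L] [Algebra K L]
  [IsGalois K L]

/-- The inertia group of the zero ideal is trivial (the action on `𝓞 L` is faithful). -/
theorem inertia_bot_eq_bot : (⊥ : Ideal (𝓞 L)).inertia Gal(L/K) = ⊥ := by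
  rw [eq_bot_iff]
  intro g hg
  rw [Subgroup.mem_bot]
  apply AlgEquiv.ext
  intro x
  obtain ⟨a, b, hb, rfl⟩ := IsFractionRing.div_surjective (A := 𝓞 L) x
  have ha : g • a = a := by
    have := hg a
    rwa [Submodule.mem_toAddSubgroup, Ideal.mem_bot, sub_eq_zero] at this
  have hb' : g • b = b := by
    have := hg b
    rwa [Submodule.mem_toAddSubgroup, Ideal.mem_bot, sub_eq_zero] at this
  have ha' : g (algebraMap (𝓞 L) L a) = algebraMap (𝓞 L) L a := congrArg (algebraMap (𝓞 L) L) ha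
  have hb'' : g (algebraMap (𝓞 L) L b) = algebraMap (𝓞 L) L b := congrArg (algebraMap (𝓞 L) L) hb'
  rw [map_div₀, ha', hb'']
  rfl

/-- The "trivial inertia" hypothesis of `CFTCore` gives `ArtinMap.UnramifiedAt` at every prime. -/
theorem unramifiedAt_of_inertia_trivial
    (hunr : ∀ P : Ideal (𝓞 L), P.IsPrime → P ≠ ⊥ → ∀ g : L ≃ₐ[K] L,
      (∀ x : 𝓞 L, g • x - x ∈ P) → g = 1) (P : Ideal (𝓞 K)) :
    ArtinMap.UnramifiedAt K L P := by
  intro Q hQ _
  by_cases hQ0 : Q = ⊥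
  · rw [hQ0]; exact inertia_bot_eq_bot
  · rw [eq_bot_iff]
    intro g hg
    rw [Subgroup.mem_bot]
    exact hunr Q hQ hQ0 g hg

/-- Trivial inertia group ⇒ ramification index one. -/
theorem ramificationIdx_eq_one_of_inertia_eq_bot (p : Ideal (𝓞 K)) [p.IsPrime] (hp : p ≠ ⊥)
    (P : Ideal (𝓞 L)) [P.IsPrime] [P.LiesOver p] (h : P.inertia Gal(L/K) = ⊥) :
    P.ramificationIdx (𝓞 K) = 1 := by
  have : p.IsMaximal := Ring.DimensionLEOne.maximalOfPrime hp inferInstance
  have h1 := Ideal.card_inertia_eq_ramificationIdxIn (G := Gal(L/K)) p P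
  rw [h, Subgroup.card_bot] at h1
  rw [← Ideal.ramificationIdxIn_eq_ramificationIdx p P Gal(L/K), ← h1]

/-- A finite field all of whose elements satisfy `x ^ q = x` has at most `q` elements. -/
theorem card_le_of_forall_pow_eq {F : Type*} [Field F] [Finite F] {q : ℕ} (hq : 1 < q)
    (h : ∀ x : F, x ^ q = x) : Nat.card F ≤ q := by
  classical
  have := Fintype.ofFinite F
  have hne : (Polynomial.X ^ q - Polynomial.X : Polynomial F) ≠ 0 :=
    FiniteField.X_pow_card_sub_X_ne_zero F hq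
  have hroots : (Finset.univ : Finset F) ⊆
      (Polynomial.X ^ q - Polynomial.X : Polynomial F).roots.toFinset := by
    intro x _
    rw [Multiset.mem_toFinset, Polynomial.mem_roots hne]
    simp [h x]
  calc Nat.card F = (Finset.univ : Finset F).card := by
        rw [Nat.card_eq_fintype_card, Finset.card_univ]
    _ ≤ (Polynomial.X ^ q - Polynomial.X : Polynomial F).roots.toFinset.card :=
        Finset.card_le_card hroots
    _ ≤ Multiset.card (Polynomial.X ^ q - Polynomial.X : Polynomial F).roots :=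
        Multiset.toFinset_card_le _
    _ ≤ (Polynomial.X ^ q - Polynomial.X : Polynomial F).natDegree := Polynomial.card_roots' _
    _ = q := FiniteField.X_pow_card_sub_X_natDegree_eq F hq

/-- If the identity is a Frobenius at `P` then `P` has residue degree one. -/
theorem inertiaDeg_eq_one_of_isArithFrobAt_one (p : Ideal (𝓞 K)) [p.IsPrime] (hp : p ≠ ⊥)
    (P : Ideal (𝓞 L)) [P.IsPrime] [P.LiesOver p]
    (h : IsArithFrobAt (𝓞 K) (1 : Gal(L/K)) P) : P.inertiaDeg (𝓞 K) = 1 := by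
  have hpmax : p.IsMaximal := Ring.DimensionLEOne.maximalOfPrime hp inferInstance
  have hP0 : P ≠ ⊥ := Ideal.ne_bot_of_liesOver_of_ne_bot hp P
  have hPmax : P.IsMaximal := Ring.DimensionLEOne.maximalOfPrime hP0 inferInstance
  let _ : Field (𝓞 K ⧸ p) := Ideal.Quotient.field p
  let _ : Field (𝓞 L ⧸ P) := Ideal.Quotient.field P
  have hover : P.under (𝓞 K) = p := (Ideal.over_def P p).symm
  set q := Nat.card (𝓞 K ⧸ p) with hq
  have hq1 : 1 < q := Finite.one_lt_card
  have hall : ∀ y : 𝓞 L ⧸ P, y ^ q = y := by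
    intro y
    obtain ⟨x, rfl⟩ := Ideal.Quotient.mk_surjective y
    have : (1 : Gal(L/K)) • x - x ^ Nat.card (𝓞 K ⧸ P.under (𝓞 K)) ∈ P := h x
    rw [hover, one_smul] at this
    rw [← map_pow, eq_comm, Ideal.Quotient.eq]
    exact this
  have hcard := card_le_of_forall_pow_eq hq1 hall
  have hf : P.inertiaDeg (𝓞 K) = Module.finrank (𝓞 K ⧸ p) (𝓞 L ⧸ P) :=
    Ideal.inertiaDeg_eq_of_isMaximal p P
  have hpow : Nat.card (𝓞 L ⧸ P) = q ^ Module.finrank (𝓞 K ⧸ p) (𝓞 L ⧸ P) :=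
    Module.natCard_eq_pow_finrank
  rw [hpow, ← hf] at hcard
  have hpos : 0 < P.inertiaDeg (𝓞 K) := Ideal.inertiaDeg_pos P (𝓞 K)
  have : P.inertiaDeg (𝓞 K) ≤ 1 := by
    by_contra hcon
    push Not at hcon
    have : q ^ 2 ≤ q ^ P.inertiaDeg (𝓞 K) := Nat.pow_le_pow_right (by omega) hcon
    nlinarith
  omega

/-- In an everywhere unramified abelian extension, a prime with trivial Frobenius splits
completely: `e = f = 1` at every prime above it. -/
theorem splits_of_frob_eq_one [IsMulCommutative Gal(L/K)]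
    (hunr : ∀ P : Ideal (𝓞 K), ArtinMap.UnramifiedAt K L P) (p : Ideal (𝓞 K)) [p.IsPrime]
    (hp : p ≠ ⊥) (hfrob : ArtinMap.frob K L p = 1) (P : Ideal (𝓞 L)) [P.IsPrime] [P.LiesOver p] :
    P.ramificationIdx (𝓞 K) = 1 ∧ P.inertiaDeg (𝓞 K) = 1 := by
  refine ⟨ramificationIdx_eq_one_of_inertia_eq_bot p hp P (hunr p P inferInstance inferInstance),
    inertiaDeg_eq_one_of_isArithFrobAt_one p hp P ?_⟩
  have := ArtinMap.isArithFrobAt_frob (K := K) (L := L) hp P
  rwa [hfrob] at this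

end General

section Twist

variable {p : ℕ} [Fact p.Prime] {K L : Type*} [Field K] [Field L] [NumberField K] [NumberField L]
  [Algebra K L] [IsCyclotomicExtension {p} ℚ K] [IsGalois K L] [IsGalois ℚ L]
  [IsMulCommutative Gal(L/K)]

/-- **Equivariance of the Frobenius from the twist hypothesis.**  If `τ⁻¹ g τ = g ^ k` whenever
`τ ζ = ζ ^ k`, then `Frob(σ⁻¹ Q) = Frob(Q) ^ expo σ` for `σ ∈ Gal(K/ℚ)`. -/
theorem frob_smul_of_twist {ζ : K} (hζ : IsPrimitiveRoot ζ p)
    (hunr : ∀ P : Ideal (𝓞 K), ArtinMap.UnramifiedAt K L P)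
    (htwist : ∀ (τ : L ≃ₐ[ℚ] L) (k : ℕ), τ (algebraMap K L ζ) = algebraMap K L ζ ^ k →
      ∀ g : L ≃ₐ[K] L, τ⁻¹ * g.restrictScalars ℚ * τ = (g ^ k).restrictScalars ℚ)
    (σ : K ≃ₐ[ℚ] K) (Q : Ideal (𝓞 K)) [Q.IsPrime] (hQ : Q ≠ ⊥) :
    ArtinMap.frob K L (σ⁻¹ • Q) = ArtinMap.frob K L Q ^ Stick.expo hζ σ := by
  have : IsGalois ℚ K := IsCyclotomicExtension.isGalois {p} ℚ K
  obtain ⟨τ, hτ⟩ := AlgEquiv.restrictNormalHom_surjective (F := ℚ) (K₁ := K) L σ
  -- restriction compatibility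
  have hres : ∀ (ρ : L ≃ₐ[ℚ] L) (x : K),
      ρ (algebraMap K L x) = algebraMap K L (AlgEquiv.restrictNormalHom K ρ x) := by
    intro ρ x
    exact (AlgEquiv.restrictNormal_commutes ρ K x).symm
  set k := Stick.expo hζ σ with hk
  set g := ArtinMap.frob K L Q with hg
  have hτζ : τ (algebraMap K L ζ) = algebraMap K L ζ ^ k := by
    rw [hres τ ζ, hτ, Stick.expo_spec hζ σ, map_pow]
  have ht := htwist τ k hτζ g
  -- a prime above `Q`
  obtain ⟨⟨𝔓, h𝔓p, h𝔓o⟩⟩ := (inferInstance : Nonempty (Q.primesOver (𝓞 L)))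
  have hF : IsArithFrobAt (𝓞 K) g 𝔓 := ArtinMap.isArithFrobAt_frob hQ 𝔓
  let τB : 𝓞 L ≃+* 𝓞 L := MulSemiringAction.toRingEquiv (L ≃ₐ[ℚ] L) (𝓞 L) τ⁻¹
  let τA : 𝓞 K ≃+* 𝓞 K := MulSemiringAction.toRingEquiv (K ≃ₐ[ℚ] K) (𝓞 K) σ⁻¹
  have hτBA : ∀ a, τB (algebraMap (𝓞 K) (𝓞 L) a) = algebraMap (𝓞 K) (𝓞 L) (τA a) := by
    intro a
    apply RingOfIntegers.ext
    change τ⁻¹ (algebraMap K L (a : K)) = algebraMap K L (σ⁻¹ (a : K))
    rw [hres τ⁻¹ (a : K), map_inv, hτ]
  have hc : ∀ x, τB (g • x) = (g ^ k) • τB x := by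
    intro x
    apply RingOfIntegers.ext
    change τ⁻¹ (g (x : L)) = (g ^ k) (τ⁻¹ (x : L))
    have := DFunLike.congr_fun ht (τ⁻¹ (x : L))
    simpa [AlgEquiv.mul_apply] using this
  have h' : IsArithFrobAt (𝓞 K) (g ^ k) (𝔓.map τB) :=
    Artin.isArithFrobAt_map_ringEquiv τB τA hτBA hc hF
  -- the image prime lies over `σ⁻¹ • Q`
  have hprime : (𝔓.map τB).IsPrime := Ideal.map_isPrime_of_equiv τB
  have hunder : (𝔓.map τB).under (𝓞 K) = σ⁻¹ • Q := by
    rw [Artin.under_map_ringEquiv τB τA hτBA 𝔓, ← h𝔓o.over, Ideal.pointwise_smul_def]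
    rfl
  have hσQ0 : σ⁻¹ • Q ≠ ⊥ := by
    intro h
    apply hQ
    have := congrArg (fun I => σ • I) h
    simpa using this
  have hσQp : (σ⁻¹ • Q).IsPrime := inferInstance
  have hlies : (𝔓.map τB).LiesOver (σ⁻¹ • Q) := ⟨hunder.symm⟩
  have hF' : IsArithFrobAt (𝓞 K) (ArtinMap.frob K L (σ⁻¹ • Q)) (𝔓.map τB) :=
    ArtinMap.isArithFrobAt_frob hσQ0 (𝔓.map τB)
  exact Artin.isArithFrobAt_unique (hunr (σ⁻¹ • Q) (𝔓.map τB) hprime hlies) hF' h'

/-- **The endgame.** `K = ℚ(ζ_p)`, `p ≥ 3`, `L/K` abelian of degree `p`, unramified at all finite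
primes, `L/ℚ` Galois with the twisted conjugation action.  If all nonzero principal ideals of
`𝓞 K` have trivial Artin symbol (reciprocity), we get a contradiction: by Stickelberger the Artin
map is then trivial on all ideals, but some prime of `K` does not split completely in `L`. -/
theorem false_of_reciprocity (h3 : 3 ≤ p) (hdeg : Module.finrank K L = p)
    (hunr : ∀ P : Ideal (𝓞 L), P.IsPrime → P ≠ ⊥ → ∀ g : L ≃ₐ[K] L,
      (∀ x : 𝓞 L, g • x - x ∈ P) → g = 1)
    (htwist : ∀ ζ : K, IsPrimitiveRoot ζ p → ∀ (τ : L ≃ₐ[ℚ] L) (k : ℕ),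
      τ (algebraMap K L ζ) = algebraMap K L ζ ^ k →
      ∀ g : L ≃ₐ[K] L, τ⁻¹ * g.restrictScalars ℚ * τ = (g ^ k).restrictScalars ℚ)
    (hrec : ∀ I : Ideal (𝓞 K), I ≠ ⊥ → I.IsPrincipal → ArtinMap.artin K L I = 1) : False := by
  have hp : p.Prime := Fact.out
  have hp2 : p ≠ 2 := by omega
  have hp0 : p ≠ 0 := hp.ne_zero
  obtain ⟨ζ, hζ⟩ := IsCyclotomicExtension.exists_isPrimitiveRoot ℚ K (Set.mem_singleton p) hp0
  have hunr' := unramifiedAt_of_inertia_trivial (K := K) (L := L) hunr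
  have hcard : Nat.card Gal(L/K) = p := by rw [IsGalois.card_aut_eq_finrank, hdeg]
  -- the Artin map is trivial on all nonzero ideals
  have hall : ∀ I : Ideal (𝓞 K), I ≠ ⊥ → ArtinMap.artin K L I = 1 := by
    refine Stick.map_eq_one_of_equivariant' hζ hp2 (ArtinMap.artin K L)
      (fun I J hI hJ => ArtinMap.artin_mul K L hI hJ) hrec ?_ ?_
    · intro σ Q hQp hQ0
      have hσQ0 : σ⁻¹ • Q ≠ ⊥ := by
        intro h
        apply hQ0
        have := congrArg (fun I => σ • I) h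
        simpa using this
      rw [ArtinMap.artin_prime K L hσQ0, ArtinMap.artin_prime K L hQ0]
      exact frob_smul_of_twist hζ hunr' (htwist ζ hζ) σ Q hQ0
    · intro Q _ _
      rw [← hcard]
      exact pow_card_eq_one'
  -- but some prime does not split completely
  obtain ⟨𝔭, h𝔭p, h𝔭0, -, hns⟩ :=
    NonSplit.exists_forall_not_splitsCompletely_of_isGaloisGroup (K := K) (L := L) Gal(L/K)
      (by rw [hdeg]; exact hp.one_lt) ∅
  obtain ⟨⟨𝔓, h𝔓p, h𝔓o⟩⟩ := (inferInstance : Nonempty (𝔭.primesOver (𝓞 L)))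
  have hfrob : ArtinMap.frob K L 𝔭 = 1 := by
    rw [← ArtinMap.artin_prime K L h𝔭0]
    exact hall 𝔭 h𝔭0
  exact hns 𝔓 ⟨h𝔓p, h𝔓o⟩ (splits_of_frob_eq_one hunr' 𝔭 h𝔭0 hfrob 𝔓)

end Twist

/-! ### Packaging -/

/-- The hypotheses on `L/K` produced by the reduction G0 from a non-split admissible extension
(`K = ℚ(ζ_p)`; same list as in `CFTCore`). -/
structure Hyps (p : ℕ) [Fact p.Prime] (K L : Type*) [Field K] [Field L] [NumberField K]
    [NumberField L] [Algebra K L] [IsGalois K L] : Prop where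
  finrank_eq : Module.finrank K L = p
  inertia_trivial : ∀ P : Ideal (𝓞 L), P.IsPrime → P ≠ ⊥ → ∀ g : L ≃ₐ[K] L,
    (∀ x : 𝓞 L, g • x - x ∈ P) → g = 1
  twist : ∀ ζ : K, IsPrimitiveRoot ζ p → ∀ (τ : L ≃ₐ[ℚ] L) (k : ℕ),
    τ (algebraMap K L ζ) = algebraMap K L ζ ^ k →
    ∀ g : L ≃ₐ[K] L, τ⁻¹ * g.restrictScalars ℚ * τ = (g ^ k).restrictScalars ℚ

/-- The Galois group of an extension of prime degree is commutative. -/
theorem isMulCommutative_of_finrank_eq_prime {p : ℕ} [Fact p.Prime] {K L : Type*} [Field K]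
    [Field L] [Algebra K L] [FiniteDimensional K L] [IsGalois K L]
    (h : Module.finrank K L = p) : IsMulCommutative Gal(L/K) := by
  have : IsCyclic Gal(L/K) :=
    isCyclic_of_prime_card (p := p) (by rw [IsGalois.card_aut_eq_finrank, h])
  infer_instance

/-- **Reciprocity** for the extensions `L/K` of G0: nonzero principal ideals of `𝓞 K` have trivial
Artin symbol.  (This is what the blocks A, B, C, D, I2 have to deliver.) -/
def Reciprocity (p : ℕ) [Fact p.Prime] : Prop :=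
  ∀ (K L : Type) [Field K] [Field L] [NumberField K] [NumberField L] [Algebra K L]
    [IsCyclotomicExtension {p} ℚ K] [IsGalois K L] [IsGalois ℚ L] [IsMulCommutative Gal(L/K)],
    Hyps p K L → ∀ I : Ideal (𝓞 K), I ≠ ⊥ → I.IsPrincipal → ArtinMap.artin K L I = 1

/-- The CFT core statement of S14 (same as `CFTCore` of G0, with the hypotheses bundled). -/
def Core (p : ℕ) [Fact p.Prime] : Prop :=
  ∀ (K L : Type) [Field K] [Field L] [NumberField K] [NumberField L] [Algebra K L]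
    [IsCyclotomicExtension {p} ℚ K] [IsGalois K L] [IsGalois ℚ L],
    Module.finrank K L = p →
    (∀ P : Ideal (𝓞 L), P.IsPrime → P ≠ ⊥ → ∀ g : L ≃ₐ[K] L,
      (∀ x : 𝓞 L, g • x - x ∈ P) → g = 1) →
    (∀ ζ : K, IsPrimitiveRoot ζ p → ∀ (τ : L ≃ₐ[ℚ] L) (k : ℕ),
      τ (algebraMap K L ζ) = algebraMap K L ζ ^ k →
      ∀ g : L ≃ₐ[K] L, τ⁻¹ * g.restrictScalars ℚ * τ = (g ^ k).restrictScalars ℚ) →
    False

theorem core_of_reciprocity {p : ℕ} [Fact p.Prime] (h3 : 3 ≤ p) (h : Reciprocity p) : Core p := by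
  intro K L _ _ _ _ _ _ _ _ hdeg hunr htwist
  have := isMulCommutative_of_finrank_eq_prime (p := p) (K := K) (L := L) hdeg
  exact false_of_reciprocity h3 hdeg hunr htwist
    (h K L ⟨hdeg, hunr, htwist⟩)

end Fermat.Agent.S14.Endgame
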