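import Mathlib
import Fermat.Agent.S14.Defs

/-!
# S14 block REC: reciprocity from the crossing inclusion and the first inequality

`M/F` Galois of prime degree `p`, `φ` an Artin map (`IsArtinMap F M φ`).  If
* (D) `φ a = 1 → [a] ∈ normClassSubgroup F M` (the crossing argument), and
* (A) `p ≤ [Cl(F) : normClassSubgroup F M]` (the first inequality),
then `φ` is trivial on nonzero principal ideals, and `φ` is not identically `1`.
-/

set_option autoImplicit false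
set_option linter.unusedSectionVars false

open NumberField
open scoped Pointwise nonZeroDivisors

namespace Fermat.Agent.S14.Reciprocity

variable {p : ℕ} [hp : Fact p.Prime]
  {F M : Type*} [Field F] [Field M] [NumberField F] [NumberField M] [Algebra F M] [IsGalois F M]

/-- `φ 1 = 1` for a map multiplicative on nonzero ideals. -/
theorem map_one {φ : Ideal (𝓞 F) → (M ≃ₐ[F] M)} (hφ : IsArtinMap F M φ) : φ 1 = 1 := by
  have h1 : (1 : Ideal (𝓞 F)) ≠ ⊥ := by
    rw [Ideal.one_eq_top]; exact top_ne_bot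
  have := hφ.map_mul 1 1 h1 h1
  rw [mul_one] at this
  exact mul_eq_left.mp this.symm

theorem coe_ne_bot (a : (Ideal (𝓞 F))⁰) : (a : Ideal (𝓞 F)) ≠ ⊥ :=
  mem_nonZeroDivisors_iff_ne_zero.mp a.2

theorem map_mul' {φ : Ideal (𝓞 F) → (M ≃ₐ[F] M)} (hφ : IsArtinMap F M φ)
    (a b : (Ideal (𝓞 F))⁰) :
    φ ((a * b : (Ideal (𝓞 F))⁰) : Ideal (𝓞 F)) = φ a * φ b := by
  rw [Submonoid.coe_mul]
  exact hφ.map_mul _ _ (coe_ne_bot a) (coe_ne_bot b)

theorem map_pow' {φ : Ideal (𝓞 F) → (M ≃ₐ[F] M)} (hφ : IsArtinMap F M φ)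
    (a : (Ideal (𝓞 F))⁰) (k : ℕ) :
    φ ((a ^ k : (Ideal (𝓞 F))⁰) : Ideal (𝓞 F)) = φ a ^ k := by
  induction k with
  | zero => simpa using map_one hφ
  | succ k ih => rw [pow_succ, map_mul' hφ, ih, pow_succ]

theorem pow_card_eq_one (hdeg : Module.finrank F M = p) (g : M ≃ₐ[F] M) : g ^ p = 1 := by
  have h : Nat.card (M ≃ₐ[F] M) = p := by rw [IsGalois.card_aut_eq_finrank, hdeg]
  rw [← h]
  exact pow_card_eq_one'

/-- Key lemma: under (D), `φ a = φ b` implies `[a] ≡ [b]` modulo the norm classes. -/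
theorem mk0_mul_inv_mem (hdeg : Module.finrank F M = p)
    {φ : Ideal (𝓞 F) → (M ≃ₐ[F] M)} (hφ : IsArtinMap F M φ)
    (hD : ∀ a : (Ideal (𝓞 F))⁰, φ a = 1 → ClassGroup.mk0 a ∈ normClassSubgroup F M)
    (a b : (Ideal (𝓞 F))⁰) (hab : φ a = φ b) :
    ClassGroup.mk0 a * (ClassGroup.mk0 b)⁻¹ ∈ normClassSubgroup F M := by
  have hp1 : 1 ≤ p := hp.out.one_lt.le
  -- `c = a * b^(p-1)` and `d = b^p` are in the kernel
  have hc : φ ((a * b ^ (p - 1) : (Ideal (𝓞 F))⁰) : Ideal (𝓞 F)) = 1 := by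
    rw [map_mul' hφ, map_pow' hφ, hab, ← pow_succ', Nat.sub_add_cancel hp1]
    exact pow_card_eq_one hdeg _
  have hd : φ ((b ^ p : (Ideal (𝓞 F))⁰) : Ideal (𝓞 F)) = 1 := by
    rw [map_pow' hφ]
    exact pow_card_eq_one hdeg _
  have h1 := hD _ hc
  have h2 := hD _ hd
  rw [map_mul, map_pow] at h1
  rw [map_pow] at h2
  have h3 := (normClassSubgroup F M).mul_mem h1 ((normClassSubgroup F M).inv_mem h2)
  have e : ClassGroup.mk0 a * ClassGroup.mk0 b ^ (p - 1) * (ClassGroup.mk0 b ^ p)⁻¹ =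
      ClassGroup.mk0 a * (ClassGroup.mk0 b)⁻¹ := by
    have : ClassGroup.mk0 b ^ p = ClassGroup.mk0 b ^ (p - 1) * ClassGroup.mk0 b := by
      rw [← pow_succ, Nat.sub_add_cancel hp1]
    rw [this, mul_inv_rev, mul_assoc, ← mul_assoc (ClassGroup.mk0 b ^ (p - 1)), mul_comm
      (ClassGroup.mk0 b ^ (p - 1)), mul_assoc, mul_inv_cancel, mul_one]
  rwa [e] at h3

/-- If some nonzero ideal `a` with `[a] ∈ normClassSubgroup` had `φ a ≠ 1`, every class would be a
norm class. -/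
theorem normClassSubgroup_eq_top_of_ne_one (hdeg : Module.finrank F M = p)
    {φ : Ideal (𝓞 F) → (M ≃ₐ[F] M)} (hφ : IsArtinMap F M φ)
    (hD : ∀ a : (Ideal (𝓞 F))⁰, φ a = 1 → ClassGroup.mk0 a ∈ normClassSubgroup F M)
    (a : (Ideal (𝓞 F))⁰) (ha : ClassGroup.mk0 a ∈ normClassSubgroup F M) (hne : φ a ≠ 1) :
    normClassSubgroup F M = ⊤ := by
  have hcard : Nat.card (M ≃ₐ[F] M) = p := by rw [IsGalois.card_aut_eq_finrank, hdeg]
  have hfin : Finite (M ≃ₐ[F] M) := inferInstance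
  rw [eq_top_iff]
  intro c _
  obtain ⟨b, rfl⟩ := ClassGroup.mk0_surjective c
  -- `φ b` is a power of `φ a`
  have hgen : φ b ∈ Subgroup.zpowers (φ (a : Ideal (𝓞 F))) := by
    have := zpowers_eq_top_of_prime_card (G := M ≃ₐ[F] M) (p := p) hcard hne
    rw [this]
    exact Subgroup.mem_top _
  rw [← mem_powers_iff_mem_zpowers] at hgen
  obtain ⟨k, hk⟩ := hgen
  have h1 : φ (b : Ideal (𝓞 F)) = φ ((a ^ k : (Ideal (𝓞 F))⁰) : Ideal (𝓞 F)) := by
    rw [map_pow' hφ]; exact hk.symm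
  have h2 := mk0_mul_inv_mem hdeg hφ hD b (a ^ k) h1
  have h3 : ClassGroup.mk0 (a ^ k) ∈ normClassSubgroup F M := by
    rw [map_pow]; exact (normClassSubgroup F M).pow_mem ha k
  have := (normClassSubgroup F M).mul_mem h2 h3
  rwa [inv_mul_cancel_right] at this

theorem index_eq_one_of_eq_top (h : normClassSubgroup F M = ⊤) :
    (normClassSubgroup F M).index = 1 := by
  rw [h]; exact Subgroup.index_top

/-- **Reciprocity**: under (D) and (A), `φ` is trivial on every nonzero ideal whose class lies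
in `normClassSubgroup F M`. -/
theorem map_eq_one_of_mem (hdeg : Module.finrank F M = p)
    {φ : Ideal (𝓞 F) → (M ≃ₐ[F] M)} (hφ : IsArtinMap F M φ)
    (hD : ∀ a : (Ideal (𝓞 F))⁰, φ a = 1 → ClassGroup.mk0 a ∈ normClassSubgroup F M)
    (hA : p ≤ (normClassSubgroup F M).index)
    (a : (Ideal (𝓞 F))⁰) (ha : ClassGroup.mk0 a ∈ normClassSubgroup F M) : φ a = 1 := by
  by_contra hne
  have h1 := index_eq_one_of_eq_top (normClassSubgroup_eq_top_of_ne_one hdeg hφ hD a ha hne)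
  have := hp.out.one_lt
  omega

/-- **Reciprocity for principal ideals.** -/
theorem map_eq_one_of_isPrincipal (hdeg : Module.finrank F M = p)
    {φ : Ideal (𝓞 F) → (M ≃ₐ[F] M)} (hφ : IsArtinMap F M φ)
    (hD : ∀ a : (Ideal (𝓞 F))⁰, φ a = 1 → ClassGroup.mk0 a ∈ normClassSubgroup F M)
    (hA : p ≤ (normClassSubgroup F M).index)
    (a : Ideal (𝓞 F)) (ha0 : a ≠ ⊥) (ha : a.IsPrincipal) : φ a = 1 := by
  have hmem : a ∈ (Ideal (𝓞 F))⁰ := mem_nonZeroDivisors_iff_ne_zero.mpr ha0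
  have h1 : ClassGroup.mk0 ⟨a, hmem⟩ = 1 := (ClassGroup.mk0_eq_one_iff hmem).mpr ha
  exact map_eq_one_of_mem hdeg hφ hD hA ⟨a, hmem⟩ (h1 ▸ (normClassSubgroup F M).one_mem)

/-- Under (D) and (A) the Artin map is not identically trivial. -/
theorem exists_map_ne_one
    {φ : Ideal (𝓞 F) → (M ≃ₐ[F] M)}
    (hD : ∀ a : (Ideal (𝓞 F))⁰, φ a = 1 → ClassGroup.mk0 a ∈ normClassSubgroup F M)
    (hA : p ≤ (normClassSubgroup F M).index) :
    ∃ a : Ideal (𝓞 F), a ≠ ⊥ ∧ φ a ≠ 1 := by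
  by_contra hcon
  push Not at hcon
  have htop : normClassSubgroup F M = ⊤ := by
    rw [eq_top_iff]
    intro c _
    obtain ⟨b, rfl⟩ := ClassGroup.mk0_surjective c
    exact hD b (hcon b (coe_ne_bot b))
  have h1 := index_eq_one_of_eq_top htop
  have := hp.out.one_lt
  omega

end Fermat.Agent.S14.Reciprocity
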