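import Mathlib
import Fermat.Prelude.Def_ExtCitation_AdmissibleExtension_v2
import Fermat.Agent.S54.Frobenius
import Fermat.Agent.S13.InertiaLift
import Fermat.Agent.S14.GaloisModule

/-!
# S14, block G0b: from a twist subgroup of `Gal(ℚ̄/ℚ)` to number fields

`CFTCore p` is the purely number-theoretic statement (no Galois modules): there is no cyclic
degree-`p` extension `L` of `K = ℚ(ζ_p)`, Galois over `ℚ`, unramified at all finite primes, on
whose Galois group `Gal(K/ℚ)` acts by conjugation through `ω⁻¹` (i.e. `τ⁻¹ g τ = g ^ ω(τ)`).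

`extVanishingCts_of_cftCore : CFTCore p → ExtCitation.ExtVanishingCts p`.
-/

set_option autoImplicit false
set_option linter.unusedSectionVars false

namespace Fermat.Agent.S14.ToField

open scoped NumberField
open ExtCitation ValuationSubring Fermat.Agent.S14.GaloisModule

local notation "Qbar" => AlgebraicClosure ℚ
local notation "Γ" => (AlgebraicClosure ℚ ≃ₐ[ℚ] AlgebraicClosure ℚ)

local instance isAlgebraicQbar_S14 : Algebra.IsAlgebraic ℚ (AlgebraicClosure ℚ) :=
  AlgebraicClosure.isAlgebraic ℚ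
local instance isAlgClosureQbar_S14 : IsAlgClosure ℚ (AlgebraicClosure ℚ) :=
  ⟨inferInstance, inferInstance⟩
local instance normalQbar_S14 : Normal ℚ (AlgebraicClosure ℚ) :=
  IsAlgClosure.normal ℚ (AlgebraicClosure ℚ)

/-- The number-theoretic core of S14: there is no everywhere unramified cyclic extension `L` of
degree `p` of `K = ℚ(ζ_p)` which is Galois over `ℚ` and on which `Gal(K/ℚ)` acts through `ω⁻¹`. -/
def CFTCore (p : ℕ) [Fact p.Prime] : Prop :=
  ∀ (K L : Type) [Field K] [Field L] [NumberField K] [NumberField L] [Algebra K L]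
    [IsCyclotomicExtension {p} ℚ K] [IsGalois K L] [IsGalois ℚ L],
    Module.finrank K L = p →
    (∀ P : Ideal (𝓞 L), P.IsPrime → P ≠ ⊥ → ∀ g : L ≃ₐ[K] L,
      (∀ x : 𝓞 L, g • x - x ∈ P) → g = 1) →
    (∀ ζ : K, IsPrimitiveRoot ζ p → ∀ (τ : L ≃ₐ[ℚ] L) (k : ℕ),
        τ (algebraMap K L ζ) = algebraMap K L ζ ^ k →
        ∀ g : L ≃ₐ[K] L, τ⁻¹ * g.restrictScalars ℚ * τ = (g ^ k).restrictScalars ℚ) →
    False

section fields

variable (p : ℕ) [Fact p.Prime]

theorem exists_primitiveRoot : ∃ ζ : Qbar, IsPrimitiveRoot ζ p := by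
  have : NeZero p := ⟨(Fact.out : p.Prime).ne_zero⟩
  exact HasEnoughRootsOfUnity.exists_primitiveRoot Qbar p

/-- A chosen primitive `p`-th root of unity in `ℚ̄`. -/
noncomputable def zeta : Qbar := (exists_primitiveRoot p).choose

theorem zeta_spec : IsPrimitiveRoot (zeta p) p := (exists_primitiveRoot p).choose_spec

/-- `K = ℚ(ζ_p)` inside `ℚ̄`. -/
noncomputable def fieldK : IntermediateField ℚ Qbar := IntermediateField.adjoin ℚ {zeta p}

theorem zeta_mem_fieldK : zeta p ∈ fieldK p :=
  IntermediateField.mem_adjoin_simple_self ℚ (zeta p)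

theorem fixingSubgroup_fieldK : (fieldK p).fixingSubgroup = (chi p).ker := by
  ext σ
  rw [mem_ker_chi_iff p σ (zeta_spec p), IntermediateField.mem_fixingSubgroup_iff]
  constructor
  · intro h
    exact h _ (zeta_mem_fieldK p)
  · intro h
    have hle : fieldK p ≤ IntermediateField.fixedField (Subgroup.zpowers σ) := by
      rw [fieldK, IntermediateField.adjoin_simple_le_iff]
      rintro ⟨g, hg⟩
      obtain ⟨n, rfl⟩ := Subgroup.mem_zpowers_iff.mp hg
      show (σ ^ n) • zeta p = zeta p
      have : σ • zeta p = zeta p := h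
      exact (MulAction.mem_stabilizer_iff.mp
        (Subgroup.zpow_mem (MulAction.stabilizer Γ (zeta p)) (MulAction.mem_stabilizer_iff.mpr this) n))
    intro x hx
    exact hle hx ⟨σ, Subgroup.mem_zpowers σ⟩

instance finiteDimensional_fieldK : FiniteDimensional ℚ (fieldK p) :=
  IntermediateField.adjoin.finiteDimensional (Algebra.IsIntegral.isIntegral (zeta p))

instance isCyclotomicExtension_fieldK : IsCyclotomicExtension {p} ℚ (fieldK p) := by
  have : NeZero p := ⟨(Fact.out : p.Prime).ne_zero⟩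
  exact (zeta_spec p).intermediateField_adjoin_isCyclotomicExtension ℚ

end fields


section general

theorem restrictNormalHom_apply_coe (E : IntermediateField ℚ Qbar) [Normal ℚ E] (σ : Γ) (x : E) :
    ((AlgEquiv.restrictNormalHom (F := ℚ) (K₁ := Qbar) E σ x : E) : Qbar) = σ (x : Qbar) :=
  AlgEquiv.restrictNormal_commutes σ E x

theorem ker_restrictNormalHom (E : IntermediateField ℚ Qbar) [Normal ℚ E] :
    (AlgEquiv.restrictNormalHom (F := ℚ) (K₁ := Qbar) E).ker = E.fixingSubgroup := by
  ext σ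
  rw [MonoidHom.mem_ker, IntermediateField.mem_fixingSubgroup_iff]
  constructor
  · intro h x hx
    have h1 := restrictNormalHom_apply_coe E σ ⟨x, hx⟩
    rw [h] at h1
    exact h1.symm
  · intro h
    ext x
    rw [restrictNormalHom_apply_coe E σ x, h _ x.2]
    rfl

/-- For a finite Galois `E/ℚ` inside `ℚ̄`, the degree is the index of the fixing subgroup. -/
theorem finrank_eq_index (E : IntermediateField ℚ Qbar) [FiniteDimensional ℚ E] [IsGalois ℚ E] :
    Module.finrank ℚ E = E.fixingSubgroup.index := by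
  have hn : Normal ℚ E := IsGalois.to_normal
  rw [← IsGalois.card_aut_eq_finrank ℚ E, ← ker_restrictNormalHom E, Subgroup.index_ker,
    MonoidHom.range_eq_top.mpr (AlgEquiv.restrictNormalHom_surjective Qbar)]
  exact (Nat.card_congr (Subgroup.topEquiv).toEquiv).symm

/-- A nonzero prime of the ring of integers of a finite extension `E ⊆ ℚ̄` lies under a valuation
subring of `ℚ̄`, which lies over a rational prime. -/
theorem exists_valuationSubring_over (E : IntermediateField ℚ Qbar)
    (P : Ideal (𝓞 E)) [hPp : P.IsPrime] (hP : P ≠ ⊥) :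
    ∃ (ℓ : ℕ) (A : ValuationSubring Qbar), ℓ.Prime ∧ A.LiesOverPrime ℓ ∧
      ∀ x : 𝓞 E, x ∈ P → ((x : E) : Qbar) ∈ A.nonunits := by
  let f : 𝓞 E →+* Qbar := (algebraMap E Qbar).comp (algebraMap (𝓞 E) E)
  have hf : Function.Injective f :=
    (algebraMap E Qbar).injective.comp (FaithfulSMul.algebraMap_injective (𝓞 E) E)
  let I : Ideal f.range := P.map f.rangeRestrict
  have hI : I ≠ ⊤ := by
    intro htop
    have h1 : (1 : f.range) ∈ I := htop ▸ Submodule.mem_top
    obtain ⟨x, hxP, hx⟩ := (Ideal.mem_map_iff_of_surjective f.rangeRestrict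
      f.rangeRestrict_surjective).mp h1
    have h2 : f x = f 1 := by
      rw [map_one]
      exact congrArg Subtype.val hx
    rw [hf h2] at hxP
    exact hPp.ne_top ((Ideal.eq_top_iff_one P).mpr hxP)
  obtain ⟨A, -, hIA⟩ := Ideal.image_subset_nonunits_valuationSubring I hI
  have hPA : ∀ x : 𝓞 E, x ∈ P → ((x : E) : Qbar) ∈ A.nonunits := by
    intro x hx
    exact hIA ⟨f.rangeRestrict x, Ideal.mem_map_of_mem _ hx, rfl⟩
  have : NeZero P := ⟨hP⟩
  have hℓ : (Ideal.absNorm (P.under ℤ)).Prime := Nat.absNorm_under_prime P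
  refine ⟨Ideal.absNorm (P.under ℤ), A, hℓ, ?_, hPA⟩
  have h3 : ((Ideal.absNorm (P.under ℤ) : ℕ) : ℤ) ∈ P.under ℤ := by
    have h5 := Int.ideal_span_absNorm_eq_self (P.under ℤ)
    have h6 : ((Ideal.absNorm (P.under ℤ) : ℕ) : ℤ) ∈
        Ideal.span {((Ideal.absNorm (P.under ℤ) : ℕ) : ℤ)} := Ideal.subset_span rfl
    rwa [h5] at h6
  rw [Ideal.under_def, Ideal.mem_comap] at h3
  have h4 := hPA _ h3
  show ((Ideal.absNorm (P.under ℤ) : ℕ) : Qbar) ∈ A.nonunits
  have h7 : (((((Ideal.absNorm (P.under ℤ) : ℕ) : ℤ) : 𝓞 E) : E) : Qbar) =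
      ((Ideal.absNorm (P.under ℤ) : ℕ) : Qbar) := by
    push_cast
    rfl
  rw [← h7]
  exact h4

end general


section twist

variable {p : ℕ} [Fact p.Prime] {N : Subgroup Γ}

/-- `L`, the field cut out by `N`. -/
noncomputable def fieldL (N : Subgroup Γ) : IntermediateField ℚ Qbar :=
  IntermediateField.fixedField N

theorem fixingSubgroup_fieldL (hN : IsTwistSubgroup p N) : (fieldL N).fixingSubgroup = N :=
  InfiniteGalois.fixingSubgroup_fixedField ⟨N, Subgroup.isClosed_of_isOpen N hN.isOpen⟩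

theorem fieldK_le_fieldL (hN : IsTwistSubgroup p N) : fieldK p ≤ fieldL N := by
  rw [fieldL, IntermediateField.le_iff_le, fixingSubgroup_fieldK]
  exact hN.le_ker

theorem finiteDimensional_fieldL (hN : IsTwistSubgroup p N) : FiniteDimensional ℚ (fieldL N) :=
  (InfiniteGalois.isOpen_iff_finite (fieldL N)).mp (by
    rw [fixingSubgroup_fieldL hN]
    exact hN.isOpen)

theorem isGalois_fieldL (hN : IsTwistSubgroup p N) : IsGalois ℚ (fieldL N) :=
  (InfiniteGalois.normal_iff_isGalois (fieldL N)).mp (by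
    rw [fixingSubgroup_fieldL hN]
    exact hN.normal)

theorem isGalois_fieldK (p : ℕ) [Fact p.Prime] : IsGalois ℚ (fieldK p) := by
  have : NeZero p := ⟨(Fact.out : p.Prime).ne_zero⟩
  exact IsCyclotomicExtension.isGalois {p} ℚ (fieldK p)

theorem finrank_fieldL (hN : IsTwistSubgroup p N) :
    Module.finrank ℚ (fieldL N) = p * Module.finrank ℚ (fieldK p) := by
  have := finiteDimensional_fieldL hN
  have := isGalois_fieldL hN
  have := isGalois_fieldK p
  rw [finrank_eq_index, finrank_eq_index, fixingSubgroup_fieldL hN, fixingSubgroup_fieldK]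
  have h1 := Subgroup.relIndex_mul_index hN.le_ker
  rw [hN.relIndex] at h1
  exact h1.symm

/-- **Unramifiedness, `Γ`-level**: an element of `G_K` which acts trivially on `𝓞_L / P` for a
nonzero prime `P` of `𝓞_L` acts trivially on `L`. -/
theorem forall_eq_of_forall_sub_mem (hN : IsTwistSubgroup p N) (P : Ideal (𝓞 (fieldL N)))
    [P.IsPrime] (hP : P ≠ ⊥) (τ : Γ) (hτ : τ ∈ (chi p).ker)
    (hτP : ∀ x : 𝓞 (fieldL N), ∃ y ∈ P,
      ((y : fieldL N) : Qbar) = τ ((x : fieldL N) : Qbar) - ((x : fieldL N) : Qbar)) :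
    ∀ x ∈ fieldL N, τ x = x := by
  have hfin := finiteDimensional_fieldL hN
  obtain ⟨ℓ, A, hℓ, hAℓ, hPA⟩ := exists_valuationSubring_over (fieldL N) P hP
  obtain ⟨σ, hσI, hσL⟩ := Fermat.Agent.S13.InertiaLift.exists_mem_inertiaSubgroupIn_forall_eq
    (fieldL N) A hℓ hAℓ τ (by
      intro b hb hbL
      have hbL' : IsIntegral ℤ (⟨b, hbL⟩ : fieldL N) := by
        refine (isIntegral_algHom_iff (IsScalarTower.toAlgHom ℤ (fieldL N) Qbar)
          (algebraMap (fieldL N) Qbar).injective).mp ?_
        exact hb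
      obtain ⟨y, hyP, hy⟩ := hτP ⟨⟨b, hbL⟩, hbL'⟩
      have := hPA y hyP
      rw [hy] at this
      exact this)
  have hζL : zeta p ∈ fieldL N := fieldK_le_fieldL hN (zeta_mem_fieldK p)
  have hσker : σ ∈ (chi p).ker := by
    rw [mem_ker_chi_iff p σ (zeta_spec p), hσL _ hζL]
    exact (mem_ker_chi_iff p τ (zeta_spec p)).mp hτ
  have hσN : σ ∈ N := hN.inertia ℓ hℓ A hAℓ σ hσI hσker
  rw [← fixingSubgroup_fieldL hN] at hσN
  intro x hx
  rw [← hσL x hx]
  exact (IntermediateField.mem_fixingSubgroup_iff _ σ).mp hσN x hx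


theorem restrictScalars_pow {K L : Type*} [Field K] [Field L] [Algebra K L] [Algebra ℚ K]
    [Algebra ℚ L] [IsScalarTower ℚ K L] (g : L ≃ₐ[K] L) (k : ℕ) :
    (g ^ k).restrictScalars ℚ = (g.restrictScalars ℚ) ^ k := by
  induction k with
  | zero => rfl
  | succ n ih =>
    rw [pow_succ, pow_succ, ← ih]
    rfl

/-- **Block G0b**: a twist subgroup contradicts the number-theoretic core. -/
theorem false_of_isTwistSubgroup (hcore : CFTCore p) (hN : IsTwistSubgroup p N) : False := by
  have hp := (Fact.out : p.Prime)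
  have hfinL := finiteDimensional_fieldL hN
  have hgalL := isGalois_fieldL hN
  have hgalK := isGalois_fieldK p
  have hKL := fieldK_le_fieldL hN
  have hnormL : Normal ℚ (fieldL N) := IsGalois.to_normal
  let nfK : NumberField (fieldK p) :=
    { to_charZero := inferInstance, to_finiteDimensional := inferInstance }
  let nfL : NumberField (fieldL N) :=
    { to_charZero := inferInstance, to_finiteDimensional := inferInstance }
  let algKL : Algebra (fieldK p) (fieldL N) :=
    (IntermediateField.inclusion hKL).toRingHom.toAlgebra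
  have htower : IsScalarTower (fieldK p) (fieldL N) Qbar :=
    IsScalarTower.of_algebraMap_eq (fun x => rfl)
  have hgalKL : IsGalois (fieldK p) (fieldL N) :=
    IsGalois.tower_top_of_isGalois ℚ (fieldK p) (fieldL N)
  have hcoe : ∀ y : fieldK p, ((algebraMap (fieldK p) (fieldL N) y : fieldL N) : Qbar) = (y : Qbar) :=
    fun y => rfl
  -- degree
  have hdeg : Module.finrank (fieldK p) (fieldL N) = p := by
    have h1 := Module.finrank_mul_finrank ℚ (fieldK p) (fieldL N)
    rw [finrank_fieldL hN, mul_comm p] at h1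
    have hpos : 0 < Module.finrank ℚ (fieldK p) := Module.finrank_pos
    exact Nat.eq_of_mul_eq_mul_left hpos h1
  -- lifting elements of `Gal(L/ℚ)` to `Γ`
  have hlift : ∀ τ : fieldL N ≃ₐ[ℚ] fieldL N, ∃ τ' : Γ,
      AlgEquiv.restrictNormalHom (F := ℚ) (K₁ := Qbar) (fieldL N) τ' = τ ∧
      ∀ x : fieldL N, τ' (x : Qbar) = ((τ x : fieldL N) : Qbar) := by
    intro τ
    obtain ⟨τ', hτ'⟩ := AlgEquiv.restrictNormalHom_surjective (F := ℚ) (K₁ := fieldL N) Qbar τ
    refine ⟨τ', hτ', fun x => ?_⟩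
    rw [← restrictNormalHom_apply_coe (fieldL N) τ' x, hτ']
  -- lifts of elements of `Gal(L/K)` lie in `G_K`
  have hliftK : ∀ (g : fieldL N ≃ₐ[fieldK p] fieldL N) (g' : Γ),
      (∀ x : fieldL N, g' (x : Qbar) = ((g x : fieldL N) : Qbar)) → g' ∈ (chi p).ker := by
    intro g g' hg'
    rw [mem_ker_chi_iff p g' (zeta_spec p)]
    have h1 := hg' (algebraMap (fieldK p) (fieldL N) ⟨zeta p, zeta_mem_fieldK p⟩)
    rw [g.commutes, hcoe] at h1
    exact h1
  refine hcore (fieldK p) (fieldL N) hdeg ?_ ?_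
  · -- unramified
    intro P hPp hP g hg
    obtain ⟨τ, -, hτL⟩ := hlift (g.restrictScalars ℚ)
    have hτker : τ ∈ (chi p).ker := hliftK g τ hτL
    have hfix := forall_eq_of_forall_sub_mem hN P hP τ hτker (fun x => by
      refine ⟨g • x - x, hg x, ?_⟩
      rw [hτL]
      rfl)
    ext x
    have h2 := hτL x
    rw [hfix _ x.2] at h2
    exact h2.symm
  · -- twist
    intro ζ hζ τ k hτk g
    obtain ⟨τ', hτ', hτ'L⟩ := hlift τ
    obtain ⟨g', hg', hg'L⟩ := hlift (g.restrictScalars ℚ)
    have hg'ker : g' ∈ (chi p).ker := hliftK g g' hg'L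
    have h1 := hN.twist τ' g' hg'ker
    rw [← fixingSubgroup_fieldL hN, ← ker_restrictNormalHom, MonoidHom.mem_ker, map_mul, map_mul,
      map_mul, map_inv, map_inv, map_pow, hτ', hg', mul_inv_eq_one] at h1
    rw [h1, restrictScalars_pow]
    -- compare the exponents
    set ζQ : Qbar := ((algebraMap (fieldK p) (fieldL N) ζ : fieldL N) : Qbar) with hζQ
    have hζQprim : IsPrimitiveRoot ζQ p := by
      have h2 : IsPrimitiveRoot (algebraMap (fieldK p) (fieldL N) ζ) p :=
        hζ.map_of_injective (algebraMap (fieldK p) (fieldL N)).injective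
      exact h2.map_of_injective (algebraMap (fieldL N) Qbar).injective
    have h3 : ζQ ^ cycloExp p τ' = ζQ ^ k := by
      rw [← apply_of_pow_eq_one p τ' hζQprim.pow_eq_one, hζQ, hτ'L, hτk]
      rfl
    have hmod : cycloExp p τ' ≡ k [MOD p] := by
      have hmodpow : ∀ n : ℕ, ζQ ^ (n % p) = ζQ ^ n := by
        intro n
        conv_rhs => rw [← Nat.mod_add_div n p]
        rw [pow_add, pow_mul, hζQprim.pow_eq_one, one_pow, mul_one]
      have h4 : ζQ ^ (cycloExp p τ' % p) = ζQ ^ (k % p) := by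
        rw [hmodpow, hmodpow]
        exact h3
      exact hζQprim.pow_inj (Nat.mod_lt _ hp.pos) (Nat.mod_lt _ hp.pos) h4
    have hord : orderOf (g.restrictScalars ℚ) ∣ p := by
      have h5 : (g.restrictScalars ℚ) ^ p = 1 := by
        rw [← restrictScalars_pow]
        have h6 : g ^ p = 1 := by
          have h7 := pow_card_eq_one' (G := fieldL N ≃ₐ[fieldK p] fieldL N) (x := g)
          rwa [IsGalois.card_aut_eq_finrank, hdeg] at h7
        rw [h6]
        rfl
      exact orderOf_dvd_of_pow_eq_one h5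
    exact pow_eq_pow_iff_modEq.mpr (hmod.of_dvd hord)

end twist

/-- **Block G0**: the number-theoretic core implies S14. -/
theorem extVanishingCts_of_cftCore {p : ℕ} [Fact p.Prime] (hcore : CFTCore p) :
    ExtCitation.ExtVanishingCts p := by
  intro V _ _ _ _ C hadm
  by_contra hns
  exact false_of_isTwistSubgroup hcore (isTwistSubgroup_actKer hadm hns)

end Fermat.Agent.S14.ToField
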