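/-
S14: final wiring.  `ExtVanishingCts p` (the frozen S14 statement) from the two remaining
number-theoretic inputs for the extensions `L/K` of G0, stated in the `Defs.lean` vocabulary:
* (D) crossing:  `artin a = 1 → [a] ∈ normClassSubgroup K L`,
* (A) first inequality:  `p ≤ [Cl(K) : normClassSubgroup K L]`.
Chain: ToField (G0) ⇐ Endgame (G8a: StickEnd + NonSplit + twist) ⇐ Reciprocity (REC) ⇐ (D) + (A).
-/
import Fermat.Agent.S14.ToField
import Fermat.Agent.S14.Endgame
import Fermat.Agent.S14.Reciprocity
import Fermat.Agent.S14.ArtinBridge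

set_option autoImplicit false

open NumberField
open scoped Pointwise nonZeroDivisors

namespace Fermat.Agent.S14.Wiring

open Fermat.Agent.S14

/-- `Endgame.Core` is literally `ToField.CFTCore`. -/
theorem core_iff_cftCore (p : ℕ) [Fact p.Prime] : Endgame.Core p ↔ ToField.CFTCore p := Iff.rfl

/-- The crossing statement (block D) for the extensions `L/K` produced by G0. -/
def CrossingD (p : ℕ) [Fact p.Prime] : Prop :=
  ∀ (K L : Type) [Field K] [Field L] [NumberField K] [NumberField L] [Algebra K L]
    [IsCyclotomicExtension {p} ℚ K] [IsGalois K L] [IsGalois ℚ L] [IsMulCommutative Gal(L/K)],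
    Endgame.Hyps p K L → ∀ a : (Ideal (𝓞 K))⁰, ArtinMap.artin K L (a : Ideal (𝓞 K)) = 1 →
      ClassGroup.mk0 a ∈ normClassSubgroup K L

/-- The first inequality (block A) for the extensions `L/K` produced by G0. -/
def FirstIneqA (p : ℕ) [Fact p.Prime] : Prop :=
  ∀ (K L : Type) [Field K] [Field L] [NumberField K] [NumberField L] [Algebra K L]
    [IsCyclotomicExtension {p} ℚ K] [IsGalois K L] [IsGalois ℚ L],
    Endgame.Hyps p K L → p ≤ (normClassSubgroup K L).index

theorem reciprocity_of_D_A {p : ℕ} [Fact p.Prime] (hD : CrossingD p) (hA : FirstIneqA p) :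
    Endgame.Reciprocity p := by
  intro K L _ _ _ _ _ _ _ _ _ hyp I hI hprinc
  exact Reciprocity.map_eq_one_of_isPrincipal (p := p) hyp.finrank_eq
    ArtinBridge.isArtinMap_artin (hD K L hyp) (hA K L hyp) I hI hprinc

/-- **S14 from (D) and (A).** -/
theorem extVanishingCts_of_D_A {p : ℕ} [Fact p.Prime] (h3 : 3 ≤ p) (hD : CrossingD p)
    (hA : FirstIneqA p) : ExtCitation.ExtVanishingCts p :=
  ToField.extVanishingCts_of_cftCore
    ((core_iff_cftCore p).mp (Endgame.core_of_reciprocity h3 (reciprocity_of_D_A hD hA)))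

end Fermat.Agent.S14.Wiring
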