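import Mathlib
import Fermat.Agent.S14.Defs
import Fermat.Agent.S14.ArtinSplit
import Fermat.Agent.S14.ArtinBridge
import Fermat.Agent.S14.TotallyComplex
import Fermat.Agent.S14.CrossSelect
import Fermat.Agent.S14.CrossingAbs
import Fermat.Agent.S14.CrossCyclo
import Fermat.Agent.S14.Wiring

/-!
# S14 block (D): the crossing theorem

For `K ⊇ ℚ(ζ_p)` (`p ≥ 3`), `L/K` Galois of degree `p`, unramified everywhere, and any Artin map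
`φ` of `L/K`: `φ a = 1 → [a] ∈ normClassSubgroup K L`.  In particular `Wiring.CrossingD p`.
-/

set_option autoImplicit false
set_option linter.unusedSectionVars false
set_option linter.style.haveILetI false

open NumberField
open scoped nonZeroDivisors

namespace Fermat.Agent.S14.CrossFinish

open Fermat.Agent.S14

variable {p : ℕ} [hp : Fact p.Prime]
  {K L : Type*} [Field K] [Field L] [NumberField K] [NumberField L] [Algebra K L] [IsGalois K L]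

/-- The pair statement: two inert primes are comparable through a common ideal. -/
theorem exists_auxOK_pair (h3 : 3 ≤ p) [IsCyclotomicExtension {p} ℚ K]
    (hdeg : Module.finrank K L = p)
    {φ : Ideal (𝓞 K) → (L ≃ₐ[K] L)} (hφ : IsArtinMap K L φ) (hunr : UnramifiedEverywhere K L)
    (𝔭₁ 𝔭₂ : (Ideal (𝓞 K))⁰) (h𝔭₁ : (𝔭₁ : Ideal (𝓞 K)).IsPrime)
    (h𝔭₂ : (𝔭₂ : Ideal (𝓞 K)).IsPrime)
    (hφ₁ : φ (𝔭₁ : Ideal (𝓞 K)) ≠ 1) (hφ₂ : φ (𝔭₂ : Ideal (𝓞 K)) ≠ 1) :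
    ∃ 𝔟 : (Ideal (𝓞 K))⁰, φ (𝔟 : Ideal (𝓞 K)) ≠ 1 ∧
      CrossingAbs.AuxOK φ 𝔭₁ 𝔟 ∧ CrossingAbs.AuxOK φ 𝔭₂ 𝔟 := by
  have hp2 : p ≠ 2 := by omega
  set q₁ := Ideal.absNorm (𝔭₁ : Ideal (𝓞 K)) with hq₁
  set q₂ := Ideal.absNorm (𝔭₂ : Ideal (𝓞 K)) with hq₂
  have h2q₁ : 2 ≤ q₁ := ArtinSplit.one_lt_absNorm_of_prime (hq := h𝔭₁) (AuxRec.coe_ne_bot 𝔭₁)
  have h2q₂ : 2 ≤ q₂ := ArtinSplit.one_lt_absNorm_of_prime (hq := h𝔭₂) (AuxRec.coe_ne_bot 𝔭₂)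
  set D := (NumberField.discr L).natAbs with hD
  have hD0 : D ≠ 0 := Int.natAbs_ne_zero.mpr (NumberField.discr_ne_zero L)
  set B := q₁ * q₂ * D with hB
  have hB0 : B ≠ 0 := Nat.mul_ne_zero (Nat.mul_ne_zero (by omega) (by omega)) hD0
  obtain ⟨ℓ₁, ℓ₁', ℓ₂, ℓ₂', hℓ₁, hℓ₁', hℓ₂, hℓ₂', hB₁, h12, h23, h34, ho₁, ho₁', ho₂, ho₂'⟩ :=
    CrossSelect.exists_four_primes h2q₁ h2q₂ hp.out hp2 B
  have hBm : Nat.Coprime (ℓ₁ * ℓ₁' * (ℓ₂ * ℓ₂')) B :=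
    CrossSelect.coprime_mul_four_of_lt hℓ₁ hℓ₁' hℓ₂ hℓ₂' hB0 hB₁ (by omega) (by omega) (by omega)
  have hdisc : Nat.Coprime (ℓ₁ * ℓ₁' * (ℓ₂ * ℓ₂')) D := Nat.Coprime.coprime_mul_left_right hBm
  have hcq : Nat.Coprime (ℓ₁ * ℓ₁' * (ℓ₂ * ℓ₂')) (q₁ * q₂) :=
    Nat.Coprime.coprime_mul_right_right hBm
  have hcq₁ : q₁.Coprime (ℓ₁ * ℓ₁' * (ℓ₂ * ℓ₂')) :=
    (Nat.Coprime.coprime_mul_right_right hcq).symm
  have hcq₂ : q₂.Coprime (ℓ₁ * ℓ₁' * (ℓ₂ * ℓ₂')) :=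
    (Nat.Coprime.coprime_mul_left_right hcq).symm
  have hne₁ : ℓ₁ ≠ ℓ₁' := by omega
  have hne₂ : ℓ₂ ≠ ℓ₂' := by omega
  have hcop : Nat.Coprime (ℓ₁ * ℓ₁') (ℓ₂ * ℓ₂') := by
    have c11 : Nat.Coprime ℓ₁ ℓ₂ := (Nat.coprime_primes hℓ₁ hℓ₂).mpr (by omega)
    have c12 : Nat.Coprime ℓ₁ ℓ₂' := (Nat.coprime_primes hℓ₁ hℓ₂').mpr (by omega)
    have c21 : Nat.Coprime ℓ₁' ℓ₂ := (Nat.coprime_primes hℓ₁' hℓ₂).mpr (by omega)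
    have c22 : Nat.Coprime ℓ₁' ℓ₂' := (Nat.coprime_primes hℓ₁' hℓ₂').mpr (by omega)
    exact Nat.Coprime.mul_left (Nat.Coprime.mul_right c11 c12) (Nat.Coprime.mul_right c21 c22)
  -- the top field
  let Ω := CyclotomicField (ℓ₁ * ℓ₁' * (ℓ₂ * ℓ₂')) L
  have hTC : ∀ E : IntermediateField K Ω, IsTotallyComplex E := fun E =>
    TotallyComplex.isTotallyComplex_of_isCyclotomicExtension h3 K E
  exact CrossCyclo.exists_auxOK_pair_cyclotomic (Ω := Ω) hdeg hφ hunr hTC hℓ₁ hℓ₁' hℓ₂ hℓ₂' hne₁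
    hne₂ hcop hdisc 𝔭₁ 𝔭₂ h𝔭₁ h𝔭₂ hφ₁ hφ₂ hcq₁ hcq₂ ho₁ ho₁' ho₂ ho₂'

/-- **Block (D)**: the kernel of the Artin map of `L/K` consists of norm classes. -/
theorem mk0_mem_normClassSubgroup_of_map_eq_one (h3 : 3 ≤ p) [IsCyclotomicExtension {p} ℚ K]
    (hdeg : Module.finrank K L = p)
    {φ : Ideal (𝓞 K) → (L ≃ₐ[K] L)} (hφ : IsArtinMap K L φ) (hunr : UnramifiedEverywhere K L)
    (a : (Ideal (𝓞 K))⁰) (h1 : φ (a : Ideal (𝓞 K)) = 1) :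
    ClassGroup.mk0 a ∈ normClassSubgroup K L :=
  CrossingAbs.crossing hdeg hφ hunr
    (fun 𝔭₁ 𝔭₂ h𝔭₁ h𝔭₂ hφ₁ hφ₂ => exists_auxOK_pair h3 hdeg hφ hunr 𝔭₁ 𝔭₂ h𝔭₁ h𝔭₂ hφ₁ hφ₂) a h1

/-- **`Wiring.CrossingD p`** for every odd prime `p`. -/
theorem crossingD (h3 : 3 ≤ p) : Wiring.CrossingD p := by
  intro K L _ _ _ _ _ _ _ _ _ hyp a ha
  exact mk0_mem_normClassSubgroup_of_map_eq_one h3 hyp.finrank_eq ArtinBridge.isArtinMap_artin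
    hyp.inertia_trivial a ha

end Fermat.Agent.S14.CrossFinish
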