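/-
S14 block (N1) (helper7, board #488): divisors of a Dedekind domain.

`R` a Dedekind domain, `K` its fraction field.  The group of invertible fractional ideals is the
free abelian group on the height one spectrum: `divEquiv`.  We provide
* `divF : Additive (FractionalIdeal R⁰ K)ˣ →+ (HeightOneSpectrum R →₀ ℤ)`, `divEquiv`;
* `divK : Additive Kˣ →+ (HeightOneSpectrum R →₀ ℤ)`, `divK x v = -log (v.valuation K x)`;
* `divI : Ideal R → (HeightOneSpectrum R →₀ ℤ)` (multiplicities; `0` at `⊥`);
* `cls : (HeightOneSpectrum R →₀ ℤ) →+ Additive (ClassGroup R)`, surjective, with kernel the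
  range of `divK`; the kernel of `divK` is the image of `Rˣ`.
Mathlib only.
-/
import Mathlib

set_option autoImplicit false

open scoped nonZeroDivisors
open IsDedekindDomain FractionalIdeal

namespace Fermat.Agent.S14.DivClass

variable (R : Type*) [CommRing R] [IsDedekindDomain R] (K : Type*) [Field K] [Algebra R K]
  [IsFractionRing R K]

/-- The divisor of an invertible fractional ideal. -/
noncomputable def divF : Additive (FractionalIdeal R⁰ K)ˣ →+ (HeightOneSpectrum R →₀ ℤ) where
  toFun I := Finsupp.ofSupportFinite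
    (fun v => count K v ((Additive.toMul I : (FractionalIdeal R⁰ K)ˣ) : FractionalIdeal R⁰ K))
    (by
      have h := finite_factors (K := K)
        ((Additive.toMul I : (FractionalIdeal R⁰ K)ˣ) : FractionalIdeal R⁰ K)
      exact h)
  map_zero' := by
    ext v
    simp [Finsupp.ofSupportFinite_coe, count_one]
  map_add' I J := by
    ext v
    simp only [Finsupp.ofSupportFinite_coe, Finsupp.coe_add, Pi.add_apply, toMul_add,
      Units.val_mul]
    exact count_mul K v (Units.ne_zero _) (Units.ne_zero _)

variable {R K}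

@[simp] lemma divF_apply (I : Additive (FractionalIdeal R⁰ K)ˣ) (v : HeightOneSpectrum R) :
    divF R K I v = count K v ((Additive.toMul I : (FractionalIdeal R⁰ K)ˣ) : FractionalIdeal R⁰ K) :=
  rfl


variable (R K)

/-- The prime `v` as an invertible fractional ideal. -/
noncomputable def primeUnit (v : HeightOneSpectrum R) : (FractionalIdeal R⁰ K)ˣ :=
  Units.mk0 (v.asIdeal : FractionalIdeal R⁰ K) (coeIdeal_ne_zero.mpr v.ne_bot)

@[simp] lemma coe_primeUnit (v : HeightOneSpectrum R) :
    ((primeUnit R K v : (FractionalIdeal R⁰ K)ˣ) : FractionalIdeal R⁰ K) = v.asIdeal := rfl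

/-- The invertible fractional ideal `∏ v ^ D v` attached to a divisor `D`. -/
noncomputable def idealOfDiv : (HeightOneSpectrum R →₀ ℤ) →+ Additive (FractionalIdeal R⁰ K)ˣ :=
  Finsupp.liftAddHom (fun v => (zmultiplesAddHom _ (Additive.ofMul (primeUnit R K v))))

variable {R K}

lemma idealOfDiv_single (v : HeightOneSpectrum R) (n : ℤ) :
    idealOfDiv R K (Finsupp.single v n) = Additive.ofMul ((primeUnit R K v) ^ n) := by
  simp [idealOfDiv]

lemma coe_idealOfDiv (D : HeightOneSpectrum R →₀ ℤ) :
    ((Additive.toMul (idealOfDiv R K D) : (FractionalIdeal R⁰ K)ˣ) : FractionalIdeal R⁰ K) =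
      D.prod (fun v n => (v.asIdeal : FractionalIdeal R⁰ K) ^ n) := by
  induction D using Finsupp.induction_linear with
  | zero => simp
  | add D E hD hE =>
    rw [map_add, toMul_add, Units.val_mul, hD, hE, Finsupp.prod_add_index']
    · intro v; simp
    · intro v m n; exact zpow_add₀ (coeIdeal_ne_zero.mpr v.ne_bot) m n
  | single v n =>
    rw [idealOfDiv_single, toMul_ofMul, Units.val_zpow_eq_zpow_val, coe_primeUnit,
      Finsupp.prod_single_index (by simp)]

lemma divF_idealOfDiv (D : HeightOneSpectrum R →₀ ℤ) : divF R K (idealOfDiv R K D) = D := by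
  ext v
  rw [divF_apply, coe_idealOfDiv]
  exact count_finsuppProd K v D

lemma divF_injective : Function.Injective (divF R K) := by
  rw [injective_iff_map_eq_zero]
  intro I hI
  have h1 := finprod_heightOneSpectrum_factorization' (K := K)
    (I := ((Additive.toMul I : (FractionalIdeal R⁰ K)ˣ) : FractionalIdeal R⁰ K)) (Units.ne_zero _)
  have h2 : ∀ v : HeightOneSpectrum R,
      count K v ((Additive.toMul I : (FractionalIdeal R⁰ K)ˣ) : FractionalIdeal R⁰ K) = 0 := by
    intro v
    have := DFunLike.congr_fun hI v
    simpa using this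
  simp only [h2, zpow_zero, finprod_one] at h1
  apply Additive.toMul.injective
  apply Units.ext
  simpa using h1.symm

variable (R K)

/-- The group of invertible fractional ideals is free abelian on the height one spectrum. -/
noncomputable def divEquiv : Additive (FractionalIdeal R⁰ K)ˣ ≃+ (HeightOneSpectrum R →₀ ℤ) :=
  AddEquiv.ofBijective (divF R K)
    ⟨divF_injective, fun D => ⟨idealOfDiv R K D, divF_idealOfDiv D⟩⟩

variable {R K}

@[simp] lemma divEquiv_apply (I : Additive (FractionalIdeal R⁰ K)ˣ) :
    divEquiv R K I = divF R K I := rfl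

@[simp] lemma divEquiv_symm_apply (D : HeightOneSpectrum R →₀ ℤ) :
    (divEquiv R K).symm D = idealOfDiv R K D := by
  apply (divEquiv R K).injective
  rw [AddEquiv.apply_symm_apply, divEquiv_apply, divF_idealOfDiv]

lemma idealOfDiv_divF (I : Additive (FractionalIdeal R⁰ K)ˣ) : idealOfDiv R K (divF R K I) = I := by
  rw [← divEquiv_symm_apply, ← divEquiv_apply, AddEquiv.symm_apply_apply]


/-! ### Divisors of elements -/

variable (R K)

/-- The divisor of a nonzero element of `K`. -/
noncomputable def divK : Additive Kˣ →+ (HeightOneSpectrum R →₀ ℤ) :=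
  (divF R K).comp (toPrincipalIdeal R K).toAdditive

variable {R K}

lemma divK_apply_count (x : Additive Kˣ) (v : HeightOneSpectrum R) :
    divK R K x v = count K v (spanSingleton R⁰ ((Additive.toMul x : Kˣ) : K)) := by
  simp [divK]

/-- `count` of a principal fractional ideal in terms of the adic valuation. -/
lemma count_spanSingleton (v : HeightOneSpectrum R) {x : K} (hx : x ≠ 0) :
    count K v (spanSingleton R⁰ x) = -(WithZero.log (v.valuation K x)) := by
  obtain ⟨⟨n, d, hd⟩, hxnd⟩ := IsLocalization.surj (nonZeroDivisors R) x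
  have hd0 : d ≠ 0 := nonZeroDivisors.ne_zero hd
  have hdK : algebraMap R K d ≠ 0 := by
    simpa using (IsFractionRing.to_map_eq_zero_iff (K := K)).not.mpr hd0
  have hn0 : n ≠ 0 := by
    rintro rfl
    simp only [map_zero, mul_eq_zero] at hxnd
    rcases hxnd with h | h
    · exact hx h
    · exact hdK h
  have hxeq : x = (algebraMap R K d)⁻¹ * algebraMap R K n := by
    field_simp
    simpa [mul_comm] using hxnd
  have hspan : spanSingleton R⁰ x =
      spanSingleton R⁰ (algebraMap R K d)⁻¹ * ((Ideal.span {n} : Ideal R) : FractionalIdeal R⁰ K) := by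
    rw [coeIdeal_span_singleton, spanSingleton_mul_spanSingleton, ← hxeq]
  have hne : spanSingleton R⁰ x ≠ 0 := by
    rw [ne_eq, spanSingleton_eq_zero_iff]; exact hx
  rw [count_well_defined K v hne hspan]
  have hval : v.valuation K x = v.valuation K (algebraMap R K n) / v.valuation K (algebraMap R K d) := by
    rw [hxeq, map_mul, map_inv₀, div_eq_inv_mul]
  rw [hval, v.valuation_of_algebraMap, v.valuation_of_algebraMap,
    WithZero.log_div (v.intValuation_ne_zero n hn0) (v.intValuation_ne_zero d hd0),
    v.intValuation_if_neg hn0, v.intValuation_if_neg hd0, WithZero.log_exp, WithZero.log_exp]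
  ring

lemma divK_apply (x : Additive Kˣ) (v : HeightOneSpectrum R) :
    divK R K x v = -(WithZero.log (v.valuation K ((Additive.toMul x : Kˣ) : K))) := by
  rw [divK_apply_count, count_spanSingleton v (Units.ne_zero _)]


/-! ### Divisors of integral ideals -/

variable (R) in
/-- The divisor (multiplicities of the primes) of an integral ideal; `0` for the zero ideal. -/
noncomputable def divI (I : Ideal R) : HeightOneSpectrum R →₀ ℤ :=
  Finsupp.ofSupportFinite
    (fun v => count (FractionRing R) v (I : FractionalIdeal R⁰ (FractionRing R)))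
    (finite_factors (K := FractionRing R) (I : FractionalIdeal R⁰ (FractionRing R)))

lemma divI_apply' (I : Ideal R) (v : HeightOneSpectrum R) :
    divI R I v = count (FractionRing R) v (I : FractionalIdeal R⁰ (FractionRing R)) := rfl

/-- `count` of an integral ideal does not depend on the fraction field. -/
lemma count_coeIdeal_eq (K' : Type*) [Field K'] [Algebra R K'] [IsFractionRing R K']
    (I : Ideal R) (v : HeightOneSpectrum R) :
    count K v (I : FractionalIdeal R⁰ K) = count K' v (I : FractionalIdeal R⁰ K') := by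
  by_cases hI : I = 0
  · subst hI
    simp [count_zero]
  · rw [count_coe K v hI, count_coe K' v hI]

variable (K) in
lemma divI_apply (I : Ideal R) (v : HeightOneSpectrum R) :
    divI R I v = count K v (I : FractionalIdeal R⁰ K) := by
  rw [divI_apply']
  exact count_coeIdeal_eq _ I v

lemma divI_nonneg (I : Ideal R) (v : HeightOneSpectrum R) : 0 ≤ divI R I v :=
  count_coe_nonneg _ v I

@[simp] lemma divI_bot : divI R (⊥ : Ideal R) = 0 := by
  ext v
  rw [divI_apply']
  simp [count_zero]

@[simp] lemma divI_top : divI R (⊤ : Ideal R) = 0 := by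
  ext v
  rw [divI_apply']
  simp [count_one]

@[simp] lemma divI_one : divI R (1 : Ideal R) = 0 := by
  rw [Ideal.one_eq_top, divI_top]

lemma divI_mul {I J : Ideal R} (hI : I ≠ ⊥) (hJ : J ≠ ⊥) :
    divI R (I * J) = divI R I + divI R J := by
  ext v
  rw [Finsupp.add_apply, divI_apply', divI_apply', divI_apply', coeIdeal_mul]
  exact count_mul _ v (coeIdeal_ne_zero.mpr hI) (coeIdeal_ne_zero.mpr hJ)

lemma divI_pow (I : Ideal R) (n : ℕ) : divI R (I ^ n) = n • divI R I := by
  ext v
  rw [Finsupp.smul_apply, divI_apply', divI_apply', coeIdeal_pow, count_pow]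
  simp

lemma divI_prime (v : HeightOneSpectrum R) : divI R v.asIdeal = Finsupp.single v 1 := by
  classical
  ext w
  rw [divI_apply', Finsupp.single_apply, count_maximal]

/-- The divisor of an invertible fractional ideal coming from an integral ideal. -/
lemma divF_mk0 (I : (Ideal R)⁰) :
    divF R K (Additive.ofMul (FractionalIdeal.mk0 K I)) = divI R (I : Ideal R) := by
  ext v
  rw [divF_apply, toMul_ofMul, FractionalIdeal.coe_mk0, divI_apply K]

lemma divI_span_singleton {r : R} (hr : r ≠ 0) :
    divI R (Ideal.span {r}) =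
      divK R K (Additive.ofMul (Units.mk0 (algebraMap R K r)
        (by simpa using (IsFractionRing.to_map_eq_zero_iff (K := K)).not.mpr hr))) := by
  ext v
  rw [divI_apply K, divK_apply_count, coeIdeal_span_singleton]
  rfl

/-- An ideal is determined by its divisor. -/
lemma divI_injective {I J : Ideal R} (hI : I ≠ ⊥) (hJ : J ≠ ⊥) (h : divI R I = divI R J) :
    I = J := by
  have hI' : (I : FractionalIdeal R⁰ (FractionRing R)) ≠ 0 := coeIdeal_ne_zero.mpr hI
  have hJ' : (J : FractionalIdeal R⁰ (FractionRing R)) ≠ 0 := coeIdeal_ne_zero.mpr hJ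
  have h1 := finprod_heightOneSpectrum_factorization' (K := FractionRing R) hI'
  have h2 := finprod_heightOneSpectrum_factorization' (K := FractionRing R) hJ'
  have h3 : ∀ v : HeightOneSpectrum R,
      count (FractionRing R) v (I : FractionalIdeal R⁰ (FractionRing R)) =
        count (FractionRing R) v (J : FractionalIdeal R⁰ (FractionRing R)) := fun v => by
    rw [← divI_apply', ← divI_apply', h]
  simp only [h3] at h1
  exact coeIdeal_injective (h1.symm.trans h2)

/-- Every effective divisor is the divisor of a nonzero ideal. -/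
lemma exists_divI_eq {D : HeightOneSpectrum R →₀ ℤ} (hD : ∀ v, 0 ≤ D v) :
    ∃ I : Ideal R, I ≠ ⊥ ∧ divI R I = D := by
  classical
  refine ⟨D.prod (fun v n => v.asIdeal ^ n.toNat), ?_, ?_⟩
  · rw [Finsupp.prod, ← Ideal.zero_eq_bot, Finset.prod_ne_zero_iff]
    intro v _
    exact pow_ne_zero _ v.ne_bot
  · ext v
    have hcoe : ((∏ w ∈ D.support, w.asIdeal ^ (D w).toNat : Ideal R) :
        FractionalIdeal R⁰ (FractionRing R)) =
        ∏ w ∈ D.support, ((w.asIdeal ^ (D w).toNat : Ideal R) :
          FractionalIdeal R⁰ (FractionRing R)) :=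
      map_prod (coeIdealHom R⁰ (FractionRing R)) _ _
    rw [divI_apply', Finsupp.prod, hcoe, count_prod]
    · simp only [coeIdeal_pow, count_pow, count_maximal, mul_ite, mul_one, mul_zero,
        Finset.sum_ite_eq', Finsupp.mem_support_iff]
      split_ifs with h
      · exact Int.toNat_of_nonneg (hD v)
      · exact (not_ne_iff.mp h).symm
    · intro w _
      exact coeIdeal_ne_zero.mpr (pow_ne_zero _ w.ne_bot)


/-- `divI` in terms of `normalizedFactors`. -/
lemma divI_apply_eq_count_normalizedFactors [DecidableEq (Ideal R)] {I : Ideal R} (hI : I ≠ ⊥)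
    (v : HeightOneSpectrum R) :
    divI R I v = ((UniqueFactorizationMonoid.normalizedFactors I).count v.asIdeal : ℤ) := by
  rw [divI_apply', count_coe _ v hI, Ideal.count_associates_factors_eq hI v.isPrime v.ne_bot]
  congr 2

/-- `divI` in terms of `multiplicity`. -/
lemma divI_apply_eq_multiplicity {I : Ideal R} (hI : I ≠ ⊥) (v : HeightOneSpectrum R) :
    divI R I v = (multiplicity v.asIdeal I : ℤ) := by
  classical
  rw [divI_apply_eq_count_normalizedFactors hI,
    HeightOneSpectrum.count_normalizedFactors_eq_multiplicity hI v]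

lemma divI_pos_iff {I : Ideal R} (hI : I ≠ ⊥) (v : HeightOneSpectrum R) :
    0 < divI R I v ↔ I ≤ v.asIdeal := by
  classical
  rw [divI_apply_eq_count_normalizedFactors hI, Int.natCast_pos, Multiset.count_pos,
    ← Ideal.dvd_iff_le, Ideal.mem_normalizedFactors_iff hI]
  exact ⟨fun h => Ideal.dvd_iff_le.mpr h.2, fun h => ⟨v.isPrime, Ideal.dvd_iff_le.mp h⟩⟩

/-- Every divisor is a difference of divisors of nonzero integral ideals. -/
lemma exists_divI_sub_divI (D : HeightOneSpectrum R →₀ ℤ) :
    ∃ I J : Ideal R, I ≠ ⊥ ∧ J ≠ ⊥ ∧ D = divI R I - divI R J := by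
  obtain ⟨I, hI, hID⟩ := exists_divI_eq (R := R)
    (D := D.mapRange (fun n => max n 0) (by simp)) (fun v => by simp)
  obtain ⟨J, hJ, hJD⟩ := exists_divI_eq (R := R)
    (D := D.mapRange (fun n => max (-n) 0) (by simp)) (fun v => by simp)
  refine ⟨I, J, hI, hJ, ?_⟩
  ext v
  rw [hID, hJD, Finsupp.sub_apply, Finsupp.mapRange_apply, Finsupp.mapRange_apply]
  exact (max_zero_sub_max_neg_zero_eq_self (D v)).symm

/-! ### The class of a divisor -/

variable (R K) in
/-- The ideal class of a divisor. -/
noncomputable def cls : (HeightOneSpectrum R →₀ ℤ) →+ Additive (ClassGroup R) :=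
  (ClassGroup.mk K).toAdditive.comp (idealOfDiv R K)

lemma cls_apply (D : HeightOneSpectrum R →₀ ℤ) :
    cls R K D = Additive.ofMul (ClassGroup.mk K (Additive.toMul (idealOfDiv R K D))) := rfl

/-- The class of the divisor of an invertible fractional ideal. -/
lemma cls_divF (I : (FractionalIdeal R⁰ K)ˣ) :
    cls R K (divF R K (Additive.ofMul I)) = Additive.ofMul (ClassGroup.mk K I) := by
  rw [cls_apply, idealOfDiv_divF, toMul_ofMul]

/-- The class of the divisor of a nonzero integral ideal. -/
lemma cls_divI (I : (Ideal R)⁰) :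
    cls R K (divI R (I : Ideal R)) = Additive.ofMul (ClassGroup.mk0 I) := by
  rw [← divF_mk0 (K := K), cls_divF, ClassGroup.mk_mk0]

lemma cls_divI' {I : Ideal R} (hI : I ≠ ⊥) :
    cls R K (divI R I) =
      Additive.ofMul (ClassGroup.mk0 ⟨I, mem_nonZeroDivisors_iff_ne_zero.mpr hI⟩) :=
  cls_divI (K := K) ⟨I, mem_nonZeroDivisors_iff_ne_zero.mpr hI⟩

variable (R K) in
lemma cls_surjective : Function.Surjective (cls R K) := by
  intro c
  obtain ⟨I, hI⟩ := ClassGroup.mk0_surjective (Additive.toMul c)
  exact ⟨divI R (I : Ideal R), by rw [cls_divI, hI]; rfl⟩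

/-- Principal divisors have trivial class. -/
lemma cls_divK (x : Additive Kˣ) : cls R K (divK R K x) = 0 := by
  have h : divK R K x = divF R K (Additive.ofMul (toPrincipalIdeal R K (Additive.toMul x))) := rfl
  rw [h, cls_divF]
  have : ClassGroup.mk K (toPrincipalIdeal R K (Additive.toMul x)) = 1 := by
    rw [ClassGroup.mk_eq_one_iff]
    refine ⟨⟨((Additive.toMul x : Kˣ) : K), ?_⟩⟩
    rw [coe_toPrincipalIdeal, coe_spanSingleton]
  rw [this]
  rfl

variable (R K) in
/-- The kernel of the class map is the group of principal divisors. -/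
lemma ker_cls : (cls R K).ker = (divK R K).range := by
  ext D
  constructor
  · intro hD
    rw [AddMonoidHom.mem_ker, cls_apply] at hD
    have h1 : ClassGroup.mk K (Additive.toMul (idealOfDiv R K D)) = 1 := by
      have := congrArg Additive.toMul hD
      simpa using this
    rw [ClassGroup.mk_eq_one_iff] at h1
    obtain ⟨x, hx⟩ := h1.principal
    have hx' : ((Additive.toMul (idealOfDiv R K D) : (FractionalIdeal R⁰ K)ˣ) :
        FractionalIdeal R⁰ K) = spanSingleton R⁰ x := by
      apply Subtype.coe_injective
      simp only [val_eq_coe, hx, coe_spanSingleton]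
    have hx0 : x ≠ 0 := by
      rintro rfl
      rw [spanSingleton_zero] at hx'
      exact Units.ne_zero _ hx'
    refine ⟨Additive.ofMul (Units.mk0 x hx0), ?_⟩
    have h2 : toPrincipalIdeal R K (Units.mk0 x hx0) = Additive.toMul (idealOfDiv R K D) := by
      rw [toPrincipalIdeal_eq_iff]
      exact hx'.symm
    change divF R K (Additive.ofMul (toPrincipalIdeal R K (Units.mk0 x hx0))) = D
    rw [h2, ofMul_toMul, divF_idealOfDiv]
  · rintro ⟨x, rfl⟩
    exact cls_divK x

/-- The kernel of `divK` is the image of the units of `R`. -/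
lemma mem_ker_divK_iff (x : Additive Kˣ) :
    x ∈ (divK R K).ker ↔ ∃ u : Rˣ, algebraMap R K (u : R) = ((Additive.toMul x : Kˣ) : K) := by
  constructor
  · intro hx
    rw [AddMonoidHom.mem_ker] at hx
    have hv : ∀ v : HeightOneSpectrum R, v.valuation K ((Additive.toMul x : Kˣ) : K) = 1 := by
      intro v
      have h := DFunLike.congr_fun hx v
      rw [divK_apply, Finsupp.zero_apply, neg_eq_zero] at h
      have hne : v.valuation K ((Additive.toMul x : Kˣ) : K) ≠ 0 :=
        (Valuation.ne_zero_iff _).mpr (Units.ne_zero _)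
      rw [← WithZero.exp_log hne, h, WithZero.exp_zero]
    have hvinv : ∀ v : HeightOneSpectrum R,
        v.valuation K (((Additive.toMul x : Kˣ)⁻¹ : Kˣ) : K) = 1 := by
      intro v
      rw [Units.val_inv_eq_inv_val, map_inv₀, hv v, inv_one]
    obtain ⟨a, ha⟩ := HeightOneSpectrum.mem_integers_of_valuation_le_one K _
      (fun v => (hv v).le)
    obtain ⟨b, hb⟩ := HeightOneSpectrum.mem_integers_of_valuation_le_one K _
      (fun v => (hvinv v).le)
    have hab : a * b = 1 := by
      apply IsFractionRing.injective R K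
      rw [map_mul, map_one, ha, hb, Units.mul_inv]
    have hba : b * a = 1 := by rw [mul_comm]; exact hab
    exact ⟨⟨a, b, hab, hba⟩, ha⟩
  · rintro ⟨u, hu⟩
    rw [AddMonoidHom.mem_ker]
    ext v
    rw [divK_apply, Finsupp.zero_apply, neg_eq_zero, ← hu, v.valuation_of_algebraMap]
    have : v.intValuation (u : R) = 1 := by
      rw [HeightOneSpectrum.intValuation_eq_one_iff_mem_primeCompl]
      intro h
      exact v.isPrime.ne_top (Ideal.eq_top_of_isUnit_mem _ h u.isUnit)
    rw [this, WithZero.log_one]

variable (R K) in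
lemma ker_divK :
    (divK R K).ker = (Units.map (algebraMap R K : R →* K)).toAdditive.range := by
  ext x
  rw [mem_ker_divK_iff]
  constructor
  · rintro ⟨u, hu⟩
    refine ⟨Additive.ofMul u, ?_⟩
    apply Additive.toMul.injective
    apply Units.ext
    simpa using hu
  · rintro ⟨u, rfl⟩
    exact ⟨Additive.toMul u, rfl⟩

end Fermat.Agent.S14.DivClass
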