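import Mathlib

set_option autoImplicit false

/-!
# S14 / Herbrand quotients (Artin–Tate form), by pure index calculus

For an additive commutative group `M` with two endomorphisms `f g` such that `f ∘ g = 0 = g ∘ f`:
`hIdx f g := [ker f : im g]` (a natural number, `0` if infinite) and the Herbrand quotient
`q f g := hIdx f g / hIdx g f`.

Everything is proved by decomposing the three indices attached to a stable subgroup `A ≤ M`
(`hIdx` of `M`, of `A`, of `M ⧸ A`) into six common factors; no quotient groups or connecting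
homomorphisms are needed.

* `hIdx_eq`, `hSub_eq`, `hQuot_eq`: the six-factor decomposition;
* `hIdx_mul_mul`: multiplicativity `h_f(M) h_g(A) h_g(M/A) = h_g(M) h_f(A) h_f(M/A)`;
* `hIdx_sub`, `hIdx_quot`: the bridges to honest sub- and quotient groups;
* `hIdx_comm_of_finite`: `M` finite ⇒ `hIdx f g = hIdx g f`;
* `herbrand_exact`: the statement for a short exact sequence `0 → M' → M → M'' → 0`.
-/

namespace Fermat.Agent.S14.Herbrand

open AddSubgroup

section Core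

variable {M : Type*} [AddCommGroup M]

/-- `[ker f : im g]` (`0` if infinite). -/
noncomputable def hIdx (f g : M →+ M) : ℕ := g.range.relIndex f.ker

/-- `[A ∩ ker f : g A]`. -/
noncomputable def hSub (f g : M →+ M) (A : AddSubgroup M) : ℕ := (A.map g).relIndex (A ⊓ f.ker)

/-- `[f⁻¹ A : g M + A]`. -/
noncomputable def hQuot (f g : M →+ M) (A : AddSubgroup M) : ℕ :=
  (g.range ⊔ A).relIndex (A.comap f)

/-- `[ker f : g M + (A ∩ ker f)]`. -/
noncomputable def F1 (f g : M →+ M) (A : AddSubgroup M) : ℕ :=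
  (g.range ⊔ (A ⊓ f.ker)).relIndex f.ker

/-- `[A ∩ ker f : A ∩ g M]`. -/
noncomputable def F2 (f g : M →+ M) (A : AddSubgroup M) : ℕ :=
  (A ⊓ g.range).relIndex (A ⊓ f.ker)

/-- `[A ∩ g M : g A]`. -/
noncomputable def F3 (g : M →+ M) (A : AddSubgroup M) : ℕ :=
  (A.map g).relIndex (A ⊓ g.range)

variable {f g : M →+ M}

lemma range_le_ker (hfg : ∀ x, f (g x) = 0) : g.range ≤ f.ker := by
  rintro _ ⟨x, rfl⟩
  exact hfg x

theorem hIdx_eq (hfg : ∀ x, f (g x) = 0) (A : AddSubgroup M) :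
    hIdx f g = F2 f g A * F1 f g A := by
  have h1 : g.range ≤ f.ker := range_le_ker hfg
  have h2 : g.range ≤ g.range ⊔ (A ⊓ f.ker) := le_sup_left
  have h3 : g.range ⊔ (A ⊓ f.ker) ≤ f.ker := sup_le h1 inf_le_right
  rw [hIdx, ← relIndex_mul_relIndex _ _ _ h2 h3, F1, F2, relIndex_sup_left,
    ← inf_relIndex_right g.range (A ⊓ f.ker)]
  congr 2
  rw [inf_comm, inf_assoc, inf_eq_right.mpr h1]

theorem hSub_eq (hfg : ∀ x, f (g x) = 0) {A : AddSubgroup M} (hAg : A.map g ≤ A) :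
    hSub f g A = F3 g A * F2 f g A := by
  have h1 : g.range ≤ f.ker := range_le_ker hfg
  have h2 : A.map g ≤ A ⊓ g.range := le_inf hAg (map_le_range g A)
  have h3 : A ⊓ g.range ≤ A ⊓ f.ker := inf_le_inf_left A h1
  rw [hSub, ← relIndex_mul_relIndex _ _ _ h2 h3, F3, F2]

theorem hQuot_eq (hfg : ∀ x, f (g x) = 0) {A : AddSubgroup M} (hAf : A.map f ≤ A) :
    hQuot f g A = F1 f g A * F3 f A := by
  have h1 : g.range ≤ f.ker := range_le_ker hfg
  have hker : f.ker ≤ A.comap f := by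
    intro x hx
    rw [AddMonoidHom.mem_ker] at hx
    rw [mem_comap, hx]
    exact A.zero_mem
  have hA : A ≤ A.comap f := map_le_iff_le_comap.mp hAf
  have h2 : g.range ⊔ A ≤ (g.range ⊔ A) ⊔ f.ker := le_sup_left
  have h3 : (g.range ⊔ A) ⊔ f.ker ≤ A.comap f := sup_le (sup_le (h1.trans hker) hA) hker
  rw [hQuot, ← relIndex_mul_relIndex _ _ _ h2 h3, relIndex_sup_left,
    ← inf_relIndex_right (g.range ⊔ A) f.ker, F1, F3]
  congr 1
  · rw [sup_inf_assoc_of_le A h1]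
  · have e2 : (A.comap f) = (A.comap f) ⊔ f.ker := (sup_eq_left.mpr hker).symm
    rw [e2, ← relIndex_map_map f, map_comap_eq, AddSubgroup.map_sup, inf_comm]
    congr 1
    apply sup_eq_right.mpr
    rw [map_le_iff_le_comap]
    exact h1.trans (by
      intro x hx
      rw [AddMonoidHom.mem_ker] at hx
      rw [mem_comap, hx]
      exact zero_mem _)

/-- **Multiplicativity of the Herbrand indices** for a stable subgroup `A ≤ M`:
`h_f(M) h_g(A) h_g(M/A) = h_g(M) h_f(A) h_f(M/A)`, without any finiteness assumption. -/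
theorem hIdx_mul_mul (hfg : ∀ x, f (g x) = 0) (hgf : ∀ x, g (f x) = 0) {A : AddSubgroup M}
    (hAf : A.map f ≤ A) (hAg : A.map g ≤ A) :
    hIdx f g * hSub g f A * hQuot g f A = hIdx g f * hSub f g A * hQuot f g A := by
  rw [hIdx_eq hfg A, hIdx_eq hgf A, hSub_eq hfg hAg, hSub_eq hgf hAf, hQuot_eq hfg hAf,
    hQuot_eq hgf hAg]
  ring

/-- Two out of three: `M` and `A` fine ⇒ `M ⧸ A` fine. -/
theorem hQuot_ne_zero (hfg : ∀ x, f (g x) = 0) (hgf : ∀ x, g (f x) = 0) {A : AddSubgroup M}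
    (hAf : A.map f ≤ A) (_hAg : A.map g ≤ A)
    (h1 : hIdx f g ≠ 0) (_h2 : hIdx g f ≠ 0) (_h3 : hSub f g A ≠ 0) (h4 : hSub g f A ≠ 0) :
    hQuot f g A ≠ 0 := by
  rw [hIdx_eq hfg A] at h1
  rw [hSub_eq hgf hAf] at h4
  rw [hQuot_eq hfg hAf]
  exact mul_ne_zero (right_ne_zero_of_mul h1) (left_ne_zero_of_mul h4)

/-- Two out of three: `A` and `M ⧸ A` fine ⇒ `M` fine. -/
theorem hIdx_ne_zero (hfg : ∀ x, f (g x) = 0) (_hgf : ∀ x, g (f x) = 0) {A : AddSubgroup M}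
    (hAf : A.map f ≤ A) (hAg : A.map g ≤ A)
    (h1 : hSub f g A ≠ 0) (h2 : hQuot f g A ≠ 0) :
    hIdx f g ≠ 0 := by
  rw [hSub_eq hfg hAg] at h1
  rw [hQuot_eq hfg hAf] at h2
  rw [hIdx_eq hfg A]
  exact mul_ne_zero (right_ne_zero_of_mul h1) (left_ne_zero_of_mul h2)

/-- Two out of three: `M` and `M ⧸ A` fine ⇒ `A` fine. -/
theorem hSub_ne_zero (hfg : ∀ x, f (g x) = 0) (hgf : ∀ x, g (f x) = 0) {A : AddSubgroup M}
    (_hAf : A.map f ≤ A) (hAg : A.map g ≤ A)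
    (h1 : hIdx f g ≠ 0) (h2 : hQuot g f A ≠ 0) :
    hSub f g A ≠ 0 := by
  rw [hIdx_eq hfg A] at h1
  rw [hQuot_eq hgf hAg] at h2
  rw [hSub_eq hfg hAg]
  exact mul_ne_zero (right_ne_zero_of_mul h2) (left_ne_zero_of_mul h1)

end Core

section Bridges

variable {M' M M'' : Type*} [AddCommGroup M'] [AddCommGroup M] [AddCommGroup M'']

/-- The Herbrand index of a subobject, computed inside the big group. -/
theorem hIdx_sub {f' g' : M' →+ M'} {f g : M →+ M} (ι : M' →+ M) (hι : Function.Injective ι)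
    (hf : ∀ x, f (ι x) = ι (f' x)) (hg : ∀ x, g (ι x) = ι (g' x)) :
    hIdx f' g' = hSub f g ι.range := by
  rw [hIdx, hSub, ← relIndex_map_map_of_injective _ _ hι]
  congr 1
  · ext y
    constructor
    · rintro ⟨_, ⟨x, rfl⟩, rfl⟩
      exact ⟨ι x, ⟨x, rfl⟩, hg x⟩
    · rintro ⟨_, ⟨x, rfl⟩, rfl⟩
      exact ⟨g' x, ⟨x, rfl⟩, (hg x).symm⟩
  · ext y
    constructor
    · rintro ⟨x, hx, rfl⟩
      have hx' : f' x = 0 := hx
      exact ⟨⟨x, rfl⟩, show f (ι x) = 0 by rw [hf, hx', map_zero]⟩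
    · rintro ⟨⟨x, rfl⟩, hx⟩
      have hx' : f (ι x) = 0 := hx
      exact ⟨x, show f' x = 0 from hι (by rw [← hf, hx', map_zero]), rfl⟩

/-- The Herbrand index of a quotient object, computed inside the big group. -/
theorem hIdx_quot {f g : M →+ M} {f'' g'' : M'' →+ M''} (π : M →+ M'')
    (hπ : Function.Surjective π)
    (hf : ∀ x, f'' (π x) = π (f x)) (hg : ∀ x, g'' (π x) = π (g x)) :
    hIdx f'' g'' = hQuot f g π.ker := by
  have e1 : (g''.range).comap π = g.range ⊔ π.ker := by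
    ext x
    rw [mem_comap, AddSubgroup.mem_sup]
    constructor
    · rintro ⟨z, hz⟩
      obtain ⟨y, rfl⟩ := hπ z
      refine ⟨g y, ⟨y, rfl⟩, x - g y, ?_, by abel⟩
      rw [AddMonoidHom.mem_ker, map_sub, ← hz, hg, sub_self]
    · rintro ⟨_, ⟨y, rfl⟩, k, hk, rfl⟩
      rw [AddMonoidHom.mem_ker] at hk
      exact ⟨π y, by rw [hg, map_add, hk, add_zero]⟩
  have e2 : (π.ker.comap f).map π = f''.ker := by
    ext z
    constructor
    · rintro ⟨x, hx, rfl⟩
      have hx' : π (f x) = 0 := hx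
      show f'' (π x) = 0
      rw [hf, hx']
    · intro hz
      obtain ⟨x, rfl⟩ := hπ z
      have hz' : f'' (π x) = 0 := hz
      rw [hf] at hz'
      exact ⟨x, hz', rfl⟩
  rw [hIdx, hQuot, ← e1, relIndex_comap, e2]

/-- **Herbrand indices in a short exact sequence** `0 → M' → M → M'' → 0` with compatible
endomorphisms: `h_f(M) h_g(M') h_g(M'') = h_g(M) h_f(M') h_f(M'')` (natural numbers, `0` =
infinite). -/
theorem herbrand_exact {f' g' : M' →+ M'} {f g : M →+ M} {f'' g'' : M'' →+ M''}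
    (ι : M' →+ M) (π : M →+ M'') (hι : Function.Injective ι) (hπ : Function.Surjective π)
    (hex : ι.range = π.ker)
    (hfι : ∀ x, f (ι x) = ι (f' x)) (hgι : ∀ x, g (ι x) = ι (g' x))
    (hfπ : ∀ x, f'' (π x) = π (f x)) (hgπ : ∀ x, g'' (π x) = π (g x))
    (hfg : ∀ x, f (g x) = 0) (hgf : ∀ x, g (f x) = 0) :
    hIdx f g * hIdx g' f' * hIdx g'' f'' = hIdx g f * hIdx f' g' * hIdx f'' g'' := by
  have hAf : (ι.range).map f ≤ ι.range := by
    rintro _ ⟨_, ⟨x, rfl⟩, rfl⟩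
    exact ⟨f' x, (hfι x).symm⟩
  have hAg : (ι.range).map g ≤ ι.range := by
    rintro _ ⟨_, ⟨x, rfl⟩, rfl⟩
    exact ⟨g' x, (hgι x).symm⟩
  rw [hIdx_sub ι hι hfι hgι, hIdx_sub ι hι hgι hfι, hIdx_quot π hπ hfπ hgπ,
    hIdx_quot π hπ hgπ hfπ, ← hex]
  exact hIdx_mul_mul hfg hgf hAf hAg

/-- Nonvanishing in a short exact sequence: sub and quotient fine ⇒ middle fine. -/
theorem hIdx_ne_zero_of_exact {f' g' : M' →+ M'} {f g : M →+ M} {f'' g'' : M'' →+ M''}
    (ι : M' →+ M) (π : M →+ M'') (hι : Function.Injective ι) (hπ : Function.Surjective π)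
    (hex : ι.range = π.ker)
    (hfι : ∀ x, f (ι x) = ι (f' x)) (hgι : ∀ x, g (ι x) = ι (g' x))
    (hfπ : ∀ x, f'' (π x) = π (f x)) (hgπ : ∀ x, g'' (π x) = π (g x))
    (hfg : ∀ x, f (g x) = 0) (hgf : ∀ x, g (f x) = 0)
    (h1 : hIdx f' g' ≠ 0) (h2 : hIdx f'' g'' ≠ 0) : hIdx f g ≠ 0 := by
  have hAf : (ι.range).map f ≤ ι.range := by
    rintro _ ⟨_, ⟨x, rfl⟩, rfl⟩
    exact ⟨f' x, (hfι x).symm⟩
  have hAg : (ι.range).map g ≤ ι.range := by
    rintro _ ⟨_, ⟨x, rfl⟩, rfl⟩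
    exact ⟨g' x, (hgι x).symm⟩
  rw [hIdx_sub ι hι hfι hgι] at h1
  rw [hIdx_quot π hπ hfπ hgπ, ← hex] at h2
  exact hIdx_ne_zero hfg hgf hAf hAg h1 h2

/-- Nonvanishing in a short exact sequence: middle and sub fine ⇒ quotient fine. -/
theorem hIdx_quot_ne_zero_of_exact {f' g' : M' →+ M'} {f g : M →+ M} {f'' g'' : M'' →+ M''}
    (ι : M' →+ M) (π : M →+ M'') (hι : Function.Injective ι) (hπ : Function.Surjective π)
    (hex : ι.range = π.ker)
    (hfι : ∀ x, f (ι x) = ι (f' x)) (hgι : ∀ x, g (ι x) = ι (g' x))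
    (hfπ : ∀ x, f'' (π x) = π (f x)) (hgπ : ∀ x, g'' (π x) = π (g x))
    (hfg : ∀ x, f (g x) = 0) (hgf : ∀ x, g (f x) = 0)
    (h1 : hIdx f g ≠ 0) (h2 : hIdx g f ≠ 0) (h3 : hIdx f' g' ≠ 0) (h4 : hIdx g' f' ≠ 0) :
    hIdx f'' g'' ≠ 0 := by
  have hAf : (ι.range).map f ≤ ι.range := by
    rintro _ ⟨_, ⟨x, rfl⟩, rfl⟩
    exact ⟨f' x, (hfι x).symm⟩
  have hAg : (ι.range).map g ≤ ι.range := by
    rintro _ ⟨_, ⟨x, rfl⟩, rfl⟩
    exact ⟨g' x, (hgι x).symm⟩
  rw [hIdx_sub ι hι hfι hgι] at h3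
  rw [hIdx_sub ι hι hgι hfι] at h4
  rw [hIdx_quot π hπ hfπ hgπ, ← hex]
  exact hQuot_ne_zero hfg hgf hAf hAg h1 h2 h3 h4

/-- Nonvanishing in a short exact sequence: middle and quotient fine ⇒ sub fine. -/
theorem hIdx_sub_ne_zero_of_exact {f' g' : M' →+ M'} {f g : M →+ M} {f'' g'' : M'' →+ M''}
    (ι : M' →+ M) (π : M →+ M'') (hι : Function.Injective ι) (hπ : Function.Surjective π)
    (hex : ι.range = π.ker)
    (hfι : ∀ x, f (ι x) = ι (f' x)) (hgι : ∀ x, g (ι x) = ι (g' x))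
    (hfπ : ∀ x, f'' (π x) = π (f x)) (hgπ : ∀ x, g'' (π x) = π (g x))
    (hfg : ∀ x, f (g x) = 0) (hgf : ∀ x, g (f x) = 0)
    (h1 : hIdx f g ≠ 0) (h2 : hIdx g'' f'' ≠ 0) : hIdx f' g' ≠ 0 := by
  have hAf : (ι.range).map f ≤ ι.range := by
    rintro _ ⟨_, ⟨x, rfl⟩, rfl⟩
    exact ⟨f' x, (hfι x).symm⟩
  have hAg : (ι.range).map g ≤ ι.range := by
    rintro _ ⟨_, ⟨x, rfl⟩, rfl⟩
    exact ⟨g' x, (hgι x).symm⟩
  rw [hIdx_quot π hπ hgπ hfπ, ← hex] at h2
  rw [hIdx_sub ι hι hfι hgι]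
  exact hSub_ne_zero hfg hgf hAf hAg h1 h2

end Bridges

section Finite

variable {M : Type*} [AddCommGroup M] {f g : M →+ M}

theorem card_ker_eq (hfg : ∀ x, f (g x) = 0) :
    Nat.card f.ker = Nat.card g.range * hIdx f g := by
  have h := relIndex_mul_relIndex (⊥ : AddSubgroup M) g.range f.ker bot_le (range_le_ker hfg)
  rw [relIndex_bot_left, relIndex_bot_left] at h
  rw [hIdx, h]

theorem card_eq_card_ker_mul (f : M →+ M) : Nat.card M = Nat.card f.ker * Nat.card f.range := by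
  rw [← AddSubgroup.index_ker, AddSubgroup.card_mul_index]

/-- **A finite module has trivial Herbrand quotient.** -/
theorem hIdx_comm_of_finite [Finite M] (hfg : ∀ x, f (g x) = 0) (hgf : ∀ x, g (f x) = 0) :
    hIdx f g = hIdx g f := by
  have h1 := card_eq_card_ker_mul f
  have h2 := card_eq_card_ker_mul g
  rw [card_ker_eq hfg] at h1
  rw [card_ker_eq hgf] at h2
  have hf0 : Nat.card f.range ≠ 0 := Nat.card_pos.ne'
  have hg0 : Nat.card g.range ≠ 0 := Nat.card_pos.ne'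
  have : Nat.card g.range * Nat.card f.range * hIdx f g =
      Nat.card g.range * Nat.card f.range * hIdx g f := by
    calc Nat.card g.range * Nat.card f.range * hIdx f g
        = Nat.card g.range * hIdx f g * Nat.card f.range := by ring
      _ = Nat.card M := h1.symm
      _ = Nat.card f.range * hIdx g f * Nat.card g.range := h2
      _ = Nat.card g.range * Nat.card f.range * hIdx g f := by ring
  exact Nat.eq_of_mul_eq_mul_left (Nat.pos_of_ne_zero (mul_ne_zero hg0 hf0)) this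

theorem hIdx_ne_zero_of_finite [Finite M] (f g : M →+ M) : hIdx f g ≠ 0 := by
  rw [hIdx, relIndex]
  exact AddSubgroup.index_ne_zero_of_finite

end Finite

section FiniteIndex

variable {M : Type*} [AddCommGroup M] {f g : M →+ M}

/-- For a stable subgroup of finite index the two quotient indices agree (and are nonzero). -/
theorem hQuot_comm_of_finiteIndex (hfg : ∀ x, f (g x) = 0) (hgf : ∀ x, g (f x) = 0)
    {A : AddSubgroup M} (hAf : A.map f ≤ A) (hAg : A.map g ≤ A) (hfin : A.index ≠ 0) :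
    hQuot f g A = hQuot g f A ∧ hQuot f g A ≠ 0 := by
  have hAf' : A ≤ A.comap f := map_le_iff_le_comap.mp hAf
  have hAg' : A ≤ A.comap g := map_le_iff_le_comap.mp hAg
  let fq : M ⧸ A →+ M ⧸ A := QuotientAddGroup.map A A f hAf'
  let gq : M ⧸ A →+ M ⧸ A := QuotientAddGroup.map A A g hAg'
  have hπ : Function.Surjective (QuotientAddGroup.mk' A) := QuotientAddGroup.mk'_surjective A
  have hker : (QuotientAddGroup.mk' A).ker = A := QuotientAddGroup.ker_mk' A
  have hfπ : ∀ x, fq (QuotientAddGroup.mk' A x) = QuotientAddGroup.mk' A (f x) := fun x => rfl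
  have hgπ : ∀ x, gq (QuotientAddGroup.mk' A x) = QuotientAddGroup.mk' A (g x) := fun x => rfl
  have hfin' : Finite (M ⧸ A) := by
    have : A.FiniteIndex := ⟨hfin⟩
    infer_instance
  have hfgq : ∀ y, fq (gq y) = 0 := by
    intro y
    obtain ⟨x, rfl⟩ := hπ y
    rw [hgπ, hfπ, hfg, map_zero]
  have hgfq : ∀ y, gq (fq y) = 0 := by
    intro y
    obtain ⟨x, rfl⟩ := hπ y
    rw [hfπ, hgπ, hgf, map_zero]
  have e1 := hIdx_quot (QuotientAddGroup.mk' A) hπ hfπ hgπ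
  have e2 := hIdx_quot (QuotientAddGroup.mk' A) hπ hgπ hfπ
  rw [hker] at e1 e2
  rw [← e1, ← e2]
  exact ⟨hIdx_comm_of_finite hfgq hgfq, hIdx_ne_zero_of_finite fq gq⟩

/-- **A stable subgroup of finite index has the same Herbrand quotient.**
`h_f(M) h_g(A) = h_g(M) h_f(A)`. -/
theorem hIdx_mul_hSub_of_finiteIndex (hfg : ∀ x, f (g x) = 0) (hgf : ∀ x, g (f x) = 0)
    {A : AddSubgroup M} (hAf : A.map f ≤ A) (hAg : A.map g ≤ A) (hfin : A.index ≠ 0) :
    hIdx f g * hSub g f A = hIdx g f * hSub f g A := by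
  obtain ⟨h1, h2⟩ := hQuot_comm_of_finiteIndex hfg hgf hAf hAg hfin
  have h := hIdx_mul_mul hfg hgf hAf hAg
  rw [← h1] at h
  exact Nat.eq_of_mul_eq_mul_right (Nat.pos_of_ne_zero h2) h

/-- Finite index: the subgroup has finite Herbrand indices iff the big group does. -/
theorem hSub_ne_zero_iff_of_finiteIndex (hfg : ∀ x, f (g x) = 0) (hgf : ∀ x, g (f x) = 0)
    {A : AddSubgroup M} (hAf : A.map f ≤ A) (hAg : A.map g ≤ A) (hfin : A.index ≠ 0) :
    (hSub f g A ≠ 0 ∧ hSub g f A ≠ 0) ↔ (hIdx f g ≠ 0 ∧ hIdx g f ≠ 0) := by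
  obtain ⟨h1, h2⟩ := hQuot_comm_of_finiteIndex hfg hgf hAf hAg hfin
  have h2' : hQuot g f A ≠ 0 := h1 ▸ h2
  constructor
  · rintro ⟨ha, hb⟩
    exact ⟨hIdx_ne_zero hfg hgf hAf hAg ha h2, hIdx_ne_zero hgf hfg hAg hAf hb h2'⟩
  · rintro ⟨ha, hb⟩
    exact ⟨hSub_ne_zero hfg hgf hAf hAg ha h2', hSub_ne_zero hgf hfg hAg hAf hb h2⟩

end FiniteIndex

section Quotient

variable {M : Type*} [AddCommGroup M]

/-- The Herbrand quotient `q(M) = [ker f : im g] / [ker g : im f]` as a rational number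
(meaningful when both indices are finite). -/
noncomputable def herbrandQ (f g : M →+ M) : ℚ := (hIdx f g : ℚ) / (hIdx g f : ℚ)

/-- Both indices finite. -/
def HerbrandDefined (f g : M →+ M) : Prop := hIdx f g ≠ 0 ∧ hIdx g f ≠ 0

theorem herbrandQ_eq_one_of_finite [Finite M] {f g : M →+ M} (hfg : ∀ x, f (g x) = 0)
    (hgf : ∀ x, g (f x) = 0) : herbrandQ f g = 1 := by
  rw [herbrandQ, hIdx_comm_of_finite hfg hgf]
  exact div_self (Nat.cast_ne_zero.mpr (hIdx_ne_zero_of_finite g f))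

theorem herbrandDefined_of_finite [Finite M] (f g : M →+ M) : HerbrandDefined f g :=
  ⟨hIdx_ne_zero_of_finite f g, hIdx_ne_zero_of_finite g f⟩

theorem HerbrandDefined.symm {f g : M →+ M} (h : HerbrandDefined f g) : HerbrandDefined g f :=
  ⟨h.2, h.1⟩

theorem herbrandQ_symm (f g : M →+ M) : herbrandQ g f = (herbrandQ f g)⁻¹ := by
  rw [herbrandQ, herbrandQ, inv_div]

theorem HerbrandDefined.herbrandQ_ne_zero {f g : M →+ M} (h : HerbrandDefined f g) :
    herbrandQ f g ≠ 0 :=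
  div_ne_zero (Nat.cast_ne_zero.mpr h.1) (Nat.cast_ne_zero.mpr h.2)

variable {M' M'' : Type*} [AddCommGroup M'] [AddCommGroup M'']

/-- **Multiplicativity of the Herbrand quotient** in a short exact sequence, given that the outer
terms have finite indices. -/
theorem herbrandQ_mul_of_exact {f' g' : M' →+ M'} {f g : M →+ M} {f'' g'' : M'' →+ M''}
    (ι : M' →+ M) (π : M →+ M'') (hι : Function.Injective ι) (hπ : Function.Surjective π)
    (hex : ι.range = π.ker)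
    (hfι : ∀ x, f (ι x) = ι (f' x)) (hgι : ∀ x, g (ι x) = ι (g' x))
    (hfπ : ∀ x, f'' (π x) = π (f x)) (hgπ : ∀ x, g'' (π x) = π (g x))
    (hfg : ∀ x, f (g x) = 0) (hgf : ∀ x, g (f x) = 0)
    (h' : HerbrandDefined f' g') (h'' : HerbrandDefined f'' g'') :
    HerbrandDefined f g ∧ herbrandQ f g = herbrandQ f' g' * herbrandQ f'' g'' := by
  have hd : HerbrandDefined f g :=
    ⟨hIdx_ne_zero_of_exact ι π hι hπ hex hfι hgι hfπ hgπ hfg hgf h'.1 h''.1,
      hIdx_ne_zero_of_exact ι π hι hπ hex hgι hfι hgπ hfπ hgf hfg h'.2 h''.2⟩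
  refine ⟨hd, ?_⟩
  have key := herbrand_exact ι π hι hπ hex hfι hgι hfπ hgπ hfg hgf
  have key' : (hIdx f g : ℚ) * hIdx g' f' * hIdx g'' f'' =
      hIdx g f * hIdx f' g' * hIdx f'' g'' := by exact_mod_cast key
  have n1 : (hIdx g f : ℚ) ≠ 0 := Nat.cast_ne_zero.mpr hd.2
  have n2 : (hIdx g' f' : ℚ) ≠ 0 := Nat.cast_ne_zero.mpr h'.2
  have n3 : (hIdx g'' f'' : ℚ) ≠ 0 := Nat.cast_ne_zero.mpr h''.2
  rw [herbrandQ, herbrandQ, herbrandQ]
  field_simp
  linarith [key']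

/-- Two out of three, other cases: middle and sub defined ⇒ quotient defined. -/
theorem herbrandDefined_quot_of_exact {f' g' : M' →+ M'} {f g : M →+ M} {f'' g'' : M'' →+ M''}
    (ι : M' →+ M) (π : M →+ M'') (hι : Function.Injective ι) (hπ : Function.Surjective π)
    (hex : ι.range = π.ker)
    (hfι : ∀ x, f (ι x) = ι (f' x)) (hgι : ∀ x, g (ι x) = ι (g' x))
    (hfπ : ∀ x, f'' (π x) = π (f x)) (hgπ : ∀ x, g'' (π x) = π (g x))
    (hfg : ∀ x, f (g x) = 0) (hgf : ∀ x, g (f x) = 0)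
    (h : HerbrandDefined f g) (h' : HerbrandDefined f' g') : HerbrandDefined f'' g'' :=
  ⟨hIdx_quot_ne_zero_of_exact ι π hι hπ hex hfι hgι hfπ hgπ hfg hgf h.1 h.2 h'.1 h'.2,
    hIdx_quot_ne_zero_of_exact ι π hι hπ hex hgι hfι hgπ hfπ hgf hfg h.2 h.1 h'.2 h'.1⟩

/-- Two out of three: middle and quotient defined ⇒ sub defined. -/
theorem herbrandDefined_sub_of_exact {f' g' : M' →+ M'} {f g : M →+ M} {f'' g'' : M'' →+ M''}
    (ι : M' →+ M) (π : M →+ M'') (hι : Function.Injective ι) (hπ : Function.Surjective π)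
    (hex : ι.range = π.ker)
    (hfι : ∀ x, f (ι x) = ι (f' x)) (hgι : ∀ x, g (ι x) = ι (g' x))
    (hfπ : ∀ x, f'' (π x) = π (f x)) (hgπ : ∀ x, g'' (π x) = π (g x))
    (hfg : ∀ x, f (g x) = 0) (hgf : ∀ x, g (f x) = 0)
    (h : HerbrandDefined f g) (h'' : HerbrandDefined f'' g'') : HerbrandDefined f' g' :=
  ⟨hIdx_sub_ne_zero_of_exact ι π hι hπ hex hfι hgι hfπ hgπ hfg hgf h.1 h''.2,
    hIdx_sub_ne_zero_of_exact ι π hι hπ hex hgι hfι hgπ hfπ hgf hfg h.2 h''.1⟩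

end Quotient

end Fermat.Agent.S14.Herbrand
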