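import Mathlib
import Fermat.Agent.S14.Herbrand

set_option autoImplicit false

/-!
# S14 / abstract ambiguous class number formula and abstract first inequality

Pure group theory (additive notation).  Data: abelian groups `A` (think `Lˣ`), `I` (think: the
group of fractional ideals of `L`), a homomorphism `d : A →+ I` (principal ideal), and pairs of
endomorphisms `fA gA` of `A`, `fI gI` of `I` (think `f = σ - 1`, `g = N = ∑ σ^i`) commuting with
`d`, with `f ∘ g = 0 = g ∘ f`.  Put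

* `E := ker d` (units), `P := range d` (principal ideals), `C = I / P` (class group),
* `A^σ := ker fA`, `I^σ := ker fI`, `P_K := d(A^σ)`.

Hypotheses: Hilbert 90 for `A` (`ker gA ≤ range fA`) and `H¹(I) = 0` (`ker gI ≤ range fI`).

* `ambiguous_formula`: `|C^σ| · |H¹(E)| · [E^σ : E ∩ N A] = [I^σ : P_K] · |Ĥ⁰(E)|`.
* `first_inequality`: if `C` is finite, `[I^σ : P_K]` is finite and `|H¹(E)| = n · |Ĥ⁰(E)| ≠ 0`
  (i.e. `q(E) = 1/n`), then `n ∣ [I^σ : P_K + N I]` and this index is finite.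
-/

namespace Fermat.Agent.S14.AmbigAbstract

open AddSubgroup Fermat.Agent.S14.Herbrand

variable {A I : Type*} [AddCommGroup A] [AddCommGroup I]

section Formula

variable (d : A →+ I) (fA gA : A →+ A) (fI gI : I →+ I)

/-- `|C^σ| = [fI⁻¹ P : P]` with `P = range d`. -/
noncomputable def ambig : ℕ := d.range.relIndex (d.range.comap fI)

/-- `h_K = [I^σ : d(A^σ)]`. -/
noncomputable def baseClass : ℕ := (fA.ker.map d).relIndex fI.ker

variable {d fA gA fI gI}

/-- `[I^σ ∩ P : d(A^σ)] = |H¹(E)|`. -/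
theorem relIndex_inv_principal (hdf : ∀ a, d (fA a) = fI (d a))
    (hgf : ∀ a, gA (fA a) = 0) (h90 : gA.ker ≤ fA.range) :
    (fA.ker.map d).relIndex (fI.ker ⊓ d.range) = hSub gA fA d.ker := by
  set E := d.ker with hE
  set K := E.comap fA with hK
  have hEK : E ≤ K := by
    intro e he
    have he' : d e = 0 := he
    show d (fA e) = 0
    rw [hdf, he', map_zero]
  have hAK : fA.ker ≤ K := by
    intro a ha
    have ha' : fA a = 0 := ha
    show d (fA a) = 0
    rw [ha', map_zero]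
  have e1 : fI.ker ⊓ d.range = K.map d := by
    ext x
    constructor
    · rintro ⟨hx, ⟨a, rfl⟩⟩
      have hx' : fI (d a) = 0 := hx
      refine ⟨a, ?_, rfl⟩
      show d (fA a) = 0
      rw [hdf, hx']
    · rintro ⟨a, ha, rfl⟩
      have ha' : d (fA a) = 0 := ha
      refine ⟨?_, ⟨a, rfl⟩⟩
      show fI (d a) = 0
      rw [← hdf, ha']
  have e2 : K.map fA = E ⊓ gA.ker := by
    ext x
    constructor
    · rintro ⟨a, ha, rfl⟩
      exact ⟨ha, hgf a⟩
    · rintro ⟨hx, hx'⟩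
      obtain ⟨a, rfl⟩ := h90 hx'
      exact ⟨a, hx, rfl⟩
  have e3 : (fA.ker ⊔ E).map fA = E.map fA := by
    rw [AddSubgroup.map_sup]
    have : fA.ker.map fA = ⊥ := by
      rw [eq_bot_iff]
      rintro _ ⟨a, ha, rfl⟩
      exact ha
    rw [this, bot_sup_eq]
  rw [e1, relIndex_map_map, ← hE, sup_eq_left.mpr hEK]
  have h2 := relIndex_map_map fA (fA.ker ⊔ E) K
  rw [sup_eq_left.mpr (le_sup_left : fA.ker ≤ fA.ker ⊔ E), sup_eq_left.mpr hAK, e3, e2] at h2
  rw [← h2, hSub]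

/-- `[fI⁻¹ P : I^σ + P] = [E ∩ N A : N E]`. -/
theorem relIndex_ambig_top (hdf : ∀ a, d (fA a) = fI (d a)) (hdg : ∀ a, d (gA a) = gI (d a))
    (hgfA : ∀ a, gA (fA a) = 0) (hgfI : ∀ x, gI (fI x) = 0)
    (h90 : gA.ker ≤ fA.range) (hI : gI.ker ≤ fI.range) :
    (fI.ker ⊔ d.range).relIndex (d.range.comap fI) = F3 gA d.ker := by
  set E := d.ker with hE
  set P := d.range with hP
  set W := P.comap fI with hW
  set B := E.comap gA with hB
  have hIW : fI.ker ≤ W := by
    intro x hx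
    have hx' : fI x = 0 := hx
    show fI x ∈ P
    rw [hx']
    exact zero_mem _
  have hEB : E ≤ B := by
    intro e he
    have he' : d e = 0 := he
    show d (gA e) = 0
    rw [hdg, he', map_zero]
  have hkB : gA.ker ≤ B := by
    intro a ha
    have ha' : gA a = 0 := ha
    show d (gA a) = 0
    rw [ha', map_zero]
  have hker : gA.ker = fA.range := by
    refine le_antisymm h90 ?_
    rintro _ ⟨a, rfl⟩
    exact hgfA a
  -- step 1: apply `fI`
  have s1 : ((fI.ker ⊔ P).map fI) = fA.range.map d := by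
    rw [AddSubgroup.map_sup]
    have : fI.ker.map fI = ⊥ := by
      rw [eq_bot_iff]
      rintro _ ⟨a, ha, rfl⟩
      exact ha
    rw [this, bot_sup_eq]
    ext x
    constructor
    · rintro ⟨_, ⟨a, rfl⟩, rfl⟩
      exact ⟨fA a, ⟨a, rfl⟩, hdf a⟩
    · rintro ⟨_, ⟨a, rfl⟩, rfl⟩
      exact ⟨d a, ⟨a, rfl⟩, (hdf a).symm⟩
  have s2 : W.map fI = B.map d := by
    ext x
    constructor
    · rintro ⟨y, hy, rfl⟩
      obtain ⟨a, ha⟩ := (hy : fI y ∈ P)
      refine ⟨a, ?_, ha⟩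
      show d (gA a) = 0
      rw [hdg, ha, hgfI]
    · rintro ⟨a, ha, rfl⟩
      have ha' : d (gA a) = 0 := ha
      have : d a ∈ gI.ker := by
        show gI (d a) = 0
        rw [← hdg, ha']
      obtain ⟨y, hy⟩ := hI this
      exact ⟨y, show fI y ∈ P from hy ▸ ⟨a, rfl⟩, hy⟩
  have h1 := relIndex_map_map fI (fI.ker ⊔ P) W
  rw [sup_eq_left.mpr (le_sup_left : fI.ker ≤ fI.ker ⊔ P), sup_eq_left.mpr hIW, s1, s2] at h1
  -- step 2: pull back along `d`
  have h2 := relIndex_map_map d fA.range B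
  rw [← hE, sup_eq_left.mpr hEB] at h2
  -- step 3: apply `gA`
  have s3 : (fA.range ⊔ E).map gA = E.map gA := by
    rw [AddSubgroup.map_sup]
    have : fA.range.map gA = ⊥ := by
      rw [eq_bot_iff]
      rintro _ ⟨_, ⟨a, rfl⟩, rfl⟩
      exact hgfA a
    rw [this, bot_sup_eq]
  have s4 : B.map gA = E ⊓ gA.range := by
    ext x
    constructor
    · rintro ⟨a, ha, rfl⟩
      exact ⟨ha, ⟨a, rfl⟩⟩
    · rintro ⟨hx, ⟨a, rfl⟩⟩
      exact ⟨a, hx, rfl⟩
  have t1 : fA.range ⊔ E ⊔ gA.ker = fA.range ⊔ E :=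
    sup_eq_left.mpr (hker.le.trans le_sup_left)
  have t2 : B ⊔ gA.ker = B := sup_eq_left.mpr hkB
  have h3 := relIndex_map_map gA (fA.range ⊔ E) B
  rw [t1, t2, s3, s4] at h3
  rw [← h1, h2, ← h3, F3]

/-- **Ambiguous class number formula** (abstract form):
`|C^σ| · |H¹(E)| · [E^σ : E ∩ N A] = [I^σ : d(A^σ)] · |Ĥ⁰(E)|`. -/
theorem ambiguous_formula (hdf : ∀ a, d (fA a) = fI (d a)) (hdg : ∀ a, d (gA a) = gI (d a))
    (hfgA : ∀ a, fA (gA a) = 0) (hgfA : ∀ a, gA (fA a) = 0) (hgfI : ∀ x, gI (fI x) = 0)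
    (h90 : gA.ker ≤ fA.range) (hI : gI.ker ≤ fI.range) :
    ambig d fI * hSub gA fA d.ker * F2 fA gA d.ker = baseClass d fA fI * hSub fA gA d.ker := by
  set E := d.ker with hE
  set P := d.range with hP
  have c1 := relIndex_inv_principal hdf hgfA h90
  have c2 := relIndex_ambig_top hdf hdg hgfA hgfI h90 hI
  rw [← hE] at c1 c2
  rw [← hP] at c1 c2
  -- `|C^σ| = c2 · r`
  have hPW : P ≤ P.comap fI := by
    rintro _ ⟨a, rfl⟩
    exact ⟨fA a, hdf a⟩
  have hIW : fI.ker ≤ P.comap fI := by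
    intro x hx
    have hx' : fI x = 0 := hx
    show fI x ∈ P
    rw [hx']
    exact zero_mem _
  have k1 : ambig d fI = P.relIndex fI.ker * F3 gA E := by
    rw [ambig, ← hP, ← c2,
      ← relIndex_mul_relIndex P (fI.ker ⊔ P) (P.comap fI) le_sup_right (sup_le hIW hPW),
      relIndex_sup_right]
  have hPK : fA.ker.map d ≤ fI.ker ⊓ P := by
    rintro _ ⟨a, ha, rfl⟩
    have ha' : fA a = 0 := ha
    exact ⟨show fI (d a) = 0 by rw [← hdf, ha', map_zero], ⟨a, rfl⟩⟩
  have k2 : baseClass d fA fI = hSub gA fA E * P.relIndex fI.ker := by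
    rw [baseClass, ← c1,
      ← relIndex_mul_relIndex (fA.ker.map d) (fI.ker ⊓ P) fI.ker hPK inf_le_left,
      inf_comm, inf_relIndex_right]
  have hEg : E.map gA ≤ E := by
    rintro _ ⟨e, he, rfl⟩
    have he' : d e = 0 := he
    show d (gA e) = 0
    rw [hdg, he', map_zero]
  have k3 : hSub fA gA E = F3 gA E * F2 fA gA E := hSub_eq hfgA hEg
  rw [k1, k2, k3]
  ring

end Formula

section Inequality

variable {d : A →+ I} {fA gA : A →+ A} {fI gI : I →+ I}

/-- `|C^σ| = [I : P + (σ-1) I]` for a finite class group. -/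
theorem ambig_eq_index (hdf : ∀ a, d (fA a) = fI (d a)) (hfin : d.range.index ≠ 0) :
    ambig d fI = (fI.range ⊔ d.range).index ∧ ambig d fI ≠ 0 := by
  have hPf : d.range.map fI ≤ d.range := by
    rintro _ ⟨_, ⟨a, rfl⟩, rfl⟩
    exact ⟨fA a, hdf a⟩
  have hP0 : d.range.map (0 : I →+ I) ≤ d.range := by
    rintro _ ⟨_, _, rfl⟩
    exact zero_mem _
  have h := hQuot_comm_of_finiteIndex (f := fI) (g := 0) (fun x => by simp) (fun x => by simp)
    hPf hP0 hfin
  have e1 : hQuot fI 0 d.range = ambig d fI := by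
    rw [hQuot, ambig]
    have : (0 : I →+ I).range = ⊥ := by
      rw [eq_bot_iff]
      rintro _ ⟨x, rfl⟩
      simp
    rw [this, bot_sup_eq]
  have e2 : hQuot 0 fI d.range = (fI.range ⊔ d.range).index := by
    rw [hQuot]
    have : d.range.comap (0 : I →+ I) = ⊤ := by
      rw [eq_top_iff]
      intro x _
      show (0 : I →+ I) x ∈ d.range
      simp
    rw [this, relIndex_top_right]
  rw [e1, e2] at h
  exact ⟨h.1, h.2⟩

/-- **Abstract first inequality.**  If `C = I / d(A)` is finite, `h_K = [I^σ : d(A^σ)]` is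
finite, Hilbert 90 holds for `A`, `H¹(I) = 0`, and `|H¹(E)| = n · |Ĥ⁰(E)| ≠ 0`, then
`n` divides the (finite) index `[I^σ : d(A^σ) + N(I)]`. -/
theorem first_inequality {n : ℕ} (hdf : ∀ a, d (fA a) = fI (d a))
    (hdg : ∀ a, d (gA a) = gI (d a))
    (hfgA : ∀ a, fA (gA a) = 0) (hgfA : ∀ a, gA (fA a) = 0)
    (hfgI : ∀ x, fI (gI x) = 0) (hgfI : ∀ x, gI (fI x) = 0)
    (h90 : gA.ker ≤ fA.range) (hI : gI.ker ≤ fI.range)
    (hfin : d.range.index ≠ 0) (hK : baseClass d fA fI ≠ 0)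
    (hq : hSub gA fA d.ker = n * hSub fA gA d.ker) (h0 : hSub fA gA d.ker ≠ 0) :
    n ∣ (fA.ker.map d ⊔ gI.range).relIndex fI.ker ∧
      (fA.ker.map d ⊔ gI.range).relIndex fI.ker ≠ 0 := by
  set PK := fA.ker.map d with hPKdef
  set H := PK ⊔ gI.range with hH
  have hPKI : PK ≤ fI.ker := by
    rintro _ ⟨a, ha, rfl⟩
    have ha' : fA a = 0 := ha
    show fI (d a) = 0
    rw [← hdf, ha', map_zero]
  have hNI : gI.range ≤ fI.ker := by
    rintro _ ⟨x, rfl⟩
    exact hfgI x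
  have hHI : H ≤ fI.ker := sup_le hPKI hNI
  -- `h_K = [H : P_K] · [I^σ : H]`
  have m1 : PK.relIndex H * H.relIndex fI.ker = baseClass d fA fI := by
    rw [baseClass]
    exact relIndex_mul_relIndex PK H fI.ker le_sup_left hHI
  -- `[H : P_K] = [I : N⁻¹ P_K]`
  have m2 : PK.relIndex H = (PK.comap gI).index := by
    rw [hH, relIndex_sup_left, ← relIndex_top_right, relIndex_comap]
    congr 1
    exact (AddMonoidHom.range_eq_map gI)
  have m3 : fI.range ⊔ d.range ≤ PK.comap gI := by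
    refine sup_le ?_ ?_
    · rintro _ ⟨x, rfl⟩
      show gI (fI x) ∈ PK
      rw [hgfI]
      exact zero_mem _
    · rintro _ ⟨a, rfl⟩
      show gI (d a) ∈ PK
      rw [← hdg]
      exact ⟨gA a, hfgA a, rfl⟩
  obtain ⟨a1, a2⟩ := ambig_eq_index (fA := fA) hdf hfin
  have m4 : PK.relIndex H ∣ ambig d fI := by
    rw [m2, a1]
    exact index_dvd_of_le m3
  obtain ⟨v, hv⟩ := m4
  have form := ambiguous_formula hdf hdg hfgA hgfA hgfI h90 hI
  rw [hq, ← m1, hv] at form
  have hu : PK.relIndex H ≠ 0 := by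
    intro h
    rw [h, zero_mul] at m1
    exact hK m1.symm
  have hne : H.relIndex fI.ker ≠ 0 := by
    intro h
    rw [h, mul_zero] at m1
    exact hK m1.symm
  refine ⟨?_, hne⟩
  have : PK.relIndex H * hSub fA gA d.ker * (n * (v * F2 fA gA d.ker)) =
      PK.relIndex H * hSub fA gA d.ker * H.relIndex fI.ker := by
    calc PK.relIndex H * hSub fA gA d.ker * (n * (v * F2 fA gA d.ker))
        = PK.relIndex H * v * (n * hSub fA gA d.ker) * F2 fA gA d.ker := by ring
      _ = PK.relIndex H * H.relIndex fI.ker * hSub fA gA d.ker := form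
      _ = PK.relIndex H * hSub fA gA d.ker * H.relIndex fI.ker := by ring
  have := Nat.eq_of_mul_eq_mul_left (Nat.pos_of_ne_zero (mul_ne_zero hu h0)) this
  exact ⟨_, this.symm⟩

/-- Variant of `first_inequality` where the unit group is an honest group `E'` with an injective
equivariant map `ι : E' →+ A` onto `ker d`, and the Herbrand data is `|H¹(E')| = n · |Ĥ⁰(E')|`. -/
theorem first_inequality' {E' : Type*} [AddCommGroup E'] {fE gE : E' →+ E'} (ι : E' →+ A)
    (hι : Function.Injective ι) (hιr : ι.range = d.ker)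
    (hιf : ∀ e, fA (ι e) = ι (fE e)) (hιg : ∀ e, gA (ι e) = ι (gE e))
    {n : ℕ} (hdf : ∀ a, d (fA a) = fI (d a))
    (hdg : ∀ a, d (gA a) = gI (d a))
    (hfgA : ∀ a, fA (gA a) = 0) (hgfA : ∀ a, gA (fA a) = 0)
    (hfgI : ∀ x, fI (gI x) = 0) (hgfI : ∀ x, gI (fI x) = 0)
    (h90 : gA.ker ≤ fA.range) (hI : gI.ker ≤ fI.range)
    (hfin : d.range.index ≠ 0) (hK : baseClass d fA fI ≠ 0)
    (hq : hIdx gE fE = n * hIdx fE gE) (h0 : hIdx fE gE ≠ 0) :
    n ∣ (fA.ker.map d ⊔ gI.range).relIndex fI.ker ∧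
      (fA.ker.map d ⊔ gI.range).relIndex fI.ker ≠ 0 := by
  have e1 : hIdx fE gE = hSub fA gA d.ker := by
    rw [← hιr]
    exact hIdx_sub ι hι hιf hιg
  have e2 : hIdx gE fE = hSub gA fA d.ker := by
    rw [← hιr]
    exact hIdx_sub ι hι hιg hιf
  rw [e1, e2] at hq
  rw [e1] at h0
  exact first_inequality hdf hdg hfgA hgfA hfgI hgfI h90 hI hfin hK hq h0

end Inequality

end Fermat.Agent.S14.AmbigAbstract

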