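import Mathlib
import Fermat.Agent.S14.Herbrand

set_option autoImplicit false

/-!
# S14 / Herbrand quotients for a cyclic group

`σ : M →+ M` with `σ ^ n = 1`; `dlt σ = σ - 1`, `nrm σ n = ∑_{i<n} σ^i`.
* `dlt_nrm`, `nrm_dlt`: the two compositions vanish;
* `hIdx_congr`: invariance under equivariant isomorphisms; `hIdx_prod`: products;
* `int_trivial`: `ℤ` with trivial action has `|Ĥ⁰| = n`, `|H¹| = 1`;
* `cohTrivial_of_splitting`: an endomorphism `ε` with `∑ σ^k ε σ^(n-k) = 1` kills both groups;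
* `shift`: the induced module `ZMod n → Y` has both indices `1`.
-/

namespace Fermat.Agent.S14.Herbrand

open AddSubgroup Finset

section Cyclic

variable {M : Type*} [AddCommGroup M]

/-- `σ - 1`. -/
def dlt (σ : AddMonoid.End M) : M →+ M := (σ - 1 : AddMonoid.End M)

/-- The norm `∑_{i<n} σ^i`. -/
def nrm (σ : AddMonoid.End M) (n : ℕ) : M →+ M := (∑ i ∈ range n, σ ^ i : AddMonoid.End M)

lemma dlt_apply (σ : AddMonoid.End M) (x : M) : dlt σ x = σ x - x := rfl

lemma nrm_apply (σ : AddMonoid.End M) (n : ℕ) (x : M) :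
    nrm σ n x = ∑ i ∈ range n, (σ ^ i) x := by
  rw [nrm]
  exact AddMonoidHom.finsetSum_apply _ _ _

theorem dlt_nrm {σ : AddMonoid.End M} {n : ℕ} (hσ : σ ^ n = 1) (x : M) :
    dlt σ (nrm σ n x) = 0 := by
  have h : (σ - 1) * ∑ i ∈ range n, σ ^ i = 0 := by rw [mul_geom_sum, hσ, sub_self]
  exact congrArg (fun e : AddMonoid.End M => e x) h

theorem nrm_dlt {σ : AddMonoid.End M} {n : ℕ} (hσ : σ ^ n = 1) (x : M) :
    nrm σ n (dlt σ x) = 0 := by
  have h : (∑ i ∈ range n, σ ^ i) * (σ - 1) = 0 := by rw [geom_sum_mul, hσ, sub_self]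
  exact congrArg (fun e : AddMonoid.End M => e x) h

end Cyclic

section Congr

variable {M M' : Type*} [AddCommGroup M] [AddCommGroup M']

/-- Invariance of the Herbrand index under an equivariant isomorphism. -/
theorem hIdx_congr {f g : M →+ M} {f' g' : M' →+ M'} (e : M ≃+ M')
    (hf : ∀ x, e (f x) = f' (e x)) (hg : ∀ x, e (g x) = g' (e x)) :
    hIdx f g = hIdx f' g' := by
  rw [hIdx_sub (f' := f) (g' := g) (f := f') (g := g') e.toAddMonoidHom e.injective
    (fun x => (hf x).symm) (fun x => (hg x).symm), hSub, hIdx]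
  have hr : (e.toAddMonoidHom).range = ⊤ := AddMonoidHom.range_eq_top.mpr e.surjective
  rw [hr, top_inf_eq, ← AddMonoidHom.range_eq_map]

theorem herbrandQ_congr {f g : M →+ M} {f' g' : M' →+ M'} (e : M ≃+ M')
    (hf : ∀ x, e (f x) = f' (e x)) (hg : ∀ x, e (g x) = g' (e x)) :
    herbrandQ f g = herbrandQ f' g' := by
  rw [herbrandQ, herbrandQ, hIdx_congr e hf hg, hIdx_congr e hg hf]

end Congr

section Prod

variable {M₁ M₂ : Type*} [AddCommGroup M₁] [AddCommGroup M₂]

theorem relIndex_prod (H₁ K₁ : AddSubgroup M₁) (H₂ K₂ : AddSubgroup M₂) :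
    (H₁.prod H₂).relIndex (K₁.prod K₂) = H₁.relIndex K₁ * H₂.relIndex K₂ := by
  rw [relIndex, relIndex, relIndex, ← AddSubgroup.index_prod]
  let e : (K₁.prod K₂) ≃+ K₁ × K₂ := AddSubgroup.prodEquiv K₁ K₂
  rw [← AddSubgroup.index_map_equiv _ e]
  congr 1
  ext ⟨⟨a, ha⟩, ⟨b, hb⟩⟩
  constructor
  · rintro ⟨⟨⟨x, y⟩, hxy⟩, hmem, heq⟩
    have h1 : x = a := congrArg (fun z : K₁ × K₂ => (z.1 : M₁)) heq
    have h2 : y = b := congrArg (fun z : K₁ × K₂ => (z.2 : M₂)) heq
    subst h1 h2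
    exact hmem
  · intro hmem
    exact ⟨⟨⟨a, b⟩, ⟨ha, hb⟩⟩, hmem, rfl⟩

/-- The Herbrand index of a product is the product of the Herbrand indices. -/
theorem hIdx_prod (f₁ g₁ : M₁ →+ M₁) (f₂ g₂ : M₂ →+ M₂) :
    hIdx (f₁.prodMap f₂) (g₁.prodMap g₂) = hIdx f₁ g₁ * hIdx f₂ g₂ := by
  rw [hIdx, hIdx, hIdx, ← relIndex_prod]
  congr 1
  · ext ⟨a, b⟩
    constructor
    · rintro ⟨⟨x, y⟩, h⟩
      have h1 : g₁ x = a := congrArg Prod.fst h
      have h2 : g₂ y = b := congrArg Prod.snd h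
      exact ⟨⟨x, h1⟩, ⟨y, h2⟩⟩
    · rintro ⟨⟨x, h1⟩, ⟨y, h2⟩⟩
      exact ⟨(x, y), Prod.ext h1 h2⟩
  · ext ⟨a, b⟩
    constructor
    · intro h
      have h' : (f₁ a, f₂ b) = 0 := h
      exact ⟨congrArg Prod.fst h', congrArg Prod.snd h'⟩
    · rintro ⟨h1, h2⟩
      exact Prod.ext h1 h2

end Prod

section Trivial

/-- `nrm 1 n = n • id`. -/
lemma nrm_one_apply {M : Type*} [AddCommGroup M] (n : ℕ) (x : M) :
    nrm (1 : AddMonoid.End M) n x = n • x := by
  rw [nrm_apply]
  simp

lemma dlt_one {M : Type*} [AddCommGroup M] : dlt (1 : AddMonoid.End M) = 0 := by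
  ext x
  rw [dlt_apply]
  simp

/-- `ℤ` with trivial action of a cyclic group of order `n`: `|Ĥ⁰| = n`. -/
theorem int_trivial_zero (n : ℕ) :
    hIdx (dlt (1 : AddMonoid.End ℤ)) (nrm (1 : AddMonoid.End ℤ) n) = n := by
  rw [hIdx, dlt_one, AddMonoidHom.ker_zero, relIndex_top_right]
  have : (nrm (1 : AddMonoid.End ℤ) n).range = AddSubgroup.zmultiples (n : ℤ) := by
    ext x
    rw [AddMonoidHom.mem_range, AddSubgroup.mem_zmultiples_iff]
    constructor
    · rintro ⟨y, rfl⟩
      exact ⟨y, by rw [nrm_one_apply]; simp [mul_comm]⟩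
    · rintro ⟨y, rfl⟩
      exact ⟨y, by rw [nrm_one_apply]; simp [mul_comm]⟩
  rw [this, Int.index_zmultiples, Int.natAbs_natCast]

/-- `ℤ` with trivial action of a cyclic group of order `n ≠ 0`: `|H¹| = 1`. -/
theorem int_trivial_one {n : ℕ} (hn : n ≠ 0) :
    hIdx (nrm (1 : AddMonoid.End ℤ) n) (dlt (1 : AddMonoid.End ℤ)) = 1 := by
  rw [hIdx, relIndex_eq_one]
  intro x hx
  rw [AddMonoidHom.mem_ker, nrm_one_apply] at hx
  have : x = 0 := by
    rcases smul_eq_zero.mp hx with h | h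
    · exact absurd h hn
    · exact h
  rw [this]
  exact zero_mem _

theorem int_trivial_herbrandQ {n : ℕ} (hn : n ≠ 0) :
    herbrandQ (dlt (1 : AddMonoid.End ℤ)) (nrm (1 : AddMonoid.End ℤ) n) = n := by
  rw [herbrandQ, int_trivial_zero, int_trivial_one hn]
  simp

theorem int_trivial_defined {n : ℕ} (hn : n ≠ 0) :
    HerbrandDefined (dlt (1 : AddMonoid.End ℤ)) (nrm (1 : AddMonoid.End ℤ) n) := by
  refine ⟨?_, ?_⟩
  · rw [int_trivial_zero]; exact hn
  · rw [int_trivial_one hn]; exact one_ne_zero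

end Trivial

section CohTrivial

variable {M : Type*} [AddCommGroup M]

lemma end_mul_apply (f g : AddMonoid.End M) (x : M) : (f * g) x = f (g x) := rfl

/-- **Cohomological triviality from a splitting**: if `∑_{k<n} σ^k ε σ^(n-k) = 1` for some
endomorphism `ε` (and `σ^n = 1`), then `ker (σ - 1) = im N` and `ker N = im (σ - 1)`. -/
theorem cohTrivial_of_splitting {σ ε : AddMonoid.End M} {n : ℕ}
    (hε : ∑ k ∈ range n, σ ^ k * ε * σ ^ (n - k) = 1) :
    hIdx (dlt σ) (nrm σ n) = 1 ∧ hIdx (nrm σ n) (dlt σ) = 1 := by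
  have happ : ∀ x : M, x = ∑ k ∈ range n, (σ ^ k) (ε ((σ ^ (n - k)) x)) := by
    intro x
    have h := congrArg (fun e : AddMonoid.End M => e x) hε
    have h' : (∑ k ∈ range n, σ ^ k * ε * σ ^ (n - k) : AddMonoid.End M) x = x := h
    have h'' : (∑ k ∈ range n, σ ^ k * ε * σ ^ (n - k) : AddMonoid.End M) x =
        ∑ k ∈ range n, (σ ^ k) (ε ((σ ^ (n - k)) x)) :=
      AddMonoidHom.finsetSum_apply _ _ _
    exact h'.symm.trans h''
  constructor
  · rw [hIdx, relIndex_eq_one]
    intro x hx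
    rw [AddMonoidHom.mem_ker, dlt_apply, sub_eq_zero] at hx
    have hpow : ∀ j : ℕ, (σ ^ j) x = x := by
      intro j
      induction j with
      | zero => simp
      | succ j ih => rw [pow_succ, end_mul_apply, hx, ih]
    refine ⟨ε x, ?_⟩
    rw [nrm_apply]
    conv_rhs => rw [happ x]
    refine Finset.sum_congr rfl fun k _ => ?_
    rw [hpow]
  · rw [hIdx, relIndex_eq_one]
    intro x hx
    rw [AddMonoidHom.mem_ker, nrm_apply] at hx
    -- `∑_k ε (σ^(n-k) x) = ε (σ (N x)) = 0`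
    have h1 : ∑ k ∈ range n, (σ ^ (n - k)) x = 0 := by
      have hrefl := Finset.sum_range_reflect (fun j => (σ ^ (j + 1)) x) n
      have : ∑ k ∈ range n, (σ ^ (n - k)) x = ∑ j ∈ range n, (σ ^ (n - 1 - j + 1)) x := by
        refine Finset.sum_congr rfl fun k hk => ?_
        rw [Finset.mem_range] at hk
        congr 2
        omega
      rw [this, hrefl]
      have : ∑ j ∈ range n, (σ ^ (j + 1)) x = σ (∑ j ∈ range n, (σ ^ j) x) := by
        rw [map_sum]
        refine Finset.sum_congr rfl fun j _ => ?_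
        rw [pow_succ', end_mul_apply]
      rw [this, hx, map_zero]
    have h2 : ∑ k ∈ range n, ε ((σ ^ (n - k)) x) = 0 := by
      rw [← map_sum, h1, map_zero]
    -- the primitive
    refine ⟨∑ k ∈ range n, (∑ j ∈ range k, σ ^ j : AddMonoid.End M) (ε ((σ ^ (n - k)) x)), ?_⟩
    rw [map_sum]
    conv_rhs => rw [happ x, ← sub_zero (∑ k ∈ range n, (σ ^ k) (ε ((σ ^ (n - k)) x))), ← h2,
      ← Finset.sum_sub_distrib]
    refine Finset.sum_congr rfl fun k _ => ?_
    have hk : (σ - 1) * ∑ j ∈ range k, σ ^ j = σ ^ k - 1 := mul_geom_sum σ k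
    have := congrArg (fun e : AddMonoid.End M => e (ε ((σ ^ (n - k)) x))) hk
    exact this

end CohTrivial

section Shift

variable (n : ℕ) [NeZero n] (Y : Type*) [AddCommGroup Y]

/-- The cyclic shift on the induced module `ZMod n → Y`. -/
def shift : AddMonoid.End (ZMod n → Y) where
  toFun m := fun i => m (i - 1)
  map_zero' := rfl
  map_add' _ _ := rfl

/-- Evaluation at `0` followed by the inclusion of the `0`-th coordinate. -/
def eps0 : AddMonoid.End (ZMod n → Y) where
  toFun m := Pi.single 0 (m 0)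
  map_zero' := by simp
  map_add' a b := by
    ext i
    by_cases h : i = 0
    · subst h; simp
    · simp [h]

variable {n Y}

omit [NeZero n] in
lemma shift_apply (m : ZMod n → Y) (i : ZMod n) : shift n Y m i = m (i - 1) := rfl

omit [NeZero n] in
lemma shift_pow_apply (k : ℕ) (m : ZMod n → Y) (i : ZMod n) :
    (shift n Y ^ k) m i = m (i - k) := by
  induction k generalizing i with
  | zero => simp
  | succ k ih =>
    rw [pow_succ', end_mul_apply, shift_apply, ih]
    congr 1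
    push_cast
    ring

omit [NeZero n] in
theorem shift_pow_card : shift n Y ^ n = 1 := by
  ext m i
  rw [shift_pow_apply]
  simp

omit [NeZero n] in
lemma eps0_apply (m : ZMod n → Y) (i : ZMod n) :
    eps0 n Y m i = if i = 0 then m 0 else 0 := by
  show (Pi.single 0 (m 0) : ZMod n → Y) i = _
  by_cases h : i = 0
  · subst h; simp
  · simp [h]

theorem shift_splitting :
    ∑ k ∈ range n, shift n Y ^ k * eps0 n Y * shift n Y ^ (n - k) = 1 := by
  ext m i
  have h1 : (∑ k ∈ range n, shift n Y ^ k * eps0 n Y * shift n Y ^ (n - k) :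
      AddMonoid.End (ZMod n → Y)) m =
      ∑ k ∈ range n, (shift n Y ^ k) (eps0 n Y ((shift n Y ^ (n - k)) m)) :=
    AddMonoidHom.finsetSum_apply _ _ _
  rw [h1, Finset.sum_apply]
  have h2 : ∀ k ∈ range n, (shift n Y ^ k) (eps0 n Y ((shift n Y ^ (n - k)) m)) i =
      if k = i.val then m i else 0 := by
    intro k hk
    rw [Finset.mem_range] at hk
    rw [shift_pow_apply, eps0_apply, shift_pow_apply]
    have hcast : ((n - k : ℕ) : ZMod n) = -(k : ZMod n) := by
      rw [Nat.cast_sub hk.le]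
      simp
    by_cases hki : k = i.val
    · subst hki
      rw [if_pos rfl, if_pos (by simp), hcast]
      simp
    · rw [if_neg hki, if_neg]
      intro h
      apply hki
      rw [sub_eq_zero] at h
      rw [h, ZMod.val_natCast, Nat.mod_eq_of_lt hk]
  rw [Finset.sum_congr rfl h2, Finset.sum_ite_eq' (range n) i.val]
  rw [if_pos (Finset.mem_range.mpr (ZMod.val_lt i))]
  rfl

/-- **The induced module `ZMod n → Y` is cohomologically trivial.** -/
theorem shift_hIdx :
    hIdx (dlt (shift n Y)) (nrm (shift n Y) n) = 1 ∧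
      hIdx (nrm (shift n Y) n) (dlt (shift n Y)) = 1 :=
  cohTrivial_of_splitting shift_splitting

theorem shift_herbrandQ : herbrandQ (dlt (shift n Y)) (nrm (shift n Y) n) = 1 := by
  rw [herbrandQ, shift_hIdx.1, shift_hIdx.2]
  simp

theorem shift_defined : HerbrandDefined (dlt (shift n Y)) (nrm (shift n Y) n) := by
  refine ⟨?_, ?_⟩
  · rw [shift_hIdx.1]; exact one_ne_zero
  · rw [shift_hIdx.2]; exact one_ne_zero

end Shift

end Fermat.Agent.S14.Herbrand
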