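import Mathlib
import Fermat.Agent.S14.AmbigAbstract
import Fermat.Agent.S14.HerbrandCyclic

set_option autoImplicit false

/-!
# S14 / abstract first inequality, cyclic form

`AmbigAbstract.first_inequality'` specialised to `f = σ - 1`, `g = N = ∑_{i<n} σ^i`: the only
compatibility hypotheses are `d ∘ σ_A = σ_I ∘ d` and `ι ∘ σ_E = σ_A ∘ ι`.
-/

namespace Fermat.Agent.S14.AmbigAbstract

open AddSubgroup Fermat.Agent.S14.Herbrand

section Intertwine

variable {M N : Type*} [AddCommGroup M] [AddCommGroup N]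

/-- A homomorphism intertwining `σ` and `τ` intertwines their powers. -/
lemma intertwine_pow (φ : M →+ N) {σ : AddMonoid.End M} {τ : AddMonoid.End N}
    (h : ∀ x, φ (σ x) = τ (φ x)) (k : ℕ) (x : M) : φ ((σ ^ k) x) = (τ ^ k) (φ x) := by
  induction k generalizing x with
  | zero => rfl
  | succ k ih =>
    rw [pow_succ, pow_succ]
    show φ ((σ ^ k) (σ x)) = (τ ^ k) (τ (φ x))
    rw [ih, h]

lemma intertwine_dlt (φ : M →+ N) {σ : AddMonoid.End M} {τ : AddMonoid.End N}
    (h : ∀ x, φ (σ x) = τ (φ x)) (x : M) : φ (dlt σ x) = dlt τ (φ x) := by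
  rw [dlt_apply, dlt_apply, map_sub, h]

lemma intertwine_nrm (φ : M →+ N) {σ : AddMonoid.End M} {τ : AddMonoid.End N}
    (h : ∀ x, φ (σ x) = τ (φ x)) (n : ℕ) (x : M) : φ (nrm σ n x) = nrm τ n (φ x) := by
  rw [nrm_apply, nrm_apply, map_sum]
  exact Finset.sum_congr rfl fun k _ => intertwine_pow φ h k x

end Intertwine

variable {A I E : Type*} [AddCommGroup A] [AddCommGroup I] [AddCommGroup E]

/-- **Abstract first inequality, cyclic form.**  `A = Lˣ`, `I = Div_L`, `E = 𝓞_Lˣ` (all written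
additively), `σ` a generator of the cyclic group of order `n`.  If Hilbert 90 holds for `A`,
`H¹(I) = 0`, the class group `I / d(A)` and `I^σ / d(A^σ)` are finite and `q(E) = 1/n`, then
`n` divides the finite index `[I^σ : d(A^σ) + N(I)]`. -/
theorem first_inequality_cyclic (d : A →+ I) (ι : E →+ A)
    (σA : AddMonoid.End A) (σI : AddMonoid.End I) (σE : AddMonoid.End E) {n : ℕ}
    (hσA : σA ^ n = 1) (hσI : σI ^ n = 1)
    (hd : ∀ a, d (σA a) = σI (d a))
    (hι : Function.Injective ι) (hιr : ι.range = d.ker) (hισ : ∀ e, ι (σE e) = σA (ι e))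
    (h90 : ∀ a, nrm σA n a = 0 → ∃ b, σA b - b = a)
    (hI : ∀ x, nrm σI n x = 0 → ∃ y, σI y - y = x)
    (hfin : d.range.index ≠ 0)
    (hK : ((dlt σA).ker.map d).relIndex (dlt σI).ker ≠ 0)
    (hq0 : hIdx (dlt σE) (nrm σE n) ≠ 0)
    (hq : hIdx (nrm σE n) (dlt σE) = n * hIdx (dlt σE) (nrm σE n)) :
    (((dlt σA).ker.map d) ⊔ (nrm σI n).range).relIndex (dlt σI).ker ≠ 0 ∧
      n ∣ (((dlt σA).ker.map d) ⊔ (nrm σI n).range).relIndex (dlt σI).ker ∧
      n ≤ (((dlt σA).ker.map d) ⊔ (nrm σI n).range).relIndex (dlt σI).ker := by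
  have h90' : (nrm σA n).ker ≤ (dlt σA).range := by
    intro a ha
    obtain ⟨b, hb⟩ := h90 a ha
    exact ⟨b, by rw [dlt_apply, hb]⟩
  have hI' : (nrm σI n).ker ≤ (dlt σI).range := by
    intro x hx
    obtain ⟨y, hy⟩ := hI x hx
    exact ⟨y, by rw [dlt_apply, hy]⟩
  have key := first_inequality' (d := d) (fA := dlt σA) (gA := nrm σA n) (fI := dlt σI)
    (gI := nrm σI n) (fE := dlt σE) (gE := nrm σE n) (n := n) ι hι hιr
    (fun e => (intertwine_dlt ι hισ e).symm) (fun e => (intertwine_nrm ι hισ n e).symm)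
    (intertwine_dlt d hd) (intertwine_nrm d hd n)
    (dlt_nrm hσA) (nrm_dlt hσA) (dlt_nrm hσI) (nrm_dlt hσI) h90' hI' hfin hK hq hq0
  exact ⟨key.2, key.1, Nat.le_of_dvd (Nat.pos_of_ne_zero key.2) key.1⟩

end Fermat.Agent.S14.AmbigAbstract
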