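import Mathlib
import Fermat.Agent.S14.AmbigCyclic

set_option autoImplicit false

/-!
# S14 / first inequality: abstract glue between the `L`-side and the `K`-side

`first_inequality_cyclic` lives entirely on the `L`-side (`A_L = Lˣ`, `D_L = Div_L`,
`E_L = 𝓞_Lˣ`).  Here we add the `K`-side (`A_K`, `D_K`, class groups `C_L`, `C_K`) together with
`ext : D_K → D_L`, `Nm : D_L → D_K` and conclude that `n` divides the index of the subgroup of
norm classes `cls_K (Nm D_L) ≤ C_K`.
-/

namespace Fermat.Agent.S14.AmbigAbstract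

open AddSubgroup Fermat.Agent.S14.Herbrand

variable {AL AK DL DK EL CL CK : Type*} [AddCommGroup AL] [AddCommGroup AK] [AddCommGroup DL]
  [AddCommGroup DK] [AddCommGroup EL] [AddCommGroup CL] [AddCommGroup CK]

/-- **Abstract first inequality, with the base field.** -/
theorem first_inequality_glue [Finite CL] [Finite CK]
    (dL : AL →+ DL) (dK : AK →+ DK) (clsL : DL →+ CL) (clsK : DK →+ CK)
    (extA : AK →+ AL) (ext : DK →+ DL) (Nm : DL →+ DK) (ι : EL →+ AL)
    (σA : AddMonoid.End AL) (σI : AddMonoid.End DL) (σE : AddMonoid.End EL) {n : ℕ}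
    (hkerL : clsL.ker = dL.range)
    (hclsK : Function.Surjective clsK) (hkerK : clsK.ker = dK.range)
    (hσA : σA ^ n = 1) (hσI : σI ^ n = 1) (hd : ∀ a, dL (σA a) = σI (dL a))
    (hι : Function.Injective ι) (hιr : ι.range = dL.ker) (hισ : ∀ e, ι (σE e) = σA (ι e))
    (h90 : ∀ a, nrm σA n a = 0 → ∃ b, σA b - b = a)
    (hI : ∀ x, nrm σI n x = 0 → ∃ y, σI y - y = x)
    (hfixA : (dlt σA).ker = extA.range)
    (hfixI : (dlt σI).ker = ext.range)
    (hext : Function.Injective ext)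
    (hcomm : ∀ a, dL (extA a) = ext (dK a))
    (hNm : ∀ D, nrm σI n D = ext (Nm D))
    (hq0 : hIdx (dlt σE) (nrm σE n) ≠ 0)
    (hq : hIdx (nrm σE n) (dlt σE) = n * hIdx (dlt σE) (nrm σE n)) :
    n ∣ (Nm.range.map clsK).index ∧ (Nm.range.map clsK).index ≠ 0 := by
  have hfin : dL.range.index ≠ 0 := by
    rw [← hkerL, AddSubgroup.index_ker]
    exact Nat.card_pos.ne'
  have e1 : (dlt σA).ker.map dL = dK.range.map ext := by
    rw [hfixA]
    ext x
    constructor
    · rintro ⟨_, ⟨a, rfl⟩, rfl⟩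
      exact ⟨dK a, ⟨a, rfl⟩, (hcomm a).symm⟩
    · rintro ⟨_, ⟨a, rfl⟩, rfl⟩
      exact ⟨extA a, ⟨a, rfl⟩, hcomm a⟩
  have e2 : (dlt σI).ker = (⊤ : AddSubgroup DK).map ext := by
    rw [hfixI, AddMonoidHom.range_eq_map]
  have e3 : (nrm σI n).range = Nm.range.map ext := by
    ext x
    constructor
    · rintro ⟨D, rfl⟩
      exact ⟨Nm D, ⟨D, rfl⟩, (hNm D).symm⟩
    · rintro ⟨_, ⟨D, rfl⟩, rfl⟩
      exact ⟨D, hNm D⟩
  have hK : ((dlt σA).ker.map dL).relIndex (dlt σI).ker ≠ 0 := by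
    rw [e1, e2, relIndex_map_map_of_injective _ _ hext, relIndex_top_right, ← hkerK,
      AddSubgroup.index_ker]
    exact Nat.card_pos.ne'
  have key := first_inequality_cyclic dL ι σA σI σE hσA hσI hd hι hιr hισ h90 hI hfin hK hq0 hq
  have e4 : ((dlt σA).ker.map dL ⊔ (nrm σI n).range).relIndex (dlt σI).ker =
      (Nm.range.map clsK).index := by
    rw [e1, e2, e3, ← AddSubgroup.map_sup, relIndex_map_map_of_injective _ _ hext,
      relIndex_top_right, ← index_comap_of_surjective _ hclsK, comap_map_eq, hkerK, sup_comm]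
  rw [e4] at key
  exact ⟨key.2.1, key.1⟩

end Fermat.Agent.S14.AmbigAbstract
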