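import Mathlib
import Fermat.Agent.S14.HerbrandCyclic

set_option autoImplicit false

/-!
# S14 / Hilbert 90 and Galois invariants for `Additive Lˣ`, bare-endomorphism form

For a finite cyclic Galois extension `L/K` with generator `σ` and `n = [L:K]`, acting on
`A := Additive Lˣ` through `fieldUnitsEnd K L σ`:

* `fieldUnitsEnd_pow_finrank` : `σ_A ^ n = 1`;
* `h90` : `nrm σ_A n a = 0 → ∃ b, σ_A b - b = a` (Hilbert 90, from Mathlib);
* `ker_dlt` : `ker (σ_A - 1) = range (Additive Kˣ → Additive Lˣ)`.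
-/

namespace Fermat.Agent.S14.H90

open Finset Fermat.Agent.S14.Herbrand

variable (K L : Type) [Field K] [Field L] [Algebra K L]

/-- The action of `Gal(L/K)` on `Additive Lˣ`. -/
noncomputable def fieldUnitsEnd : (L ≃ₐ[K] L) →* AddMonoid.End (Additive Lˣ) where
  toFun σ := MonoidHom.toAdditive (Units.map ((σ : L ≃ₐ[K] L) : L →* L))
  map_one' := by
    ext x
    rfl
  map_mul' σ τ := by
    ext x
    rfl

/-- `Additive Kˣ → Additive Lˣ`. -/
noncomputable def extA : Additive Kˣ →+ Additive Lˣ :=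
  MonoidHom.toAdditive (Units.map ((algebraMap K L : K →+* L) : K →* L))

variable {K L}

lemma fieldUnitsEnd_apply (σ : L ≃ₐ[K] L) (x : Lˣ) :
    (((fieldUnitsEnd K L σ (Additive.ofMul x)).toMul : Lˣ) : L) = σ (x : L) := rfl

lemma fieldUnitsEnd_ofMul (σ : L ≃ₐ[K] L) (x : Lˣ) :
    fieldUnitsEnd K L σ (Additive.ofMul x) =
      Additive.ofMul (Units.map ((σ : L ≃ₐ[K] L) : L →* L) x) := rfl

lemma extA_apply (x : Kˣ) : (((extA K L (Additive.ofMul x)).toMul : Lˣ) : L) =
    algebraMap K L (x : K) := rfl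

lemma extA_injective : Function.Injective (extA K L) := by
  intro a b h
  have h1 : (((extA K L a).toMul : Lˣ) : L) = (((extA K L b).toMul : Lˣ) : L) := by rw [h]
  have h2 : algebraMap K L ((a.toMul : Kˣ) : K) = algebraMap K L ((b.toMul : Kˣ) : K) := h1
  have h3 := (algebraMap K L).injective h2
  exact congrArg Additive.ofMul (Units.ext h3)

lemma fieldUnitsEnd_pow_apply (σ : L ≃ₐ[K] L) (k : ℕ) (x : Lˣ) :
    ((((fieldUnitsEnd K L σ ^ k) (Additive.ofMul x)).toMul : Lˣ) : L) = (σ ^ k) (x : L) := by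
  rw [← map_pow]
  rfl

lemma coe_toMul_sum {ι : Type*} (s : Finset ι) (f : ι → Additive Lˣ) :
    (((∑ i ∈ s, f i).toMul : Lˣ) : L) = ∏ i ∈ s, (((f i).toMul : Lˣ) : L) := by
  classical
  induction s using Finset.induction_on with
  | empty => simp
  | insert a s ha ih =>
    rw [Finset.sum_insert ha, Finset.prod_insert ha, toMul_add, Units.val_mul, ih]

variable [FiniteDimensional K L] [IsGalois K L]

theorem fieldUnitsEnd_pow_finrank (σ : L ≃ₐ[K] L) :
    fieldUnitsEnd K L σ ^ Module.finrank K L = 1 := by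
  rw [← map_pow, ← IsGalois.card_aut_eq_finrank, pow_card_eq_one', map_one]

/-- The norm `∑_{i<n} σ^i` on `Additive Lˣ` is the field norm, for `σ` a generator. -/
theorem nrm_coe {σ : L ≃ₐ[K] L} (hσ : ∀ g, g ∈ Subgroup.zpowers σ) (x : Lˣ) :
    (((nrm (fieldUnitsEnd K L σ) (Module.finrank K L) (Additive.ofMul x)).toMul : Lˣ) : L) =
      algebraMap K L (Algebra.norm K (x : L)) := by
  classical
  rw [nrm_apply, coe_toMul_sum, Algebra.norm_eq_prod_automorphisms]
  simp only [fieldUnitsEnd_pow_apply]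
  have himg := IsCyclic.image_range_card hσ
  rw [IsGalois.card_aut_eq_finrank] at himg
  rw [← himg, Finset.prod_image]
  intro i hi j hj hij
  have hi' : i < orderOf σ := by
    rw [orderOf_eq_card_of_forall_mem_zpowers hσ, IsGalois.card_aut_eq_finrank]
    exact Finset.mem_range.mp hi
  have hj' : j < orderOf σ := by
    rw [orderOf_eq_card_of_forall_mem_zpowers hσ, IsGalois.card_aut_eq_finrank]
    exact Finset.mem_range.mp hj
  exact pow_injOn_Iio_orderOf hi' hj' hij

/-- **Hilbert 90**, bare-endomorphism form. -/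
theorem h90 {σ : L ≃ₐ[K] L} (hσ : ∀ g, g ∈ Subgroup.zpowers σ) (a : Additive Lˣ)
    (ha : nrm (fieldUnitsEnd K L σ) (Module.finrank K L) a = 0) :
    ∃ b, fieldUnitsEnd K L σ b - b = a := by
  have : IsCyclic (L ≃ₐ[K] L) := ⟨⟨σ, hσ⟩⟩
  obtain ⟨x, rfl⟩ : ∃ x : Lˣ, Additive.ofMul x = a := ⟨a.toMul, rfl⟩
  have h1 := nrm_coe hσ x
  rw [ha] at h1
  have h2 : algebraMap K L (Algebra.norm K (x : L)) = 1 := by
    rw [← h1]
    rfl
  have h3 : Algebra.norm K (x : L) = 1 :=
    (algebraMap K L).injective (by rw [h2, map_one])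
  obtain ⟨y, hy⟩ := groupCohomology.exists_div_of_norm_eq_one hσ h3
  refine ⟨Additive.ofMul y⁻¹, ?_⟩
  rw [fieldUnitsEnd_ofMul, ← ofMul_div]
  congr 1
  apply Units.ext
  rw [Units.val_div_eq_div_val, ← hy]
  simp only [map_inv, Units.coe_map, MonoidHom.coe_coe, Units.val_inv_eq_inv_val]
  rw [inv_div_inv]

/-- The `σ`-invariants of `Additive Lˣ` are the image of `Additive Kˣ`. -/
theorem ker_dlt {σ : L ≃ₐ[K] L} (hσ : ∀ g, g ∈ Subgroup.zpowers σ) :
    (dlt (fieldUnitsEnd K L σ)).ker = (extA K L).range := by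
  ext a
  obtain ⟨x, rfl⟩ : ∃ x : Lˣ, Additive.ofMul x = a := ⟨a.toMul, rfl⟩
  rw [AddMonoidHom.mem_ker, dlt_apply, sub_eq_zero]
  constructor
  · intro h
    have h1 : σ (x : L) = x := by
      have := congrArg (fun z : Additive Lˣ => ((z.toMul : Lˣ) : L)) h
      exact this
    have h2 : ∀ g : L ≃ₐ[K] L, g (x : L) = x := by
      intro g
      obtain ⟨k, rfl⟩ := hσ g
      have hfix : ∀ k : ℕ, (σ ^ k) (x : L) = x := by
        intro k
        induction k with
        | zero => rfl
        | succ k ih =>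
          rw [pow_succ]
          show (σ ^ k) (σ (x : L)) = x
          rw [h1, ih]
      have hinv : ∀ τ : L ≃ₐ[K] L, τ (x : L) = x → τ⁻¹ (x : L) = x := by
        intro τ hτ
        have : τ⁻¹ (τ (x : L)) = (x : L) := by
          show (τ⁻¹ * τ) (x : L) = x
          rw [inv_mul_cancel]
          rfl
        rw [hτ] at this
        exact this
      rcases Int.eq_nat_or_neg k with ⟨m, rfl | rfl⟩
      · show (σ ^ (m : ℤ)) (x : L) = x
        rw [zpow_natCast]
        exact hfix m
      · show (σ ^ (-(m : ℤ))) (x : L) = x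
        rw [zpow_neg, zpow_natCast]
        exact hinv _ (hfix m)
    obtain ⟨y, hy⟩ := (IsGalois.mem_range_algebraMap_iff_fixed (F := K) (x : L)).mpr h2
    have hy0 : y ≠ 0 := by
      rintro rfl
      rw [map_zero] at hy
      exact x.ne_zero hy.symm
    refine ⟨Additive.ofMul (Units.mk0 y hy0), ?_⟩
    apply congrArg Additive.ofMul
    apply Units.ext
    exact hy
  · rintro ⟨b, hb⟩
    obtain ⟨y, rfl⟩ : ∃ y : Kˣ, Additive.ofMul y = b := ⟨b.toMul, rfl⟩
    rw [← hb]
    apply congrArg Additive.ofMul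
    apply Units.ext
    show σ (algebraMap K L (y : K)) = algebraMap K L (y : K)
    exact σ.commutes _

end Fermat.Agent.S14.H90
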