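import Mathlib
import Fermat.Agent.S14.HerbrandCyclic

set_option autoImplicit false

/-!
# S14 / permutation modules have trivial `H¹` for a cyclic group

For a permutation `σ` of a set `X` with `σ ^ n = 1` (`n ≠ 0`), acting on the permutation module
`X →₀ ℤ`: `ker (∑_{i<n} σ^i) ≤ range (σ - 1)`.  (Applied to `X` = the set of primes of `𝓞 L`:
`H¹(G, I_L) = 0` for a cyclic group `G = ⟨σ⟩`, with no hypothesis on ramification.)
-/

namespace Fermat.Agent.S14.PermModule

open Finset Fermat.Agent.S14.Herbrand

variable {X : Type*}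

/-- The endomorphism of the permutation module `X →₀ ℤ` induced by a permutation of `X`. -/
noncomputable def permEnd (σ : Equiv.Perm X) : AddMonoid.End (X →₀ ℤ) :=
  Finsupp.mapDomain.addMonoidHom σ

lemma permEnd_apply (σ : Equiv.Perm X) (m : X →₀ ℤ) : permEnd σ m = Finsupp.mapDomain σ m := rfl

lemma permEnd_single (σ : Equiv.Perm X) (x : X) (c : ℤ) :
    permEnd σ (Finsupp.single x c) = Finsupp.single (σ x) c := by
  rw [permEnd_apply, Finsupp.mapDomain_single]

lemma permEnd_apply_apply (σ : Equiv.Perm X) (m : X →₀ ℤ) (x : X) :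
    permEnd σ m (σ x) = m x := by
  rw [permEnd_apply, Finsupp.mapDomain_apply σ.injective]

lemma permEnd_one : permEnd (1 : Equiv.Perm X) = 1 := by
  ext m : 1
  rw [permEnd_apply]
  exact Finsupp.mapDomain_id

lemma permEnd_mul (σ τ : Equiv.Perm X) : permEnd (σ * τ) = permEnd σ * permEnd τ := by
  ext m : 1
  show Finsupp.mapDomain (σ ∘ τ) m = Finsupp.mapDomain σ (Finsupp.mapDomain τ m)
  exact Finsupp.mapDomain_comp

lemma permEnd_pow (σ : Equiv.Perm X) (k : ℕ) : permEnd σ ^ k = permEnd (σ ^ k) := by
  induction k with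
  | zero => rw [pow_zero, pow_zero, permEnd_one]
  | succ k ih => rw [pow_succ, pow_succ, permEnd_mul, ih]

theorem permEnd_pow_eq_one {σ : Equiv.Perm X} {n : ℕ} (h : σ ^ n = 1) : permEnd σ ^ n = 1 := by
  rw [permEnd_pow, h, permEnd_one]

/-- `e_{σ^k y} - e_y ∈ im (σ - 1)`. -/
lemma single_pow_sub_mem (σ : Equiv.Perm X) (k : ℕ) (y : X) (c : ℤ) :
    Finsupp.single ((σ ^ k) y) c - Finsupp.single y c ∈ (dlt (permEnd σ)).range := by
  refine ⟨(∑ j ∈ range k, permEnd σ ^ j : AddMonoid.End (X →₀ ℤ)) (Finsupp.single y c), ?_⟩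
  have h : (permEnd σ - 1) * ∑ j ∈ range k, permEnd σ ^ j = permEnd σ ^ k - 1 := mul_geom_sum _ _
  have h2 : (permEnd σ - 1 : AddMonoid.End (X →₀ ℤ))
      ((∑ j ∈ range k, permEnd σ ^ j : AddMonoid.End (X →₀ ℤ)) (Finsupp.single y c)) =
      (permEnd σ ^ k) (Finsupp.single y c) - Finsupp.single y c :=
    congrArg (fun e : AddMonoid.End (X →₀ ℤ) => e (Finsupp.single y c)) h
  rw [permEnd_pow, permEnd_single] at h2
  exact h2

/-- **`H¹` of a permutation module vanishes** (cyclic group generated by `σ`, `σ ^ n = 1`). -/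
theorem ker_nrm_le_range_dlt {σ : Equiv.Perm X} {n : ℕ} (hn : n ≠ 0) (h : σ ^ n = 1) :
    (nrm (permEnd σ) n).ker ≤ (dlt (permEnd σ)).range := by
  classical
  let s : Setoid X := Equiv.Perm.SameCycle.setoid σ
  let q : X → Quotient s := Quotient.mk s
  let r : Quotient s → X := Quotient.out
  let S : (X →₀ ℤ) →+ (Quotient s →₀ ℤ) := Finsupp.mapDomain.addMonoidHom q
  have hqσ : ∀ x, q (σ x) = q x := by
    intro x
    apply Quotient.sound
    show σ.SameCycle (σ x) x
    exact ⟨-1, by simp⟩
  have hSσ : ∀ m, S (permEnd σ m) = S m := by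
    intro m
    show Finsupp.mapDomain q (Finsupp.mapDomain σ m) = Finsupp.mapDomain q m
    rw [← Finsupp.mapDomain_comp]
    congr 1
    funext x
    exact hqσ x
  have hSpow : ∀ (k : ℕ) m, S ((permEnd σ ^ k) m) = S m := by
    intro k
    induction k with
    | zero => intro m; rfl
    | succ k ih =>
      intro m
      rw [pow_succ']
      show S (permEnd σ ((permEnd σ ^ k) m)) = S m
      rw [hSσ, ih]
  have hSN : ∀ m, S (nrm (permEnd σ) n m) = n • S m := by
    intro m
    rw [nrm_apply, map_sum]
    simp only [hSpow]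
    rw [sum_const, card_range]
  -- every element is congruent to its image under `T` modulo `im (σ - 1)`
  have hT : ∀ m : X →₀ ℤ, m - Finsupp.mapDomain r (S m) ∈ (dlt (permEnd σ)).range := by
    intro m
    induction m using Finsupp.induction_linear with
    | zero =>
      rw [map_zero, Finsupp.mapDomain_zero, sub_zero]
      exact zero_mem _
    | add f g hf hg =>
      rw [map_add, Finsupp.mapDomain_add, add_sub_add_comm]
      exact add_mem hf hg
    | single x c =>
      have e1 : Finsupp.mapDomain r (S (Finsupp.single x c)) = Finsupp.single (r (q x)) c := by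
        show Finsupp.mapDomain r (Finsupp.mapDomain q (Finsupp.single x c)) = _
        rw [Finsupp.mapDomain_single, Finsupp.mapDomain_single]
      rw [e1]
      have hsc : σ.SameCycle (r (q x)) x := by
        have : q (r (q x)) = q x := Quotient.out_eq (q x)
        exact Quotient.exact this
      obtain ⟨i, hi⟩ := hsc
      have hi' : (σ ^ (i % (n : ℤ)).toNat) (r (q x)) = x := by
        have h0 : 0 ≤ i % (n : ℤ) := Int.emod_nonneg _ (by exact_mod_cast hn)
        have : σ ^ i = σ ^ (i % (n : ℤ)).toNat := by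
          rw [zpow_eq_zpow_emod' i h, ← zpow_natCast, Int.toNat_of_nonneg h0]
        rw [← this]
        exact hi
      have := single_pow_sub_mem σ (i % (n : ℤ)).toNat (r (q x)) c
      rw [hi'] at this
      exact this
  intro m hm
  have hm' : nrm (permEnd σ) n m = 0 := hm
  have hS0 : S m = 0 := by
    have := hSN m
    rw [hm', map_zero] at this
    have h2 : (n : ℤ) • S m = 0 := by
      rw [natCast_zsmul]
      exact this.symm
    rcases smul_eq_zero.mp h2 with h3 | h3
    · exact absurd (by exact_mod_cast h3) hn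
    · exact h3
  have := hT m
  rw [hS0, Finsupp.mapDomain_zero, sub_zero] at this
  exact this

/-- Same statement with explicit witnesses. -/
theorem exists_dlt_eq_of_nrm_eq_zero {σ : Equiv.Perm X} {n : ℕ} (hn : n ≠ 0) (h : σ ^ n = 1)
    {m : X →₀ ℤ} (hm : nrm (permEnd σ) n m = 0) : ∃ y : X →₀ ℤ, permEnd σ y - y = m := by
  obtain ⟨y, hy⟩ := ker_nrm_le_range_dlt hn h hm
  exact ⟨y, by rw [← hy, dlt_apply]⟩

/-- Fixed points of a permutation module: functions constant along `σ`. -/
theorem mem_ker_dlt_iff (σ : Equiv.Perm X) (m : X →₀ ℤ) :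
    m ∈ (dlt (permEnd σ)).ker ↔ ∀ x, m (σ x) = m x := by
  rw [AddMonoidHom.mem_ker, dlt_apply, sub_eq_zero]
  constructor
  · intro h x
    have := permEnd_apply_apply σ m x
    rw [h] at this
    exact this
  · intro h
    ext z
    obtain ⟨x, rfl⟩ := σ.surjective z
    rw [permEnd_apply_apply, h]

end Fermat.Agent.S14.PermModule
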