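import Mathlib
import Fermat.Agent.S14.Defs
import Fermat.Agent.S14.DivClass
import Fermat.Agent.S14.PermModule
import Fermat.Agent.S14.Hilbert90Add
import Fermat.Agent.S14.FirstIneqGlue

set_option autoImplicit false
set_option linter.unusedSectionVars false

/-!
# S14 / first inequality for number fields, modulo the Galois-divisor dictionary

`first_inequality_nf_of`: for a cyclic extension `L/K` of number fields with generator `σ`,
the index of the subgroup of norm classes in `Cl(K)` is divisible by `[L:K]`, PROVIDED the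
Galois-divisor dictionary (N2) and the Herbrand quotient of the units (N3a) are supplied as
hypotheses.
-/

open NumberField IsDedekindDomain
open scoped nonZeroDivisors

namespace Fermat.Agent.S14.FirstIneq

open Fermat.Agent.S14.Herbrand Fermat.Agent.S14.AmbigAbstract Fermat.Agent.S14.PermModule
  Fermat.Agent.S14.DivClass Fermat.Agent.S14.H90

variable (K L : Type) [Field K] [Field L] [NumberField K] [NumberField L] [Algebra K L]

/-- The inclusion `Additive (𝓞 L)ˣ →+ Additive Lˣ`. -/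
noncomputable def unitsIncl : Additive (𝓞 L)ˣ →+ Additive Lˣ :=
  (Units.map (algebraMap (𝓞 L) L : 𝓞 L →* L)).toAdditive

lemma unitsIncl_injective : Function.Injective (unitsIncl L) := by
  intro a b h
  have h1 : (((unitsIncl L a).toMul : Lˣ) : L) = (((unitsIncl L b).toMul : Lˣ) : L) := by rw [h]
  have h2 : algebraMap (𝓞 L) L ((a.toMul : (𝓞 L)ˣ) : 𝓞 L) =
      algebraMap (𝓞 L) L ((b.toMul : (𝓞 L)ˣ) : 𝓞 L) := h1
  have h3 := RingOfIntegers.coe_injective h2
  exact congrArg Additive.ofMul (Units.ext h3)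

lemma unitsIncl_range : (unitsIncl L).range = (divK (𝓞 L) L).ker := (ker_divK (𝓞 L) L).symm

/-- The subgroup of norm classes, additively, is the image of the divisor norm. -/
theorem normClassSubgroup_eq
    (Nm : (HeightOneSpectrum (𝓞 L) →₀ ℤ) →+ (HeightOneSpectrum (𝓞 K) →₀ ℤ))
    (hNmI : ∀ J : (Ideal (𝓞 L))⁰, Nm (divI (𝓞 L) (J : Ideal (𝓞 L))) =
      divI (𝓞 K) (Ideal.relNorm (𝓞 K) (J : Ideal (𝓞 L)))) :
    Nm.range.map (cls (𝓞 K) K) = (normClassSubgroup K L).toAddSubgroup := by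
  apply le_antisymm
  · rintro _ ⟨_, ⟨D, rfl⟩, rfl⟩
    induction D using Finsupp.induction_linear with
    | zero =>
      rw [map_zero, map_zero]
      exact zero_mem _
    | add f g hf hg =>
      rw [map_add, map_add]
      exact add_mem hf hg
    | single w c =>
      have hw : w.asIdeal ∈ (Ideal (𝓞 L))⁰ := mem_nonZeroDivisors_iff_ne_zero.mpr w.ne_bot
      have h1 : Finsupp.single w c = c • divI (𝓞 L) w.asIdeal := by
        rw [divI_prime, Finsupp.smul_single, smul_eq_mul, mul_one]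
      rw [h1, map_zsmul, map_zsmul]
      apply zsmul_mem
      have h2 := hNmI ⟨w.asIdeal, hw⟩
      simp only at h2
      rw [h2]
      have h3 := cls_divI (K := K) (relNorm0 K L ⟨w.asIdeal, hw⟩)
      rw [coe_relNorm0] at h3
      rw [h3]
      exact mk0_relNorm0_mem K L ⟨w.asIdeal, hw⟩
  · rw [normClassSubgroup, Subgroup.toAddSubgroup_closure, AddSubgroup.closure_le]
    rintro c ⟨A, hA⟩
    refine ⟨Nm (divI (𝓞 L) (A : Ideal (𝓞 L))), ⟨_, rfl⟩, ?_⟩
    rw [hNmI A]
    have h3 := cls_divI (K := K) (relNorm0 K L A)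
    rw [coe_relNorm0] at h3
    rw [h3]
    apply Additive.toMul.injective
    exact hA

variable [IsGalois K L]

/-- **First inequality for number fields, modulo (N2) and (N3a).** -/
theorem first_inequality_nf_of (σ : L ≃ₐ[K] L) (hσ : ∀ g, g ∈ Subgroup.zpowers σ)
    -- (N2) the Galois-divisor dictionary
    (perm : Equiv.Perm (HeightOneSpectrum (𝓞 L)))
    (hperm : perm ^ Module.finrank K L = 1)
    (hval : ∀ a : Additive Lˣ, divK (𝓞 L) L (fieldUnitsEnd K L σ a) =
      permEnd perm (divK (𝓞 L) L a))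
    (ext : (HeightOneSpectrum (𝓞 K) →₀ ℤ) →+ (HeightOneSpectrum (𝓞 L) →₀ ℤ))
    (Nm : (HeightOneSpectrum (𝓞 L) →₀ ℤ) →+ (HeightOneSpectrum (𝓞 K) →₀ ℤ))
    (hext : Function.Injective ext)
    (hfix : ∀ D : HeightOneSpectrum (𝓞 L) →₀ ℤ, (∀ w, D (perm w) = D w) ↔ D ∈ ext.range)
    (hcomm : ∀ a : Additive Kˣ, divK (𝓞 L) L (extA K L a) = ext (divK (𝓞 K) K a))
    (hNm : ∀ D, nrm (permEnd perm) (Module.finrank K L) D = ext (Nm D))
    (hNmI : ∀ J : (Ideal (𝓞 L))⁰, Nm (divI (𝓞 L) (J : Ideal (𝓞 L))) =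
      divI (𝓞 K) (Ideal.relNorm (𝓞 K) (J : Ideal (𝓞 L))))
    -- (N3a) the Herbrand quotient of the units
    (σE : AddMonoid.End (Additive (𝓞 L)ˣ))
    (hσE : ∀ e, unitsIncl L (σE e) = fieldUnitsEnd K L σ (unitsIncl L e))
    (hq0 : hIdx (dlt σE) (nrm σE (Module.finrank K L)) ≠ 0)
    (hq : hIdx (nrm σE (Module.finrank K L)) (dlt σE) =
      Module.finrank K L * hIdx (dlt σE) (nrm σE (Module.finrank K L))) :
    Module.finrank K L ∣ (normClassSubgroup K L).index ∧ (normClassSubgroup K L).index ≠ 0 := by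
  have hn : Module.finrank K L ≠ 0 := Module.finrank_pos.ne'
  have hfixI : (dlt (permEnd perm)).ker = ext.range := by
    ext D
    rw [mem_ker_dlt_iff]
    exact hfix D
  have key := first_inequality_glue (CL := Additive (ClassGroup (𝓞 L)))
    (CK := Additive (ClassGroup (𝓞 K)))
    (divK (𝓞 L) L) (divK (𝓞 K) K) (cls (𝓞 L) L) (cls (𝓞 K) K) (extA K L) ext Nm (unitsIncl L)
    (fieldUnitsEnd K L σ) (permEnd perm) σE (n := Module.finrank K L)
    (ker_cls (𝓞 L) L) (cls_surjective (𝓞 K) K) (ker_cls (𝓞 K) K)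
    (fieldUnitsEnd_pow_finrank σ) (permEnd_pow_eq_one hperm) hval
    (unitsIncl_injective L) (unitsIncl_range L) hσE
    (h90 hσ) (fun x hx => exists_dlt_eq_of_nrm_eq_zero hn hperm hx)
    (ker_dlt hσ) hfixI hext hcomm hNm hq0 hq
  rw [normClassSubgroup_eq K L Nm hNmI, Subgroup.index_toAddSubgroup] at key
  exact key

end Fermat.Agent.S14.FirstIneq
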