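import Mathlib

/-!
# S14 block A, piece (N2): Galois action on the finite places of a Galois extension of
number fields and the induced maps on divisor groups

`K ⊆ L` number fields, `L/K` Galois, `G = L ≃ₐ[K] L`,
`PL = HeightOneSpectrum (𝓞 L)`, `PK = HeightOneSpectrum (𝓞 K)`.
Divisors are `PL →₀ ℤ`, `PK →₀ ℤ` (additive).
-/

set_option autoImplicit false
set_option linter.unusedSectionVars false

open NumberField IsDedekindDomain WithZero
open scoped Pointwise

namespace Fermat.Agent.S14.GalDiv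

variable {K L : Type*} [Field K] [Field L] [NumberField K] [NumberField L] [Algebra K L]

/-! ### (a) the action of `Gal(L/K)` on the finite places of `L` -/

section action

variable [IsGalois K L]

/-- The Galois group permutes the height one primes of `𝓞 L`. -/
noncomputable instance instMulActionPL : MulAction (L ≃ₐ[K] L) (HeightOneSpectrum (𝓞 L)) where
  smul σ w :=
    { asIdeal := σ • w.asIdeal
      isPrime := inferInstance
      ne_bot := by
        intro h
        apply w.ne_bot
        have := congrArg (fun I : Ideal (𝓞 L) => σ⁻¹ • I) h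
        simpa using this }
  one_smul w := HeightOneSpectrum.ext (one_smul _ w.asIdeal)
  mul_smul σ τ w := HeightOneSpectrum.ext (mul_smul σ τ w.asIdeal)

@[simp]
theorem smul_asIdeal (σ : L ≃ₐ[K] L) (w : HeightOneSpectrum (𝓞 L)) :
    (σ • w).asIdeal = σ • w.asIdeal := rfl

theorem mem_smul_asIdeal_iff (σ : L ≃ₐ[K] L) (w : HeightOneSpectrum (𝓞 L)) (x : 𝓞 L) :
    x ∈ (σ • w).asIdeal ↔ σ⁻¹ • x ∈ w.asIdeal := by
  rw [smul_asIdeal, ← Ideal.smul_mem_pointwise_smul_iff (a := σ⁻¹), inv_smul_smul]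

theorem smul_mem_smul_asIdeal_iff (σ : L ≃ₐ[K] L) (w : HeightOneSpectrum (𝓞 L)) (x : 𝓞 L) :
    σ • x ∈ (σ • w).asIdeal ↔ x ∈ w.asIdeal := by
  rw [smul_asIdeal, Ideal.smul_mem_pointwise_smul_iff]

end action


/-! ### (b) the prime of `K` below a prime of `L` -/

section under

variable (K)

/-- The height one prime of `𝓞 K` below a height one prime of `𝓞 L`
(Mathlib's `HeightOneSpectrum.under`). -/
abbrev underK (w : HeightOneSpectrum (𝓞 L)) : HeightOneSpectrum (𝓞 K) :=
  HeightOneSpectrum.under (𝓞 K) w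

@[simp]
theorem underK_asIdeal (w : HeightOneSpectrum (𝓞 L)) :
    (underK K w).asIdeal = w.asIdeal.under (𝓞 K) := rfl

instance liesOver_underK (w : HeightOneSpectrum (𝓞 L)) :
    w.asIdeal.LiesOver (underK K w).asIdeal := ⟨rfl⟩

theorem underK_eq_iff (w : HeightOneSpectrum (𝓞 L)) (v : HeightOneSpectrum (𝓞 K)) :
    underK K w = v ↔ w.asIdeal.LiesOver v.asIdeal := by
  constructor
  · rintro rfl; infer_instance
  · intro h
    exact HeightOneSpectrum.ext (h.over).symm

variable [IsGalois K L]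

theorem underK_smul (σ : L ≃ₐ[K] L) (w : HeightOneSpectrum (𝓞 L)) :
    underK K (σ • w) = underK K w := by
  apply HeightOneSpectrum.ext
  ext x
  simp only [underK_asIdeal, Ideal.under_def, Ideal.mem_comap]
  rw [mem_smul_asIdeal_iff, smul_algebraMap]

theorem exists_smul_eq_of_underK_eq {w w' : HeightOneSpectrum (𝓞 L)}
    (h : underK K w = underK K w') : ∃ σ : L ≃ₐ[K] L, σ • w = w' := by
  have h' : w.asIdeal.under (𝓞 K) = w'.asIdeal.under (𝓞 K) := congrArg (·.asIdeal) h
  obtain ⟨σ, hσ⟩ := Algebra.IsInvariant.exists_smul_of_under_eq (𝓞 K) (𝓞 L) (L ≃ₐ[K] L)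
    w.asIdeal w'.asIdeal h'
  exact ⟨σ, HeightOneSpectrum.ext hσ.symm⟩

theorem underK_eq_iff_exists_smul {w w' : HeightOneSpectrum (𝓞 L)} :
    underK K w = underK K w' ↔ ∃ σ : L ≃ₐ[K] L, σ • w = w' :=
  ⟨exists_smul_eq_of_underK_eq K, by rintro ⟨σ, rfl⟩; exact (underK_smul K σ w).symm⟩

omit [IsGalois K L] in
theorem underK_surjective : Function.Surjective (underK K (L := L)) := by
  intro v
  obtain ⟨P, -, hP, hPv⟩ := Ideal.exists_ideal_over_prime_of_isIntegral (S := 𝓞 L) v.asIdeal ⊥
    (by simp)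
  have hP0 : P ≠ ⊥ := by
    intro h0
    apply v.ne_bot
    rw [← hPv, h0]
    exact Ideal.comap_bot_of_injective _ (FaithfulSMul.algebraMap_injective (𝓞 K) (𝓞 L))
  refine ⟨⟨P, hP, hP0⟩, HeightOneSpectrum.ext ?_⟩
  exact hPv

omit [IsGalois K L] in
theorem finite_fibre (v : HeightOneSpectrum (𝓞 K)) :
    {w : HeightOneSpectrum (𝓞 L) | underK K w = v}.Finite := by
  have hfin : (v.asIdeal.primesOver (𝓞 L)).Finite :=
    IsDedekindDomain.primesOver_finite v.asIdeal (𝓞 L)
  refine (hfin.preimage (f := fun w : HeightOneSpectrum (𝓞 L) => w.asIdeal) ?_).subset ?_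
  · intro w _ w' _ h
    exact HeightOneSpectrum.ext h
  · intro w hw
    exact ⟨w.isPrime, (underK_eq_iff K w v).1 hw⟩

end under


/-! ### (c) equivariance of the adic valuations -/

section valuation

/-- Two elements `≤ 1` of `ℤᵐ⁰` with the same comparison against all `exp (-n)` are equal. -/
theorem eq_of_forall_le_exp_iff {a b : ℤᵐ⁰} (ha : a ≤ 1) (hb : b ≤ 1)
    (h : ∀ n : ℕ, a ≤ exp (-(n : ℤ)) ↔ b ≤ exp (-(n : ℤ))) : a = b := by
  have key : ∀ {a b : ℤᵐ⁰}, a ≤ 1 → b ≤ 1 →
      (∀ n : ℕ, a ≤ exp (-(n : ℤ)) → b ≤ exp (-(n : ℤ))) → b ≤ a := by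
    intro a b ha hb h
    rcases eq_or_ne a 0 with rfl | ha0
    · rcases eq_or_ne b 0 with rfl | hb0
      · exact le_rfl
      · exfalso
        obtain ⟨m, rfl⟩ : ∃ m : ℤ, b = exp m := ⟨log b, (exp_log hb0).symm⟩
        have := h (m.natAbs + 1) (by simp)
        rw [exp_le_exp] at this
        have : (m.natAbs : ℤ) = |m| := Int.natCast_natAbs m
        have := neg_abs_le m
        push_cast at *
        omega
    · obtain ⟨m, rfl⟩ : ∃ m : ℤ, a = exp m := ⟨log a, (exp_log ha0).symm⟩
      have hm : m ≤ 0 := by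
        have : exp m ≤ exp 0 := by simpa using ha
        exact exp_le_exp.1 this
      have := h m.natAbs (by
        rw [exp_le_exp]
        have : (m.natAbs : ℤ) = |m| := Int.natCast_natAbs m
        rw [this, abs_of_nonpos hm, neg_neg])
      refine this.trans ?_
      rw [exp_le_exp]
      have : (m.natAbs : ℤ) = |m| := Int.natCast_natAbs m
      rw [this, abs_of_nonpos hm, neg_neg]
  exact le_antisymm (key hb ha fun n => (h n).2) (key ha hb fun n => (h n).1)

variable [IsGalois K L]

theorem intValuation_smul (σ : L ≃ₐ[K] L) (w : HeightOneSpectrum (𝓞 L)) (a : 𝓞 L) :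
    (σ • w).intValuation (σ • a) = w.intValuation a := by
  refine eq_of_forall_le_exp_iff (HeightOneSpectrum.intValuation_le_one _ _)
    (HeightOneSpectrum.intValuation_le_one _ _) fun n => ?_
  rw [HeightOneSpectrum.intValuation_le_pow_iff_mem, HeightOneSpectrum.intValuation_le_pow_iff_mem,
    smul_asIdeal, ← smul_pow', Ideal.smul_mem_pointwise_smul_iff]

theorem valuation_smul (σ : L ≃ₐ[K] L) (w : HeightOneSpectrum (𝓞 L)) (x : L) :
    (σ • w).valuation L (σ x) = w.valuation L x := by
  obtain ⟨a, b, hb, rfl⟩ := IsFractionRing.div_surjective (A := 𝓞 L) x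
  have h1 : σ (algebraMap (𝓞 L) L a) = algebraMap (𝓞 L) L (σ • a) := rfl
  have h2 : σ (algebraMap (𝓞 L) L b) = algebraMap (𝓞 L) L (σ • b) := rfl
  rw [map_div₀, h1, h2, map_div₀, map_div₀, HeightOneSpectrum.valuation_of_algebraMap,
    HeightOneSpectrum.valuation_of_algebraMap, HeightOneSpectrum.valuation_of_algebraMap,
    HeightOneSpectrum.valuation_of_algebraMap, intValuation_smul, intValuation_smul]

theorem valuation_smul' (σ : L ≃ₐ[K] L) (w : HeightOneSpectrum (𝓞 L)) (x : L) :
    (σ • w).valuation L x = w.valuation L (σ⁻¹ x) := by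
  have := valuation_smul σ w (σ⁻¹ x)
  rwa [show σ (σ⁻¹ x) = x from σ.apply_symm_apply x] at this

end valuation


/-! ### (d) unramifiedness: trivial inertia groups -/

section unramified

variable [IsGalois K L]

/-- The stabilizer of `w` for the action on `HeightOneSpectrum (𝓞 L)` is the stabilizer of its
ideal for the pointwise action on ideals (the decomposition group). -/
theorem stabilizer_eq (w : HeightOneSpectrum (𝓞 L)) :
    MulAction.stabilizer (L ≃ₐ[K] L) w = MulAction.stabilizer (L ≃ₐ[K] L) w.asIdeal := by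
  ext σ
  simp only [MulAction.mem_stabilizer_iff]
  exact ⟨fun h => by rw [← smul_asIdeal, h], fun h => HeightOneSpectrum.ext h⟩

theorem card_inertia_eq_ramificationIdx (w : HeightOneSpectrum (𝓞 L)) :
    Nat.card (w.asIdeal.inertia (L ≃ₐ[K] L)) = w.asIdeal.ramificationIdx (𝓞 K) := by
  rw [Ideal.card_inertia_eq_ramificationIdxIn (underK K w).asIdeal w.asIdeal,
    Ideal.ramificationIdxIn_eq_ramificationIdx (underK K w).asIdeal w.asIdeal (L ≃ₐ[K] L)]

/-- Trivial inertia group ⇔ ramification index one (new Mathlib API `P.ramificationIdx R`). -/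
theorem inertia_eq_bot_iff (w : HeightOneSpectrum (𝓞 L)) :
    w.asIdeal.inertia (L ≃ₐ[K] L) = ⊥ ↔ w.asIdeal.ramificationIdx (𝓞 K) = 1 := by
  rw [← card_inertia_eq_ramificationIdx, Subgroup.card_eq_one]

theorem ramificationIdx'_eq_ramificationIdx (w : HeightOneSpectrum (𝓞 L)) :
    (underK K w).asIdeal.ramificationIdx' w.asIdeal = w.asIdeal.ramificationIdx (𝓞 K) :=
  Ideal.ramificationIdx'_eq_ramificationIdx (underK K w).asIdeal w.asIdeal (underK K w).ne_bot

/-- Trivial inertia group ⇔ ramification index one (old API `p.ramificationIdx' P`). -/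
theorem inertia_eq_bot_iff' (w : HeightOneSpectrum (𝓞 L)) :
    w.asIdeal.inertia (L ≃ₐ[K] L) = ⊥ ↔
      (underK K w).asIdeal.ramificationIdx' w.asIdeal = 1 := by
  rw [ramificationIdx'_eq_ramificationIdx, inertia_eq_bot_iff]

theorem inertiaDeg'_eq_inertiaDeg (w : HeightOneSpectrum (𝓞 L)) :
    (underK K w).asIdeal.inertiaDeg' w.asIdeal = w.asIdeal.inertiaDeg (𝓞 K) := by
  have : (underK K w).asIdeal.IsMaximal := (underK K w).isMaximal
  have : w.asIdeal.IsMaximal := w.isMaximal
  exact Ideal.inertiaDeg'_eq_inertiaDeg (underK K w).asIdeal w.asIdeal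

/-- The valuation of `w` restricted to `K` is the valuation of the prime below, when `w` is
unramified. -/
theorem valuation_algebraMap_of_inertia_eq_bot (w : HeightOneSpectrum (𝓞 L))
    (hw : w.asIdeal.inertia (L ≃ₐ[K] L) = ⊥) (x : K) :
    w.valuation L (algebraMap K L x) = (underK K w).valuation K x := by
  rw [← HeightOneSpectrum.valuation_liesOver L (underK K w) w x, (inertia_eq_bot_iff' w).1 hw,
    pow_one]

/-- The order of the decomposition group of an unramified prime is its inertia degree. -/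
theorem card_stabilizer_of_inertia_eq_bot (w : HeightOneSpectrum (𝓞 L))
    (hw : w.asIdeal.inertia (L ≃ₐ[K] L) = ⊥) :
    Nat.card (MulAction.stabilizer (L ≃ₐ[K] L) w) = w.asIdeal.inertiaDeg (𝓞 K) := by
  rw [stabilizer_eq,
    Ideal.card_stabilizer_eq_card_inertia_mul_finrank (underK K w).asIdeal w.asIdeal, hw,
    Subgroup.card_bot, one_mul]

/-- Same with the old API `p.inertiaDeg' P`. -/
theorem card_stabilizer_of_inertia_eq_bot' (w : HeightOneSpectrum (𝓞 L))
    (hw : w.asIdeal.inertia (L ≃ₐ[K] L) = ⊥) :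
    Nat.card (MulAction.stabilizer (L ≃ₐ[K] L) w) =
      (underK K w).asIdeal.inertiaDeg' w.asIdeal := by
  rw [inertiaDeg'_eq_inertiaDeg, card_stabilizer_of_inertia_eq_bot w hw]

theorem inertiaDeg_smul (σ : L ≃ₐ[K] L) (w : HeightOneSpectrum (𝓞 L)) :
    (σ • w).asIdeal.inertiaDeg (𝓞 K) = w.asIdeal.inertiaDeg (𝓞 K) := by
  rw [smul_asIdeal, Ideal.inertiaDeg_smul]

theorem inertiaDeg_pos (w : HeightOneSpectrum (𝓞 L)) : 0 < w.asIdeal.inertiaDeg (𝓞 K) :=
  Ideal.inertiaDeg_pos w.asIdeal (𝓞 K)

end unramified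


/-! ### (e) extension and norm of divisors -/

section divisors

variable (K L)

/-- The (finite) set of primes of `L` above a prime of `K`. -/
noncomputable def fibre (v : HeightOneSpectrum (𝓞 K)) : Finset (HeightOneSpectrum (𝓞 L)) :=
  (finite_fibre K (L := L) v).toFinset

variable {K L}

@[simp]
theorem mem_fibre {v : HeightOneSpectrum (𝓞 K)} {w : HeightOneSpectrum (𝓞 L)} :
    w ∈ fibre K L v ↔ underK K w = v := by
  simp [fibre]

theorem fibre_nonempty (v : HeightOneSpectrum (𝓞 K)) : (fibre K L v).Nonempty := by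
  obtain ⟨w, hw⟩ := underK_surjective K (L := L) v
  exact ⟨w, mem_fibre.2 hw⟩

variable (K L)

/-- Extension of divisors from `K` to `L` WITHOUT ramification indices:
`ext D w = D (underK w)`. (This is the divisor of the extended ideal when `L/K` is unramified.) -/
noncomputable def ext : (HeightOneSpectrum (𝓞 K) →₀ ℤ) →+ (HeightOneSpectrum (𝓞 L) →₀ ℤ) :=
  AddMonoidHom.mk'
    (fun D => by
      classical
      exact Finsupp.onFinset (D.support.biUnion (fibre K L)) (fun w => D (underK K w))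
        (fun w hw => by
          simp only [Finset.mem_biUnion, Finsupp.mem_support_iff, mem_fibre]
          exact ⟨underK K w, hw, rfl⟩))
    (fun D D' => by
      ext w
      simp [Finsupp.onFinset_apply])

variable {K L}

@[simp]
theorem ext_apply (D : HeightOneSpectrum (𝓞 K) →₀ ℤ) (w : HeightOneSpectrum (𝓞 L)) :
    ext K L D w = D (underK K w) := by
  simp [ext, Finsupp.onFinset_apply]

theorem ext_injective : Function.Injective (ext K L) := by
  intro D D' h
  ext v
  obtain ⟨w, rfl⟩ := underK_surjective K (L := L) v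
  rw [← ext_apply, ← ext_apply, h]

theorem ext_single (v : HeightOneSpectrum (𝓞 K)) (n : ℤ) :
    ext K L (Finsupp.single v n) = ∑ w ∈ fibre K L v, Finsupp.single w n := by
  classical
  ext w
  rw [ext_apply, Finsupp.finsetSum_apply]
  simp only [Finsupp.single_apply]
  rw [Finset.sum_ite_eq' (fibre K L v) w (fun _ => n)]
  simp only [mem_fibre]
  by_cases h : underK K w = v
  · rw [if_pos h, if_pos h.symm]
  · rw [if_neg h, if_neg (fun h' => h h'.symm)]

variable (K L)

/-- Norm of divisors: `Nm (single w 1) = single (underK w) f(w|v)`. -/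
noncomputable def Nm : (HeightOneSpectrum (𝓞 L) →₀ ℤ) →+ (HeightOneSpectrum (𝓞 K) →₀ ℤ) :=
  Finsupp.liftAddHom fun w =>
    zmultiplesHom _ (Finsupp.single (underK K w) (w.asIdeal.inertiaDeg (𝓞 K) : ℤ))

variable {K L}

@[simp]
theorem Nm_single (w : HeightOneSpectrum (𝓞 L)) (n : ℤ) :
    Nm K L (Finsupp.single w n) =
      Finsupp.single (underK K w) (n * (w.asIdeal.inertiaDeg (𝓞 K) : ℤ)) := by
  simp [Nm, Finsupp.smul_single]

theorem Nm_single_one (w : HeightOneSpectrum (𝓞 L)) :
    Nm K L (Finsupp.single w 1) =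
      Finsupp.single (underK K w) (w.asIdeal.inertiaDeg (𝓞 K) : ℤ) := by
  simp

theorem Nm_apply (D : HeightOneSpectrum (𝓞 L) →₀ ℤ) (v : HeightOneSpectrum (𝓞 K)) :
    Nm K L D v = ∑ w ∈ fibre K L v, D w * (w.asIdeal.inertiaDeg (𝓞 K) : ℤ) := by
  classical
  induction D using Finsupp.induction_linear with
  | zero => simp
  | add D D' h h' => simp [h, h', add_mul, Finset.sum_add_distrib]
  | single w n =>
    rw [Nm_single, Finsupp.single_apply]
    simp only [Finsupp.single_apply, ite_mul, zero_mul]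
    rw [Finset.sum_ite_eq (fibre K L v) w]
    simp only [mem_fibre]

end divisors


/-! ### (f) Galois action on divisors: sum of conjugates and fixed divisors -/

section galois

variable [IsGalois K L]

/-- The action of `τ ∈ Gal(L/K)` on divisors of `L`. -/
noncomputable def galEnd (τ : L ≃ₐ[K] L) :
    (HeightOneSpectrum (𝓞 L) →₀ ℤ) →+ (HeightOneSpectrum (𝓞 L) →₀ ℤ) :=
  Finsupp.mapDomain.addMonoidHom (fun w => τ • w)

theorem galEnd_apply (τ : L ≃ₐ[K] L) (D : HeightOneSpectrum (𝓞 L) →₀ ℤ) :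
    galEnd τ D = Finsupp.mapDomain (fun w => τ • w) D := rfl

@[simp]
theorem galEnd_single (τ : L ≃ₐ[K] L) (w : HeightOneSpectrum (𝓞 L)) (n : ℤ) :
    galEnd τ (Finsupp.single w n) = Finsupp.single (τ • w) n := by
  rw [galEnd_apply, Finsupp.mapDomain_single]

theorem galEnd_apply_smul (τ : L ≃ₐ[K] L) (D : HeightOneSpectrum (𝓞 L) →₀ ℤ)
    (w : HeightOneSpectrum (𝓞 L)) : galEnd τ D (τ • w) = D w := by
  rw [galEnd_apply, Finsupp.mapDomain_apply (MulAction.injective τ)]

theorem galEnd_apply_apply (τ : L ≃ₐ[K] L) (D : HeightOneSpectrum (𝓞 L) →₀ ℤ)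
    (w : HeightOneSpectrum (𝓞 L)) : galEnd τ D w = D (τ⁻¹ • w) := by
  conv_lhs => rw [← smul_inv_smul τ w]
  rw [galEnd_apply_smul]

theorem galEnd_one : galEnd (1 : L ≃ₐ[K] L) = AddMonoidHom.id _ := by
  ext w : 2
  simp

theorem galEnd_mul (σ τ : L ≃ₐ[K] L) : galEnd (σ * τ) = (galEnd σ).comp (galEnd τ) := by
  ext w : 2
  simp [mul_smul]

/-- `galEnd τ` is `Finsupp.mapDomain` along the permutation `MulAction.toPerm τ` (the shape of
`PermModule.permEnd`). -/
theorem galEnd_eq_mapDomain_toPerm (τ : L ≃ₐ[K] L) :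
    galEnd τ = Finsupp.mapDomain.addMonoidHom
      (MulAction.toPerm τ : Equiv.Perm (HeightOneSpectrum (𝓞 L))) := rfl

/-- Extended divisors are Galois invariant. -/
theorem galEnd_ext (τ : L ≃ₐ[K] L) (D : HeightOneSpectrum (𝓞 K) →₀ ℤ) :
    galEnd τ (ext K L D) = ext K L D := by
  ext w
  rw [galEnd_apply_apply, ext_apply, ext_apply, underK_smul]

open scoped Classical in
/-- The number of `τ` with `τ • w = w'` is the order of the decomposition group if `w, w'` lie
over the same prime, and `0` otherwise. -/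
theorem card_smul_eq (w w' : HeightOneSpectrum (𝓞 L)) :
    Nat.card {τ : L ≃ₐ[K] L // τ • w = w'} =
      if underK K w' = underK K w then Nat.card (MulAction.stabilizer (L ≃ₐ[K] L) w) else 0 := by
  split_ifs with h
  · obtain ⟨τ₀, hτ₀⟩ := exists_smul_eq_of_underK_eq K h.symm
    refine Nat.card_congr
      { toFun := fun τ => ⟨τ₀⁻¹ * τ.1, ?_⟩
        invFun := fun s => ⟨τ₀ * s.1, ?_⟩
        left_inv := fun τ => by simp
        right_inv := fun s => by simp }
    · rw [MulAction.mem_stabilizer_iff, mul_smul, τ.2, ← hτ₀, inv_smul_smul]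
    · rw [mul_smul, MulAction.mem_stabilizer_iff.1 s.2, hτ₀]
  · rw [Nat.card_eq_zero]
    left
    refine ⟨fun τ => h ?_⟩
    rw [← τ.2, underK_smul]

/-- **Sum of the conjugates = extension of the norm**, for an unramified extension. -/
theorem sum_galEnd_eq_ext_Nm [Fintype (L ≃ₐ[K] L)]
    (hunr : ∀ w : HeightOneSpectrum (𝓞 L), w.asIdeal.inertia (L ≃ₐ[K] L) = ⊥)
    (D : HeightOneSpectrum (𝓞 L) →₀ ℤ) :
    ∑ τ : L ≃ₐ[K] L, galEnd τ D = ext K L (Nm K L D) := by
  classical
  induction D using Finsupp.induction_linear with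
  | zero => simp
  | add D D' h h' => simp [h, h', Finset.sum_add_distrib]
  | single w n =>
    ext w'
    rw [Finsupp.finsetSum_apply, ext_apply, Nm_single, Finsupp.single_apply]
    simp only [galEnd_single, Finsupp.single_apply]
    rw [Finset.sum_ite, Finset.sum_const_zero, add_zero, Finset.sum_const, nsmul_eq_mul]
    have hcard : (Finset.univ.filter fun τ : L ≃ₐ[K] L => τ • w = w').card =
        Nat.card {τ : L ≃ₐ[K] L // τ • w = w'} := by
      rw [Nat.card_eq_fintype_card, Fintype.card_subtype]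
    rw [hcard, card_smul_eq]
    by_cases h : underK K w' = underK K w
    · rw [if_pos h, if_pos h.symm, card_stabilizer_of_inertia_eq_bot w (hunr w), mul_comm]
    · rw [if_neg h, if_neg (fun h' => h h'.symm)]
      simp

/-- Same statement with `Finsupp.mapDomain` spelled out. -/
theorem sum_mapDomain_smul_eq_ext_Nm [Fintype (L ≃ₐ[K] L)]
    (hunr : ∀ w : HeightOneSpectrum (𝓞 L), w.asIdeal.inertia (L ≃ₐ[K] L) = ⊥)
    (D : HeightOneSpectrum (𝓞 L) →₀ ℤ) :
    ∑ τ : L ≃ₐ[K] L, Finsupp.mapDomain (fun w => τ • w) D = ext K L (Nm K L D) :=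
  sum_galEnd_eq_ext_Nm hunr D

/-- A divisor of `L` is fixed by the Galois group iff it is extended from `K`
(extension WITHOUT ramification indices; no hypothesis on ramification needed). -/
theorem forall_galEnd_eq_iff_mem_range (D : HeightOneSpectrum (𝓞 L) →₀ ℤ) :
    (∀ τ : L ≃ₐ[K] L, galEnd τ D = D) ↔ D ∈ (ext K L).range := by
  classical
  constructor
  · intro h
    have hconst : ∀ w w' : HeightOneSpectrum (𝓞 L), underK K w = underK K w' → D w = D w' := by
      intro w w' hww'
      obtain ⟨τ, rfl⟩ := exists_smul_eq_of_underK_eq K hww'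
      conv_rhs => rw [← h τ]
      rw [galEnd_apply_smul]
    refine ⟨Finsupp.onFinset (D.support.image (underK K))
      (fun v => D (underK_surjective K (L := L) v).choose) ?_, ?_⟩
    · intro v hv
      rw [Finset.mem_image]
      exact ⟨_, Finsupp.mem_support_iff.2 hv, (underK_surjective K (L := L) v).choose_spec⟩
    · ext w
      rw [ext_apply, Finsupp.onFinset_apply]
      exact hconst _ _ (underK_surjective K (L := L) (underK K w)).choose_spec
  · rintro ⟨D', rfl⟩ τ
    exact galEnd_ext τ D'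

/-- Cyclic form: if `σ` generates `Gal(L/K)`, a divisor fixed by `σ` is extended from `K`. -/
theorem galEnd_eq_iff_mem_range_of_generator (σ : L ≃ₐ[K] L)
    (hσ : ∀ g : L ≃ₐ[K] L, g ∈ Subgroup.zpowers σ) (D : HeightOneSpectrum (𝓞 L) →₀ ℤ) :
    galEnd σ D = D ↔ D ∈ (ext K L).range := by
  rw [← forall_galEnd_eq_iff_mem_range]
  refine ⟨fun h τ => ?_, fun h => h σ⟩
  have hinv : galEnd σ⁻¹ D = D := by
    conv_lhs => rw [← h]
    rw [← AddMonoidHom.comp_apply, ← galEnd_mul, inv_mul_cancel, galEnd_one]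
    rfl
  have hpow : ∀ k : ℕ, galEnd (σ ^ k) D = D := by
    intro k
    induction k with
    | zero => rw [pow_zero, galEnd_one]; rfl
    | succ k ih => rw [pow_succ, galEnd_mul, AddMonoidHom.comp_apply, h, ih]
  have hpow' : ∀ k : ℕ, galEnd (σ⁻¹ ^ k) D = D := by
    intro k
    induction k with
    | zero => rw [pow_zero, galEnd_one]; rfl
    | succ k ih => rw [pow_succ, galEnd_mul, AddMonoidHom.comp_apply, hinv, ih]
  obtain ⟨k, rfl⟩ := Subgroup.mem_zpowers_iff.1 (hσ τ)
  obtain ⟨n, rfl | rfl⟩ := Int.eq_nat_or_neg k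
  · rw [zpow_natCast]; exact hpow n
  · rw [zpow_neg, zpow_natCast, ← inv_pow]; exact hpow' n

end galois

end Fermat.Agent.S14.GalDiv
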