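import Mathlib
import Fermat.Agent.S14.DivClass

set_option autoImplicit false
set_option linter.unusedSectionVars false

/-!
# S14 / the divisor of a relative norm

For number fields `K ⊆ L` and any additive map `Nm : Div_L →+ Div_K` with
`Nm (single w 1) = single (w.under) f(w)`: `Nm (div J) = div (N_{L/K} J)` for every nonzero
ideal `J` of `𝓞 L`.
-/

open NumberField IsDedekindDomain
open scoped nonZeroDivisors

namespace Fermat.Agent.S14.NormDiv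

open Fermat.Agent.S14.DivClass

variable (K L : Type*) [Field K] [Field L] [NumberField K] [NumberField L] [Algebra K L]

/-- The divisor of the relative norm of a nonzero prime. -/
theorem divI_relNorm_prime (w : HeightOneSpectrum (𝓞 L)) :
    divI (𝓞 K) (Ideal.relNorm (𝓞 K) w.asIdeal) =
      Finsupp.single (w.under (𝓞 K)) ((w.asIdeal.inertiaDeg (𝓞 K) : ℕ) : ℤ) := by
  have hlo : w.asIdeal.LiesOver (w.under (𝓞 K)).asIdeal := ⟨rfl⟩
  have h1 : (w.under (𝓞 K)).asIdeal.IsMaximal := (w.under (𝓞 K)).isMaximal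
  have h2 : w.asIdeal.IsMaximal := w.isMaximal
  rw [Ideal.relNorm_eq_pow_of_isMaximal w.asIdeal (w.under (𝓞 K)).asIdeal, divI_pow, divI_prime,
    Finsupp.smul_single, nsmul_eq_mul, mul_one]

/-- **The divisor of a relative norm.** -/
theorem nm_divI
    (Nm : (HeightOneSpectrum (𝓞 L) →₀ ℤ) →+ (HeightOneSpectrum (𝓞 K) →₀ ℤ))
    (hNm : ∀ w : HeightOneSpectrum (𝓞 L), Nm (Finsupp.single w 1) =
      Finsupp.single (w.under (𝓞 K)) ((w.asIdeal.inertiaDeg (𝓞 K) : ℕ) : ℤ))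
    {J : Ideal (𝓞 L)} (hJ : J ≠ ⊥) :
    Nm (divI (𝓞 L) J) = divI (𝓞 K) (Ideal.relNorm (𝓞 K) J) := by
  classical
  rw [← Ideal.zero_eq_bot] at hJ
  induction J using UniqueFactorizationMonoid.induction_on_prime with
  | h₁ => exact absurd rfl hJ
  | h₂ x hx =>
    have : x = ⊤ := by
      rw [← Ideal.one_eq_top]
      exact (Ideal.isUnit_iff.mp hx).trans Ideal.one_eq_top.symm
    rw [this, Ideal.relNorm_top, divI_top, divI_top, map_zero]
  | h₃ a p ha hp ih =>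
    have hp0 : p ≠ ⊥ := hp.ne_zero
    have ha0 : a ≠ ⊥ := ha
    have hpp : p.IsPrime := Ideal.isPrime_of_prime hp
    let w : HeightOneSpectrum (𝓞 L) := ⟨p, hpp, hp0⟩
    have hw : w.asIdeal = p := rfl
    have hp' : Ideal.relNorm (𝓞 K) p ≠ ⊥ := by rwa [Ne, Ideal.relNorm_eq_bot_iff]
    have ha' : Ideal.relNorm (𝓞 K) a ≠ ⊥ := by rwa [Ne, Ideal.relNorm_eq_bot_iff]
    rw [divI_mul hp0 ha0, map_add, map_mul, divI_mul hp' ha', ih ha]
    congr 1
    rw [← hw, divI_prime, hNm, divI_relNorm_prime]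

/-- The norm on divisors: `w ↦ f(w) · (w ∩ 𝓞 K)`. -/
noncomputable def Nm : (HeightOneSpectrum (𝓞 L) →₀ ℤ) →+ (HeightOneSpectrum (𝓞 K) →₀ ℤ) :=
  Finsupp.liftAddHom fun w : HeightOneSpectrum (𝓞 L) =>
    (Finsupp.singleAddHom (w.under (𝓞 K))).comp
      (AddMonoidHom.mulRight (((w.asIdeal.inertiaDeg (𝓞 K) : ℕ) : ℤ)))

lemma Nm_single (w : HeightOneSpectrum (𝓞 L)) (c : ℤ) :
    Nm K L (Finsupp.single w c) =
      Finsupp.single (w.under (𝓞 K)) (c * ((w.asIdeal.inertiaDeg (𝓞 K) : ℕ) : ℤ)) := by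
  rw [Nm, Finsupp.liftAddHom_apply_single]
  rfl

lemma Nm_single_one (w : HeightOneSpectrum (𝓞 L)) :
    Nm K L (Finsupp.single w 1) =
      Finsupp.single (w.under (𝓞 K)) ((w.asIdeal.inertiaDeg (𝓞 K) : ℕ) : ℤ) := by
  rw [Nm_single, one_mul]

lemma Nm_apply (D : HeightOneSpectrum (𝓞 L) →₀ ℤ) :
    Nm K L D = D.sum fun w c =>
      Finsupp.single (w.under (𝓞 K)) (c * ((w.asIdeal.inertiaDeg (𝓞 K) : ℕ) : ℤ)) := by
  rw [Nm, Finsupp.liftAddHom_apply]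
  rfl

/-- **(N2-g)** `Nm (div J) = div (N_{L/K} J)`. -/
theorem Nm_divI {J : Ideal (𝓞 L)} (hJ : J ≠ ⊥) :
    Nm K L (divI (𝓞 L) J) = divI (𝓞 K) (Ideal.relNorm (𝓞 K) J) :=
  nm_divI K L (Nm K L) (Nm_single_one K L) hJ

theorem Nm_divI' (J : (Ideal (𝓞 L))⁰) :
    Nm K L (divI (𝓞 L) (J : Ideal (𝓞 L))) =
      divI (𝓞 K) (Ideal.relNorm (𝓞 K) (J : Ideal (𝓞 L))) :=
  Nm_divI K L (mem_nonZeroDivisors_iff_ne_zero.mp J.2)

end Fermat.Agent.S14.NormDiv
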