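/-
S14 / first inequality (helper7): Lang's permutation-sublattice lemma (ANT IX.4, Thm 1), in the
case of a FREE action.

`G` a finite group acting freely on a finite set `S`; `V = S → ℝ` with the permutation action
`(σ • x) w = x (σ⁻¹ • w)`.  If `M ⊆ V` is a `G`-stable additive subgroup spanning `V` over `ℝ`,
then `M` contains an `ℝ`-basis `(x_w)_{w ∈ S}` of `V` which is permuted by `G` like `S`:
`σ • x_w = x_{σ • w}`.
-/
import Mathlib

set_option autoImplicit false

namespace Fermat.Agent.S14.PermLattice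

open Finset

variable {G S : Type*} [Group G] [MulAction G S]

/-- The permutation action of `G` on functions on `S`. -/
def act (σ : G) (x : S → ℝ) : S → ℝ := fun w => x (σ⁻¹ • w)

@[simp] lemma act_apply (σ : G) (x : S → ℝ) (w : S) : act σ x w = x (σ⁻¹ • w) := rfl

lemma act_one (x : S → ℝ) : act (1 : G) x = x := by
  funext w; simp [act]

lemma act_mul (σ τ : G) (x : S → ℝ) : act (σ * τ) x = act σ (act τ x) := by
  funext w; simp [act, mul_smul]

lemma act_add (σ : G) (x y : S → ℝ) : act σ (x + y) = act σ x + act σ y := by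
  funext w; simp [act]

lemma act_sub (σ : G) (x y : S → ℝ) : act σ (x - y) = act σ x - act σ y := by
  funext w; simp [act]

lemma act_neg (σ : G) (x : S → ℝ) : act σ (-x) = -act σ x := by
  funext w; simp [act]

lemma act_zero (σ : G) : act σ (0 : S → ℝ) = 0 := by
  funext w; simp [act]

lemma act_smul (σ : G) (c : ℝ) (x : S → ℝ) : act σ (c • x) = c • act σ x := by
  funext w; simp [act]

/-- The permutation action as a linear map. -/
def actLin (σ : G) : (S → ℝ) →ₗ[ℝ] (S → ℝ) where
  toFun := act σ
  map_add' := act_add σ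
  map_smul' := act_smul σ

@[simp] lemma actLin_apply (σ : G) (x : S → ℝ) : actLin σ x = act σ x := rfl

section cover

variable [Fintype S]

/-- A spanning additive subgroup of `S → ℝ` is "relatively dense" for the sup norm. -/
theorem exists_bound_forall_exists_mem (M : AddSubgroup (S → ℝ))
    (hspan : Submodule.span ℝ (M : Set (S → ℝ)) = ⊤) :
    ∃ B : ℝ, 0 ≤ B ∧ ∀ y : S → ℝ, ∃ m ∈ M, ∀ w, |y w - m w| ≤ B := by
  classical
  obtain ⟨b, hbM, hbspan, hbli⟩ := exists_linearIndependent ℝ (M : Set (S → ℝ))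
  have hbtop : Submodule.span ℝ b = ⊤ := by rw [hbspan, hspan]
  -- `b` is finite
  have hbfin : b.Finite := hbli.setFinite
  set bs : Finset (S → ℝ) := hbfin.toFinset with hbs
  have hbs_mem : ∀ v ∈ bs, v ∈ M := fun v hv => hbM (hbfin.mem_toFinset.mp hv)
  refine ⟨∑ v ∈ bs, ∑ w, |v w|, by positivity, fun y => ?_⟩
  -- write `y` as a combination of elements of `b`
  have hy : y ∈ Submodule.span ℝ (bs : Set (S → ℝ)) := by
    rw [hbs, Set.Finite.coe_toFinset, hbtop]; trivial
  obtain ⟨c, hc⟩ := (Submodule.mem_span_finset).mp hy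
  refine ⟨∑ v ∈ bs, (⌊c v⌋ : ℤ) • v, ?_, fun w => ?_⟩
  · exact M.sum_mem fun v hv => M.zsmul_mem (hbs_mem v hv) _
  · rw [← hc.2]
    have : (∑ v ∈ bs, c v • v) w - (∑ v ∈ bs, (⌊c v⌋ : ℤ) • v) w
        = ∑ v ∈ bs, Int.fract (c v) * v w := by
      rw [Finset.sum_apply, Finset.sum_apply, ← Finset.sum_sub_distrib]
      refine Finset.sum_congr rfl fun v _ => ?_
      rw [Pi.smul_apply, Pi.smul_apply, smul_eq_mul, zsmul_eq_mul, ← sub_mul, Int.self_sub_floor]
    rw [this]
    calc |∑ v ∈ bs, Int.fract (c v) * v w| ≤ ∑ v ∈ bs, |Int.fract (c v) * v w| :=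
          Finset.abs_sum_le_sum_abs _ _
      _ ≤ ∑ v ∈ bs, ∑ w, |v w| := by
          refine Finset.sum_le_sum fun v _ => ?_
          rw [abs_mul, abs_of_nonneg (Int.fract_nonneg _)]
          calc Int.fract (c v) * |v w| ≤ 1 * |v w| :=
                mul_le_mul_of_nonneg_right (Int.fract_lt_one _).le (abs_nonneg _)
            _ = |v w| := one_mul _
            _ ≤ ∑ w, |v w| :=
                Finset.single_le_sum (f := fun w => |v w|) (fun _ _ => abs_nonneg _)
                  (Finset.mem_univ w)

end cover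

section main

variable [Fintype S]

/-- A family of vectors which is "diagonally dominant" is linearly independent. -/
lemma linearIndependent_of_diag_dominant [DecidableEq S] (x : S → S → ℝ) (t B : ℝ)
    (ht : (Fintype.card S : ℝ) * B < t)
    (hx : ∀ w w', |x w w' - (if w' = w then t else 0)| ≤ B) : LinearIndependent ℝ x := by
  rw [Fintype.linearIndependent_iff]
  intro c hc
  by_contra hne
  push Not at hne
  obtain ⟨w₁, hw₁⟩ := hne
  obtain ⟨ws, -, hws⟩ := Finset.exists_max_image (Finset.univ : Finset S) (fun w => |c w|)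
    ⟨w₁, Finset.mem_univ _⟩
  have hpos : 0 < |c ws| := lt_of_lt_of_le (abs_pos.mpr hw₁) (hws w₁ (Finset.mem_univ _))
  have hB : 0 ≤ B := le_trans (abs_nonneg _) (hx ws ws)
  -- evaluate at `ws`
  have h0 : ∑ w, c w * x w ws = 0 := by
    have := congrFun hc ws
    simpa [Finset.sum_apply, Pi.smul_apply, smul_eq_mul] using this
  have h1 : c ws * t = - ∑ w, c w * (x w ws - (if ws = w then t else 0)) := by
    have : ∑ w, c w * (x w ws - (if ws = w then t else 0))
        = ∑ w, c w * x w ws - ∑ w, c w * (if ws = w then t else 0) := by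
      rw [← Finset.sum_sub_distrib]
      refine Finset.sum_congr rfl fun w _ => by ring
    rw [this, h0]
    simp
  have h2 : |c ws| * t ≤ (Fintype.card S : ℝ) * B * |c ws| := by
    have ht0 : 0 ≤ t := le_trans (mul_nonneg (Nat.cast_nonneg _) hB) ht.le
    calc |c ws| * t = |c ws * t| := by rw [abs_mul, abs_of_nonneg ht0]
      _ = |∑ w, c w * (x w ws - (if ws = w then t else 0))| := by rw [h1, abs_neg]
      _ ≤ ∑ w, |c w * (x w ws - (if ws = w then t else 0))| := Finset.abs_sum_le_sum_abs _ _
      _ ≤ ∑ _w : S, |c ws| * B := by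
          refine Finset.sum_le_sum fun w _ => ?_
          rw [abs_mul]
          exact mul_le_mul (hws w (Finset.mem_univ _)) (hx w ws) (abs_nonneg _) (abs_nonneg _)
      _ = (Fintype.card S : ℝ) * B * |c ws| := by
          rw [Finset.sum_const, Finset.card_univ, nsmul_eq_mul]; ring
  have h3 : |c ws| * t ≤ |c ws| * ((Fintype.card S : ℝ) * B) := by linarith
  have := le_of_mul_le_mul_left h3 hpos
  linarith

/-- **Lang's lemma** (free action). -/
theorem exists_perm_basis (hfree : ∀ (σ : G) (w : S), σ • w = w → σ = 1)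
    (M : AddSubgroup (S → ℝ)) (hM : ∀ σ : G, ∀ x ∈ M, act σ x ∈ M)
    (hspan : Submodule.span ℝ (M : Set (S → ℝ)) = ⊤) :
    ∃ x : S → (S → ℝ), (∀ w, x w ∈ M) ∧ (∀ (σ : G) w, act σ (x w) = x (σ • w)) ∧
      LinearIndependent ℝ x := by
  classical
  obtain ⟨B, hB, hcov⟩ := exists_bound_forall_exists_mem M hspan
  set t : ℝ := (Fintype.card S : ℝ) * B + 1 with ht
  -- orbit representatives
  let rep : S → S := fun w => (Quotient.mk'' w : MulAction.orbitRel.Quotient G S).out
  have hrep : ∀ w, ∃ τ : G, τ • rep w = w := by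
    intro w
    have h : (MulAction.orbitRel G S) (rep w) w := Quotient.exact (Quotient.out_eq _)
    rw [MulAction.orbitRel_apply] at h
    obtain ⟨g, hg⟩ := h
    exact ⟨g⁻¹, by rw [← hg, inv_smul_smul]⟩
  choose τ hτ using hrep
  have hrep_smul : ∀ (σ : G) w, rep (σ • w) = rep w := by
    intro σ w
    have : (Quotient.mk'' (σ • w) : MulAction.orbitRel.Quotient G S) = Quotient.mk'' w :=
      Quotient.sound (by
        change (MulAction.orbitRel G S) (σ • w) w
        rw [MulAction.orbitRel_apply]; exact ⟨σ, rfl⟩)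
    simp only [rep, this]
  have hτ_smul : ∀ (σ : G) w, τ (σ • w) = σ * τ w := by
    intro σ w
    have h1 : τ (σ • w) • rep w = (σ * τ w) • rep w := by
      rw [mul_smul, hτ w, ← hrep_smul σ w, hτ (σ • w)]
    have h2 : ((σ * τ w)⁻¹ * τ (σ • w)) • rep w = rep w := by
      rw [mul_smul, h1, inv_smul_smul]
    have := hfree _ _ h2
    rw [inv_mul_eq_one] at this
    exact this.symm
  -- approximate `t e_r`
  choose z hzM hz using fun r : S => hcov (fun w => if w = r then t else 0)
  refine ⟨fun w => act (τ w) (z (rep w)), fun w => hM _ _ (hzM _), fun σ w => ?_, ?_⟩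
  · simp only
    rw [hτ_smul, hrep_smul, act_mul]
  · refine linearIndependent_of_diag_dominant _ t B (by rw [ht]; linarith) fun w w' => ?_
    simp only [act_apply]
    have key := hz (rep w) ((τ w)⁻¹ • w')
    have hiff : ((τ w)⁻¹ • w' = rep w) ↔ w' = w := by
      constructor
      · intro h
        rw [← hτ w, ← h, smul_inv_smul]
      · intro h
        rw [h, inv_smul_eq_iff, hτ w]
    simp only [hiff] at key
    rw [abs_sub_comm]
    exact key

end main

end Fermat.Agent.S14.PermLattice
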