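/-
S14 / first inequality, block N3a (helper7): the Herbrand quotient of the unit group.

`L/K` a cyclic extension of number fields with group `⟨σ⟩` of order `n`, unramified at all
infinite places.  Then `q(E_L) = 1/n`, i.e. in the index calculus of `Herbrand.lean`
`|H¹(E_L)| = n * |Ĥ⁰(E_L)|` (and both are finite).
-/
import Mathlib
import Fermat.Agent.S14.Herbrand
import Fermat.Agent.S14.HerbrandCyclic
import Fermat.Agent.S14.PermLattice
import Fermat.Agent.S14.HerbrandLattice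

set_option autoImplicit false

namespace Fermat.Agent.S14.UnitsHerbrand

open NumberField NumberField.InfinitePlace NumberField.Units
open Fermat.Agent.S14.Herbrand Fermat.Agent.S14

variable (K L : Type) [Field K] [Field L] [NumberField K] [NumberField L] [Algebra K L]

/-- The action of `σ ∈ Gal(L/K)` on the units of `𝓞 L`, as a monoid hom. -/
noncomputable def unitsMap (σ : L ≃ₐ[K] L) : (𝓞 L)ˣ →* (𝓞 L)ˣ :=
  Units.map (MulSemiringAction.toRingHom (L ≃ₐ[K] L) (𝓞 L) σ).toMonoidHom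

lemma unitsMap_coe (σ : L ≃ₐ[K] L) (u : (𝓞 L)ˣ) :
    ((unitsMap K L σ u : (𝓞 L)ˣ) : 𝓞 L) = σ • (u : 𝓞 L) := rfl

lemma unitsMap_coe_coe (σ : L ≃ₐ[K] L) (u : (𝓞 L)ˣ) :
    (((unitsMap K L σ u : (𝓞 L)ˣ) : 𝓞 L) : L) = σ ((u : 𝓞 L) : L) := by
  rw [unitsMap_coe]
  exact algebraMap.smul' σ (u : 𝓞 L) L

/-- The action of `Gal(L/K)` on `Additive (𝓞 L)ˣ`. -/
noncomputable def unitsEnd : (L ≃ₐ[K] L) →* AddMonoid.End (Additive (𝓞 L)ˣ) where
  toFun σ := (unitsMap K L σ).toAdditive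
  map_one' := by
    refine AddMonoidHom.ext fun u => ?_
    refine congrArg Additive.ofMul (Units.ext ?_)
    show ((unitsMap K L 1 (Additive.toMul u) : (𝓞 L)ˣ) : 𝓞 L) = _
    rw [unitsMap_coe, one_smul]
    rfl
  map_mul' σ τ := by
    refine AddMonoidHom.ext fun u => ?_
    refine congrArg Additive.ofMul (Units.ext ?_)
    show ((unitsMap K L (σ * τ) (Additive.toMul u) : (𝓞 L)ˣ) : 𝓞 L) = _
    rw [unitsMap_coe, mul_smul]
    rfl

lemma unitsEnd_apply (σ : L ≃ₐ[K] L) (u : (𝓞 L)ˣ) :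
    (((unitsEnd K L σ (Additive.ofMul u)).toMul : (𝓞 L)ˣ) : 𝓞 L) = σ • (u : 𝓞 L) := rfl

/-- The full logarithmic map (all infinite places). -/
noncomputable def logFull : Additive (𝓞 L)ˣ →+ (InfinitePlace L → ℝ) where
  toFun u w := mult w * Real.log (w ((Additive.toMul u : (𝓞 L)ˣ) : 𝓞 L))
  map_zero' := by
    funext w
    simp
  map_add' u v := by
    funext w
    have h1 : w (((Additive.toMul u : (𝓞 L)ˣ) : 𝓞 L) : L) ≠ 0 :=
      (Units.pos_at_place _ w).ne'
    have h2 : w (((Additive.toMul v : (𝓞 L)ˣ) : 𝓞 L) : L) ≠ 0 :=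
      (Units.pos_at_place _ w).ne'
    simp only [toMul_add, Units.val_mul, map_mul, Pi.add_apply]
    rw [Real.log_mul h1 h2, mul_add]

lemma logFull_apply (u : (𝓞 L)ˣ) (w : InfinitePlace L) :
    logFull L (Additive.ofMul u) w = mult w * Real.log (w ((u : 𝓞 L) : L)) := rfl

omit [NumberField L] in
lemma mult_smul' (σ : L ≃ₐ[K] L) (w : InfinitePlace L) : mult (σ • w) = mult w := by
  unfold mult
  rw [isReal_smul_iff]

lemma logFull_unitsEnd (σ : L ≃ₐ[K] L) (u : Additive (𝓞 L)ˣ) :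
    logFull L (unitsEnd K L σ u) = PermLattice.act σ (logFull L u) := by
  funext w
  show (mult w : ℝ) * Real.log (w (((unitsMap K L σ (Additive.toMul u) : (𝓞 L)ˣ) : 𝓞 L) : L)) =
    mult (σ⁻¹ • w) * Real.log ((σ⁻¹ • w) ((Additive.toMul u : (𝓞 L)ˣ) : 𝓞 L))
  rw [unitsMap_coe_coe, mult_smul', InfinitePlace.smul_apply]
  rfl

lemma sum_logFull (u : Additive (𝓞 L)ˣ) : ∑ w, logFull L u w = 0 :=
  sum_mult_mul_log (Additive.toMul u)

/-- The constant function `1`, as a hom from `ℤ`. -/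
noncomputable def constHom : ℤ →+ (InfinitePlace L → ℝ) where
  toFun k _ := (k : ℝ)
  map_zero' := by funext w; simp
  map_add' a b := by funext w; simp

/-- `Φ (u, k) = log u + k • 𝟙`. -/
noncomputable def Phi : Additive (𝓞 L)ˣ × ℤ →+ (InfinitePlace L → ℝ) :=
  (logFull L).coprod (constHom L)

lemma Phi_apply (b : Additive (𝓞 L)ˣ × ℤ) (w : InfinitePlace L) :
    Phi L b w = logFull L b.1 w + (b.2 : ℝ) := rfl

/-- The action on `E_L × ℤ` (trivial on `ℤ`). -/
noncomputable def rho : (L ≃ₐ[K] L) →* AddMonoid.End (Additive (𝓞 L)ˣ × ℤ) where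
  toFun σ := (unitsEnd K L σ).prodMap (AddMonoidHom.id ℤ)
  map_one' := by
    rw [map_one]
    refine AddMonoidHom.ext fun b => ?_
    rfl
  map_mul' σ τ := by
    rw [map_mul]
    refine AddMonoidHom.ext fun b => ?_
    rfl

lemma rho_apply (σ : L ≃ₐ[K] L) (b : Additive (𝓞 L)ˣ × ℤ) :
    rho K L σ b = (unitsEnd K L σ b.1, b.2) := rfl

lemma Phi_rho (σ : L ≃ₐ[K] L) (b : Additive (𝓞 L)ˣ × ℤ) :
    Phi L (rho K L σ b) = PermLattice.act σ (Phi L b) := by
  funext w
  rw [Phi_apply, rho_apply, PermLattice.act_apply, Phi_apply, logFull_unitsEnd]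
  rfl

lemma sum_Phi (b : Additive (𝓞 L)ˣ × ℤ) :
    ∑ w, Phi L b w = (Fintype.card (InfinitePlace L) : ℝ) * b.2 := by
  simp only [Phi_apply, Finset.sum_add_distrib, sum_logFull, zero_add, Finset.sum_const,
    Finset.card_univ, nsmul_eq_mul]

lemma abs_snd_le {r : ℝ} {b : Additive (𝓞 L)ˣ × ℤ} (hb : ∀ w, |Phi L b w| ≤ r) :
    |(b.2 : ℝ)| ≤ r := by
  have hcard : (0 : ℝ) < Fintype.card (InfinitePlace L) := by
    exact_mod_cast Fintype.card_pos
  have h1 : |(Fintype.card (InfinitePlace L) : ℝ) * b.2| ≤ Fintype.card (InfinitePlace L) * r := by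
    rw [← sum_Phi]
    calc |∑ w, Phi L b w| ≤ ∑ w, |Phi L b w| := Finset.abs_sum_le_sum_abs _ _
      _ ≤ ∑ _w : InfinitePlace L, r := Finset.sum_le_sum fun w _ => hb w
      _ = Fintype.card (InfinitePlace L) * r := by
        simp [Finset.sum_const, Finset.card_univ, nsmul_eq_mul]
  rw [abs_mul, abs_of_pos hcard] at h1
  exact le_of_mul_le_mul_left h1 hcard

lemma place_le_of_Phi_le {r : ℝ} {b : Additive (𝓞 L)ˣ × ℤ} (hb : ∀ w, |Phi L b w| ≤ r)
    (w : InfinitePlace L) :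
    w (((Additive.toMul b.1 : (𝓞 L)ˣ) : 𝓞 L) : L) ≤ Real.exp (2 * r) := by
  have hk := abs_snd_le L hb
  have h1 : |logFull L b.1 w| ≤ 2 * r := by
    have := hb w
    rw [Phi_apply] at this
    have h2 : logFull L b.1 w = (logFull L b.1 w + (b.2 : ℝ)) - b.2 := by ring
    rw [h2]
    calc |logFull L b.1 w + (b.2 : ℝ) - b.2| ≤ |logFull L b.1 w + (b.2 : ℝ)| + |(b.2 : ℝ)| :=
          abs_sub _ _
      _ ≤ r + r := add_le_add this hk
      _ = 2 * r := by ring
  have hpos : 0 < w (((Additive.toMul b.1 : (𝓞 L)ˣ) : 𝓞 L) : L) := Units.pos_at_place _ w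
  rw [← Real.log_le_iff_le_exp hpos]
  have hm : (1 : ℝ) ≤ mult w := by
    have : 1 ≤ mult w := by unfold mult; split_ifs <;> norm_num
    exact_mod_cast this
  have h3 : |Real.log (w (((Additive.toMul b.1 : (𝓞 L)ˣ) : 𝓞 L) : L))| ≤ 2 * r := by
    refine le_trans ?_ h1
    show _ ≤ |(mult w : ℝ) * Real.log (w (((Additive.toMul b.1 : (𝓞 L)ˣ) : 𝓞 L) : L))|
    rw [abs_mul, abs_of_pos (lt_of_lt_of_le one_pos hm)]
    exact le_mul_of_one_le_left (abs_nonneg _) hm
  exact (le_abs_self _).trans h3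

theorem finite_Phi_le (r : ℝ) : {b : Additive (𝓞 L)ˣ × ℤ | ∀ w, |Phi L b w| ≤ r}.Finite := by
  have hU : {x : (𝓞 L)ˣ | IsIntegral ℤ ((x : 𝓞 L) : L) ∧
      ∀ φ : L →+* ℂ, ‖φ ((x : 𝓞 L) : L)‖ ≤ Real.exp (2 * r)}.Finite := by
    refine Set.Finite.of_finite_image ?_ (coe_injective L).injOn
    refine (Embeddings.finite_of_norm_le L ℂ (Real.exp (2 * r))).subset ?_
    rintro _ ⟨x, ⟨h_int, h_le⟩, rfl⟩
    exact ⟨h_int, h_le⟩
  have hZ : {k : ℤ | |(k : ℝ)| ≤ r}.Finite := by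
    refine (Set.finite_Icc (-⌊r⌋) ⌊r⌋).subset ?_
    intro k hk
    rw [Set.mem_ofPred_eq, abs_le] at hk
    constructor
    · rw [neg_le]
      apply Int.le_floor.mpr
      push_cast
      linarith [hk.1]
    · exact Int.le_floor.mpr hk.2
  refine ((hU.image Additive.ofMul).prod hZ).subset ?_
  intro b hb
  refine Set.mk_mem_prod ⟨Additive.toMul b.1, ⟨?_, ?_⟩, rfl⟩ (abs_snd_le L hb)
  · exact (Additive.toMul b.1 : (𝓞 L)ˣ).val.prop
  · exact (le_iff_le _ _).mp (place_le_of_Phi_le L hb)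

open dirichletUnitTheorem in
/-- restriction to the places `≠ w₀` -/
noncomputable def resLog : (InfinitePlace L → ℝ) →ₗ[ℝ] logSpace L :=
  LinearMap.funLeft ℝ ℝ (Subtype.val : {w : InfinitePlace L // w ≠ w₀} → InfinitePlace L)

open dirichletUnitTheorem in
lemma resLog_logFull (u : Additive (𝓞 L)ˣ) : resLog L (logFull L u) = logEmbedding L u := rfl

/-- the hyperplane `∑ = 0` -/
noncomputable def sumZero : Submodule ℝ (InfinitePlace L → ℝ) :=
  LinearMap.ker (∑ w : InfinitePlace L, LinearMap.proj (R := ℝ) (φ := fun _ => ℝ) w)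

lemma mem_sumZero (x : InfinitePlace L → ℝ) : x ∈ sumZero L ↔ ∑ w, x w = 0 := by
  unfold sumZero
  rw [LinearMap.mem_ker]
  simp [LinearMap.sum_apply]

open dirichletUnitTheorem in
lemma eq_zero_of_resLog_eq_zero {x : InfinitePlace L → ℝ} (hx : x ∈ sumZero L)
    (h : resLog L x = 0) : x = 0 := by
  classical
  have h1 : ∀ w : InfinitePlace L, w ≠ w₀ → x w = 0 := fun w hw => congrFun h ⟨w, hw⟩
  funext w
  by_cases hw : w = w₀
  · rw [mem_sumZero, Fintype.sum_eq_single w₀ (fun w' hw' => h1 w' hw')] at hx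
    rw [hw]; exact hx
  · exact h1 w hw

open dirichletUnitTheorem in
theorem span_range_Phi : Submodule.span ℝ (Set.range (Phi L)) = ⊤ := by
  classical
  rw [eq_top_iff]
  intro x _
  set R : Set (InfinitePlace L → ℝ) := Set.range (logFull L) with hR
  have hRle : Submodule.span ℝ R ≤ Submodule.span ℝ (Set.range (Phi L)) := by
    apply Submodule.span_mono
    rintro _ ⟨u, rfl⟩
    refine ⟨(u, 0), ?_⟩
    funext w
    simp [Phi_apply]
  have hRH : Submodule.span ℝ R ≤ sumZero L := by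
    rw [Submodule.span_le]
    rintro _ ⟨u, rfl⟩
    exact (mem_sumZero L _).mpr (sum_logFull L u)
  have hone : (fun _ : InfinitePlace L => (1 : ℝ)) ∈ Submodule.span ℝ (Set.range (Phi L)) := by
    apply Submodule.subset_span
    refine ⟨(0, 1), ?_⟩
    funext w
    simp [Phi_apply]
  set s : ℝ := (∑ w, x w) / Fintype.card (InfinitePlace L) with hs
  set x' : InfinitePlace L → ℝ := x - s • (fun _ => (1 : ℝ)) with hx'
  have hcard : (Fintype.card (InfinitePlace L) : ℝ) ≠ 0 := by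
    exact_mod_cast Fintype.card_ne_zero
  have hx'H : x' ∈ sumZero L := by
    rw [mem_sumZero]
    simp only [hx', Pi.sub_apply, Pi.smul_apply, smul_eq_mul, mul_one, Finset.sum_sub_distrib,
      Finset.sum_const, Finset.card_univ, nsmul_eq_mul, hs]
    field_simp
    ring
  -- the image of `R` under `resLog` is the unit lattice
  have himg : (resLog L) '' R = (unitLattice L : Set (logSpace L)) := by
    ext z
    constructor
    · rintro ⟨_, ⟨u, rfl⟩, rfl⟩
      exact ⟨u, trivial, rfl⟩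
    · rintro ⟨u, -, rfl⟩
      exact ⟨logFull L u, ⟨u, rfl⟩, rfl⟩
  have htop : resLog L x' ∈ Submodule.map (resLog L) (Submodule.span ℝ R) := by
    rw [Submodule.map_span, himg, unitLattice_span_eq_top]
    trivial
  obtain ⟨y, hy, hyx⟩ := htop
  have hxy : x' - y = 0 := by
    apply eq_zero_of_resLog_eq_zero L ((sumZero L).sub_mem hx'H (hRH hy))
    rw [map_sub, hyx, sub_self]
  have hxeq : x = y + s • (fun _ => (1 : ℝ)) := by
    have : x' = y := sub_eq_zero.mp hxy
    rw [← this, hx']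
    abel
  rw [hxeq]
  exact Submodule.add_mem _ (hRle hy) (Submodule.smul_mem _ _ hone)

section ProdEnd

variable {M₁ M₂ : Type*} [AddCommGroup M₁] [AddCommGroup M₂]

/-- the product endomorphism -/
def prodEnd (f : AddMonoid.End M₁) (g : AddMonoid.End M₂) : AddMonoid.End (M₁ × M₂) :=
  AddMonoidHom.prodMap f g

lemma prodEnd_pow (f : AddMonoid.End M₁) (g : AddMonoid.End M₂) (i : ℕ) :
    prodEnd f g ^ i = prodEnd (f ^ i) (g ^ i) := by
  induction i with
  | zero => rfl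
  | succ i ih => rw [pow_succ, pow_succ, pow_succ, ih]; rfl

lemma dlt_prodEnd (f : AddMonoid.End M₁) (g : AddMonoid.End M₂) :
    dlt (prodEnd f g) = (dlt f).prodMap (dlt g) := by
  refine AddMonoidHom.ext fun x => ?_
  rfl

lemma nrm_prodEnd (f : AddMonoid.End M₁) (g : AddMonoid.End M₂) (n : ℕ) :
    nrm (prodEnd f g) n = (nrm f n).prodMap (nrm g n) := by
  refine AddMonoidHom.ext fun x => ?_
  have h : ((nrm f n).prodMap (nrm g n)) x = (nrm f n x.1, nrm g n x.2) := rfl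
  rw [nrm_apply, h, nrm_apply, nrm_apply]
  simp only [prodEnd_pow]
  refine Prod.ext ?_ ?_
  · rw [Prod.fst_sum]; rfl
  · rw [Prod.snd_sum]; rfl

end ProdEnd

variable [IsGalois K L]

theorem units_herbrand (σ : L ≃ₐ[K] L) (hσ : ∀ g, g ∈ Subgroup.zpowers σ)
    (hinf : ∀ w : InfinitePlace L, w.IsUnramified K) :
    hIdx (dlt (unitsEnd K L σ)) (nrm (unitsEnd K L σ) (Module.finrank K L)) ≠ 0 ∧
    hIdx (nrm (unitsEnd K L σ) (Module.finrank K L)) (dlt (unitsEnd K L σ)) =
      Module.finrank K L *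
        hIdx (dlt (unitsEnd K L σ)) (nrm (unitsEnd K L σ) (Module.finrank K L)) := by
  classical
  have hfree : ∀ (g : L ≃ₐ[K] L) (w : InfinitePlace L), g • w = w → g = 1 := by
    intro g w hg
    have h1 : g ∈ MulAction.stabilizer (L ≃ₐ[K] L) w := hg
    rw [(hinf w).stabilizer_eq_bot] at h1
    exact Subgroup.mem_bot.mp h1
  have hcard : Nat.card (L ≃ₐ[K] L) = Module.finrank K L := IsGalois.card_aut_eq_finrank K L
  have hn0 : Module.finrank K L ≠ 0 := Module.finrank_pos.ne'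
  have key := HerbrandLattice.herbrand_lattice hfree σ hσ (rho K L) (Phi L) (Phi_rho K L)
    (span_range_Phi L) (finite_Phi_le L)
  rw [hcard] at key
  have hrho : rho K L σ = prodEnd (unitsEnd K L σ) (1 : AddMonoid.End ℤ) := rfl
  rw [hrho, dlt_prodEnd, nrm_prodEnd, hIdx_prod, hIdx_prod, int_trivial_zero,
    int_trivial_one hn0, mul_one] at key
  obtain ⟨k1, k2⟩ := key
  refine ⟨left_ne_zero_of_mul k1, ?_⟩
  rw [← k2, mul_comm]

end Fermat.Agent.S14.UnitsHerbrand
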