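import Mathlib
import Fermat.Agent.S14.FirstIneqNF
import Fermat.Agent.S14.GalDivisors
import Fermat.Agent.S14.NormDiv
import Fermat.Agent.S14.UnitsHerbrand

set_option autoImplicit false
set_option linter.unusedSectionVars false

/-!
# S14 block A: the first inequality for unramified cyclic extensions of number fields

`first_inequality_nf`: `L/K` cyclic (generator `σ`), unramified at all finite primes and at all
infinite places ⇒ `[L:K]` divides the (finite, nonzero) index of the subgroup of norm classes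
`normClassSubgroup K L ≤ Cl(K)`.

`first_inequality_prime`: the same for `[L:K] = p` an odd prime (cyclicity and the condition at
infinity are automatic): `p ≤ (normClassSubgroup K L).index`.
-/

open NumberField IsDedekindDomain
open scoped nonZeroDivisors

namespace Fermat.Agent.S14.FirstIneq

open Fermat.Agent.S14.Herbrand Fermat.Agent.S14.AmbigAbstract Fermat.Agent.S14.PermModule
  Fermat.Agent.S14.DivClass Fermat.Agent.S14.H90 Fermat.Agent.S14.GalDiv

variable (K L : Type) [Field K] [Field L] [NumberField K] [NumberField L] [Algebra K L]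
  [IsGalois K L]

/-- The permutation of the finite places of `L` induced by `σ`. -/
noncomputable def placePerm (σ : L ≃ₐ[K] L) : Equiv.Perm (HeightOneSpectrum (𝓞 L)) :=
  MulAction.toPerm σ

lemma placePerm_apply (σ : L ≃ₐ[K] L) (w : HeightOneSpectrum (𝓞 L)) :
    placePerm K L σ w = σ • w := rfl

lemma placePerm_pow (σ : L ≃ₐ[K] L) (k : ℕ) : placePerm K L σ ^ k = placePerm K L (σ ^ k) := by
  show (MulAction.toPermHom (L ≃ₐ[K] L) (HeightOneSpectrum (𝓞 L)) σ) ^ k = _
  rw [← map_pow]
  rfl

lemma placePerm_pow_finrank (σ : L ≃ₐ[K] L) : placePerm K L σ ^ Module.finrank K L = 1 := by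
  rw [placePerm_pow, ← IsGalois.card_aut_eq_finrank, pow_card_eq_one']
  exact Equiv.ext fun w => one_smul (L ≃ₐ[K] L) w

lemma permEnd_placePerm (τ : L ≃ₐ[K] L) : permEnd (placePerm K L τ) = galEnd τ := rfl

/-- Valuation equivariance in divisor form. -/
lemma divK_fieldUnitsEnd (σ : L ≃ₐ[K] L) (a : Additive Lˣ) :
    divK (𝓞 L) L (fieldUnitsEnd K L σ a) = permEnd (placePerm K L σ) (divK (𝓞 L) L a) := by
  ext w'
  obtain ⟨w, rfl⟩ : ∃ w, placePerm K L σ w = w' := (placePerm K L σ).surjective w'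
  rw [permEnd_apply_apply, divK_apply, divK_apply]
  obtain ⟨x, rfl⟩ : ∃ x : Lˣ, Additive.ofMul x = a := ⟨a.toMul, rfl⟩
  have : (((fieldUnitsEnd K L σ (Additive.ofMul x)).toMul : Lˣ) : L) = σ (x : L) := rfl
  rw [this, placePerm_apply, valuation_smul]
  rfl

/-- Unramified: the divisor of an element of `K` extends. -/
lemma divK_extA (hunr : UnramifiedEverywhere K L) (a : Additive Kˣ) :
    divK (𝓞 L) L (extA K L a) = ext K L (divK (𝓞 K) K a) := by
  ext w
  rw [ext_apply, divK_apply, divK_apply]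
  have hw : w.asIdeal.inertia (L ≃ₐ[K] L) = ⊥ :=
    (unramifiedEverywhere_iff K L).mp hunr w.asIdeal w.isPrime w.ne_bot
  obtain ⟨x, rfl⟩ : ∃ x : Kˣ, Additive.ofMul x = a := ⟨a.toMul, rfl⟩
  have : (((extA K L (Additive.ofMul x)).toMul : Lˣ) : L) = algebraMap K L (x : K) := rfl
  rw [this, valuation_algebraMap_of_inertia_eq_bot w hw]
  rfl

/-- The norm `∑_{i<n} σ^i` on divisors is `ext ∘ Nm` (unramified, `σ` a generator). -/
lemma nrm_permEnd_eq (σ : L ≃ₐ[K] L) (hσ : ∀ g, g ∈ Subgroup.zpowers σ)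
    (hunr : UnramifiedEverywhere K L) (D : HeightOneSpectrum (𝓞 L) →₀ ℤ) :
    nrm (permEnd (placePerm K L σ)) (Module.finrank K L) D = ext K L (Nm K L D) := by
  classical
  let _ : Fintype (L ≃ₐ[K] L) := Fintype.ofFinite _
  have hunr' : ∀ w : HeightOneSpectrum (𝓞 L), w.asIdeal.inertia (L ≃ₐ[K] L) = ⊥ := fun w =>
    (unramifiedEverywhere_iff K L).mp hunr w.asIdeal w.isPrime w.ne_bot
  rw [← sum_galEnd_eq_ext_Nm hunr' D, nrm_apply]
  have himg := IsCyclic.image_range_card hσ
  rw [IsGalois.card_aut_eq_finrank] at himg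
  rw [← himg, Finset.sum_image]
  · refine Finset.sum_congr rfl fun i _ => ?_
    have h : permEnd (placePerm K L σ) ^ i = galEnd (σ ^ i) := by
      rw [permEnd_pow, placePerm_pow, permEnd_placePerm]
    exact DFunLike.congr_fun h D
  · intro i hi j hj hij
    have hi' : i < orderOf σ := by
      rw [orderOf_eq_card_of_forall_mem_zpowers hσ, IsGalois.card_aut_eq_finrank]
      exact Finset.mem_range.mp hi
    have hj' : j < orderOf σ := by
      rw [orderOf_eq_card_of_forall_mem_zpowers hσ, IsGalois.card_aut_eq_finrank]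
      exact Finset.mem_range.mp hj
    exact pow_injOn_Iio_orderOf hi' hj' hij

lemma unitsIncl_unitsEnd (σ : L ≃ₐ[K] L) (e : Additive (𝓞 L)ˣ) :
    unitsIncl L (UnitsHerbrand.unitsEnd K L σ e) = fieldUnitsEnd K L σ (unitsIncl L e) := by
  obtain ⟨u, rfl⟩ : ∃ u : (𝓞 L)ˣ, Additive.ofMul u = e := ⟨e.toMul, rfl⟩
  apply congrArg Additive.ofMul
  apply Units.ext
  show (((UnitsHerbrand.unitsMap K L σ u : (𝓞 L)ˣ) : 𝓞 L) : L) = σ ((u : 𝓞 L) : L)
  exact UnitsHerbrand.unitsMap_coe_coe K L σ u

/-- **First inequality** for an unramified cyclic extension of number fields. -/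
theorem first_inequality_nf (σ : L ≃ₐ[K] L) (hσ : ∀ g, g ∈ Subgroup.zpowers σ)
    (hunr : UnramifiedEverywhere K L) (hinf : ∀ w : InfinitePlace L, w.IsUnramified K) :
    Module.finrank K L ∣ (normClassSubgroup K L).index ∧ (normClassSubgroup K L).index ≠ 0 := by
  obtain ⟨hq0, hq⟩ := UnitsHerbrand.units_herbrand K L σ hσ hinf
  refine first_inequality_nf_of K L σ hσ (placePerm K L σ) (placePerm_pow_finrank K L σ)
    (divK_fieldUnitsEnd K L σ) (ext K L) (Nm K L) ext_injective ?_ (divK_extA K L hunr)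
    (nrm_permEnd_eq K L σ hσ hunr) ?_ (UnitsHerbrand.unitsEnd K L σ) (unitsIncl_unitsEnd K L σ)
    hq0 hq
  · intro D
    have h1 : (∀ w, D (placePerm K L σ w) = D w) ↔ permEnd (placePerm K L σ) D = D := by
      rw [← mem_ker_dlt_iff, AddMonoidHom.mem_ker, dlt_apply, sub_eq_zero]
    exact h1.trans (galEnd_eq_iff_mem_range_of_generator σ hσ D)
  · intro J
    exact NormDiv.nm_divI K L (Nm K L) (fun w => Nm_single_one w)
      (mem_nonZeroDivisors_iff_ne_zero.mp J.2)

/-- **First inequality, prime degree.** `L/K` Galois of odd prime degree `p`, unramified at all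
finite primes: the norm classes have index at least `p` in `Cl(K)`. -/
theorem first_inequality_prime {p : ℕ} (hp : p.Prime) (hp2 : p ≠ 2)
    (hdeg : Module.finrank K L = p) (hunr : UnramifiedEverywhere K L) :
    p ∣ (normClassSubgroup K L).index ∧ (normClassSubgroup K L).index ≠ 0 ∧
      p ≤ (normClassSubgroup K L).index := by
  have hcard : Nat.card (L ≃ₐ[K] L) = p := by rw [IsGalois.card_aut_eq_finrank, hdeg]
  have : Fact p.Prime := ⟨hp⟩
  have hcyc : IsCyclic (L ≃ₐ[K] L) := isCyclic_of_prime_card hcard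
  obtain ⟨σ, hσ⟩ := hcyc.exists_generator
  have hodd : Odd (Module.finrank K L) := by
    rw [hdeg]
    exact hp.odd_of_ne_two hp2
  have hinfc : IsUnramifiedAtInfinitePlaces K L := IsUnramifiedAtInfinitePlaces_of_odd_finrank hodd
  have hinf : ∀ w : InfinitePlace L, w.IsUnramified K := fun w =>
    IsUnramifiedAtInfinitePlaces.isUnramified w
  obtain ⟨h1, h2⟩ := first_inequality_nf K L σ hσ hunr hinf
  rw [hdeg] at h1
  exact ⟨h1, h2, Nat.le_of_dvd (Nat.pos_of_ne_zero h2) h1⟩

end Fermat.Agent.S14.FirstIneq
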