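import Mathlib
import Fermat.Agent.S14.FirstInequality
import Fermat.Agent.S14.Wiring

set_option autoImplicit false

/-!
# S14 block A, final form: `Wiring.FirstIneqA p` holds for every odd prime `p`.
-/

open NumberField

namespace Fermat.Agent.S14.FirstIneq

/-- **Block A of S14**: the first inequality for the extensions `L/K` produced by G0. -/
theorem firstIneqA {p : ℕ} [hp : Fact p.Prime] (h3 : 3 ≤ p) : Wiring.FirstIneqA p := by
  intro K L _ _ _ _ _ _ _ _ hyp
  have hp2 : p ≠ 2 := by omega
  have hunr : UnramifiedEverywhere K L := hyp.inertia_trivial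
  exact (first_inequality_prime K L hp.out hp2 hyp.finrank_eq hunr).2.2

end Fermat.Agent.S14.FirstIneq
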