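import Mathlib
import Fermat.Agent.S14.Defs
import Fermat.Agent.S14.ArtinMap

/-!
# S14 block G1: base change

Tower `K ⊆ F ⊆ M`, `K ⊆ L ⊆ M` with `L/K`, `M/F` Galois.  If `M = L·F` then restriction
`Gal(M/F) → Gal(L/K)` is injective, and `M/F` is unramified everywhere as soon as `L/K` is.
-/

set_option autoImplicit false
set_option linter.unusedSectionVars false

namespace Fermat.Agent.S14.ArtinBaseChange

open NumberField Fermat.Agent.S14.ArtinMap
open scoped Pointwise

section Fields

variable (L F M : Type*) [Field L] [Field F] [Field M] [Algebra L M] [Algebra F M]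

/-- An `F`-automorphism of `M` fixing the image of `L` pointwise is the identity, if `M = F(L)`
and `M/F` is algebraic. -/
theorem eq_one_of_forall_apply_algebraMap [Algebra.IsAlgebraic F M]
    (hgen : IntermediateField.adjoin F (Set.range (algebraMap L M)) = ⊤)
    (σ : M ≃ₐ[F] M) (hσ : ∀ x : L, σ (algebraMap L M x) = algebraMap L M x) : σ = 1 := by
  let S : Subalgebra F M := AlgHom.equalizer (σ : M →ₐ[F] M) (AlgHom.id F M)
  have hsub : Set.range (algebraMap L M) ⊆ (S : Set M) := by
    rintro _ ⟨x, rfl⟩
    exact hσ x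
  have h1 : Algebra.adjoin F (Set.range (algebraMap L M)) ≤ S := Algebra.adjoin_le hsub
  have h2 : (IntermediateField.adjoin F (Set.range (algebraMap L M))).toSubalgebra =
      Algebra.adjoin F (Set.range (algebraMap L M)) :=
    IntermediateField.adjoin_toSubalgebra_of_isAlgebraic
      (fun x _ => Algebra.IsAlgebraic.isAlgebraic x)
  ext m
  have hm : m ∈ (IntermediateField.adjoin F (Set.range (algebraMap L M))).toSubalgebra := by
    rw [hgen]; trivial
  rw [h2] at hm
  exact h1 hm

end Fields

section NumberFields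

variable (K L F M : Type*) [Field K] [Field L] [Field F] [Field M]
  [NumberField K] [NumberField L] [NumberField F] [NumberField M]
  [Algebra K L] [Algebra K F] [Algebra L M] [Algebra F M] [Algebra K M]
  [IsScalarTower K L M] [IsScalarTower K F M]
  [IsGalois K L] [IsGalois F M]

/-- If `M = L·F` then restriction `Gal(M/F) → Gal(L/K)` is injective. -/
theorem res_injective
    (hgen : IntermediateField.adjoin F (Set.range (algebraMap L M)) = ⊤) :
    Function.Injective (res K L F M) := by
  rw [injective_iff_map_eq_one]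
  intro σ hσ
  refine eq_one_of_forall_apply_algebraMap L F M hgen σ fun x => ?_
  rw [← res_commutes K L F M σ x, hσ, AlgEquiv.one_apply]

variable {K L F M}

/-- Restriction maps the inertia group of `𝔔` into the inertia group of `𝔔 ∩ 𝓞 L`. -/
theorem res_mem_inertia {𝔔 : Ideal (𝓞 M)} {σ : Gal(M/F)} (hσ : σ ∈ 𝔔.inertia Gal(M/F)) :
    res K L F M σ ∈ (𝔔.under (𝓞 L)).inertia Gal(L/K) := by
  intro x
  show res K L F M σ • x - x ∈ 𝔔.under (𝓞 L)
  rw [Ideal.under_def, Ideal.mem_comap, map_sub, res_smul_int]
  exact hσ _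

/-- **Base change of unramifiedness**: if restriction is injective (e.g. `M = L·F`) and `L/K` is
unramified everywhere then so is `M/F`. -/
theorem unramifiedEverywhere_of_res_injective (hinj : Function.Injective (res K L F M))
    (hunr : UnramifiedEverywhere K L) : UnramifiedEverywhere F M := by
  intro 𝔔 h𝔔 h𝔔0 σ hσ
  have := h𝔔
  have hQp : (𝔔.under (𝓞 L)).IsPrime := Ideal.IsPrime.under (𝓞 L) 𝔔
  have hQ0 : 𝔔.under (𝓞 L) ≠ ⊥ := Ideal.under_ne_bot (𝓞 L) h𝔔0
  have h1 : res K L F M σ = 1 :=
    hunr _ hQp hQ0 _ (res_mem_inertia (K := K) (L := L) (σ := σ) hσ)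
  exact hinj (h1.trans (map_one _).symm)

theorem unramifiedEverywhere_of_adjoin_eq_top
    (hgen : IntermediateField.adjoin F (Set.range (algebraMap L M)) = ⊤)
    (hunr : UnramifiedEverywhere K L) : UnramifiedEverywhere F M :=
  unramifiedEverywhere_of_res_injective (res_injective K L F M hgen) hunr

end NumberFields

end Fermat.Agent.S14.ArtinBaseChange
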