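import Mathlib

set_option autoImplicit false

open scoped Pointwise NumberField
open NumberField Finset

namespace Fermat.Agent.S14.Stick

section FiniteFieldSum

variable (F : Type*) [Field F] [Fintype F]

/-- `∑ x, x^A (1-x)^B = 0` in a finite field with `q` elements when `A + B < q - 1`. -/
theorem sum_pow_mul_one_sub_pow_eq_zero (A B : ℕ) (h2 : A + B < Fintype.card F - 1) :
    ∑ x : F, x ^ A * (1 - x) ^ B = 0 := by
  have h : ∀ x : F, x ^ A * (1 - x) ^ B =
      ∑ m ∈ range (B + 1), ((-1 : F) ^ m * (B.choose m : F)) * x ^ (A + m) := by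
    intro x
    rw [sub_eq_add_neg, add_comm, add_pow, mul_sum]
    refine sum_congr rfl fun m _ => ?_
    rw [one_pow, mul_one, neg_pow, pow_add]
    ring
  simp_rw [h]
  rw [sum_comm]
  refine sum_eq_zero fun m hm => ?_
  rw [← mul_sum, FiniteField.sum_pow_lt_card_sub_one F, mul_zero]
  have := mem_range.mp hm
  omega

end FiniteFieldSum

/-- Transfer of power relations between two primitive roots of the same order. -/
lemma pow_eq_pow_of_isPrimitiveRoot {A B : Type*} [CommMonoid A] [CommMonoid B] {a : A} {b : B}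
    {k : ℕ} (ha : IsPrimitiveRoot a k) (hb : IsPrimitiveRoot b k) (hk : 0 < k) {i j : ℕ}
    (h : a ^ i = a ^ j) : b ^ i = b ^ j := by
  wlog hij : i ≤ j generalizing i j
  · exact (this h.symm (le_of_not_ge hij)).symm
  obtain ⟨d, rfl⟩ := Nat.exists_eq_add_of_le hij
  have hu : IsUnit (a ^ i) := (ha.isUnit hk.ne').pow i
  rw [pow_add] at h
  have h1 : a ^ d = 1 := by
    have := hu.mul_left_cancel (a := a ^ i) (b := 1) (c := a ^ d) (by rw [mul_one]; exact h)
    exact this.symm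
  have h2 : b ^ d = 1 := (hb.pow_eq_one_iff_dvd d).mpr ((ha.pow_eq_one_iff_dvd d).mp h1)
  rw [pow_add, h2, mul_one]

section Character

variable {p : ℕ} [hp : Fact p.Prime] {R : Type*} [CommRing R]
  {F : Type*} [Field F] [Fintype F]
  (π : R →+* F) {ζ : R} (hζ : IsPrimitiveRoot ζ p) (hζF : IsPrimitiveRoot (π ζ) p)
  {M : ℕ} (hM : p * M = Fintype.card F - 1)

include hζF hM in
lemma exists_pow_eq (x : F) (hx : x ≠ 0) : ∃ j : ℕ, j < p ∧ (π ζ) ^ j = x ^ M := by
  have h1 : (x ^ M) ^ p = 1 := by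
    rw [← pow_mul, mul_comm, hM, FiniteField.pow_card_sub_one_eq_one x hx]
  have : NeZero p := ⟨hp.out.ne_zero⟩
  obtain ⟨j, hj, h⟩ := hζF.eq_pow_of_pow_eq_one h1
  exact ⟨j, hj, h⟩

open Classical in
/-- discrete logarithm of `x ^ M` in base `π ζ`. -/
noncomputable def dlog (x : F) : ℕ :=
  if hx : x ≠ 0 then (exists_pow_eq π hζF hM x hx).choose else 0

lemma dlog_spec (x : F) (hx : x ≠ 0) : (π ζ) ^ dlog π hζF hM x = x ^ M := by
  rw [dlog, dif_pos hx]
  exact (exists_pow_eq π hζF hM x hx).choose_spec.2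

include hζ in
lemma zeta_pow_dlog_mul (x y : F) (hx : x ≠ 0) (hy : y ≠ 0) :
    ζ ^ dlog π hζF hM (x * y) = ζ ^ dlog π hζF hM x * ζ ^ dlog π hζF hM y := by
  have h := dlog_spec π hζF hM (x * y) (mul_ne_zero hx hy)
  rw [mul_pow, ← dlog_spec π hζF hM x hx, ← dlog_spec π hζF hM y hy, ← pow_add] at h
  rw [← pow_add]
  exact pow_eq_pow_of_isPrimitiveRoot hζF hζ hp.out.pos h

open Classical in
/-- The `p`-th power residue character `x ↦ ζ ^ j` with `π ζ ^ j = x ^ M`. -/
noncomputable def resChar : MulChar F R where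
  toFun x := if x = 0 then 0 else ζ ^ dlog π hζF hM x
  map_one' := by
    rw [if_neg one_ne_zero]
    have h := dlog_spec π hζF hM (1 : F) one_ne_zero
    rw [one_pow, ← pow_zero (π ζ)] at h
    rw [← pow_zero ζ]
    exact pow_eq_pow_of_isPrimitiveRoot hζF hζ hp.out.pos (by rw [pow_zero] at h ⊢; exact h)
  map_mul' x y := by
    by_cases hx : x = 0
    · simp [hx]
    by_cases hy : y = 0
    · simp [hy]
    rw [if_neg hx, if_neg hy, if_neg (mul_ne_zero hx hy)]
    exact zeta_pow_dlog_mul π hζ hζF hM x y hx hy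
  map_nonunit' x hx := by
    have : x = 0 := by
      by_contra h
      exact hx (isUnit_iff_ne_zero.mpr h)
    simp [this]

open Classical in
lemma resChar_apply_of_ne_zero (x : F) (hx : x ≠ 0) :
    resChar π hζ hζF hM x = ζ ^ dlog π hζF hM x := by
  show (if x = 0 then 0 else ζ ^ dlog π hζF hM x) = _
  rw [if_neg hx]

include hM in
omit hp [Field F] in
lemma M_pos (hcard : 3 ≤ Fintype.card F) : 0 < M := by
  rcases Nat.eq_zero_or_pos M with h | h
  · subst h
    omega
  · exact h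

include hζF in
omit [Fintype F] in
/-- `p ∣ card F - 1`, so `3 ≤ card F`. -/
lemma three_le_card [Fintype F] : 3 ≤ Fintype.card F := by
  have h1 : (π ζ) ^ (Fintype.card F - 1) = 1 :=
    FiniteField.pow_card_sub_one_eq_one _ (hζF.ne_zero hp.out.ne_zero)
  have h2 := (hζF.pow_eq_one_iff_dvd _).mp h1
  have h3 : 1 < Fintype.card F := Fintype.one_lt_card
  have h4 := Nat.le_of_dvd (by omega) h2
  have := hp.out.two_le
  omega

/-- `π (χ x) = x ^ M`. -/
lemma map_resChar (x : F) : π (resChar π hζ hζF hM x) = x ^ M := by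
  by_cases hx : x = 0
  · subst hx
    rw [MulChar.map_zero, map_zero, zero_pow]
    exact (M_pos hM (three_le_card π hζF)).ne'
  · rw [resChar_apply_of_ne_zero π hζ hζF hM x hx, map_pow, dlog_spec π hζF hM x hx]

/-- values of `χ` are `0` or powers of `ζ`. -/
lemma resChar_eq_zero_or (x : F) :
    resChar π hζ hζF hM x = 0 ∨ ∃ j : ℕ, resChar π hζ hζF hM x = ζ ^ j := by
  by_cases hx : x = 0
  · left; rw [hx, MulChar.map_zero]
  · right; exact ⟨_, resChar_apply_of_ne_zero π hζ hζF hM x hx⟩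

/-- `π (J(χ^a, χ^b)) = ∑ x, x^(aM) (1-x)^(bM)`. -/
lemma map_jacobiSum_pow (a b : ℕ) (ha : a ≠ 0) (hb : b ≠ 0) :
    π (jacobiSum (resChar π hζ hζF hM ^ a) (resChar π hζ hζF hM ^ b)) =
      ∑ x : F, x ^ (M * a) * (1 - x) ^ (M * b) := by
  rw [jacobiSum, map_sum]
  refine sum_congr rfl fun x _ => ?_
  rw [map_mul, MulChar.pow_apply' _ ha, MulChar.pow_apply' _ hb, map_pow, map_pow,
    map_resChar, map_resChar, ← pow_mul, ← pow_mul]

/-- `J(χ^a, χ^b) ∈ ker π` when `a + b < p`. -/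
lemma map_jacobiSum_pow_eq_zero (a b : ℕ) (ha : a ≠ 0) (hb : b ≠ 0) (hab : a + b < p) :
    π (jacobiSum (resChar π hζ hζF hM ^ a) (resChar π hζ hζF hM ^ b)) = 0 := by
  rw [map_jacobiSum_pow π hζ hζF hM a b ha hb]
  apply sum_pow_mul_one_sub_pow_eq_zero
  rw [← hM, ← mul_add, mul_comm]
  exact Nat.mul_lt_mul_of_pos_right hab (M_pos hM (three_le_card π hζF))

/-- A ring endomorphism `σ` with `σ ζ = ζ ^ a` maps `χ` to `χ ^ a`. -/
lemma ringHomComp_resChar (σ : R →+* R) (a : ℕ) (ha : a ≠ 0) (hσ : σ ζ = ζ ^ a) :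
    (resChar π hζ hζF hM).ringHomComp σ = resChar π hζ hζF hM ^ a := by
  ext x
  rw [MulChar.ringHomComp_apply, MulChar.pow_apply' _ ha]
  rcases resChar_eq_zero_or π hζ hζF hM x with h | ⟨j, h⟩
  · rw [h, map_zero, zero_pow ha]
  · rw [h, map_pow, hσ, ← pow_mul, ← pow_mul, mul_comm]

lemma map_jacobiSum_resChar (σ : R →+* R) (a : ℕ) (ha : a ≠ 0) (hσ : σ ζ = ζ ^ a) :
    σ (jacobiSum (resChar π hζ hζF hM) (resChar π hζ hζF hM)) =
      jacobiSum (resChar π hζ hζF hM ^ a) (resChar π hζ hζF hM ^ a) := by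
  rw [← jacobiSum_ringHomComp, ringHomComp_resChar π hζ hζF hM σ a ha hσ]

end Character

end Fermat.Agent.S14.Stick
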