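import Mathlib
import Fermat.Agent.S14.StickChar

set_option autoImplicit false
set_option linter.unusedSectionVars false

open scoped Pointwise NumberField
open NumberField Finset

namespace Fermat.Agent.S14.Stick

section Global

variable {p : ℕ} [hp : Fact p.Prime] {K : Type*} [Field K] [NumberField K]
  [IsCyclotomicExtension {p} ℚ K] {ζ : K} (hζ : IsPrimitiveRoot ζ p)

/-- the exponent `a` with `σ ζ = ζ ^ a`, as a natural number in `[1, p-1]`. -/
noncomputable def expo (σ : K ≃ₐ[ℚ] K) : ℕ := ((hζ.autToPow ℚ σ : (ZMod p)ˣ) : ZMod p).val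

lemma expo_spec (σ : K ≃ₐ[ℚ] K) : σ ζ = ζ ^ expo hζ σ := (hζ.autToPow_spec ℚ σ).symm

lemma expo_lt (σ : K ≃ₐ[ℚ] K) : expo hζ σ < p := ZMod.val_lt _

lemma expo_ne_zero (σ : K ≃ₐ[ℚ] K) : expo hζ σ ≠ 0 := by
  rw [expo, Ne, ZMod.val_eq_zero]
  exact Units.ne_zero _

lemma smul_toInteger (σ : K ≃ₐ[ℚ] K) : σ • hζ.toInteger = hζ.toInteger ^ expo hζ σ := by
  apply RingOfIntegers.ext
  show σ ζ = _
  rw [expo_spec hζ σ]
  show _ = algebraMap (𝓞 K) K (hζ.toInteger ^ expo hζ σ)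
  rw [map_pow]
  rfl

lemma expo_injective : Function.Injective (expo hζ) := by
  intro σ τ h
  apply hζ.autToPow_injective ℚ
  apply Units.ext
  exact ZMod.val_injective p h

lemma expo_one : expo hζ 1 = 1 := by
  rw [expo, map_one, Units.val_one]
  have : Fact (1 < p) := ⟨hp.out.one_lt⟩
  exact ZMod.val_one p

lemma autToPow_bijective : Function.Bijective (hζ.autToPow ℚ) := by
  have : IsGalois ℚ K := IsCyclotomicExtension.isGalois {p} ℚ K
  rw [Fintype.bijective_iff_injective_and_card]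
  refine ⟨hζ.autToPow_injective ℚ, ?_⟩
  rw [← Nat.card_eq_fintype_card, IsGalois.card_aut_eq_finrank,
    IsCyclotomicExtension.finrank K (Polynomial.cyclotomic.irreducible_rat hp.out.pos),
    ZMod.card_units_eq_totient]

/-- "complex conjugation": the automorphism with `ζ ↦ ζ⁻¹`. -/
noncomputable def conjAut : K ≃ₐ[ℚ] K := ((autToPow_bijective hζ).2 (-1)).choose

lemma autToPow_conjAut : hζ.autToPow ℚ (conjAut hζ) = -1 :=
  ((autToPow_bijective hζ).2 (-1)).choose_spec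

lemma expo_conjAut : expo hζ (conjAut hζ) = p - 1 := by
  rw [expo, autToPow_conjAut, Units.val_neg, Units.val_one]
  obtain ⟨n, rfl⟩ : ∃ n, p = n + 1 := ⟨p - 1, (Nat.succ_pred_eq_of_pos hp.out.pos).symm⟩
  rw [ZMod.val_neg_one]
  rfl

lemma expo_mul_conjAut (σ : K ≃ₐ[ℚ] K) : expo hζ (σ * conjAut hζ) = p - expo hζ σ := by
  rw [expo, map_mul, autToPow_conjAut, mul_neg, mul_one, Units.val_neg]
  have : NeZero p := ⟨hp.out.ne_zero⟩
  rw [ZMod.neg_val, if_neg]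
  · rfl
  · exact Units.ne_zero _

/-- The half-system `T = {σ | 2 * expo σ < p}`. -/
noncomputable def halfSet : Finset (K ≃ₐ[ℚ] K) := univ.filter fun σ => 2 * expo hζ σ < p

lemma mem_halfSet (σ : K ≃ₐ[ℚ] K) : σ ∈ halfSet hζ ↔ 2 * expo hζ σ < p := by
  simp [halfSet]

lemma mul_conjAut_mem_halfSet_iff (hp2 : p ≠ 2) (σ : K ≃ₐ[ℚ] K) :
    σ * conjAut hζ ∈ halfSet hζ ↔ σ ∉ halfSet hζ := by
  rw [mem_halfSet, mem_halfSet, expo_mul_conjAut]
  have h1 := expo_lt hζ σ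
  have h2 := expo_ne_zero hζ σ
  have h3 : ¬ 2 ∣ p := by
    intro h
    exact hp2 ((Nat.prime_dvd_prime_iff_eq Nat.prime_two hp.out).mp h).symm
  omega

/-- `∏_{σ} f σ = ∏_{σ ∈ T} f σ * f (σ c)`. -/
lemma prod_univ_eq_prod_halfSet {M : Type*} [CommMonoid M] (hp2 : p ≠ 2) (f : (K ≃ₐ[ℚ] K) → M) :
    ∏ σ, f σ = ∏ σ ∈ halfSet hζ, f σ * f (σ * conjAut hζ) := by
  classical
  rw [prod_mul_distrib, ← prod_filter_mul_prod_filter_not univ (· ∈ halfSet hζ) f]
  congr 1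
  · exact prod_congr (by ext; simp) fun _ _ => rfl
  · symm
    refine prod_bij (fun σ _ => σ * conjAut hζ) ?_ ?_ ?_ ?_
    · intro σ hσ
      rw [mem_filter]
      refine ⟨mem_univ _, ?_⟩
      intro h
      exact ((mul_conjAut_mem_halfSet_iff hζ hp2 σ).mp h) hσ
    · intro σ _ τ _ h
      exact mul_right_cancel h
    · intro τ hτ
      rw [mem_filter] at hτ
      refine ⟨τ * (conjAut hζ)⁻¹, ?_, by rw [inv_mul_cancel_right]⟩
      have := (mul_conjAut_mem_halfSet_iff hζ hp2 (τ * (conjAut hζ)⁻¹))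
      rw [inv_mul_cancel_right] at this
      by_contra h
      exact hτ.2 (this.mpr h)
    · intro σ _
      rfl

/-- `absNorm (σ • Q) = absNorm Q`. -/
lemma absNorm_smul (σ : K ≃ₐ[ℚ] K) (Q : Ideal (𝓞 K)) : Ideal.absNorm (σ • Q) = Ideal.absNorm Q := by
  rw [Ideal.absNorm_apply, Ideal.absNorm_apply, Submodule.cardQuot_apply, Submodule.cardQuot_apply]
  let e : 𝓞 K ≃+* 𝓞 K := MulSemiringAction.toRingEquiv (K ≃ₐ[ℚ] K) (𝓞 K) σ
  have h : σ • Q = Ideal.map (e : 𝓞 K →+* 𝓞 K) Q := rfl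
  exact (Nat.card_congr (Ideal.quotientEquiv Q (σ • Q) e h).toEquiv).symm

/-- The image of `ζ` in the residue field of a prime not above `p` is a primitive `p`-th root. -/
lemma isPrimitiveRoot_mk (Q : Ideal (𝓞 K)) [Q.IsPrime] (hQp : (p : 𝓞 K) ∉ Q) :
    IsPrimitiveRoot (Ideal.Quotient.mk Q hζ.toInteger) p := by
  have h1 : (Ideal.Quotient.mk Q hζ.toInteger) ^ p = 1 := by
    rw [← map_pow, hζ.toInteger_isPrimitiveRoot.pow_eq_one, map_one]
  have h2 : Ideal.Quotient.mk Q hζ.toInteger ≠ 1 := by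
    intro h
    rw [← map_one (Ideal.Quotient.mk Q), ← sub_eq_zero, ← map_sub, Ideal.Quotient.eq_zero_iff_mem]
      at h
    apply hQp
    have h3 : hζ.toInteger - 1 ∣ ((p : ℤ) : 𝓞 K) :=
      (IsCyclotomicExtension.Rat.zeta_sub_one_dvd_intCast_iff' p hζ).mpr dvd_rfl
    rw [Int.cast_natCast] at h3
    exact Ideal.mem_of_dvd Q h3 h
  have h4 := IsPrimitiveRoot.orderOf (Ideal.Quotient.mk Q hζ.toInteger)
  rwa [orderOf_eq_prime h1 h2] at h4


/-- If the residue field of `Q` is the prime field, every element is congruent to a natural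
number modulo `Q`. -/
lemma exists_nat_sub_mem (Q : Ideal (𝓞 K)) {ℓ : ℕ} (hℓ : ℓ.Prime)
    (hQ : Ideal.absNorm Q = ℓ) (x : 𝓞 K) : ∃ n : ℕ, x - n ∈ Q := by
  have hfin : Finite (𝓞 K ⧸ Q) := by
    apply Nat.finite_of_card_ne_zero
    rw [← Submodule.cardQuot_apply, ← Ideal.absNorm_apply, hQ]
    exact hℓ.ne_zero
  let _ : Fintype (𝓞 K ⧸ Q) := Fintype.ofFinite _
  have hcard : Fintype.card (𝓞 K ⧸ Q) = ℓ := by
    rw [← Nat.card_eq_fintype_card, ← Submodule.cardQuot_apply, ← Ideal.absNorm_apply, hQ]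
  let e := ZMod.ringEquivOfPrime (𝓞 K ⧸ Q) hℓ hcard
  have : NeZero ℓ := ⟨hℓ.ne_zero⟩
  set z := e.symm (Ideal.Quotient.mk Q x) with hz
  refine ⟨z.val, ?_⟩
  rw [← Ideal.Quotient.eq_zero_iff_mem, map_sub, map_natCast, sub_eq_zero]
  have h1 : e z = Ideal.Quotient.mk Q x := e.apply_symm_apply _
  rw [← h1]
  conv_lhs => rw [← ZMod.natCast_zmod_val z]
  rw [map_natCast]

include hζ in
/-- The decomposition group of a degree-one prime not above `p` is trivial. -/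
lemma eq_one_of_smul_eq (Q : Ideal (𝓞 K)) [Q.IsPrime] {ℓ : ℕ} (hℓ : ℓ.Prime)
    (hQ : Ideal.absNorm Q = ℓ) (hQp : (p : 𝓞 K) ∉ Q) (ρ : K ≃ₐ[ℚ] K) (hρ : ρ • Q = Q) : ρ = 1 := by
  have key : ∀ x : 𝓞 K, ρ • x - x ∈ Q := by
    intro x
    obtain ⟨n, hn⟩ := exists_nat_sub_mem Q hℓ hQ x
    have h1 : ρ • (x - n) ∈ Q := by
      rw [← hρ]
      exact Ideal.smul_mem_pointwise_smul _ _ _ hn
    have h3 : ρ • (n : 𝓞 K) = n := map_natCast (MulSemiringAction.toRingHom _ (𝓞 K) ρ) n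
    have h2 : ρ • x - x = ρ • (x - (n : 𝓞 K)) - (x - n) := by
      rw [smul_sub, h3]
      ring
    rw [h2]
    exact Q.sub_mem h1 hn
  have hζF := isPrimitiveRoot_mk hζ Q hQp
  have h1 := key hζ.toInteger
  rw [smul_toInteger, ← Ideal.Quotient.eq_zero_iff_mem, map_sub, map_pow, sub_eq_zero] at h1
  have h2 := hζF.pow_inj (expo_lt hζ ρ) hp.out.one_lt (by rw [h1, pow_one])
  apply expo_injective hζ
  rw [h2, expo_one]


/-- powers `χ ^ a`, `0 < a < p`, of the residue character are nontrivial at a generator -/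
lemma exists_resChar_pow_ne_one {R : Type*} [CommRing R] {F : Type*} [Field F] [Fintype F]
    (π : R →+* F) {z : R} (hz : IsPrimitiveRoot z p) (hzF : IsPrimitiveRoot (π z) p)
    {M : ℕ} (hM : p * M = Fintype.card F - 1) :
    ∃ g : F, g ≠ 0 ∧ ∀ a : ℕ, 0 < a → a < p → (resChar π hz hzF hM g) ^ a ≠ 1 := by
  classical
  obtain ⟨g, hg⟩ := IsCyclic.exists_generator (α := Fˣ)
  have hord : orderOf g = Fintype.card F - 1 := by
    rw [orderOf_eq_card_of_forall_mem_zpowers hg, Nat.card_eq_fintype_card, Fintype.card_units]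
  refine ⟨g, g.ne_zero, fun a ha hap h => ?_⟩
  have h1 := congrArg π h
  rw [map_pow, map_resChar, map_one, ← pow_mul] at h1
  have h2 : g ^ (M * a) = 1 := by
    apply Units.ext
    rw [Units.val_pow_eq_pow_val, h1, Units.val_one]
  have h3 := orderOf_dvd_of_pow_eq_one h2
  rw [hord, ← hM] at h3
  have hMpos := M_pos hM (three_le_card π hzF)
  have h4 := Nat.le_of_dvd (Nat.mul_pos hMpos ha) h3
  have : M * a < p * M := by
    rw [mul_comm p M]
    exact Nat.mul_lt_mul_of_pos_left hap hMpos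
  omega

/-- **Stickelberger for degree-one primes** (Jacobi sum form): for a prime `Q` of `𝓞 K`,
`K = ℚ(ζ_p)`, with residue field `𝔽_ℓ`, `ℓ ≠ p`, the ideal `∏_{σ ∈ T} σ⁻¹ Q` is principal. -/
theorem exists_span_eq_prod_of_absNorm_prime (hp2 : p ≠ 2) (Q : Ideal (𝓞 K)) [Q.IsPrime] {ℓ : ℕ}
    (hℓ : ℓ.Prime) (hQ : Ideal.absNorm Q = ℓ) (hℓp : ℓ ≠ p) :
    ∃ J : 𝓞 K, Ideal.span {J} = ∏ σ ∈ halfSet hζ, σ⁻¹ • Q := by
  classical
  have hQ0 : Q ≠ ⊥ := by
    rintro rfl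
    rw [Ideal.absNorm_bot] at hQ
    exact hℓ.ne_zero hQ.symm
  have hQmax : Q.IsMaximal := Ideal.IsPrime.isMaximal inferInstance hQ0
  letI : Field (𝓞 K ⧸ Q) := Ideal.Quotient.field Q
  have hfin : Finite (𝓞 K ⧸ Q) := Ideal.finiteQuotientOfFreeOfNeBot Q hQ0
  letI : Fintype (𝓞 K ⧸ Q) := Fintype.ofFinite _
  have hcard : Fintype.card (𝓞 K ⧸ Q) = ℓ := by
    rw [← Nat.card_eq_fintype_card, ← Submodule.cardQuot_apply, ← Ideal.absNorm_apply, hQ]
  have hℓQ : (ℓ : 𝓞 K) ∈ Q := hQ ▸ Ideal.absNorm_mem Q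
  have hpQ : (p : 𝓞 K) ∉ Q := by
    intro h
    have hcop : Nat.Coprime ℓ p := (Nat.coprime_primes hℓ hp.out).mpr hℓp
    have h1 : ((Nat.gcd ℓ p : ℕ) : ℤ) = ℓ * Nat.gcdA ℓ p + p * Nat.gcdB ℓ p := Nat.gcd_eq_gcd_ab ℓ p
    rw [hcop.gcd_eq_one, Nat.cast_one] at h1
    have h2 : (1 : 𝓞 K) = (ℓ : 𝓞 K) * (Nat.gcdA ℓ p : 𝓞 K) + (p : 𝓞 K) * (Nat.gcdB ℓ p : 𝓞 K) := by
      have := congrArg (Int.cast : ℤ → 𝓞 K) h1
      push_cast at this
      exact this
    apply hQmax.ne_top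
    rw [Ideal.eq_top_iff_one, h2]
    exact Q.add_mem (Q.mul_mem_right _ hℓQ) (Q.mul_mem_right _ h)
  have hζF := isPrimitiveRoot_mk hζ Q hpQ
  have hζR := hζ.toInteger_isPrimitiveRoot
  obtain ⟨M, hM⟩ : ∃ M, p * M = Fintype.card (𝓞 K ⧸ Q) - 1 := by
    have h1 : (Ideal.Quotient.mk Q hζ.toInteger) ^ (Fintype.card (𝓞 K ⧸ Q) - 1) = 1 :=
      FiniteField.pow_card_sub_one_eq_one _ (hζF.ne_zero hp.out.ne_zero)
    obtain ⟨M, hM⟩ := (hζF.pow_eq_one_iff_dvd _).mp h1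
    exact ⟨M, hM.symm⟩
  set χ := resChar (Ideal.Quotient.mk Q) hζR hζF hM with hχ
  set J := jacobiSum χ χ with hJ
  -- the conjugates of `J`
  have hconj : ∀ σ : K ≃ₐ[ℚ] K, σ • J = jacobiSum (χ ^ expo hζ σ) (χ ^ expo hζ σ) := fun σ =>
    map_jacobiSum_resChar (Ideal.Quotient.mk Q) hζR hζF hM
      (MulSemiringAction.toRingHom _ (𝓞 K) σ) (expo hζ σ) (expo_ne_zero hζ σ) (smul_toInteger hζ σ)
  -- membership
  have hmem : ∀ σ ∈ halfSet hζ, J ∈ σ⁻¹ • Q := by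
    intro σ hσ
    rw [Ideal.mem_pointwise_smul_iff_inv_smul_mem, inv_inv, hconj σ,
      ← Ideal.Quotient.eq_zero_iff_mem]
    apply map_jacobiSum_pow_eq_zero (Ideal.Quotient.mk Q) hζR hζF hM _ _ (expo_ne_zero hζ σ)
      (expo_ne_zero hζ σ)
    have := (mem_halfSet hζ σ).mp hσ
    omega
  -- `J * conj J = ℓ`
  have hp3 : 2 < p := lt_of_le_of_ne hp.out.two_le hp2.symm
  have hJJ : J * (conjAut hζ • J) = ℓ := by
    obtain ⟨g, hg0, hg⟩ := exists_resChar_pow_ne_one (Ideal.Quotient.mk Q) hζR hζF hM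
    have hinj : Function.Injective (algebraMap (𝓞 K) K) := RingOfIntegers.coe_injective
    apply hinj
    set χK := χ.ringHomComp (algebraMap (𝓞 K) K) with hχK
    have hχK1 : χK ≠ 1 := by
      intro h
      have h1 := congrArg (fun ψ : MulChar (𝓞 K ⧸ Q) K => ψ g) h
      simp only [hχK, MulChar.ringHomComp_apply, MulChar.one_apply (isUnit_iff_ne_zero.mpr hg0)] at h1
      have := hg 1 one_pos hp.out.one_lt
      rw [pow_one] at this
      exact this (hinj (by rw [h1, map_one]))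
    have hχK2 : χK * χK ≠ 1 := by
      intro h
      have h1 := congrArg (fun ψ : MulChar (𝓞 K ⧸ Q) K => ψ g) h
      simp only [hχK, MulChar.mul_apply, MulChar.ringHomComp_apply,
        MulChar.one_apply (isUnit_iff_ne_zero.mpr hg0)] at h1
      have := hg 2 two_pos hp3
      exact this (hinj (by rw [map_pow, pow_two, h1, map_one]))
    have hchar : ringChar K ≠ ringChar (𝓞 K ⧸ Q) := by
      rw [ringChar.eq_zero]
      intro h
      have h1 : ringChar (𝓞 K ⧸ Q) ∣ Fintype.card (𝓞 K ⧸ Q) := by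
        rw [← ringChar.spec]
        exact Nat.cast_card_eq_zero _
      rw [← h, hcard, zero_dvd_iff] at h1
      exact hℓ.ne_zero h1
    have h1 := jacobiSum_mul_jacobiSum_inv hchar hχK1 hχK1 hχK2
    rw [hcard] at h1
    -- χ⁻¹ = χ ^ (p - 1)
    have hinv : χK⁻¹ = (χ ^ (p - 1)).ringHomComp (algebraMap (𝓞 K) K) := by
      ext x
      rw [MulChar.inv_apply_eq_inv', MulChar.ringHomComp_apply, MulChar.ringHomComp_apply,
        MulChar.pow_apply' _ (by omega)]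
      have hx : IsUnit (x : 𝓞 K ⧸ Q) := x.isUnit
      rcases resChar_eq_zero_or (Ideal.Quotient.mk Q) hζR hζF hM (x : 𝓞 K ⧸ Q) with h0 | ⟨j, hj⟩
      · exfalso
        have := map_resChar (Ideal.Quotient.mk Q) hζR hζF hM (x : 𝓞 K ⧸ Q)
        rw [h0, map_zero] at this
        exact (pow_ne_zero _ x.ne_zero) this.symm
      · rw [← hχ] at hj
        rw [hj, map_pow, map_pow, map_pow]
        apply inv_eq_of_mul_eq_one_right
        rw [← pow_mul, ← pow_add, ← mul_one_add]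
        have : 1 + (p - 1) = p := by omega
        rw [this, mul_comm, pow_mul]
        have h5 : (algebraMap (𝓞 K) K hζ.toInteger) ^ p = 1 := by
          rw [← map_pow, hζR.pow_eq_one, map_one]
        rw [h5, one_pow]
    rw [hinv, jacobiSum_ringHomComp, jacobiSum_ringHomComp, ← map_mul] at h1
    rw [hconj, expo_conjAut, h1, map_natCast]
  -- norm of `J`
  have hnorm : Ideal.absNorm (Ideal.span {J}) = ℓ ^ (halfSet hζ).card := by
    rw [Ideal.absNorm_span_singleton]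
    have : IsGalois ℚ K := IsCyclotomicExtension.isGalois {p} ℚ K
    have h1 : (algebraMap ℚ K) (Algebra.norm ℚ (J : K)) = ∏ σ : K ≃ₐ[ℚ] K, σ (J : K) :=
      Algebra.norm_eq_prod_automorphisms ℚ (J : K)
    have h2 : ∏ σ : K ≃ₐ[ℚ] K, σ (J : K) = algebraMap ℚ K ((ℓ : ℚ) ^ (halfSet hζ).card) := by
      rw [prod_univ_eq_prod_halfSet hζ hp2, map_pow, ← prod_const]
      refine prod_congr rfl fun σ _ => ?_
      have h3 : (σ * conjAut hζ) (J : K) = σ ((conjAut hζ • J : 𝓞 K) : K) := rfl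
      rw [h3, ← map_mul]
      have h4 : (J : K) * ((conjAut hζ • J : 𝓞 K) : K) = ((J * (conjAut hζ • J) : 𝓞 K) : K) :=
        (map_mul (algebraMap (𝓞 K) K) _ _).symm
      rw [h4, hJJ]
      simp
    rw [h2] at h1
    have h5 : Algebra.norm ℚ (J : K) = (ℓ : ℚ) ^ (halfSet hζ).card :=
      (algebraMap ℚ K).injective h1
    have h6 : ((Algebra.norm ℤ J : ℤ) : ℚ) = (ℓ : ℚ) ^ (halfSet hζ).card := by
      rw [Algebra.coe_norm_int, h5]
    have h7 : (Algebra.norm ℤ J : ℤ) = (ℓ : ℤ) ^ (halfSet hζ).card := by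
      exact_mod_cast h6
    rw [h7, Int.natAbs_pow, Int.natAbs_natCast]
  -- distinctness
  have hinj : Set.InjOn (fun σ : K ≃ₐ[ℚ] K => σ⁻¹ • Q) (halfSet hζ) := by
    intro σ _ τ _ h
    change σ⁻¹ • Q = τ⁻¹ • Q at h
    have h1 : (τ * σ⁻¹) • Q = Q := by
      rw [mul_smul]
      show τ • (σ⁻¹ • Q) = Q
      rw [h, smul_inv_smul]
    have := eq_one_of_smul_eq hζ Q hℓ hQ hpQ _ h1
    rw [mul_inv_eq_one] at this
    exact this.symm
  -- divisibility
  have hdvd : (∏ σ ∈ halfSet hζ, σ⁻¹ • Q) ∣ Ideal.span {J} := by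
    rw [← prod_image (f := fun x => x) hinj]
    apply Finset.prod_primes_dvd
    · intro P hP
      obtain ⟨σ, _, rfl⟩ := mem_image.mp hP
      have hprime : (σ⁻¹ • Q).IsPrime := by
        rw [Ideal.pointwise_smul_def]
        exact Ideal.map_isPrime_of_equiv (MulSemiringAction.toRingEquiv _ (𝓞 K) σ⁻¹)
      have hne : σ⁻¹ • Q ≠ ⊥ := by
        intro h
        apply hQ0
        have := congrArg (fun I => σ • I) h
        simpa using this
      exact Ideal.prime_of_isPrime hne hprime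
    · intro P hP
      obtain ⟨σ, hσ, rfl⟩ := mem_image.mp hP
      rw [Ideal.dvd_iff_le, Ideal.span_singleton_le_iff_mem]
      exact hmem σ hσ
  obtain ⟨C, hC⟩ := hdvd
  have hC1 : Ideal.absNorm C = 1 := by
    have h1 := congrArg Ideal.absNorm hC
    rw [hnorm, map_mul, map_prod] at h1
    have h2 : ∏ σ ∈ halfSet hζ, Ideal.absNorm (σ⁻¹ • Q) = ℓ ^ (halfSet hζ).card := by
      rw [← prod_const]
      exact prod_congr rfl fun σ _ => by rw [absNorm_smul, hQ]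
    rw [h2] at h1
    have h3 : 0 < ℓ ^ (halfSet hζ).card := pow_pos hℓ.pos _
    exact (Nat.eq_of_mul_eq_mul_left h3 (by rw [mul_one]; exact h1)).symm
  rw [Ideal.absNorm_eq_one_iff] at hC1
  refine ⟨J, ?_⟩
  rw [hC, hC1, Ideal.mul_top]

/-- characterisation of `expo`. -/
lemma expo_eq_of_apply_eq (σ : K ≃ₐ[ℚ] K) {a : ℕ} (ha : a < p) (h : σ ζ = ζ ^ a) :
    expo hζ σ = a := by
  rw [expo_spec hζ σ] at h
  exact hζ.pow_inj (expo_lt hζ σ) ha h

lemma exists_expo_eq {a : ℕ} (ha0 : a ≠ 0) (ha : a < p) : ∃ σ : K ≃ₐ[ℚ] K, expo hζ σ = a := by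
  have hcop : Nat.Coprime a p := by
    rw [Nat.coprime_comm, Nat.Prime.coprime_iff_not_dvd hp.out]
    intro h
    exact ha0 (Nat.eq_zero_of_dvd_of_lt h ha)
  obtain ⟨σ, hσ⟩ := (autToPow_bijective hζ).2 (ZMod.unitOfCoprime a hcop)
  refine ⟨σ, ?_⟩
  rw [expo, hσ, ZMod.coe_unitOfCoprime, ZMod.val_natCast_of_lt ha]

/-- `∑_{σ ∈ T} expo σ = 1 + 2 + ⋯ + (p-1)/2`. -/
lemma sum_expo_halfSet : ∑ σ ∈ halfSet hζ, expo hζ σ = ∑ a ∈ range ((p + 1) / 2), a := by
  rw [← sum_filter_ne_zero (s := range ((p + 1) / 2))]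
  refine sum_bij (fun σ _ => expo hζ σ) ?_ ?_ ?_ ?_
  · intro σ hσ
    rw [mem_filter, mem_range]
    have := (mem_halfSet hζ σ).mp hσ
    exact ⟨by omega, expo_ne_zero hζ σ⟩
  · intro σ _ τ _ h
    exact expo_injective hζ h
  · intro b hb
    rw [mem_filter, mem_range] at hb
    obtain ⟨σ, hσ⟩ := exists_expo_eq hζ hb.2 (by have := hp.out.two_le; omega)
    refine ⟨σ, ?_, hσ⟩
    rw [mem_halfSet, hσ]
    have h3 : ¬ 2 ∣ p ∨ p = 2 := by
      by_cases h : 2 ∣ p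
      · right; exact ((Nat.prime_dvd_prime_iff_eq Nat.prime_two hp.out).mp h).symm
      · left; exact h
    rcases h3 with h3 | h3
    · omega
    · subst h3
      omega
  · intro σ _
    rfl

/-- `p ∤ ∑_{σ ∈ T} expo σ` (it is `(p² - 1)/8`). -/
lemma not_dvd_sum_expo_halfSet (hp2 : p ≠ 2) : ¬ p ∣ ∑ σ ∈ halfSet hζ, expo hζ σ := by
  rw [sum_expo_halfSet]
  intro h
  have h1 : p ∣ (∑ a ∈ range ((p + 1) / 2), a) * 2 := Dvd.dvd.mul_right h 2
  rw [Finset.sum_range_id_mul_two] at h1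
  have hp3 : 2 < p := lt_of_le_of_ne hp.out.two_le hp2.symm
  rcases (Nat.Prime.dvd_mul hp.out).mp h1 with h2 | h2
  · have := Nat.le_of_dvd (by omega) h2
    omega
  · have := Nat.le_of_dvd (by omega) h2
    omega

/-- primes containing `p`. -/
lemma eq_span_of_mem (Q : Ideal (𝓞 K)) [Q.IsPrime] (h : (p : 𝓞 K) ∈ Q) :
    Q = Ideal.span {hζ.toInteger - 1} := by
  have : Q.LiesOver (Ideal.span {(p : ℤ)}) := by
    constructor
    have hmax : (Ideal.span {(p : ℤ)}).IsMaximal :=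
      PrincipalIdealRing.isMaximal_of_irreducible
        (Nat.prime_iff_prime_int.mp hp.out).irreducible
    apply hmax.eq_of_le
    · exact (Ideal.IsPrime.under ℤ Q).ne_top
    · rw [Ideal.span_singleton_le_iff_mem, Ideal.mem_comap]
      simpa using h
  exact IsCyclotomicExtension.Rat.eq_span_zeta_sub_one_of_liesOver' p K hζ Q

/-- **Stickelberger for degree-one primes**: `∏_{σ ∈ T} σ⁻¹ Q` is principal, where
`T = {σ | σ ζ = ζ ^ a, 1 ≤ a < p/2}`. -/
theorem isPrincipal_prod_smul (hp2 : p ≠ 2) (Q : Ideal (𝓞 K)) [Q.IsPrime] {ℓ : ℕ}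
    (hℓ : ℓ.Prime) (hQ : Ideal.absNorm Q = ℓ) :
    (∏ σ ∈ halfSet hζ, σ⁻¹ • Q).IsPrincipal := by
  by_cases hℓp : ℓ = p
  · subst hℓp
    have hmem : ((ℓ : ℕ) : 𝓞 K) ∈ Q := hQ ▸ Ideal.absNorm_mem Q
    have hQeq := eq_span_of_mem hζ Q hmem
    have hall : ∀ σ : K ≃ₐ[ℚ] K, σ⁻¹ • Q = Q := by
      intro σ
      have hprime : (σ⁻¹ • Q).IsPrime := by
        rw [Ideal.pointwise_smul_def]
        exact Ideal.map_isPrime_of_equiv (MulSemiringAction.toRingEquiv _ (𝓞 K) σ⁻¹)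
      have h1 : ((ℓ : ℕ) : 𝓞 K) ∈ σ⁻¹ • Q := by
        rw [Ideal.mem_pointwise_smul_iff_inv_smul_mem, inv_inv]
        have h3 : σ • ((ℓ : ℕ) : 𝓞 K) = ℓ :=
          map_natCast (MulSemiringAction.toRingHom _ (𝓞 K) σ) ℓ
        rw [h3]
        exact hmem
      rw [eq_span_of_mem hζ (σ⁻¹ • Q) h1, ← hQeq]
    rw [prod_congr rfl fun σ _ => hall σ, prod_const, hQeq, Ideal.span_singleton_pow]
    exact ⟨_, rfl⟩
  · obtain ⟨J, hJ⟩ := exists_span_eq_prod_of_absNorm_prime hζ hp2 Q hℓ hQ hℓp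
    exact ⟨J, hJ.symm⟩

end Global

end Fermat.Agent.S14.Stick
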