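import Mathlib
import Fermat.Agent.S14.StickOne

set_option autoImplicit false
set_option linter.unusedSectionVars false
set_option linter.style.haveILetI false

open scoped Pointwise NumberField
open NumberField Finset

namespace Fermat.Agent.S14.Stick

section Endgame

variable {p : ℕ} [hp : Fact p.Prime] {K : Type*} [Field K] [NumberField K]
  [IsCyclotomicExtension {p} ℚ K] {ζ : K} (hζ : IsPrimitiveRoot ζ p)

/-- a group element killed by `p` and by some `n` prime to `p` is trivial. -/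
lemma eq_one_of_pow_eq_one_of_not_dvd {G : Type*} [Group G] {g : G} {n : ℕ}
    (hgp : g ^ p = 1) (hgn : g ^ n = 1) (hn : ¬ p ∣ n) : g = 1 := by
  have h1 : orderOf g ∣ p := orderOf_dvd_of_pow_eq_one hgp
  have h2 : orderOf g ∣ n := orderOf_dvd_of_pow_eq_one hgn
  rcases (Nat.dvd_prime hp.out).mp h1 with h | h
  · exact orderOf_eq_one_iff.mp h
  · exact absurd (h ▸ h2) hn

include hζ in
/-- a nonzero prime of `𝓞 K` whose norm is not a prime number is fixed by a nontrivial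
automorphism. -/
lemma exists_ne_one_smul_eq (Q : Ideal (𝓞 K)) [Q.IsPrime] (hQ0 : Q ≠ ⊥)
    (hQ : ¬ (Ideal.absNorm Q).Prime) : ∃ τ : K ≃ₐ[ℚ] K, τ ≠ 1 ∧ τ • Q = Q := by
  haveI : IsGalois ℚ K := IsCyclotomicExtension.isGalois {p} ℚ K
  haveI : NeZero Q := ⟨hQ0⟩
  set ℓ := Ideal.absNorm (Ideal.under ℤ Q) with hℓdef
  have hℓ : ℓ.Prime := Nat.absNorm_under_prime Q
  haveI : Fact ℓ.Prime := ⟨hℓ⟩
  haveI : Q.LiesOver (Ideal.span {(ℓ : ℤ)}) := Int.liesOver_span_absNorm Q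
  haveI : (Ideal.span {(ℓ : ℤ)}).IsMaximal := Int.ideal_span_isMaximal_of_prime ℓ
  haveI : Q.IsMaximal := Ring.DimensionLEOne.maximalOfPrime hQ0 inferInstance
  have hnorm : Ideal.absNorm Q = ℓ ^ (Q.inertiaDeg ℤ) := by
    rw [Ideal.absNorm_eq_pow_inertiaDeg' Q hℓ, Ideal.inertiaDeg'_eq_inertiaDeg]
  have hcard : Nat.card (MulAction.stabilizer (K ≃ₐ[ℚ] K) Q)
      = Nat.card (Q.inertia (K ≃ₐ[ℚ] K)) * Q.inertiaDeg ℤ :=
    Ideal.card_stabilizer_eq_card_inertia_mul_finrank (Ideal.span {(ℓ : ℤ)}) Q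
  have hf1 : Q.inertiaDeg ℤ ≠ 1 := by
    intro h
    rw [h, pow_one] at hnorm
    exact hQ (hnorm ▸ hℓ)
  have hf0 : Q.inertiaDeg ℤ ≠ 0 := by
    intro h
    rw [h, pow_zero] at hnorm
    exact (Ideal.absNorm_eq_one_iff.mp hnorm) ▸ (inferInstance : Q.IsPrime).ne_top <| rfl
  have hI : 0 < Nat.card (Q.inertia (K ≃ₐ[ℚ] K)) := Nat.card_pos
  have h2 : 1 < Nat.card (MulAction.stabilizer (K ≃ₐ[ℚ] K) Q) := by
    rw [hcard]
    have : 2 ≤ Q.inertiaDeg ℤ := by omega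
    nlinarith
  haveI : Nontrivial (MulAction.stabilizer (K ≃ₐ[ℚ] K) Q) :=
    (Finite.one_lt_card_iff_nontrivial).mp h2
  obtain ⟨τ, hτ⟩ := exists_ne (1 : MulAction.stabilizer (K ≃ₐ[ℚ] K) Q)
  refine ⟨τ.1, fun h => hτ (Subtype.ext h), τ.2⟩

/-- multiplicativity gives `φ 1 = 1`. -/
lemma map_one_of_mul {G : Type*} [Group G] (φ : Ideal (𝓞 K) → G)
    (hmul : ∀ I J : Ideal (𝓞 K), I ≠ ⊥ → J ≠ ⊥ → φ (I * J) = φ I * φ J) : φ 1 = 1 := by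
  have h1 : (1 : Ideal (𝓞 K)) ≠ ⊥ := by
    rw [Ideal.one_eq_top]; exact top_ne_bot
  have := hmul 1 1 h1 h1
  rw [mul_one] at this
  exact (mul_eq_left.mp this.symm)

lemma prod_smul_ne_bot (Q : Ideal (𝓞 K)) (hQ0 : Q ≠ ⊥) (s : Finset (K ≃ₐ[ℚ] K)) :
    (∏ σ ∈ s, σ⁻¹ • Q) ≠ ⊥ := by
  rw [← Ideal.zero_eq_bot, Finset.prod_ne_zero_iff]
  intro σ _ h
  apply hQ0
  have := congrArg (fun I => σ • I) h
  simpa using this

/-- core computation: multiplicativity and equivariance give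
`φ (∏_{σ ∈ s} σ⁻¹ Q) = φ(Q) ^ (∑_{σ ∈ s} expo σ)`; no commutativity of `G` is needed. -/
lemma map_prod_smul_eq_pow {G : Type*} [Group G] (φ : Ideal (𝓞 K) → G)
    (hmul : ∀ I J : Ideal (𝓞 K), I ≠ ⊥ → J ≠ ⊥ → φ (I * J) = φ I * φ J)
    (Q : Ideal (𝓞 K)) (hQ0 : Q ≠ ⊥)
    (hequiv : ∀ σ : K ≃ₐ[ℚ] K, φ (σ⁻¹ • Q) = φ Q ^ expo hζ σ)
    (s : Finset (K ≃ₐ[ℚ] K)) :
    φ (∏ σ ∈ s, σ⁻¹ • Q) = φ Q ^ ∑ σ ∈ s, expo hζ σ := by
  classical
  induction s using Finset.induction_on with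
  | empty => simpa using map_one_of_mul φ hmul
  | insert a s ha ih =>
    rw [Finset.prod_insert ha, Finset.sum_insert ha, pow_add, hmul _ _ ?_ (prod_smul_ne_bot Q hQ0 s),
      ih, hequiv]
    intro h
    apply hQ0
    have := congrArg (fun I => a • I) h
    simpa using this

/-- **Endgame at one prime.** Let `φ` be multiplicative on nonzero ideals with values in a group,
`Q` a nonzero prime with `φ(Q)^p = 1`, `φ (σ⁻¹ Q) = φ(Q) ^ expo σ` for all `σ`, and `φ` trivial on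
those products of conjugates of `Q` which are principal. Then `φ Q = 1`. -/
theorem map_eq_one_of_equivariant_at (hp2 : p ≠ 2) {G : Type*} [Group G] (φ : Ideal (𝓞 K) → G)
    (hmul : ∀ I J : Ideal (𝓞 K), I ≠ ⊥ → J ≠ ⊥ → φ (I * J) = φ I * φ J)
    (Q : Ideal (𝓞 K)) [Q.IsPrime] (hQ0 : Q ≠ ⊥)
    (hprinc : ∀ s : Finset (K ≃ₐ[ℚ] K), (∏ σ ∈ s, σ⁻¹ • Q).IsPrincipal →
      φ (∏ σ ∈ s, σ⁻¹ • Q) = 1)
    (hequiv : ∀ σ : K ≃ₐ[ℚ] K, φ (σ⁻¹ • Q) = φ Q ^ expo hζ σ)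
    (hpow : φ Q ^ p = 1) : φ Q = 1 := by
  by_cases hQ : (Ideal.absNorm Q).Prime
  · -- degree one: Stickelberger
    have h1 := hprinc (halfSet hζ) (isPrincipal_prod_smul hζ hp2 Q hQ rfl)
    rw [map_prod_smul_eq_pow hζ φ hmul Q hQ0 hequiv] at h1
    exact eq_one_of_pow_eq_one_of_not_dvd hpow h1 (not_dvd_sum_expo_halfSet hζ hp2)
  · -- higher degree: `Q` is fixed by some `τ ≠ 1`
    obtain ⟨τ, hτ1, hτQ⟩ := exists_ne_one_smul_eq hζ Q hQ0 hQ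
    have hτQ' : τ⁻¹ • Q = Q := by
      conv_lhs => rw [← hτQ]
      simp
    have h1 := hequiv τ
    rw [hτQ'] at h1
    have hne1 : expo hζ τ ≠ 1 := fun h => hτ1 (expo_injective hζ (h.trans (expo_one hζ).symm))
    have hne0 := expo_ne_zero hζ τ
    have hlt := expo_lt hζ τ
    have h2 : φ Q ^ (expo hζ τ - 1) = 1 := by
      have h3 : φ Q ^ (expo hζ τ - 1) * φ Q = φ Q := by
        rw [← pow_succ, Nat.sub_add_cancel (by omega)]
        exact h1.symm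
      exact mul_eq_right.mp h3
    refine eq_one_of_pow_eq_one_of_not_dvd hpow h2 ?_
    intro hdvd
    have := Nat.le_of_dvd (by omega) hdvd
    omega

/-- **Endgame, global form.** `K = ℚ(ζ_p)`, `p` odd. Let `φ : Ideal (𝓞 K) → G` (`G` any group) be
multiplicative on nonzero ideals, trivial on nonzero principal ideals, with `φ(Q)^p = 1` and
`φ (σ⁻¹ Q) = φ(Q) ^ a` whenever `σ ζ = ζ ^ a` (`a = expo σ`), for all nonzero primes `Q`.
Then `φ` is trivial on every nonzero prime. -/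
theorem map_eq_one_of_equivariant (hp2 : p ≠ 2) {G : Type*} [Group G] (φ : Ideal (𝓞 K) → G)
    (hmul : ∀ I J : Ideal (𝓞 K), I ≠ ⊥ → J ≠ ⊥ → φ (I * J) = φ I * φ J)
    (hprinc : ∀ I : Ideal (𝓞 K), I ≠ ⊥ → I.IsPrincipal → φ I = 1)
    (hequiv : ∀ (σ : K ≃ₐ[ℚ] K) (Q : Ideal (𝓞 K)), Q.IsPrime → Q ≠ ⊥ →
      φ (σ⁻¹ • Q) = φ Q ^ expo hζ σ)
    (hpow : ∀ Q : Ideal (𝓞 K), Q.IsPrime → Q ≠ ⊥ → φ Q ^ p = 1)
    (Q : Ideal (𝓞 K)) [hQ : Q.IsPrime] (hQ0 : Q ≠ ⊥) : φ Q = 1 :=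
  map_eq_one_of_equivariant_at hζ hp2 φ hmul Q hQ0
    (fun s hs => hprinc _ (prod_smul_ne_bot Q hQ0 s) hs)
    (fun σ => hequiv σ Q hQ hQ0) (hpow Q hQ hQ0)

/-- the same for all nonzero ideals. -/
theorem map_eq_one_of_equivariant' (hp2 : p ≠ 2) {G : Type*} [Group G] (φ : Ideal (𝓞 K) → G)
    (hmul : ∀ I J : Ideal (𝓞 K), I ≠ ⊥ → J ≠ ⊥ → φ (I * J) = φ I * φ J)
    (hprinc : ∀ I : Ideal (𝓞 K), I ≠ ⊥ → I.IsPrincipal → φ I = 1)
    (hequiv : ∀ (σ : K ≃ₐ[ℚ] K) (Q : Ideal (𝓞 K)), Q.IsPrime → Q ≠ ⊥ →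
      φ (σ⁻¹ • Q) = φ Q ^ expo hζ σ)
    (hpow : ∀ Q : Ideal (𝓞 K), Q.IsPrime → Q ≠ ⊥ → φ Q ^ p = 1)
    (I : Ideal (𝓞 K)) (hI : I ≠ ⊥) : φ I = 1 := by
  revert hI
  refine UniqueFactorizationMonoid.induction_on_prime I (fun h => absurd rfl h) ?_ ?_
  · intro J hJ _
    rw [Ideal.isUnit_iff] at hJ
    rw [hJ, ← Ideal.one_eq_top]
    exact map_one_of_mul φ hmul
  · intro J P hJ0 hP ih hPJ
    have hP' : P.IsPrime := Ideal.isPrime_of_prime hP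
    rw [hmul P J hP.ne_zero hJ0, ih hJ0, mul_one]
    exact map_eq_one_of_equivariant hζ hp2 φ hmul hprinc hequiv hpow P hP.ne_zero

end Endgame

end Fermat.Agent.S14.Stick
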