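import Mathlib
import Fermat.Agent.S14.Defs
import Fermat.Agent.S14.StickEnd

/-!
# S14: Galois equivariance of Artin maps, cyclotomic evaluation, bridge to `StickEnd`

Everything is stated for an ARBITRARY `φ` with `IsArtinMap F M φ` (vocabulary of `Defs.lean`).
-/

set_option autoImplicit false
set_option linter.unusedSectionVars false
set_option linter.style.haveILetI false
set_option linter.unusedVariables false

open scoped Pointwise NumberField
open NumberField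

namespace Fermat.Agent.S14.ArtinEquiv

open Fermat.Agent.S14

section Basic

variable {F M : Type*} [Field F] [NumberField F] [Field M] [NumberField M] [Algebra F M]
  [IsGalois F M]

lemma card_quot_eq_absNorm (P : Ideal (𝓞 F)) : Nat.card (𝓞 F ⧸ P) = Ideal.absNorm P := by
  rw [Ideal.absNorm_apply, Submodule.cardQuot_apply]

lemma ne_bot_of_under_ne_bot {Q : Ideal (𝓞 M)} (h : Q.under (𝓞 F) ≠ ⊥) : Q ≠ ⊥ := by
  rintro rfl
  apply h
  rw [Ideal.under_def]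
  exact Ideal.comap_bot_of_injective _ (RingOfIntegers.algebraMap.injective F M)

lemma exists_prime_over (P : Ideal (𝓞 F)) [P.IsPrime] :
    ∃ Q : Ideal (𝓞 M), Q.IsPrime ∧ Q.under (𝓞 F) = P := by
  obtain ⟨Q, hQ1, hQ2⟩ := Ideal.exists_ideal_over_prime_of_isIntegral P (⊥ : Ideal (𝓞 M))
    (by simp)
  exact ⟨Q, hQ2.1, hQ2.2⟩

variable {φ : Ideal (𝓞 F) → (M ≃ₐ[F] M)}

/-- the value of an Artin map at a nonzero prime `q` is a Frobenius at every prime above `q`: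
`φ q x ≡ x ^ N(q) mod Q`. -/
lemma isArtinMap_apply_sub_pow_mem (hφ : IsArtinMap F M φ) (q : Ideal (𝓞 F)) [q.IsPrime]
    (hq : q ≠ ⊥) (Q : Ideal (𝓞 M)) [hQp : Q.IsPrime] (hQ : Q.under (𝓞 F) = q) (x : 𝓞 M) :
    φ q • x - x ^ Ideal.absNorm q ∈ Q := by
  have h := hφ.isArithFrobAt Q hQp (ne_bot_of_under_ne_bot (F := F) (hQ ▸ hq))
  rw [hQ] at h
  have := h x
  rwa [hQ, card_quot_eq_absNorm] at this

/-- uniqueness: in an everywhere unramified extension, an element which is a `N(q)`-Frobenius at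
some prime above `q` is `φ q`. -/
lemma eq_of_forall_sub_pow_mem (hφ : IsArtinMap F M φ) (hunr : UnramifiedEverywhere F M)
    (q : Ideal (𝓞 F)) [q.IsPrime] (hq : q ≠ ⊥) (Q : Ideal (𝓞 M)) [hQp : Q.IsPrime]
    (hQ : Q.under (𝓞 F) = q) (σ : M ≃ₐ[F] M)
    (hσ : ∀ x : 𝓞 M, σ • x - x ^ Ideal.absNorm q ∈ Q) : σ = φ q := by
  have hQ0 : Q ≠ ⊥ := ne_bot_of_under_ne_bot (F := F) (hQ ▸ hq)
  have h1 : σ * (φ q)⁻¹ = 1 := by
    apply hunr Q hQp hQ0
    intro x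
    have h2 := hσ ((φ q)⁻¹ • x)
    have h3 := isArtinMap_apply_sub_pow_mem hφ q hq Q hQ ((φ q)⁻¹ • x)
    simpa [mul_smul] using sub_mem h2 h3
  exact mul_inv_eq_one.mp h1

/-- multiplicativity gives `φ ⊤ = 1`. -/
lemma isArtinMap_top (hφ : IsArtinMap F M φ) : φ ⊤ = 1 := by
  have h1 : (⊤ : Ideal (𝓞 F)) ≠ ⊥ := top_ne_bot
  have := hφ.map_mul ⊤ ⊤ h1 h1
  rw [Ideal.top_mul] at this
  exact (mul_eq_left.mp this.symm)

/-- **cyclotomic evaluation**: `φ q ζ = ζ ^ N(q)` for roots of unity of order prime to `q`. -/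
theorem isArtinMap_apply_of_pow_eq_one (hφ : IsArtinMap F M φ) (q : Ideal (𝓞 F)) [q.IsPrime]
    (hq : q ≠ ⊥) {ζ : M} {m : ℕ} (hζ : ζ ^ m = 1) (hm : (m : 𝓞 F) ∉ q) :
    φ q ζ = ζ ^ Ideal.absNorm q := by
  obtain ⟨Q, hQp, hQ⟩ := exists_prime_over (M := M) q
  haveI := hQp
  have hm0 : m ≠ 0 := by
    rintro rfl
    exact hm (by simp)
  have hint : IsIntegral ℤ ζ := ⟨Polynomial.X ^ m - 1, Polynomial.monic_X_pow_sub_C 1 hm0, by
    simp [hζ]⟩
  let z : 𝓞 M := ⟨ζ, hint⟩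
  have hz : z ^ m = 1 := by
    apply RingOfIntegers.ext
    show algebraMap (𝓞 M) M (z ^ m) = algebraMap (𝓞 M) M 1
    rw [map_pow, map_one]
    exact hζ
  have hmQ : (m : 𝓞 M) ∉ Q := by
    intro h
    apply hm
    rw [← hQ, Ideal.under_def, Ideal.mem_comap, map_natCast]
    exact h
  have hQ0 : Q ≠ ⊥ := ne_bot_of_under_ne_bot (F := F) (hQ ▸ hq)
  have h1 : IsArithFrobAt (𝓞 F) (φ q) Q := by
    have := hφ.isArithFrobAt Q hQp hQ0
    rwa [hQ] at this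
  have h2 := AlgHom.IsArithFrobAt.apply_of_pow_eq_one h1 hz hmQ
  rw [hQ, card_quot_eq_absNorm] at h2
  have h3 : algebraMap (𝓞 M) M (MulSemiringAction.toAlgHom (𝓞 F) (𝓞 M) (φ q) z)
      = algebraMap (𝓞 M) M (z ^ Ideal.absNorm q) := congrArg _ h2
  rw [map_pow] at h3
  exact h3

end Basic

section Equivariance

variable {k F M : Type*} [Field k] [NumberField k] [Field F] [NumberField F] [Field M]
  [NumberField M] [Algebra k F] [Algebra F M] [Algebra k M] [IsScalarTower k F M]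
  [IsGalois k F] [IsGalois k M] [IsGalois F M]

/-- `absNorm (σ • Q) = absNorm Q`. -/
lemma absNorm_smul (σ : F ≃ₐ[k] F) (Q : Ideal (𝓞 F)) :
    Ideal.absNorm (σ • Q) = Ideal.absNorm Q := by
  rw [Ideal.absNorm_apply, Ideal.absNorm_apply, Submodule.cardQuot_apply, Submodule.cardQuot_apply]
  let e : 𝓞 F ≃+* 𝓞 F := MulSemiringAction.toRingEquiv (F ≃ₐ[k] F) (𝓞 F) σ
  have h : σ • Q = Ideal.map (e : 𝓞 F →+* 𝓞 F) Q := rfl
  exact (Nat.card_congr (Ideal.quotientEquiv Q (σ • Q) e h).toEquiv).symm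

variable (F) in
/-- conjugation of `σ ∈ Gal(M/F)` by `τ ∈ Gal(M/k)` (`F/k` normal), as an element of `Gal(M/F)`. -/
noncomputable def conjGal (τ : M ≃ₐ[k] M) (σ : M ≃ₐ[F] M) : M ≃ₐ[F] M :=
  AlgEquiv.ofRingEquiv (f := (τ.symm.toRingEquiv.trans σ.toRingEquiv).trans τ.toRingEquiv) (by
    intro c
    show τ (σ (τ.symm (algebraMap F M c))) = algebraMap F M c
    have h1 : τ.symm (algebraMap F M c) = algebraMap F M ((τ.symm.restrictNormal F) c) :=
      (AlgEquiv.restrictNormal_commutes τ.symm F c).symm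
    rw [h1, σ.commutes, ← h1, τ.apply_symm_apply])

lemma conjGal_apply (τ : M ≃ₐ[k] M) (σ : M ≃ₐ[F] M) (x : M) :
    conjGal F τ σ x = τ (σ (τ.symm x)) := rfl

lemma restrictScalars_conjGal (τ : M ≃ₐ[k] M) (σ : M ≃ₐ[F] M) :
    (conjGal F τ σ).restrictScalars k = τ * σ.restrictScalars k * τ⁻¹ := by
  ext x
  rfl

lemma conjGal_smul (τ : M ≃ₐ[k] M) (σ : M ≃ₐ[F] M) (x : 𝓞 M) :
    conjGal F τ σ • x = τ • σ • τ⁻¹ • x := by
  apply RingOfIntegers.ext
  rfl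

lemma conjGal_one (τ : M ≃ₐ[k] M) : conjGal F τ (1 : M ≃ₐ[F] M) = 1 := by
  ext x
  simp [conjGal_apply]

lemma conjGal_mul (τ : M ≃ₐ[k] M) (σ σ' : M ≃ₐ[F] M) :
    conjGal F τ (σ * σ') = conjGal F τ σ * conjGal F τ σ' := by
  ext x
  simp [conjGal_apply]

lemma under_smul (τ : M ≃ₐ[k] M) (Q : Ideal (𝓞 M)) :
    (τ • Q).under (𝓞 F) = τ.restrictNormal F • Q.under (𝓞 F) := by
  ext x
  rw [Ideal.under_def, Ideal.mem_comap, Ideal.pointwise_smul_eq_comap, Ideal.mem_comap,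
    Ideal.pointwise_smul_eq_comap, Ideal.mem_comap, Ideal.under_def, Ideal.mem_comap]
  have : (MulSemiringAction.toRingEquiv (M ≃ₐ[k] M) (𝓞 M) τ).symm (algebraMap (𝓞 F) (𝓞 M) x)
      = algebraMap (𝓞 F) (𝓞 M)
        ((MulSemiringAction.toRingEquiv (F ≃ₐ[k] F) (𝓞 F) (τ.restrictNormal F)).symm x) := by
    apply RingOfIntegers.ext
    show τ.symm (algebraMap F M x) = algebraMap F M ((τ.restrictNormal F).symm x)
    have h := AlgEquiv.restrictNormal_commutes τ F ((τ.restrictNormal F).symm x)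
    rw [AlgEquiv.apply_symm_apply] at h
    rw [h, AlgEquiv.symm_apply_apply]
  show (MulSemiringAction.toRingEquiv (M ≃ₐ[k] M) (𝓞 M) τ).symm (algebraMap (𝓞 F) (𝓞 M) x) ∈ Q ↔
    algebraMap (𝓞 F) (𝓞 M)
      ((MulSemiringAction.toRingEquiv (F ≃ₐ[k] F) (𝓞 F) (τ.restrictNormal F)).symm x) ∈ Q
  rw [this]

lemma smul_ne_bot {G : Type*} [Group G] [MulSemiringAction G (𝓞 F)] (g : G) {q : Ideal (𝓞 F)}
    (hq : q ≠ ⊥) : g • q ≠ ⊥ := by
  intro h
  apply hq
  have := congrArg (fun I => g⁻¹ • I) h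
  simpa using this

variable {φ : Ideal (𝓞 F) → (M ≃ₐ[F] M)}

/-- **Galois equivariance of an Artin map at primes**: `k ⊆ F ⊆ M`, `M/k` and `F/k` Galois,
`M/F` unramified everywhere. Then `φ (τ q) = τ (φ q) τ⁻¹` for `τ ∈ Gal(M/k)`. -/
theorem isArtinMap_smul_prime (hφ : IsArtinMap F M φ) (hunr : UnramifiedEverywhere F M)
    (τ : M ≃ₐ[k] M) (q : Ideal (𝓞 F)) [q.IsPrime] (hq : q ≠ ⊥) :
    φ (τ.restrictNormal F • q) = conjGal F τ (φ q) := by
  obtain ⟨Q, hQp, hQ⟩ := exists_prime_over (M := M) q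
  haveI := hQp
  have hq' : τ.restrictNormal F • q ≠ ⊥ := smul_ne_bot _ hq
  have hQ' : (τ • Q).under (𝓞 F) = τ.restrictNormal F • q := by rw [under_smul, hQ]
  symm
  refine eq_of_forall_sub_pow_mem hφ hunr _ hq' (τ • Q) hQ' _ ?_
  rw [absNorm_smul]
  intro x
  rw [Ideal.pointwise_smul_eq_comap, Ideal.mem_comap]
  have := isArtinMap_apply_sub_pow_mem hφ q hq Q hQ (τ⁻¹ • x)
  rw [conjGal_smul]
  simpa [smul_sub] using this

/-- the same for all nonzero ideals. -/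
theorem isArtinMap_smul (hφ : IsArtinMap F M φ) (hunr : UnramifiedEverywhere F M)
    (τ : M ≃ₐ[k] M) (I : Ideal (𝓞 F)) (hI : I ≠ ⊥) :
    φ (τ.restrictNormal F • I) = conjGal F τ (φ I) := by
  revert hI
  refine UniqueFactorizationMonoid.induction_on_prime I (fun h => absurd rfl h) ?_ ?_
  · intro J hJ _
    rw [Ideal.isUnit_iff] at hJ
    rw [hJ, ← Ideal.one_eq_top, smul_one, Ideal.one_eq_top, isArtinMap_top hφ, conjGal_one]
  · intro J P hJ0 hP ih hPJ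
    haveI hP' : P.IsPrime := Ideal.isPrime_of_prime hP
    rw [smul_mul', hφ.map_mul _ _ (smul_ne_bot _ hP.ne_zero) (smul_ne_bot _ hJ0),
      hφ.map_mul P J hP.ne_zero hJ0, conjGal_mul, ih hJ0,
      isArtinMap_smul_prime hφ hunr τ P hP.ne_zero]

/-- `restrictScalars` form (as in helper5's blueprint):
`(φ (τ|_F • I)).restrictScalars k = τ * (φ I).restrictScalars k * τ⁻¹`. -/
theorem restrictScalars_isArtinMap_smul (hφ : IsArtinMap F M φ) (hunr : UnramifiedEverywhere F M)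
    (τ : M ≃ₐ[k] M) (I : Ideal (𝓞 F)) (hI : I ≠ ⊥) :
    (φ (AlgEquiv.restrictNormalHom F τ • I)).restrictScalars k
      = τ * (φ I).restrictScalars k * τ⁻¹ := by
  show (φ (τ.restrictNormal F • I)).restrictScalars k = _
  rw [isArtinMap_smul hφ hunr τ I hI, restrictScalars_conjGal]

end Equivariance

section Bridge

open Fermat.Agent.S14.Stick

variable {p : ℕ} [hp : Fact p.Prime] {K L : Type*} [Field K] [NumberField K] [Field L]
  [NumberField L] [Algebra K L] [IsCyclotomicExtension {p} ℚ K] [IsGalois ℚ L] [IsGalois K L]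
  {ζ : K} (hζ : IsPrimitiveRoot ζ p) {φ : Ideal (𝓞 K) → (L ≃ₐ[K] L)}

/-- **Bridge to `StickEnd`**: the twist hypothesis `σ⁻¹ g σ = g ^ j` (for `g` fixing `ζ`,
`σ ζ = ζ ^ j`) gives the equivariance hypothesis `hequiv` of
`Stick.map_eq_one_of_equivariant'` for any Artin map `φ` of the unramified extension `L/K`,
`K = ℚ(ζ_p)`. -/
theorem hequiv_of_twist (hφ : IsArtinMap K L φ) (hunr : UnramifiedEverywhere K L)
    (hact : ∀ (σ g : L ≃ₐ[ℚ] L) (j : ℕ), g (algebraMap K L ζ) = algebraMap K L ζ →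
      σ (algebraMap K L ζ) = algebraMap K L ζ ^ j → σ⁻¹ * g * σ = g ^ j)
    (σ : K ≃ₐ[ℚ] K) (Q : Ideal (𝓞 K)) (hQ : Q ≠ ⊥) :
    φ (σ⁻¹ • Q) = φ Q ^ expo hζ σ := by
  haveI : IsGalois ℚ K := IsCyclotomicExtension.isGalois {p} ℚ K
  obtain ⟨σ', hσ'⟩ := AlgEquiv.restrictNormalHom_surjective (F := ℚ) (K₁ := K) L σ
  have hτ : AlgEquiv.restrictNormalHom K σ'⁻¹ = σ⁻¹ := by rw [map_inv, hσ']
  have h1 := restrictScalars_isArtinMap_smul (k := ℚ) hφ hunr σ'⁻¹ Q hQ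
  rw [hτ, inv_inv] at h1
  have hg : ((φ Q).restrictScalars ℚ) (algebraMap K L ζ) = algebraMap K L ζ := (φ Q).commutes ζ
  have hσζ : σ' (algebraMap K L ζ) = algebraMap K L ζ ^ expo hζ σ := by
    have h2 := AlgEquiv.restrictNormal_commutes σ' K ζ
    have h3 : σ'.restrictNormal K = σ := hσ'
    rw [h3, expo_spec hζ σ, map_pow] at h2
    exact h2.symm
  rw [hact σ' _ _ hg hσζ] at h1
  have h4 : ((φ Q).restrictScalars ℚ) ^ expo hζ σ = ((φ Q) ^ expo hζ σ).restrictScalars ℚ := by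
    rw [← AlgEquiv.restrictScalarsHom_apply, ← AlgEquiv.restrictScalarsHom_apply, map_pow]
  rw [h4] at h1
  exact AlgEquiv.restrictScalars_injective ℚ h1

include hζ in
/-- **Endgame in the vocabulary of `Defs.lean`**: `K = ℚ(ζ_p)`, `p` odd, `L/K` unramified
everywhere with `g ^ p = 1` for all `g ∈ Gal(L/K)`, twisted by `ω⁻¹` (hypothesis `hact`).
If an Artin map `φ` of `L/K` kills the nonzero principal ideals, it kills every nonzero ideal. -/
theorem isArtinMap_eq_one_of_twist (hp2 : p ≠ 2) (hφ : IsArtinMap K L φ)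
    (hunr : UnramifiedEverywhere K L)
    (hact : ∀ (σ g : L ≃ₐ[ℚ] L) (j : ℕ), g (algebraMap K L ζ) = algebraMap K L ζ →
      σ (algebraMap K L ζ) = algebraMap K L ζ ^ j → σ⁻¹ * g * σ = g ^ j)
    (hpow : ∀ g : L ≃ₐ[K] L, g ^ p = 1)
    (hprinc : ∀ I : Ideal (𝓞 K), I ≠ ⊥ → I.IsPrincipal → φ I = 1)
    (I : Ideal (𝓞 K)) (hI : I ≠ ⊥) : φ I = 1 :=
  map_eq_one_of_equivariant' hζ hp2 φ hφ.map_mul hprinc
    (fun σ Q _ hQ => hequiv_of_twist hζ hφ hunr hact σ Q hQ) (fun Q _ _ => hpow _) I hI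

end Bridge

end Fermat.Agent.S14.ArtinEquiv
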