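/-
S14 block (C): Artin's lemma (Lang, Algebraic Number Theory, X §2, Lemmas 1-2), prime case.
Pure elementary number theory, Mathlib only.  (helper14)

* `exists_prime_orderOf_eq`: for `a ≥ 2`, an odd prime `q`, `r ≥ 1` there is a prime `ℓ ≠ q` with
  `orderOf (a : ZMod ℓ) = q ^ r`.
* `artin_lemma`: for `a ≥ 2`, an odd prime `p` and a bound `B ≠ 0` there is a squarefree `m` prime
  to `B` and to `a`, and a unit `τ` mod `m`, such that `p` divides the orders of `a` and of `τ` in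
  `(ZMod m)ˣ` and the cyclic groups generated by `a` and `τ` meet trivially.
-/
import Mathlib

set_option autoImplicit false

namespace Fermat.Agent.S14.ArtinLemma

open Finset

/-- The quotient `T = 1 + x + ⋯ + x^(q-1)`. -/
def geomT (x q : ℕ) : ℕ := ∑ i ∈ range q, x ^ i

lemma cast_geomT {R : Type*} [CommRing R] (x q : ℕ) :
    ((geomT x q : ℕ) : R) = ∑ i ∈ range q, (x : R) ^ i := by
  simp [geomT]

lemma cast_geomT_mul {R : Type*} [CommRing R] (x q : ℕ) :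
    ((geomT x q : ℕ) : R) * ((x : R) - 1) = (x : R) ^ q - 1 := by
  rw [cast_geomT, geom_sum_mul]

lemma lt_geomT {x q : ℕ} (hx : 2 ≤ x) (hq : 2 ≤ q) : q < geomT x q := by
  unfold geomT
  have h1 : ∑ i ∈ range q, 1 < ∑ i ∈ range q, x ^ i := by
    apply Finset.sum_lt_sum
    · intro i _
      exact Nat.one_le_pow _ _ (by omega)
    · exact ⟨1, Finset.mem_range.mpr (by omega), by simp; omega⟩
  simpa using h1

/-- If `q ∣ T` then `x ≡ 1 mod q`. -/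
lemma cast_eq_one_of_dvd_geomT {x q : ℕ} [hq : Fact q.Prime] (h : q ∣ geomT x q) :
    (x : ZMod q) = 1 := by
  have h0 : ((geomT x q : ℕ) : ZMod q) = 0 := (ZMod.natCast_eq_zero_iff _ _).mpr h
  have h1 := cast_geomT_mul (R := ZMod q) x q
  rw [h0, zero_mul, ZMod.pow_card] at h1
  exact (sub_eq_zero.mp h1.symm)

/-- If `x ≡ 1 mod q` (`q` an odd prime) then `q² ∤ T`. -/
lemma not_sq_dvd_geomT {x q : ℕ} (hq : q.Prime) (hq2 : q ≠ 2) (hx : (x : ZMod q) = 1) :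
    ¬ q ^ 2 ∣ geomT x q := by
  have hodd : Odd q := hq.odd_of_ne_two hq2
  have hxy : (q : ℤ) ∣ (x : ℤ) - 1 := by
    have : ((x : ℤ) - 1 : ZMod q) = 0 := by simp [hx]
    have h2 : (((x : ℤ) - 1 : ℤ) : ZMod q) = 0 := by push_cast; simpa using this
    exact (ZMod.intCast_zmod_eq_zero_iff_dvd _ _).mp h2
  have hxq : ¬ (q : ℤ) ∣ (x : ℤ) := by
    intro h
    have h2 : ((x : ℤ) : ZMod q) = 0 := (ZMod.intCast_zmod_eq_zero_iff_dvd _ _).mpr h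
    have h3 : (x : ZMod q) = 0 := by simpa using h2
    have := Fact.mk hq
    rw [hx] at h3
    exact one_ne_zero h3
  have hm := emultiplicity_geom_sum₂_eq_one (R := ℤ) (p := q) (x := (x : ℤ)) (y := 1)
    (Nat.prime_iff_prime_int.mp hq) hodd hxy hxq
  intro hdvd
  have h3 : ((q : ℤ)) ^ 2 ∣ ∑ i ∈ range q, (x : ℤ) ^ i * 1 ^ (q - 1 - i) := by
    have : ((q ^ 2 : ℕ) : ℤ) ∣ ((geomT x q : ℕ) : ℤ) := Int.natCast_dvd_natCast.mpr hdvd
    simpa [cast_geomT] using this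
  have h4 := le_emultiplicity_of_pow_dvd h3
  rw [hm] at h4
  norm_num at h4

/-- `T` has a prime factor different from `q`. -/
lemma exists_prime_dvd_geomT_ne {x q : ℕ} (hq : q.Prime) (hq2 : q ≠ 2) (hx : 2 ≤ x) :
    ∃ ℓ : ℕ, ℓ.Prime ∧ ℓ ∣ geomT x q ∧ ℓ ≠ q := by
  by_contra hcon
  push Not at hcon
  have hlt : q < geomT x q := lt_geomT hx hq.two_le
  have hT0 : geomT x q ≠ 0 := by omega
  have hpow := Nat.eq_prime_pow_of_unique_prime_dvd hT0 (p := q)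
    (fun {d} hd hdvd => hcon d hd hdvd)
  set k := (geomT x q).primeFactorsList.length with hk
  have hk2 : 2 ≤ k := by
    by_contra hk2
    push Not at hk2
    interval_cases k
    · rw [pow_zero] at hpow; have := hq.two_le; omega
    · rw [pow_one] at hpow; omega
  have hsq : q ^ 2 ∣ geomT x q := by
    rw [hpow]; exact pow_dvd_pow q hk2
  have hdvd : q ∣ geomT x q := dvd_trans (dvd_pow_self q two_ne_zero) hsq
  have := Fact.mk hq
  exact not_sq_dvd_geomT hq hq2 (cast_eq_one_of_dvd_geomT hdvd) hsq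

/-- **Lang ANT X §2 Lemma 1**: for `a ≥ 2`, an odd prime `q` and `r ≥ 1` there is a prime `ℓ ≠ q`
such that `a` has order exactly `q ^ r` modulo `ℓ`. -/
theorem exists_prime_orderOf_eq {a : ℕ} (ha : 2 ≤ a) {q : ℕ} (hq : q.Prime) (hq2 : q ≠ 2)
    {r : ℕ} (hr : 1 ≤ r) :
    ∃ ℓ : ℕ, ℓ.Prime ∧ ℓ ≠ q ∧ orderOf ((a : ZMod ℓ)) = q ^ r := by
  obtain ⟨n, rfl⟩ : ∃ n, r = n + 1 := ⟨r - 1, by omega⟩
  have hx : 2 ≤ a ^ q ^ n := le_trans ha (Nat.le_self_pow (pow_ne_zero _ hq.ne_zero) a)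
  obtain ⟨ℓ, hℓ, hdvd, hne⟩ := exists_prime_dvd_geomT_ne hq hq2 hx
  refine ⟨ℓ, hℓ, hne, ?_⟩
  have := Fact.mk hℓ
  have := Fact.mk hq
  have h0 : ((geomT (a ^ q ^ n) q : ℕ) : ZMod ℓ) = 0 := (ZMod.natCast_eq_zero_iff _ _).mpr hdvd
  have h1 := cast_geomT_mul (R := ZMod ℓ) (a ^ q ^ n) q
  rw [h0, zero_mul] at h1
  have hone : ((a : ZMod ℓ)) ^ q ^ (n + 1) = 1 := by
    have := sub_eq_zero.mp h1.symm
    rw [pow_succ, pow_mul]
    simpa using this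
  have hnot : ¬ ((a : ZMod ℓ)) ^ q ^ n = 1 := by
    intro h
    have h2 : ((geomT (a ^ q ^ n) q : ℕ) : ZMod ℓ) = (q : ZMod ℓ) := by
      rw [cast_geomT]
      simp [h]
    rw [h0] at h2
    have h3 : ℓ ∣ q := (ZMod.natCast_eq_zero_iff _ _).mp h2.symm
    exact hne ((Nat.prime_dvd_prime_iff_eq hℓ hq).mp h3)
  exact orderOf_eq_prime_pow hnot hone

/-- Consequences of `orderOf (a : ZMod ℓ) = q ^ r`: `ℓ ∤ a` and `q ^ r < ℓ`. -/
lemma facts_of_orderOf {a ℓ q r : ℕ} (hℓ : ℓ.Prime) (hq : q.Prime)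
    (h : orderOf ((a : ZMod ℓ)) = q ^ r) : a.Coprime ℓ ∧ q ^ r < ℓ := by
  have := Fact.mk hℓ
  have ha0 : (a : ZMod ℓ) ≠ 0 := by
    intro h0
    rw [h0] at h
    have h1 : orderOf (0 : ZMod ℓ) = 0 := by
      rw [orderOf_eq_zero_iff']
      intro n hn
      rw [zero_pow hn.ne']
      exact zero_ne_one
    rw [h1] at h
    exact (pow_ne_zero r hq.ne_zero) h.symm
  constructor
  · rw [Nat.coprime_comm, Nat.Prime.coprime_iff_not_dvd hℓ]
    intro hd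
    exact ha0 ((ZMod.natCast_eq_zero_iff _ _).mpr hd)
  · have hd := ZMod.orderOf_dvd_card_sub_one ha0
    rw [h] at hd
    have hle := Nat.le_of_dvd (by have := hℓ.two_le; omega) hd
    have := hℓ.two_le
    omega

/-- **Artin's lemma** (Lang ANT X §2 Lemma 2, prime case). -/
theorem artin_lemma {a : ℕ} (ha : 2 ≤ a) {p : ℕ} (hp : p.Prime) (hp2 : p ≠ 2) {B : ℕ}
    (hB : B ≠ 0) :
    ∃ m : ℕ, Squarefree m ∧ m.Coprime B ∧ m.Coprime a ∧ ∃ u τ : (ZMod m)ˣ,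
      (u : ZMod m) = a ∧ p ∣ orderOf u ∧ p ∣ orderOf τ ∧
        Subgroup.zpowers τ ⊓ Subgroup.zpowers u = ⊥ := by
  obtain ⟨ℓ₁, hℓ₁, -, ho₁⟩ := exists_prime_orderOf_eq ha hp hp2 (r := B) (by omega)
  obtain ⟨ℓ₂, hℓ₂, -, ho₂⟩ := exists_prime_orderOf_eq ha hp hp2 (r := B + 1) (by omega)
  obtain ⟨hc₁, hlt₁⟩ := facts_of_orderOf hℓ₁ hp ho₁
  obtain ⟨hc₂, hlt₂⟩ := facts_of_orderOf hℓ₂ hp ho₂
  have hBlt : B < p ^ B := lt_of_lt_of_le B.lt_two_pow_self (Nat.pow_le_pow_left hp.two_le B)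
  have hB₁ : B < ℓ₁ := lt_trans hBlt hlt₁
  have hB₂ : B < ℓ₂ := by
    have : p ^ B ≤ p ^ (B + 1) := Nat.pow_le_pow_right hp.pos (by omega)
    omega
  have hne : ℓ₁ ≠ ℓ₂ := by
    rintro rfl
    rw [ho₁] at ho₂
    have := Nat.pow_right_injective hp.two_le ho₂
    omega
  have hcop : ℓ₁.Coprime ℓ₂ := (Nat.coprime_primes hℓ₁ hℓ₂).mpr hne
  have hcB₁ : ℓ₁.Coprime B := by
    rw [Nat.Prime.coprime_iff_not_dvd hℓ₁]
    intro hd
    have := Nat.le_of_dvd (Nat.pos_of_ne_zero hB) hd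
    omega
  have hcB₂ : ℓ₂.Coprime B := by
    rw [Nat.Prime.coprime_iff_not_dvd hℓ₂]
    intro hd
    have := Nat.le_of_dvd (Nat.pos_of_ne_zero hB) hd
    omega
  have hca : a.Coprime (ℓ₁ * ℓ₂) := Nat.Coprime.mul_right hc₁ hc₂
  refine ⟨ℓ₁ * ℓ₂, ?_, Nat.Coprime.mul_left hcB₁ hcB₂, hca.symm, ?_⟩
  · rw [Nat.squarefree_mul_iff]
    exact ⟨hcop, hℓ₁.prime.squarefree, hℓ₂.prime.squarefree⟩
  -- the CRT isomorphism on units
  let e : ZMod (ℓ₁ * ℓ₂) ≃+* ZMod ℓ₁ × ZMod ℓ₂ := ZMod.chineseRemainder hcop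
  let E : (ZMod (ℓ₁ * ℓ₂))ˣ ≃* (ZMod ℓ₁)ˣ × (ZMod ℓ₂)ˣ :=
    (Units.mapEquiv e.toMulEquiv).trans MulEquiv.prodUnits
  set u : (ZMod (ℓ₁ * ℓ₂))ˣ := ZMod.unitOfCoprime a hca with hu
  have hu1 : (((E u).1 : (ZMod ℓ₁)ˣ) : ZMod ℓ₁) = a := by
    change (e ((ZMod.unitOfCoprime a hca : (ZMod (ℓ₁ * ℓ₂))ˣ) : ZMod (ℓ₁ * ℓ₂))).1 = a
    rw [ZMod.coe_unitOfCoprime, map_natCast]
    rfl
  have hu2 : (((E u).2 : (ZMod ℓ₂)ˣ) : ZMod ℓ₂) = a := by
    change (e ((ZMod.unitOfCoprime a hca : (ZMod (ℓ₁ * ℓ₂))ˣ) : ZMod (ℓ₁ * ℓ₂))).2 = a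
    rw [ZMod.coe_unitOfCoprime, map_natCast]
    rfl
  have ho1 : orderOf (E u).1 = p ^ B := by
    rw [← orderOf_units, hu1, ho₁]
  have ho2 : orderOf (E u).2 = p ^ (B + 1) := by
    rw [← orderOf_units, hu2, ho₂]
  have hpB : p ∣ p ^ B := dvd_pow_self p hB
  refine ⟨u, E.symm ((E u).1, 1), ZMod.coe_unitOfCoprime a hca, ?_, ?_, ?_⟩
  · rw [← MulEquiv.orderOf_eq E u, Prod.orderOf, ho1]
    exact dvd_trans hpB (Nat.dvd_lcm_left _ _)
  · rw [← MulEquiv.orderOf_eq E, MulEquiv.apply_symm_apply, Prod.orderOf, ho1]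
    exact dvd_trans hpB (Nat.dvd_lcm_left _ _)
  · rw [eq_bot_iff]
    rintro x ⟨⟨i, hi⟩, ⟨j, hj⟩⟩
    rw [Subgroup.mem_bot]
    apply E.injective
    rw [map_one]
    have hEi : E x = ((E u).1 ^ i, 1) := by
      rw [← hi]
      simp only [map_zpow, MulEquiv.apply_symm_apply, Prod.pow_mk, one_zpow]
    have hEj : E x = ((E u).1 ^ j, (E u).2 ^ j) := by
      rw [← hj]
      simp only [map_zpow]
      rfl
    have h2 : (E u).2 ^ j = 1 := by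
      have := congrArg Prod.snd (hEj.symm.trans hEi)
      simpa using this
    have hdj : ((p ^ (B + 1) : ℕ) : ℤ) ∣ j := by
      rw [← ho2]
      exact orderOf_dvd_iff_zpow_eq_one.mpr h2
    have h1 : (E u).1 ^ j = 1 := by
      apply orderOf_dvd_iff_zpow_eq_one.mp
      rw [ho1]
      refine dvd_trans ?_ hdj
      exact_mod_cast pow_dvd_pow p (Nat.le_succ B)
    rw [hEj, h1, h2]
    rfl

end Fermat.Agent.S14.ArtinLemma
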