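import Fermat.Agent.S14.Defs

/-!
# S14 (D), sub-block X-D: the class-group algebra of the crossing argument

* `PrimeTo m I` : no prime ideal containing `I` contains `m` (the side condition of
  `TwoPrime.exists_frobList`), with its calculus (`mul`, factors, `↔ I ⊔ (m) = ⊤`);
* `exists_primeTo_mul_isPrincipal` (rep): in a Dedekind domain every nonzero ideal `I` has a
  nonzero complement `J` prime to `m` with `I * J` principal;
* `cr1` : let `φ` be multiplicative on nonzero ideals of `𝓞 F` with values in a group of exponent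
  `p`, trivial on principal ideals prime to `m` (hB), nontrivial on some ideal prime to `m`
  (hsurj), and such that every subgroup of `Cl(F)` containing the classes of the primes `𝔮` prime to
  `m` with `φ 𝔮 = 1` and `[𝔮]` a norm class has index `≤ p` (hI2).  Then every ideal `c` prime to
  `m` with `φ c = 1` has its class in `normClassSubgroup F M`.
-/

set_option autoImplicit false

open NumberField
open scoped nonZeroDivisors

namespace Fermat.Agent.S14.Cross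

section PrimeTo

variable {R : Type*} [CommRing R]

/-- `I` is prime to `m`: no prime ideal containing `I` contains `m`. -/
def PrimeTo (m : ℕ) (I : Ideal R) : Prop :=
  ∀ 𝔮 : Ideal R, 𝔮.IsPrime → I ≤ 𝔮 → (m : R) ∉ 𝔮

theorem primeTo_iff_sup_eq_top {m : ℕ} {I : Ideal R} :
    PrimeTo m I ↔ I ⊔ Ideal.span {(m : R)} = ⊤ := by
  constructor
  · intro h
    by_contra hne
    obtain ⟨𝔮, h𝔮, hle⟩ := Ideal.exists_le_maximal _ hne
    exact h 𝔮 h𝔮.isPrime (le_sup_left.trans hle)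
      (hle (Ideal.mem_sup_right (Ideal.mem_span_singleton_self _)))
  · intro h 𝔮 h𝔮 hI hm
    apply h𝔮.ne_top
    rw [eq_top_iff, ← h]
    exact sup_le hI ((Ideal.span_singleton_le_iff_mem _).mpr hm)

theorem PrimeTo.mono {m : ℕ} {I J : Ideal R} (hIJ : I ≤ J) (hI : PrimeTo m I) : PrimeTo m J :=
  fun 𝔮 h𝔮 hJ => hI 𝔮 h𝔮 (hIJ.trans hJ)

theorem primeTo_top (m : ℕ) : PrimeTo m (⊤ : Ideal R) :=
  fun _ h𝔮 hle => absurd (top_le_iff.mp hle) h𝔮.ne_top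

theorem primeTo_one (m : ℕ) : PrimeTo m (1 : Ideal R) := by
  rw [Ideal.one_eq_top]; exact primeTo_top m

theorem PrimeTo.mul {m : ℕ} {I J : Ideal R} (hI : PrimeTo m I) (hJ : PrimeTo m J) :
    PrimeTo m (I * J) := by
  intro 𝔮 h𝔮 hle
  rcases (Ideal.IsPrime.mul_le h𝔮).mp hle with h | h
  · exact hI 𝔮 h𝔮 h
  · exact hJ 𝔮 h𝔮 h

theorem PrimeTo.of_mul_left {m : ℕ} {I J : Ideal R} (h : PrimeTo m (I * J)) : PrimeTo m I :=
  fun 𝔮 h𝔮 hle => h 𝔮 h𝔮 ((Ideal.mul_le_left (I := I) (J := J)).trans hle)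

theorem PrimeTo.of_mul_right {m : ℕ} {I J : Ideal R} (h : PrimeTo m (I * J)) : PrimeTo m J :=
  fun 𝔮 h𝔮 hle => h 𝔮 h𝔮 ((Ideal.mul_le_right (I := I) (J := J)).trans hle)

theorem primeTo_mul_iff {m : ℕ} {I J : Ideal R} :
    PrimeTo m (I * J) ↔ PrimeTo m I ∧ PrimeTo m J :=
  ⟨fun h => ⟨h.of_mul_left, h.of_mul_right⟩, fun h => h.1.mul h.2⟩

theorem PrimeTo.of_dvd {m : ℕ} {I J : Ideal R} (h : PrimeTo m J) (hIJ : I ∣ J) : PrimeTo m I := by
  obtain ⟨K, rfl⟩ := hIJ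
  exact h.of_mul_left

theorem PrimeTo.pow {m : ℕ} {I : Ideal R} (hI : PrimeTo m I) (n : ℕ) : PrimeTo m (I ^ n) := by
  induction n with
  | zero => rw [pow_zero]; exact primeTo_one m
  | succ n ih => rw [pow_succ]; exact ih.mul hI

/-- If `m` is a unit, every ideal is prime to `m`. -/
theorem primeTo_of_isUnit {m : ℕ} (hm : IsUnit (m : R)) (I : Ideal R) : PrimeTo m I :=
  fun _ h𝔮 _ hmem => h𝔮.ne_top (Ideal.eq_top_of_isUnit_mem _ hmem hm)

end PrimeTo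

section Rep

variable {R : Type*} [CommRing R] [IsDedekindDomain R]

/-- (rep) In a Dedekind domain, every nonzero ideal `I` has a nonzero "complement" `J` prime to
`m` such that `I * J` is principal. -/
theorem exists_primeTo_mul_isPrincipal {m : ℕ} (hm : (m : R) ≠ 0) {I : Ideal R} (hI : I ≠ ⊥) :
    ∃ J : Ideal R, J ≠ ⊥ ∧ PrimeTo m J ∧ (I * J).IsPrincipal := by
  have hspan : Ideal.span {(m : R)} ≠ ⊥ := by
    rwa [Ne, Ideal.span_singleton_eq_bot]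
  have hIm : I * Ideal.span {(m : R)} ≠ 0 := mul_ne_zero hI hspan
  obtain ⟨a, ha⟩ := IsDedekindDomain.exists_sup_span_eq (Ideal.mul_le_left (I := I)
    (J := Ideal.span {(m : R)})) hIm
  by_cases ha0 : a = 0
  · -- then `I * (m) = I`, so `m` is a unit: any complement works
    subst ha0
    have h1 : I * Ideal.span {(m : R)} = I * ⊤ := by
      rw [Ideal.mul_top]
      simpa using ha
    have h2 : Ideal.span {(m : R)} = ⊤ := mul_left_cancel₀ hI h1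
    have hunit : IsUnit (m : R) := Ideal.span_singleton_eq_top.mp h2
    obtain ⟨x, hxI, hx0⟩ := Submodule.exists_mem_ne_zero_of_ne_bot hI
    obtain ⟨J, hJ⟩ : I ∣ Ideal.span {x} := by
      rw [Ideal.dvd_iff_le, Ideal.span_singleton_le_iff_mem]; exact hxI
    refine ⟨J, ?_, primeTo_of_isUnit hunit J, ⟨x, ?_⟩⟩
    · rintro rfl
      rw [Ideal.mul_bot, Ideal.span_singleton_eq_bot] at hJ
      exact hx0 hJ
    · rw [← hJ]
  · have haI : a ∈ I := by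
      rw [← ha]; exact Ideal.mem_sup_right (Ideal.mem_span_singleton_self a)
    obtain ⟨J, hJ⟩ : I ∣ Ideal.span {a} := by
      rw [Ideal.dvd_iff_le, Ideal.span_singleton_le_iff_mem]; exact haI
    have hJ0 : J ≠ ⊥ := by
      rintro rfl
      rw [Ideal.mul_bot, Ideal.span_singleton_eq_bot] at hJ
      exact ha0 hJ
    refine ⟨J, hJ0, ?_, ⟨a, ?_⟩⟩
    · rw [primeTo_iff_sup_eq_top]
      have h1 : I * (J ⊔ Ideal.span {(m : R)}) = I * ⊤ := by
        rw [Ideal.mul_top, Ideal.mul_sup, ← hJ, sup_comm]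
        exact ha
      exact mul_left_cancel₀ hI h1
    · rw [← hJ]

theorem mk0_eq_one_iff_coe (I : (Ideal R)⁰) :
    ClassGroup.mk0 I = 1 ↔ (I : Ideal R).IsPrincipal :=
  ClassGroup.mk0_eq_one_iff I.2

/-- Every ideal class has a representative prime to `m`. -/
theorem exists_primeTo_mk0_eq {m : ℕ} (hm : (m : R) ≠ 0) (x : ClassGroup R) :
    ∃ J : (Ideal R)⁰, PrimeTo m (J : Ideal R) ∧ ClassGroup.mk0 J = x := by
  obtain ⟨I, hI⟩ := ClassGroup.mk0_surjective x⁻¹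
  obtain ⟨J, hJ0, hJm, hJp⟩ := exists_primeTo_mul_isPrincipal hm
    (mem_nonZeroDivisors_iff_ne_zero.mp I.2)
  refine ⟨⟨J, mem_nonZeroDivisors_iff_ne_zero.mpr hJ0⟩, hJm, ?_⟩
  have h1 : ClassGroup.mk0 I * ClassGroup.mk0 ⟨J, mem_nonZeroDivisors_iff_ne_zero.mpr hJ0⟩ = 1 := by
    rw [← map_mul, mk0_eq_one_iff_coe, Submonoid.coe_mul]
    exact hJp
  rw [hI] at h1
  rw [eq_inv_of_mul_eq_one_right h1, inv_inv]

end Rep

section CR1

variable {F : Type*} [Field F] [NumberField F]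

/-- The abstract form of `cr1`, with an arbitrary subgroup `N` in place of the norm classes. -/
theorem cr1_aux {G : Type*} [Group G] {p : ℕ} [Fact p.Prime] (N : Subgroup (ClassGroup (𝓞 F)))
    (φ : Ideal (𝓞 F) → G)
    (hmul : ∀ I J : Ideal (𝓞 F), I ≠ ⊥ → J ≠ ⊥ → φ (I * J) = φ I * φ J)
    (hpow : ∀ g : G, g ^ p = 1) (m : ℕ) (hm : m ≠ 0)
    (hB : ∀ γ : 𝓞 F, γ ≠ 0 → PrimeTo m (Ideal.span {γ}) → φ (Ideal.span {γ}) = 1)
    (hsurj : ∃ 𝔅 : Ideal (𝓞 F), 𝔅 ≠ ⊥ ∧ PrimeTo m 𝔅 ∧ φ 𝔅 ≠ 1)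
    (hI2 : ∀ H : Subgroup (ClassGroup (𝓞 F)),
      (∀ 𝔮 : (Ideal (𝓞 F))⁰, (𝔮 : Ideal (𝓞 F)).IsPrime → PrimeTo m (𝔮 : Ideal (𝓞 F)) →
        φ 𝔮 = 1 → ClassGroup.mk0 𝔮 ∈ N → ClassGroup.mk0 𝔮 ∈ H) → H.index ≤ p)
    (c : (Ideal (𝓞 F))⁰) (hc : PrimeTo m (c : Ideal (𝓞 F))) (hφc : φ c = 1) :
    ClassGroup.mk0 c ∈ N := by
  classical
  have hp : p.Prime := Fact.out
  have hmR : ((m : ℕ) : 𝓞 F) ≠ 0 := by
    exact_mod_cast hm
  have hne : ∀ I : (Ideal (𝓞 F))⁰, (I : Ideal (𝓞 F)) ≠ ⊥ := fun I =>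
    mem_nonZeroDivisors_iff_ne_zero.mp I.2
  -- `φ` of the unit ideal
  have hφ1 : φ (1 : Ideal (𝓞 F)) = 1 := by
    have h := hmul 1 1 one_ne_zero one_ne_zero
    rw [mul_one] at h
    have h' : φ (1 : Ideal (𝓞 F)) * φ 1 = φ 1 * 1 := by rw [mul_one]; exact h.symm
    exact mul_left_cancel h'
  -- `φ` of a power
  have hφpow : ∀ (I : Ideal (𝓞 F)), I ≠ ⊥ → ∀ n : ℕ, φ (I ^ n) = φ I ^ n := by
    intro I hI n
    induction n with
    | zero => rw [pow_zero, pow_zero]; exact hφ1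
    | succ n ih => rw [pow_succ, pow_succ, hmul _ _ (pow_ne_zero n hI) hI, ih]
  -- `φ` is trivial on principal ideals prime to `m`
  have hprinc : ∀ I : Ideal (𝓞 F), I ≠ ⊥ → PrimeTo m I → I.IsPrincipal → φ I = 1 := by
    rintro I hI hIm ⟨x, hx⟩
    have hx' : I = Ideal.span {x} := hx
    have hx0 : x ≠ 0 := by
      rintro rfl
      apply hI
      rw [hx']
      exact Ideal.span_singleton_eq_bot.mpr rfl
    rw [hx']
    exact hB x hx0 (hx' ▸ hIm)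
  have coe_mk : ∀ (I : Ideal (𝓞 F)) (hI : I ∈ (Ideal (𝓞 F))⁰),
      ((⟨I, hI⟩ : (Ideal (𝓞 F))⁰) : Ideal (𝓞 F)) = I := fun _ _ => rfl
  -- a complement prime to `m`
  have hcompl : ∀ a : (Ideal (𝓞 F))⁰, ∃ J : (Ideal (𝓞 F))⁰, PrimeTo m (J : Ideal (𝓞 F)) ∧
      ((a : Ideal (𝓞 F)) * (J : Ideal (𝓞 F))).IsPrincipal ∧
      ClassGroup.mk0 a * ClassGroup.mk0 J = 1 := by
    intro a
    obtain ⟨J, hJ0, hJm, hJp⟩ := exists_primeTo_mul_isPrincipal hmR (hne a)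
    refine ⟨⟨J, mem_nonZeroDivisors_iff_ne_zero.mpr hJ0⟩, hJm, hJp, ?_⟩
    rw [← map_mul, mk0_eq_one_iff_coe, Submonoid.coe_mul]
    exact hJp
  -- the value of `φ` on an ideal prime to `m` only depends on its class
  have hwd : ∀ a b : (Ideal (𝓞 F))⁰, PrimeTo m (a : Ideal (𝓞 F)) → PrimeTo m (b : Ideal (𝓞 F)) →
      ClassGroup.mk0 a = ClassGroup.mk0 b → φ a = φ b := by
    intro a b ha hb hab
    obtain ⟨J, hJm, hJp, hJ1⟩ := hcompl a
    have h2 : ClassGroup.mk0 (b * J) = 1 := by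
      rw [map_mul, ← hab]; exact hJ1
    have hbp : ((b : Ideal (𝓞 F)) * (J : Ideal (𝓞 F))).IsPrincipal := by
      rw [mk0_eq_one_iff_coe, Submonoid.coe_mul] at h2
      exact h2
    have e1 : φ ((a : Ideal (𝓞 F)) * (J : Ideal (𝓞 F))) = 1 :=
      hprinc _ (mul_ne_zero (hne a) (hne J)) (ha.mul hJm) hJp
    have e2 : φ ((b : Ideal (𝓞 F)) * (J : Ideal (𝓞 F))) = 1 :=
      hprinc _ (mul_ne_zero (hne b) (hne J)) (hb.mul hJm) hbp
    rw [hmul _ _ (hne a) (hne J)] at e1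
    rw [hmul _ _ (hne b) (hne J)] at e2
    exact mul_right_cancel (e1.trans e2.symm)
  -- the subgroup of classes of ideals prime to `m` in the kernel of `φ`
  let Z : Subgroup (ClassGroup (𝓞 F)) :=
    { carrier := {x | ∃ a : (Ideal (𝓞 F))⁰, PrimeTo m (a : Ideal (𝓞 F)) ∧ φ a = 1 ∧
        ClassGroup.mk0 a = x}
      one_mem' := ⟨1, primeTo_one m, hφ1, map_one _⟩
      mul_mem' := by
        rintro _ _ ⟨a, ha, hφa, rfl⟩ ⟨b, hb, hφb, rfl⟩
        refine ⟨a * b, ha.mul hb, ?_, map_mul _ _ _⟩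
        rw [Submonoid.coe_mul, hmul _ _ (hne a) (hne b), hφa, hφb, one_mul]
      inv_mem' := by
        rintro _ ⟨a, ha, hφa, rfl⟩
        obtain ⟨J, hJm, hJp, hJ1⟩ := hcompl a
        refine ⟨J, hJm, ?_, (eq_inv_of_mul_eq_one_right hJ1)⟩
        have e1 : φ ((a : Ideal (𝓞 F)) * (J : Ideal (𝓞 F))) = 1 :=
          hprinc _ (mul_ne_zero (hne a) (hne J)) (ha.mul hJm) hJp
        rwa [hmul _ _ (hne a) (hne J), hφa, one_mul] at e1 }
  have hmemZ : ∀ x, x ∈ Z ↔ ∃ a : (Ideal (𝓞 F))⁰, PrimeTo m (a : Ideal (𝓞 F)) ∧ φ a = 1 ∧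
        ClassGroup.mk0 a = x := fun _ => Iff.rfl
  have hcZ : ClassGroup.mk0 c ∈ Z := ⟨c, hc, hφc, rfl⟩
  -- `p ≤ [Cl : Z]`
  have hZidx : p ≤ Z.index := by
    obtain ⟨𝔅, h𝔅0, h𝔅m, h𝔅φ⟩ := hsurj
    let B : (Ideal (𝓞 F))⁰ := ⟨𝔅, mem_nonZeroDivisors_iff_ne_zero.mpr h𝔅0⟩
    have hBZ : ClassGroup.mk0 B ∉ Z := by
      rintro ⟨a, ha, hφa, hab⟩
      exact h𝔅φ ((hwd a B ha h𝔅m hab).symm.trans hφa)
    have hBpZ : (ClassGroup.mk0 B) ^ p ∈ Z := by
      refine ⟨B ^ p, ?_, ?_, map_pow _ _ _⟩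
      · rw [SubmonoidClass.coe_pow]; exact h𝔅m.pow p
      · rw [SubmonoidClass.coe_pow]
        show φ (𝔅 ^ p) = 1
        rw [hφpow 𝔅 h𝔅0 p, hpow]
    let q : ClassGroup (𝓞 F) ⧸ Z := QuotientGroup.mk (ClassGroup.mk0 B)
    have hq1 : q ≠ 1 := fun h => hBZ ((QuotientGroup.eq_one_iff _).mp h)
    have hqp : q ^ p = 1 := by
      show (QuotientGroup.mk (ClassGroup.mk0 B) : ClassGroup (𝓞 F) ⧸ Z) ^ p = 1
      rw [← QuotientGroup.mk_pow]
      exact (QuotientGroup.eq_one_iff _).mpr hBpZ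
    have hord : orderOf q = p := orderOf_eq_prime hqp hq1
    have hdvd : p ∣ Z.index := by
      rw [Subgroup.index_eq_card, ← hord]
      exact orderOf_dvd_natCard q
    exact Nat.le_of_dvd (Nat.pos_of_ne_zero Subgroup.index_ne_zero_of_finite) hdvd
  -- the second inequality for `H := Z ⊓ N`
  have hH : (Z ⊓ N).index ≤ p :=
    hI2 (Z ⊓ N) fun 𝔮 _ hqm hφq hqN => ⟨⟨𝔮, hqm, hφq, rfl⟩, hqN⟩
  have hrel : (Z ⊓ N).relIndex Z * Z.index = (Z ⊓ N).index :=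
    Subgroup.relIndex_mul_index inf_le_left
  have hZ0 : Z.index ≠ 0 := Subgroup.index_ne_zero_of_finite
  have hrel1 : (Z ⊓ N).relIndex Z = 1 := by
    have h1 : (Z ⊓ N).relIndex Z * Z.index ≤ Z.index := by
      rw [hrel]; exact hH.trans hZidx
    have h2 : (Z ⊓ N).relIndex Z ≤ 1 := by
      by_contra hcon
      push Not at hcon
      have : 2 * Z.index ≤ (Z ⊓ N).relIndex Z * Z.index := Nat.mul_le_mul_right _ hcon
      omega
    have h3 : (Z ⊓ N).relIndex Z ≠ 0 := by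
      intro h0
      rw [h0, zero_mul] at hrel
      have : (Z ⊓ N).index ≠ 0 := Subgroup.index_ne_zero_of_finite
      exact this hrel.symm
    omega
  have hle : Z ≤ Z ⊓ N := Subgroup.relIndex_eq_one.mp hrel1
  exact (hle hcZ).2

/-- (CR1) Classes of ideals prime to `m` in the kernel of `φ` are norm classes, given that `φ`
kills principal ideals prime to `m` (hB), is nontrivial (hsurj), and the second inequality in its
`H`-form (hI2). -/
theorem cr1 {F M : Type*} [Field F] [Field M] [NumberField F] [NumberField M] [Algebra F M]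
    {G : Type*} [Group G] {p : ℕ} [Fact p.Prime] (φ : Ideal (𝓞 F) → G)
    (hmul : ∀ I J : Ideal (𝓞 F), I ≠ ⊥ → J ≠ ⊥ → φ (I * J) = φ I * φ J)
    (hpow : ∀ g : G, g ^ p = 1) (m : ℕ) (hm : m ≠ 0)
    (hB : ∀ γ : 𝓞 F, γ ≠ 0 → PrimeTo m (Ideal.span {γ}) → φ (Ideal.span {γ}) = 1)
    (hsurj : ∃ 𝔅 : Ideal (𝓞 F), 𝔅 ≠ ⊥ ∧ PrimeTo m 𝔅 ∧ φ 𝔅 ≠ 1)
    (hI2 : ∀ H : Subgroup (ClassGroup (𝓞 F)),
      (∀ 𝔮 : (Ideal (𝓞 F))⁰, (𝔮 : Ideal (𝓞 F)).IsPrime → PrimeTo m (𝔮 : Ideal (𝓞 F)) →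
        φ 𝔮 = 1 → ClassGroup.mk0 𝔮 ∈ normClassSubgroup F M → ClassGroup.mk0 𝔮 ∈ H) →
      H.index ≤ p)
    (c : (Ideal (𝓞 F))⁰) (hc : PrimeTo m (c : Ideal (𝓞 F))) (hφc : φ c = 1) :
    ClassGroup.mk0 c ∈ normClassSubgroup F M :=
  cr1_aux (normClassSubgroup F M) φ hmul hpow m hm hB hsurj hI2 c hc hφc

end CR1

end Fermat.Agent.S14.Cross
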