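import Fermat.Agent.S14.CrossingAbs
import Fermat.Agent.S14.CrossField
import Fermat.Agent.S14.TwoPrimeArtin
import Fermat.Agent.S14.SecondInequality

/-!
# S14 block (D): one auxiliary field inside `Ω`

`K ⊆ L ⊆ Ω` number fields, `L/K` Galois of prime degree `p` and unramified, `Ω/K` Galois, `E` an
intermediate field of `Ω/K` which is totally complex and such that
* every element of `Gal(L/K)` lifts to an automorphism of `Ω/K` fixing `E`  (so `[EL : E] = p`),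
* an automorphism of `Ω/K` fixing `E` and `ζ_j` (`ζ_j ^ ℓ_j = 1`, `ℓ₁ ≠ ℓ₂` primes) is trivial on
  `L`  (so `EL ⊆ E(ζ₁) ∩ E(ζ₂)`).
Then the norms to `K` of ideals of `E` prime to `ℓ₁ ℓ₂` are comparable modulo norm classes of `L/K`
(`CrossingAbs.AuxOK`).  This glues `CrossField` (the compositum `comp L E`), `TwoPrimeArtin`
(principal ideals prime to `ℓ₁ ℓ₂` have trivial symbol), `SecondInequality` and
`CrossingAbs.auxOK_of_auxField`.
-/

set_option autoImplicit false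
set_option linter.unusedSectionVars false

open NumberField
open scoped Pointwise nonZeroDivisors

namespace Fermat.Agent.S14.CrossAux

open Fermat.Agent.S14 Fermat.Agent.S14.Cross

variable {p : ℕ} [hp : Fact p.Prime]
  {K L Ω : Type*} [Field K] [Field L] [Field Ω] [NumberField K] [NumberField L]
  [NumberField Ω] [Algebra K L] [Algebra K Ω] [Algebra L Ω] [IsScalarTower K L Ω] [IsGalois K L]
  [IsGalois K Ω]

/-- An automorphism of `Ω/E` fixing the image of `L` fixes the compositum `comp L E`. -/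
theorem fixes_comp (E : IntermediateField K Ω) (σ : Ω ≃ₐ[E] Ω)
    (hσ : ∀ y : L, σ (algebraMap L Ω y) = algebraMap L Ω y) (x : comp L E) :
    σ (algebraMap (comp L E) Ω x) = algebraMap (comp L E) Ω x := by
  have hx : (x : Ω) ∈ IntermediateField.adjoin E (Set.range (algebraMap L Ω)) := x.2
  have key : ∀ z ∈ IntermediateField.adjoin E (Set.range (algebraMap L Ω)), σ z = z := by
    intro z hz
    induction hz using IntermediateField.adjoin_induction with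
    | mem z hz => obtain ⟨y, rfl⟩ := hz; exact hσ y
    | algebraMap z => exact σ.commutes z
    | add a b _ _ ha hb => rw [map_add, ha, hb]
    | inv a _ ha => rw [map_inv₀, ha]
    | mul a b _ _ ha hb => rw [map_mul, ha, hb]
  exact key _ hx

/-- **One auxiliary field inside `Ω`.** -/
theorem auxOK_of_fixedField (hdeg : Module.finrank K L = p)
    {φ : Ideal (𝓞 K) → (L ≃ₐ[K] L)} (hφ : IsArtinMap K L φ) (hunr : UnramifiedEverywhere K L)
    (E : IntermediateField K Ω) [IsTotallyComplex E]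
    {ℓ₁ ℓ₂ : ℕ} (hℓ₁ : ℓ₁.Prime) (hℓ₂ : ℓ₂.Prime) (hne : ℓ₁ ≠ ℓ₂)
    {ζ₁ ζ₂ : Ω} (hζ₁ : ζ₁ ^ ℓ₁ = 1) (hζ₂ : ζ₂ ^ ℓ₂ = 1)
    (hE₁ : ∀ g : Ω ≃ₐ[K] Ω, (∀ x ∈ E, g x = x) → g ζ₁ = ζ₁ →
      AlgEquiv.restrictNormalHom L g = 1)
    (hE₂ : ∀ g : Ω ≃ₐ[K] Ω, (∀ x ∈ E, g x = x) → g ζ₂ = ζ₂ →
      AlgEquiv.restrictNormalHom L g = 1)
    (hEsurj : ∀ g₀ : Gal(L/K), ∃ g : Ω ≃ₐ[K] Ω, (∀ x ∈ E, g x = x) ∧
      AlgEquiv.restrictNormalHom L g = g₀)
    (𝔮 𝔟' : (Ideal (𝓞 E))⁰)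
    (h𝔮 : IsCoprime (𝔮 : Ideal (𝓞 E)) (Ideal.span {((ℓ₁ * ℓ₂ : ℕ) : 𝓞 E)}))
    (h𝔟' : IsCoprime (𝔟' : Ideal (𝓞 E)) (Ideal.span {((ℓ₁ * ℓ₂ : ℕ) : 𝓞 E)}))
    (hne' : φ ((relNorm0 K E 𝔟' : (Ideal (𝓞 K))⁰) : Ideal (𝓞 K)) ≠ 1) :
    CrossingAbs.AuxOK φ (relNorm0 K E 𝔮) (relNorm0 K E 𝔟') := by
  -- the compositum
  have hdegE : Module.finrank E (comp L E) = p := (finrank_comp E hEsurj).trans hdeg
  have hcommL : IsMulCommutative Gal(L/K) := by
    have : IsCyclic Gal(L/K) :=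
      isCyclic_of_prime_card (p := p) (by rw [IsGalois.card_aut_eq_finrank, hdeg])
    infer_instance
  have hcommM : IsMulCommutative Gal((comp L E)/E) := isMulCommutative_comp E
  obtain ⟨ψ, hψ⟩ := ArtinSplit.exists_isArtinMap (F := E) (M := comp L E)
    (fun σ τ => mul_comm' σ τ)
  have hunrM : UnramifiedEverywhere E (comp L E) := unramifiedEverywhere_comp E hunr
  have hres : Function.Injective (ArtinMap.res K L E (comp L E)) := resComp_injective E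
  -- the modulus
  have hℓpos : (ℓ₁ * ℓ₂ : ℕ) ≠ 0 := Nat.mul_ne_zero hℓ₁.ne_zero hℓ₂.ne_zero
  have h𝔪 : Ideal.span {((ℓ₁ * ℓ₂ : ℕ) : 𝓞 E)} ≠ ⊥ := by
    rw [Ne, Ideal.span_singleton_eq_bot]
    exact_mod_cast hℓpos
  -- from an automorphism over `E` to one over `K`
  have hfix : ∀ {ζ : Ω}, (∀ g : Ω ≃ₐ[K] Ω, (∀ x ∈ E, g x = x) → g ζ = ζ →
      AlgEquiv.restrictNormalHom L g = 1) → ∀ σ : Ω ≃ₐ[E] Ω, σ ζ = ζ →
      ∀ x : comp L E, σ (algebraMap (comp L E) Ω x) = algebraMap (comp L E) Ω x := by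
    intro ζ hζ σ hσ x
    refine fixes_comp E σ (fun y => ?_) x
    have h1 := hζ (σ.restrictScalars K) (fun x hx => σ.commutes ⟨x, hx⟩) hσ
    have h2 := AlgEquiv.restrictNormal_commutes (σ.restrictScalars K) L y
    have h3 : (σ.restrictScalars K).restrictNormal L = 1 := h1
    rw [h3] at h2
    exact h2.symm
  have hB : ∀ γ : 𝓞 E, γ ≠ 0 →
      IsCoprime (Ideal.span {γ}) (Ideal.span {((ℓ₁ * ℓ₂ : ℕ) : 𝓞 E)}) →
      ψ (Ideal.span {γ}) = 1 := fun γ hγ hcop =>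
    TwoPrimeArtin.map_span_singleton_eq_one (E := E) (M := comp L E) (Ω := Ω) hℓ₁ hℓ₂ hne hζ₁ hζ₂
      (hfix hE₁) (hfix hE₂) hψ hunrM hγ hcop
  have hI2 : (normClassSubgroup E (comp L E)).index ≤ p :=
    hdegE ▸ SecondIneq.second_inequality E (comp L E)
  exact CrossingAbs.auxOK_of_auxField hdegE hφ hψ hunr hunrM hres h𝔪 hB hI2 𝔮 𝔟' h𝔮 h𝔟' hne'

end Fermat.Agent.S14.CrossAux
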