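import Fermat.Agent.S14.NormClass

/-!
# S14 block D4: from the pair statement to `ker φ ⊆ P_K · N(I_L)`

`L/K` Galois of prime degree `p`, unramified everywhere, `φ` an Artin map.  Suppose that for any two
primes `P₁ P₂` with nontrivial symbol there is an ideal `A` with `φ A ≠ 1` such that
`[P_i · A^e] ∈ normClassSubgroup K L` whenever `φ (P_i · A^e) = 1` (this is what the crossing
construction of block D7 delivers).  Then every nonzero ideal in the kernel of `φ` has its class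
in `normClassSubgroup K L`.
-/

set_option autoImplicit false
set_option linter.unusedSectionVars false

open NumberField
open scoped Pointwise nonZeroDivisors

namespace Fermat.Agent.S14.CrossFinal

open Fermat.Agent.S14

section Group

/-- In a group of prime order `p`, every element is a natural power of a given non-identity. -/
theorem exists_pow_eq_of_card_prime {G : Type*} [Group G] {p : ℕ} [hp : Fact p.Prime]
    (hcard : Nat.card G = p) {σ : G} (hσ : σ ≠ 1) (g : G) : ∃ t : ℕ, σ ^ t = g := by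
  have : Finite G := Nat.finite_of_card_ne_zero (hcard ▸ hp.out.ne_zero)
  have h : g ∈ Subgroup.zpowers σ := by
    rw [zpowers_eq_top_of_prime_card hcard hσ]; trivial
  rw [← mem_powers_iff_mem_zpowers] at h
  exact h

theorem orderOf_eq_of_card_prime {G : Type*} [Group G] {p : ℕ} [hp : Fact p.Prime]
    (hcard : Nat.card G = p) {σ : G} (hσ : σ ≠ 1) : orderOf σ = p := by
  have : Finite G := Nat.finite_of_card_ne_zero (hcard ▸ hp.out.ne_zero)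
  have h1 : orderOf σ ∣ p := hcard ▸ orderOf_dvd_natCard σ
  rcases (Nat.dvd_prime hp.out).mp h1 with h | h
  · exact absurd (orderOf_eq_one_iff.mp h) hσ
  · exact h

/-- If `x ^ p = 1` then powers of `x` only depend on the exponent mod `p`. -/
theorem pow_eq_pow_of_modEq_of_pow_eq_one {C : Type*} [Group C] {x : C} {p : ℕ}
    (hx : x ^ p = 1) {m n : ℕ} (h : m ≡ n [MOD p]) : x ^ m = x ^ n := by
  rw [pow_eq_pow_iff_modEq]
  exact h.of_dvd (orderOf_dvd_of_pow_eq_one hx)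

end Group

variable {K L : Type*} [Field K] [Field L] [NumberField K] [NumberField L] [Algebra K L]
  [IsGalois K L]

theorem mk0_top_eq_one {R : Type*} [CommRing R] [IsDedekindDomain R] (h : (⊤ : Ideal R) ∈ (Ideal R)⁰) :
    ClassGroup.mk0 (⟨⊤, h⟩ : (Ideal R)⁰) = 1 := by
  have : (⟨⊤, h⟩ : (Ideal R)⁰) = 1 := Subtype.ext Ideal.one_eq_top.symm
  rw [this, map_one]

/-- **From pairs to the kernel.** -/
theorem mk0_mem_of_map_eq_one_of_pairs {p : ℕ} [hp : Fact p.Prime]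
    (hdeg : Module.finrank K L = p)
    {φ : Ideal (𝓞 K) → (L ≃ₐ[K] L)} (hφ : IsArtinMap K L φ) (hunr : UnramifiedEverywhere K L)
    (hpair : ∀ P₁ P₂ : (Ideal (𝓞 K))⁰, (P₁ : Ideal (𝓞 K)).IsPrime → (P₂ : Ideal (𝓞 K)).IsPrime →
      φ P₁ ≠ 1 → φ P₂ ≠ 1 → ∃ A : (Ideal (𝓞 K))⁰, φ A ≠ 1 ∧
        (∀ e : ℕ, φ ((P₁ * A ^ e : (Ideal (𝓞 K))⁰) : Ideal (𝓞 K)) = 1 →
          ClassGroup.mk0 (P₁ * A ^ e) ∈ normClassSubgroup K L) ∧
        (∀ e : ℕ, φ ((P₂ * A ^ e : (Ideal (𝓞 K))⁰) : Ideal (𝓞 K)) = 1 →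
          ClassGroup.mk0 (P₂ * A ^ e) ∈ normClassSubgroup K L))
    (a : (Ideal (𝓞 K))⁰) (h1 : φ a = 1) : ClassGroup.mk0 a ∈ normClassSubgroup K L := by
  classical
  have hcard : Nat.card (L ≃ₐ[K] L) = p := by rw [IsGalois.card_aut_eq_finrank, hdeg]
  set X := normClassSubgroup K L with hX
  -- the projection to `Cl(K)/X`
  set π : ClassGroup (𝓞 K) →* ClassGroup (𝓞 K) ⧸ X := QuotientGroup.mk' X with hπ
  have hπ1 : ∀ u : ClassGroup (𝓞 K), π u = 1 ↔ u ∈ X := fun u => QuotientGroup.eq_one_iff u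
  have hpowp : ∀ b : (Ideal (𝓞 K))⁰, π (ClassGroup.mk0 b) ^ p = 1 := by
    intro b
    rw [← map_pow, hπ1, ← hdeg]
    exact NormClass.mk0_pow_finrank_mem b
  -- multiplicativity of `φ` on `(Ideal (𝓞 K))⁰`
  have hne : ∀ b : (Ideal (𝓞 K))⁰, (b : Ideal (𝓞 K)) ≠ ⊥ :=
    fun b => mem_nonZeroDivisors_iff_ne_zero.mp b.2
  have hφmul : ∀ b c : (Ideal (𝓞 K))⁰,
      φ ((b * c : (Ideal (𝓞 K))⁰) : Ideal (𝓞 K)) = φ b * φ c := by
    intro b c
    rw [Submonoid.coe_mul]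
    exact hφ.map_mul _ _ (hne b) (hne c)
  have hφpow : ∀ (b : (Ideal (𝓞 K))⁰) (e : ℕ),
      φ ((b ^ e : (Ideal (𝓞 K))⁰) : Ideal (𝓞 K)) = φ b ^ e := by
    intro b e
    rw [SubmonoidClass.coe_pow]
    exact ArtinSplit.map_pow hφ (hne b) e
  by_cases hex : ∃ P₀ : (Ideal (𝓞 K))⁰, (P₀ : Ideal (𝓞 K)).IsPrime ∧ φ P₀ ≠ 1
  swap
  · -- every prime has trivial symbol, hence is a norm
    have hex : ∀ P₀ : (Ideal (𝓞 K))⁰, (P₀ : Ideal (𝓞 K)).IsPrime → φ P₀ = 1 :=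
      fun P₀ hP => by_contra fun h => hex ⟨P₀, hP, h⟩
    have key : ∀ I : Ideal (𝓞 K), I ≠ ⊥ → ∀ hI : I ∈ (Ideal (𝓞 K))⁰,
        ClassGroup.mk0 ⟨I, hI⟩ ∈ X := by
      intro I hI0
      refine ArtinMap.ideal_induction
        (C := fun I : Ideal (𝓞 K) => ∀ hI : I ∈ (Ideal (𝓞 K))⁰, ClassGroup.mk0 ⟨I, hI⟩ ∈ X)
        ?_ ?_ ?_ I hI0
      · intro h; rw [mk0_top_eq_one h]; exact X.one_mem
      · intro Q hQ hQ0 hQm
        exact NormClass.mk0_mem_of_map_eq_one hφ hunr ⟨Q, hQm⟩ hQ (hex ⟨Q, hQm⟩ hQ)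
      · intro I J hI hJ ihI ihJ hIJ
        have hIm : I ∈ (Ideal (𝓞 K))⁰ := mem_nonZeroDivisors_iff_ne_zero.mpr hI
        have hJm : J ∈ (Ideal (𝓞 K))⁰ := mem_nonZeroDivisors_iff_ne_zero.mpr hJ
        have : (⟨I * J, hIJ⟩ : (Ideal (𝓞 K))⁰) = ⟨I, hIm⟩ * ⟨J, hJm⟩ := Subtype.ext rfl
        rw [this, map_mul]
        exact X.mul_mem (ihI hIm) (ihJ hJm)
    exact key a (hne a) a.2
  obtain ⟨P₀, hP₀, hσ₀⟩ := hex
  set σ₀ := φ P₀ with hσ₀def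
  have hordσ₀ : orderOf σ₀ = p := orderOf_eq_of_card_prime hcard hσ₀
  set x₀ := π (ClassGroup.mk0 P₀) with hx₀
  have hx₀p : x₀ ^ p = 1 := hpowp P₀
  -- the claim for primes
  have claim : ∀ Q : (Ideal (𝓞 K))⁰, (Q : Ideal (𝓞 K)).IsPrime → ∀ t : ℕ, φ Q = σ₀ ^ t →
      π (ClassGroup.mk0 Q) = x₀ ^ t := by
    intro Q hQ t ht
    by_cases hQ1 : φ Q = 1
    · have hQX : π (ClassGroup.mk0 Q) = 1 :=
        (hπ1 _).mpr (NormClass.mk0_mem_of_map_eq_one hφ hunr Q hQ hQ1)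
      have hpt : p ∣ t := by
        rw [← hordσ₀]; apply orderOf_dvd_of_pow_eq_one; rw [← ht, hQ1]
      obtain ⟨k, rfl⟩ := hpt
      rw [hQX, pow_mul, hx₀p, one_pow]
    · obtain ⟨A, hA1, hA0, hAQ⟩ := hpair P₀ Q hP₀ hQ hσ₀ hQ1
      set τ := φ A with hτ
      have hordτ : orderOf τ = p := orderOf_eq_of_card_prime hcard hA1
      obtain ⟨e₀, he₀⟩ := exists_pow_eq_of_card_prime hcard hA1 σ₀⁻¹
      obtain ⟨e, he⟩ := exists_pow_eq_of_card_prime hcard hA1 (φ Q)⁻¹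
      set y := π (ClassGroup.mk0 A) with hy
      have hyp : y ^ p = 1 := hpowp A
      have h0 : x₀ * y ^ e₀ = 1 := by
        rw [hx₀, hy, ← map_pow, ← map_mul, ← map_pow, ← map_mul, hπ1]
        apply hA0
        rw [hφmul, hφpow, ← hτ, he₀, ← hσ₀def, mul_inv_cancel]
      have hQe : π (ClassGroup.mk0 Q) * y ^ e = 1 := by
        rw [hy, ← map_pow, ← map_mul, ← map_pow, ← map_mul, hπ1]
        apply hAQ
        rw [hφmul, hφpow, ← hτ, he, mul_inv_cancel]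
      -- `t * e₀ ≡ e mod p`
      have hmod : t * e₀ ≡ e [MOD p] := by
        rw [← hordτ, ← pow_eq_pow_iff_modEq, mul_comm, pow_mul, he₀, he, ht, inv_pow]
      have hyy : y ^ (t * e₀) = y ^ e := pow_eq_pow_of_modEq_of_pow_eq_one hyp hmod
      -- conclude in the commutative group `Cl(K)/X`
      have hx₀' : x₀ = (y ^ e₀)⁻¹ := eq_inv_of_mul_eq_one_left h0
      have hQ' : π (ClassGroup.mk0 Q) = (y ^ e)⁻¹ := eq_inv_of_mul_eq_one_left hQe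
      rw [hQ', hx₀', inv_pow, ← pow_mul, mul_comm e₀ t, hyy]
  -- the claim for all nonzero ideals
  have key : ∀ I : Ideal (𝓞 K), I ≠ ⊥ → ∀ hI : I ∈ (Ideal (𝓞 K))⁰,
      ∃ t : ℕ, φ I = σ₀ ^ t ∧ π (ClassGroup.mk0 ⟨I, hI⟩) = x₀ ^ t := by
    intro I hI0
    refine ArtinMap.ideal_induction
      (C := fun I : Ideal (𝓞 K) => ∀ hI : I ∈ (Ideal (𝓞 K))⁰,
        ∃ t : ℕ, φ I = σ₀ ^ t ∧ π (ClassGroup.mk0 ⟨I, hI⟩) = x₀ ^ t) ?_ ?_ ?_ I hI0
    · intro h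
      exact ⟨0, by rw [pow_zero, ArtinSplit.map_top hφ], by rw [mk0_top_eq_one h, map_one, pow_zero]⟩
    · intro Q hQ hQ0 hQm
      obtain ⟨t, ht⟩ := exists_pow_eq_of_card_prime hcard hσ₀ (φ Q)
      exact ⟨t, ht.symm, claim ⟨Q, hQm⟩ hQ t ht.symm⟩
    · intro I J hI hJ ihI ihJ hIJ
      have hIm : I ∈ (Ideal (𝓞 K))⁰ := mem_nonZeroDivisors_iff_ne_zero.mpr hI
      have hJm : J ∈ (Ideal (𝓞 K))⁰ := mem_nonZeroDivisors_iff_ne_zero.mpr hJ
      obtain ⟨t₁, h₁, h₁'⟩ := ihI hIm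
      obtain ⟨t₂, h₂, h₂'⟩ := ihJ hJm
      have : (⟨I * J, hIJ⟩ : (Ideal (𝓞 K))⁰) = ⟨I, hIm⟩ * ⟨J, hJm⟩ := Subtype.ext rfl
      refine ⟨t₁ + t₂, ?_, ?_⟩
      · rw [hφ.map_mul I J hI hJ, h₁, h₂, pow_add]
      · rw [this, map_mul, map_mul, h₁', h₂', pow_add]
  obtain ⟨t, ht, ht'⟩ := key a (hne a) a.2
  have hpt : p ∣ t := by
    rw [← hordσ₀]; apply orderOf_dvd_of_pow_eq_one; rw [← ht, h1]
  obtain ⟨k, rfl⟩ := hpt
  rw [← hπ1]
  have : (⟨(a : Ideal (𝓞 K)), a.2⟩ : (Ideal (𝓞 K))⁰) = a := rfl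
  rw [this] at ht'
  rw [ht', pow_mul, hx₀p, one_pow]

end Fermat.Agent.S14.CrossFinal
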