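import Mathlib

/-!
# S14 / reciprocity, step (VI-b): the group theory of Artin's crossing argument
-/

set_option autoImplicit false

namespace Fermat.Agent.S14.Recip

/-- Elements of the subgroup generated by two commuting elements. -/
theorem mem_closure_pair_of_commute {Γ : Type*} [Group Γ] {x y : Γ} (hxy : Commute x y) {h : Γ}
    (hh : h ∈ Subgroup.closure ({x, y} : Set Γ)) : ∃ u v : ℤ, h = x ^ u * y ^ v := by
  induction hh using Subgroup.closure_induction with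
  | mem z hz =>
    rcases hz with rfl | rfl
    · exact ⟨1, 0, by simp⟩
    · exact ⟨0, 1, by simp⟩
  | one => exact ⟨0, 0, by simp⟩
  | mul a b _ _ ha hb =>
    obtain ⟨u, v, rfl⟩ := ha
    obtain ⟨u', v', rfl⟩ := hb
    refine ⟨u + u', v + v', ?_⟩
    have h1 : Commute (y ^ v) (x ^ u') := (hxy.zpow_zpow u' v).symm
    rw [zpow_add, zpow_add, mul_assoc, ← mul_assoc (y ^ v), h1.eq, mul_assoc, ← mul_assoc]
  | inv a _ ha =>
    obtain ⟨u, v, rfl⟩ := ha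
    refine ⟨-u, -v, ?_⟩
    have h1 : Commute (x ^ u) (y ^ v) := hxy.zpow_zpow u v
    rw [mul_inv_rev, ← zpow_neg, ← zpow_neg]
    exact ((hxy.zpow_zpow (-u) (-v)).eq).symm

/-- **Crossing lemma, group theory.** `Γ` is (a subgroup of) `G × C` via `(π₁, π₂)`; `x ↦ (σ, τ)`,
`y ↦ (σ ^ d, a)` commute; `σ ^ p = 1`; `p ∣ ord τ`, `p ∣ ord a`, `⟨τ⟩ ∩ ⟨a⟩ = 1`. Then the subgroup
`H = ⟨x, y⟩` meets `ker π₂` trivially. -/
theorem closure_pair_inf_ker_eq_bot {Γ G C : Type*} [Group Γ] [Group G] [Group C]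
    (π₁ : Γ →* G) (π₂ : Γ →* C) (hinj : ∀ g : Γ, π₁ g = 1 → π₂ g = 1 → g = 1)
    {p : ℕ} {σ : G} (hσ : σ ^ p = 1) {τ a : C} (hτ : p ∣ orderOf τ) (ha : p ∣ orderOf a)
    (hτa : Subgroup.zpowers τ ⊓ Subgroup.zpowers a = ⊥)
    {x y : Γ} (hxy : Commute x y) (d : ℤ)
    (hx₁ : π₁ x = σ) (hx₂ : π₂ x = τ) (hy₁ : π₁ y = σ ^ d) (hy₂ : π₂ y = a) :
    Subgroup.closure ({x, y} : Set Γ) ⊓ π₂.ker = ⊥ := by
  rw [eq_bot_iff]
  rintro h ⟨hh, hker⟩
  rw [Subgroup.mem_bot]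
  obtain ⟨u, v, rfl⟩ := mem_closure_pair_of_commute hxy hh
  have h2 : τ ^ u * a ^ v = 1 := by
    have := MonoidHom.mem_ker.mp hker
    rwa [map_mul, map_zpow, map_zpow, hx₂, hy₂] at this
  have h3 : τ ^ u ∈ Subgroup.zpowers τ ⊓ Subgroup.zpowers a := by
    refine ⟨⟨u, rfl⟩, ⟨-v, ?_⟩⟩
    show a ^ (-v) = τ ^ u
    rw [zpow_neg]
    exact (eq_inv_of_mul_eq_one_left h2).symm
  rw [hτa, Subgroup.mem_bot] at h3
  have h4 : a ^ v = 1 := by rwa [h3, one_mul] at h2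
  have hu : (p : ℤ) ∣ u := by
    have := orderOf_dvd_iff_zpow_eq_one.mpr h3
    exact Dvd.dvd.trans (by exact_mod_cast hτ) this
  have hv : (p : ℤ) ∣ v := by
    have := orderOf_dvd_iff_zpow_eq_one.mpr h4
    exact Dvd.dvd.trans (by exact_mod_cast ha) this
  apply hinj
  · rw [map_mul, map_zpow, map_zpow, hx₁, hy₁, ← zpow_mul, ← zpow_add]
    obtain ⟨u', rfl⟩ := hu
    obtain ⟨v', rfl⟩ := hv
    have : (p : ℤ) * u' + d * (p * v') = p * (u' + d * v') := by ring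
    rw [this, zpow_mul, zpow_natCast, hσ, one_zpow]
  · rw [map_mul, map_zpow, map_zpow, hx₂, hy₂, h2]

end Fermat.Agent.S14.Recip
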