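import Fermat.Agent.S14.NormClass

/-!
# S14 block D5: one-sided crossing

Context of `ArtinMap.res`: number fields `K ⊆ L ⊆ M`, `K ⊆ F ⊆ M`, `L/K` and `M/F` Galois, `L/K`
unramified, the restriction `Gal(M/F) → Gal(L/K)` injective (`M = L F`).  If the kernel of the Artin
map of `M/F` on ideals prime to `m` consists of norm classes (`hCR`, the conclusion of block D3),
then for ideals `P`, `B` of `F` prime to `m` with `φ_{L/K}(N P · (N B)^e) = 1` the class of
`N P · (N B)^e` is a norm class of `L/K`.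
-/

set_option autoImplicit false
set_option linter.unusedSectionVars false

open NumberField
open scoped Pointwise nonZeroDivisors

namespace Fermat.Agent.S14.CrossOne

open Fermat.Agent.S14

variable {K L F M : Type*} [Field K] [Field L] [Field F] [Field M]
  [NumberField K] [NumberField L] [NumberField F] [NumberField M]
  [Algebra K L] [Algebra K F] [Algebra L M] [Algebra F M] [Algebra K M]
  [IsScalarTower K L M] [IsScalarTower K F M]
  [IsGalois K L] [IsGalois F M]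

theorem sup_eq_top_mul_pow {R : Type*} [CommRing R] {P B m : Ideal R} (hP : P ⊔ m = ⊤)
    (hB : B ⊔ m = ⊤) (e : ℕ) : P * B ^ e ⊔ m = ⊤ := by
  rw [← Ideal.isCoprime_iff_sup_eq] at hP hB ⊢
  exact IsCoprime.mul_left hP (IsCoprime.pow_left hB)

/-- **One-sided crossing.** -/
theorem mk0_mul_pow_mem_of_cross
    {φ : Ideal (𝓞 K) → (L ≃ₐ[K] L)} (hφ : IsArtinMap K L φ) (hunr : UnramifiedEverywhere K L)
    {φ' : Ideal (𝓞 F) → (M ≃ₐ[F] M)} (hφ' : IsArtinMap F M φ')
    (hres : Function.Injective (ArtinMap.res K L F M))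
    {m : Ideal (𝓞 F)}
    (hCR : ∀ c : (Ideal (𝓞 F))⁰, (c : Ideal (𝓞 F)) ⊔ m = ⊤ → φ' c = 1 →
      ClassGroup.mk0 c ∈ normClassSubgroup F M)
    (P : (Ideal (𝓞 F))⁰) (hPm : (P : Ideal (𝓞 F)) ⊔ m = ⊤)
    (B : (Ideal (𝓞 F))⁰) (hBm : (B : Ideal (𝓞 F)) ⊔ m = ⊤) (e : ℕ)
    (h1 : φ ((relNorm0 K F P * relNorm0 K F B ^ e : (Ideal (𝓞 K))⁰) : Ideal (𝓞 K)) = 1) :
    ClassGroup.mk0 (relNorm0 K F P * relNorm0 K F B ^ e) ∈ normClassSubgroup K L := by
  set c : (Ideal (𝓞 F))⁰ := P * B ^ e with hc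
  have hc0 : (c : Ideal (𝓞 F)) ≠ ⊥ := mem_nonZeroDivisors_iff_ne_zero.mp c.2
  have hcm : (c : Ideal (𝓞 F)) ⊔ m = ⊤ := by
    have : (c : Ideal (𝓞 F)) = (P : Ideal (𝓞 F)) * (B : Ideal (𝓞 F)) ^ e := by
      simp [hc]
    rw [this]
    exact sup_eq_top_mul_pow hPm hBm e
  have hN : relNorm0 K F c = relNorm0 K F P * relNorm0 K F B ^ e := by
    rw [hc, map_mul, map_pow]
  have hres1 : ArtinMap.res K L F M (φ' c) = 1 := by
    rw [ArtinSplit.res_map hφ hφ' hunr hc0, ← coe_relNorm0, hN]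
    exact h1
  have hφc : φ' c = 1 := hres (by rw [hres1, map_one])
  have := NormClass.mk0_relNorm0_mem_of_mem (K := K) (L := L) (hCR c hcm hφc)
  rwa [hN] at this

end Fermat.Agent.S14.CrossOne
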