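import Mathlib
import Fermat.Agent.S14.CycloTop
import Fermat.Agent.S14.CycloDisjoint
import Fermat.Agent.S14.CycloTopSurj

/-!
# S14 block (D), sub-block (X-A), second half

`Gal(L(ζ_m)/K) ≃* Gal(L/K) × (ℤ/m)ˣ` when `gcd(m, disc L) = 1`
(injectivity: `CycloTop.prod_injective`; surjectivity, `prod_surjective`, and the bundled
`prodEquiv` / `prodEquiv_apply`: helper12's `CycloTopSurj.lean`, imported here).
This file adds the bundled hom `prodHom`, two criteria for computing its components, and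
commutativity of `Gal(L(ζ_m)/K)`.
-/

set_option autoImplicit false
set_option linter.unusedSectionVars false

namespace Fermat.Agent.S14.Cross

open Polynomial

variable {K L Ω : Type*} [Field K] [Field L] [Field Ω]
  [Algebra K L] [Algebra K Ω] [Algebra L Ω] [IsScalarTower K L Ω]
  {m : ℕ} [NeZero m] [IsCyclotomicExtension {m} L Ω]

/-- The homomorphism `g ↦ (g|_L, χ_m(g))`. -/
noncomputable def prodHom [Normal K L] {ζ : Ω} (hζ : IsPrimitiveRoot ζ m) :
    (Ω ≃ₐ[K] Ω) →* (L ≃ₐ[K] L) × (ZMod m)ˣ :=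
  (AlgEquiv.restrictNormalHom L).prod (hζ.autToPow K)

@[simp] theorem prodHom_apply [Normal K L] {ζ : Ω} (hζ : IsPrimitiveRoot ζ m) (g : Ω ≃ₐ[K] Ω) :
    prodHom (L := L) hζ g = (AlgEquiv.restrictNormalHom L g, hζ.autToPow K g) := rfl

theorem prodHom_injective [Normal K L] {ζ : Ω} (hζ : IsPrimitiveRoot ζ m) :
    Function.Injective (prodHom (K := K) (L := L) hζ) :=
  prod_injective (K := K) (L := L) hζ

/-- If `g` agrees with `s` on `L` then its restriction to `L` is `s`. -/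
theorem restrictNormalHom_eq_of_forall [Normal K L] (g : Ω ≃ₐ[K] Ω) (s : L ≃ₐ[K] L)
    (h : ∀ x : L, g (algebraMap L Ω x) = algebraMap L Ω (s x)) :
    AlgEquiv.restrictNormalHom L g = s := by
  ext x
  apply (algebraMap L Ω).injective
  rw [← h x]
  exact AlgEquiv.restrictNormal_commutes g L x

/-- If `g ζ = ζ ^ c` then `χ_m(g) = c`. -/
theorem autToPow_eq_of_apply_eq {ζ : Ω} (hζ : IsPrimitiveRoot ζ m) (g : Ω ≃ₐ[K] Ω)
    (c : (ZMod m)ˣ) (h : g ζ = ζ ^ (c : ZMod m).val) : hζ.autToPow K g = c := by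
  have hs := hζ.autToPow_spec K g
  rw [h] at hs
  have h1 := hζ.pow_inj (ZMod.val_lt _) (ZMod.val_lt _) hs
  exact Units.ext (ZMod.val_injective m h1)

/-- helper12's `prodEquiv` is `prodHom` as a function. -/
theorem prodEquiv_eq_prodHom [NumberField L] [Normal K L] {ζ : Ω} (hζ : IsPrimitiveRoot ζ m)
    (hm : Nat.Coprime m (NumberField.discr L).natAbs) (g : Ω ≃ₐ[K] Ω) :
    prodEquiv (K := K) hζ hm g = prodHom (L := L) hζ g := rfl

/-- `Gal(L(ζ_m)/K)` is commutative when `Gal(L/K)` is. -/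
theorem mul_comm_of_comm [Normal K L] {ζ : Ω} (hζ : IsPrimitiveRoot ζ m)
    (hab : ∀ s t : L ≃ₐ[K] L, s * t = t * s) (g h : Ω ≃ₐ[K] Ω) : g * h = h * g := by
  apply prodHom_injective (K := K) (L := L) hζ
  rw [map_mul, map_mul]
  exact Prod.ext (hab _ _) (mul_comm _ _)

end Fermat.Agent.S14.Cross
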