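import Mathlib
import Fermat.Agent.S14.CycloTopSurj

/-!
# S14 block (D): two cyclotomic characters on `Gal(L(ζ_m)/K)` — triple surjectivity

`Ω = L(ζ_m)`, `m = m₁ m₂` with `m₁, m₂` coprime and `m` prime to the discriminant of `L`.  For
primitive roots `ζ₁, ζ₂ ∈ Ω` of orders `m₁, m₂` the map
`g ↦ (g|_L, χ₁ g, χ₂ g)` from `Gal(Ω/K)` to `Gal(L/K) × (ℤ/m₁)ˣ × (ℤ/m₂)ˣ` is onto
(`exists_of_triple`, the hypothesis `hsurj` of `CrossGal.exists_mem_inf_crossSub`).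

Also: the cyclotomic character does not depend on the primitive root and is compatible with
reduction (`autToPow_eq_unitsMap`), and the two character lemmas feeding
`CrossGal.map_eq_one_of_mem_crossSub` with `ρ := ZMod.unitsMap`.
-/

set_option autoImplicit false
set_option linter.unusedSectionVars false

namespace Fermat.Agent.S14.CycloTriple

open Fermat.Agent.S14 Fermat.Agent.S14.Cross

section Char

variable {K Ω : Type*} [Field K] [Field Ω] [Algebra K Ω]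

/-- Two equal powers of a primitive `n`-th root in a field have exponents equal in `ZMod n`. -/
theorem natCast_eq_of_pow_eq {n : ℕ} [NeZero n] {ζ : Ω} (hζ : IsPrimitiveRoot ζ n) {a b : ℕ}
    (h : ζ ^ a = ζ ^ b) : (a : ZMod n) = (b : ZMod n) := by
  have hζ0 : ζ ≠ 0 := hζ.ne_zero (NeZero.ne n)
  have h1 : ζ ^ ((a : ℤ) - b) = 1 := by
    rw [zpow_sub₀ hζ0, zpow_natCast, zpow_natCast, h, div_self (pow_ne_zero _ hζ0)]
  have h2 : (n : ℤ) ∣ (a : ℤ) - b := (hζ.zpow_eq_one_iff_dvd _).mp h1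
  have h3 : (((a : ℤ) - b : ℤ) : ZMod n) = 0 := (ZMod.intCast_zmod_eq_zero_iff_dvd _ _).mpr h2
  push_cast at h3
  exact sub_eq_zero.mp h3

/-- The cyclotomic character modulo `d` attached to ANY primitive `d`-th root of unity `η` is the
reduction of the cyclotomic character modulo `m` attached to any primitive `m`-th root `ζ`,
`d ∣ m`. -/
theorem autToPow_eq_unitsMap {m d : ℕ} [NeZero m] [NeZero d] (hd : d ∣ m) {ζ η : Ω}
    (hζ : IsPrimitiveRoot ζ m) (hη : IsPrimitiveRoot η d) (g : Ω ≃ₐ[K] Ω) :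
    hη.autToPow K g = ZMod.unitsMap hd (hζ.autToPow K g) := by
  have hηm : η ^ m = 1 := by
    obtain ⟨e, rfl⟩ := hd
    rw [pow_mul, hη.pow_eq_one, one_pow]
  obtain ⟨i, -, rfl⟩ := hζ.eq_pow_of_pow_eq_one hηm
  have hspec := hζ.autToPow_spec K g
  have hspec' := hη.autToPow_spec K g
  set c := ((hζ.autToPow K g : (ZMod m)ˣ) : ZMod m).val with hc
  set c' := ((hη.autToPow K g : (ZMod d)ˣ) : ZMod d).val with hc'
  have h1 : (ζ ^ i) ^ c' = (ζ ^ i) ^ c := by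
    rw [hspec', map_pow, ← hspec, ← pow_mul, ← pow_mul, mul_comm]
  have h2 : ((c' : ℕ) : ZMod d) = ((c : ℕ) : ZMod d) := natCast_eq_of_pow_eq hη h1
  apply Units.ext
  rw [ZMod.unitsMap_val, ZMod.cast_eq_val, ← hc, ← h2, hc', ZMod.natCast_zmod_val]

/-- If `g` fixes a primitive `ℓ`-th root of unity, the cyclotomic character of `g` modulo `m`
(`ℓ ∣ m`) is trivial modulo `ℓ`. -/
theorem unitsMap_autToPow_eq_one {m ℓ : ℕ} [NeZero m] [NeZero ℓ] (hdvd : ℓ ∣ m) {ζ η : Ω}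
    (hζ : IsPrimitiveRoot ζ m) (hη : IsPrimitiveRoot η ℓ) {g : Ω ≃ₐ[K] Ω} (hg : g η = η) :
    ZMod.unitsMap hdvd (hζ.autToPow K g) = 1 := by
  rw [← autToPow_eq_unitsMap hdvd hζ hη g]
  have hspec := hη.autToPow_spec K g
  set c := ((hη.autToPow K g : (ZMod ℓ)ˣ) : ZMod ℓ).val with hc
  have h1 : η ^ c = η ^ 1 := by rw [hspec, hg, pow_one]
  have h2 : ((c : ℕ) : ZMod ℓ) = ((1 : ℕ) : ZMod ℓ) := natCast_eq_of_pow_eq hη h1
  apply Units.ext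
  rw [Units.val_one, ← ZMod.natCast_zmod_val ((hη.autToPow K g : (ZMod ℓ)ˣ) : ZMod ℓ), ← hc, h2,
    Nat.cast_one]

/-- Special case `η = ζ ^ ℓ'` with `m = ℓ' * ℓ`. -/
theorem unitsMap_autToPow_eq_one_of_pow {m ℓ ℓ' : ℕ} [NeZero m] [NeZero ℓ] (hm : m = ℓ' * ℓ)
    {ζ : Ω} (hζ : IsPrimitiveRoot ζ m) {g : Ω ≃ₐ[K] Ω} (hg : g (ζ ^ ℓ') = ζ ^ ℓ') :
    ZMod.unitsMap (Dvd.intro_left ℓ' hm.symm) (hζ.autToPow K g) = 1 :=
  unitsMap_autToPow_eq_one _ hζ (hζ.pow (NeZero.pos m) hm) hg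

/-- The order modulo `ℓ` of the cyclotomic character of an element whose character is the class
of `a`. -/
theorem dvd_orderOf_unitsMap_autToPow {p m ℓ : ℕ} [NeZero m] [NeZero ℓ] (hdvd : ℓ ∣ m) {ζ : Ω}
    (hζ : IsPrimitiveRoot ζ m) {h : Ω ≃ₐ[K] Ω} {a : ℕ}
    (hχ : ((hζ.autToPow K h : (ZMod m)ˣ) : ZMod m) = (a : ZMod m))
    (hord : p ∣ orderOf ((a : ZMod ℓ))) :
    p ∣ orderOf (ZMod.unitsMap hdvd (hζ.autToPow K h)) := by
  rw [← orderOf_units, ZMod.unitsMap_val, hχ]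
  have : ((a : ZMod m)).cast = ((a : ℕ) : ZMod ℓ) := by
    have := map_natCast (ZMod.castHom hdvd (ZMod ℓ)) a
    rwa [ZMod.castHom_apply] at this
  rwa [this]

end Char

section CRT

/-- Chinese remainder theorem on units, in `unitsMap` form. -/
theorem exists_unit_unitsMap_eq {m₁ m₂ : ℕ} [NeZero m₁] [NeZero m₂] (hcop : Nat.Coprime m₁ m₂)
    (c₁ : (ZMod m₁)ˣ) (c₂ : (ZMod m₂)ˣ) :
    ∃ c : (ZMod (m₁ * m₂))ˣ, ZMod.unitsMap (Dvd.intro _ rfl) c = c₁ ∧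
      ZMod.unitsMap (Dvd.intro_left _ rfl) c = c₂ := by
  set a₁ := ((c₁ : (ZMod m₁)ˣ) : ZMod m₁).val with ha₁
  set a₂ := ((c₂ : (ZMod m₂)ˣ) : ZMod m₂).val with ha₂
  obtain ⟨k, hk₁, hk₂⟩ := Nat.chineseRemainder hcop a₁ a₂
  have hc₁ : Nat.Coprime a₁ m₁ := ZMod.val_coe_unit_coprime c₁
  have hc₂ : Nat.Coprime a₂ m₂ := ZMod.val_coe_unit_coprime c₂
  have hkc₁ : Nat.Coprime k m₁ := by
    have := hk₁.gcd_eq
    rw [Nat.Coprime, this]; exact hc₁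
  have hkc₂ : Nat.Coprime k m₂ := by
    have := hk₂.gcd_eq
    rw [Nat.Coprime, this]; exact hc₂
  have hkc : Nat.Coprime k (m₁ * m₂) := Nat.Coprime.mul_right hkc₁ hkc₂
  refine ⟨ZMod.unitOfCoprime k hkc, ?_, ?_⟩
  · apply Units.ext
    rw [ZMod.unitsMap_val, ZMod.coe_unitOfCoprime, ZMod.cast_natCast (Dvd.intro _ rfl),
      (ZMod.natCast_eq_natCast_iff _ _ _).mpr hk₁, ha₁, ZMod.natCast_zmod_val]
  · apply Units.ext
    rw [ZMod.unitsMap_val, ZMod.coe_unitOfCoprime, ZMod.cast_natCast (Dvd.intro_left _ rfl),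
      (ZMod.natCast_eq_natCast_iff _ _ _).mpr hk₂, ha₂, ZMod.natCast_zmod_val]

end CRT

section Triple

variable {K L Ω : Type*} [Field K] [Field L] [Field Ω]
  [Algebra K L] [Algebra K Ω] [Algebra L Ω] [IsScalarTower K L Ω] [Normal K L] [NumberField L]

/-- **Triple surjectivity.**  `Ω = L(ζ_m)`, `m = m₁ m₂`, `(m₁, m₂) = 1`, `(m, disc L) = 1`:
every triple `(g₀, c₁, c₂) ∈ Gal(L/K) × (ℤ/m₁)ˣ × (ℤ/m₂)ˣ` is realised by some
`g ∈ Gal(Ω/K)`, the characters being computed on arbitrary primitive roots `ζ₁, ζ₂`. -/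
theorem exists_of_triple {m₁ m₂ : ℕ} [NeZero m₁] [NeZero m₂]
    [IsCyclotomicExtension {m₁ * m₂} L Ω] (hcop : Nat.Coprime m₁ m₂)
    (hm : Nat.Coprime (m₁ * m₂) (NumberField.discr L).natAbs) {ζ₁ ζ₂ : Ω}
    (h₁ : IsPrimitiveRoot ζ₁ m₁) (h₂ : IsPrimitiveRoot ζ₂ m₂) (g₀ : L ≃ₐ[K] L)
    (c₁ : (ZMod m₁)ˣ) (c₂ : (ZMod m₂)ˣ) :
    ∃ g : Ω ≃ₐ[K] Ω, AlgEquiv.restrictNormalHom L g = g₀ ∧ h₁.autToPow K g = c₁ ∧
      h₂.autToPow K g = c₂ := by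
  obtain ⟨ζ, hζ⟩ := IsCyclotomicExtension.exists_isPrimitiveRoot L Ω
    (Set.mem_singleton (m₁ * m₂)) (NeZero.ne (m₁ * m₂))
  obtain ⟨c, hc₁, hc₂⟩ := exists_unit_unitsMap_eq hcop c₁ c₂
  obtain ⟨g, hg⟩ := prod_surjective (K := K) hζ hm (g₀, c)
  simp only [Prod.mk.injEq] at hg
  refine ⟨g, hg.1, ?_, ?_⟩
  · rw [autToPow_eq_unitsMap (Dvd.intro _ rfl) hζ h₁ g, hg.2, hc₁]
  · rw [autToPow_eq_unitsMap (Dvd.intro_left _ rfl) hζ h₂ g, hg.2, hc₂]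

end Triple

end Fermat.Agent.S14.CycloTriple
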