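import Mathlib
import Fermat.Agent.S14.Defs
import Fermat.Agent.S14.ArtinMap

/-!
# S14 block (D), piece (P4): Frobenius elements of the top field `Ω` (self-contained variant)

(The canonical file is helper13's `FrobTop.lean`; this one has its own namespace `FrobTopMore`,
imports only `Defs` + `ArtinMap`, needs no `IsGalois K Ω` for the restriction/character statements,
and adds the combined existence statement `exists_frob_restrict_autToPow`.)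

`K ⊆ L ⊆ Ω` number fields, `L/K` Galois.  For a Frobenius element `h ∈ Gal(Ω/K)` at a nonzero
prime `𝔓` of `𝓞 Ω`:

* `restrictNormalHom_eq_map` : `h|_L = φ (𝔓 ∩ 𝓞 K)` for every Artin map `φ` of an everywhere
  unramified `L/K`;
* `autToPow_frob` : `χ_n(h) = N(𝔓 ∩ 𝓞 K) mod n` for the cyclotomic character of a primitive
  `n`-th root of unity `ζ ∈ Ω` with `n ∉ 𝔓`;
* `exists_frob`, `exists_frob_restrict_autToPow` : existence of such `h` (for `Ω/K` Galois) above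
  any nonzero prime `𝔭` of `𝓞 K`, with both properties.
-/

set_option autoImplicit false
set_option linter.unusedSectionVars false

open NumberField
open scoped Pointwise

namespace Fermat.Agent.S14.FrobTopMore

open Fermat.Agent.S14

section Restrict

variable {K L Ω : Type*} [Field K] [Field L] [Field Ω] [NumberField K] [NumberField L]
  [NumberField Ω] [Algebra K L] [Algebra K Ω] [Algebra L Ω] [IsScalarTower K L Ω]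

theorem card_quot_eq_absNorm (P : Ideal (𝓞 K)) : Nat.card (𝓞 K ⧸ P) = Ideal.absNorm P := by
  rw [Ideal.absNorm_apply, Submodule.cardQuot_apply]

/-- Restriction to `L` is compatible with the actions on rings of integers. -/
theorem algebraMap_restrictNormalHom_smul [Normal K L] (σ : Ω ≃ₐ[K] Ω) (x : 𝓞 L) :
    algebraMap (𝓞 L) (𝓞 Ω) (AlgEquiv.restrictNormalHom L σ • x) =
      σ • algebraMap (𝓞 L) (𝓞 Ω) x := by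
  apply RingOfIntegers.ext
  exact AlgEquiv.restrictNormal_commutes σ L (x : L)

/-- The restriction to `L` of a Frobenius element of `Ω/K` at `𝔓` is a Frobenius element of
`L/K` at `𝔓 ∩ 𝓞 L`. -/
theorem isArithFrobAt_restrictNormalHom [Normal K L] {h : Ω ≃ₐ[K] Ω} {𝔓 : Ideal (𝓞 Ω)}
    (hh : IsArithFrobAt (𝓞 K) h 𝔓) :
    IsArithFrobAt (𝓞 K) (AlgEquiv.restrictNormalHom L h) (𝔓.under (𝓞 L)) := by
  intro x
  have hu : (𝔓.under (𝓞 L)).under (𝓞 K) = 𝔓.under (𝓞 K) := Ideal.under_under 𝔓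
  show (AlgEquiv.restrictNormalHom L h) • x -
      x ^ Nat.card (𝓞 K ⧸ (𝔓.under (𝓞 L)).under (𝓞 K)) ∈ 𝔓.under (𝓞 L)
  rw [hu, Ideal.under_def, Ideal.mem_comap, map_sub, map_pow, algebraMap_restrictNormalHom_smul]
  exact hh (algebraMap (𝓞 L) (𝓞 Ω) x)

theorem under_ne_bot {𝔓 : Ideal (𝓞 Ω)} (h𝔓 : 𝔓 ≠ ⊥) : 𝔓.under (𝓞 L) ≠ ⊥ := by
  have : Algebra.IsIntegral (𝓞 L) (𝓞 Ω) := inferInstance
  exact Ideal.under_ne_bot (𝓞 L) h𝔓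

/-- **(P4a)** The restriction to `L` of a Frobenius element of `Ω/K` at `𝔓` is `φ (𝔓 ∩ 𝓞 K)`. -/
theorem restrictNormalHom_eq_map [IsGalois K L] {φ : Ideal (𝓞 K) → (L ≃ₐ[K] L)}
    (hφ : IsArtinMap K L φ) (hunr : UnramifiedEverywhere K L)
    {h : Ω ≃ₐ[K] Ω} {𝔓 : Ideal (𝓞 Ω)} [h𝔓p : 𝔓.IsPrime] (h𝔓 : 𝔓 ≠ ⊥)
    (hh : IsArithFrobAt (𝓞 K) h 𝔓) :
    AlgEquiv.restrictNormalHom L h = φ (𝔓.under (𝓞 K)) := by
  set Q : Ideal (𝓞 L) := 𝔓.under (𝓞 L) with hQ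
  have hQp : Q.IsPrime := Ideal.IsPrime.under (𝓞 L) 𝔓
  have hQu : Q.under (𝓞 K) = 𝔓.under (𝓞 K) := by rw [hQ, Ideal.under_under]
  have hQ0 : Q ≠ ⊥ := under_ne_bot h𝔓
  have h1 := isArithFrobAt_restrictNormalHom (L := L) hh
  have h2 := hφ.isArithFrobAt Q hQp hQ0
  rw [hQu] at h2
  have h3 : AlgEquiv.restrictNormalHom L h * (φ (𝔓.under (𝓞 K)))⁻¹ = 1 := by
    apply hunr Q hQp hQ0
    exact h1.mul_inv_mem_inertia h2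
  exact mul_inv_eq_one.mp h3

end Restrict

section Cyclo

variable {K Ω : Type*} [Field K] [Field Ω] [NumberField K] [NumberField Ω] [Algebra K Ω]

/-- A Frobenius element at `𝔓` raises roots of unity of order prime to `𝔓` to the power
`N(𝔓 ∩ 𝓞 K)` (field form). -/
theorem apply_of_pow_eq_one {h : Ω ≃ₐ[K] Ω} {𝔓 : Ideal (𝓞 Ω)}
    (hh : IsArithFrobAt (𝓞 K) h 𝔓) {ζ : Ω} {n : ℕ} (hn0 : n ≠ 0) (hζ : ζ ^ n = 1)
    (hn : (n : 𝓞 Ω) ∉ 𝔓) : h ζ = ζ ^ Ideal.absNorm (𝔓.under (𝓞 K)) := by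
  have hint : IsIntegral ℤ ζ := by
    refine ⟨Polynomial.X ^ n - 1, Polynomial.monic_X_pow_sub_C 1 hn0, ?_⟩
    simp [hζ]
  set z : 𝓞 Ω := ⟨ζ, hint⟩ with hz
  have hzc : algebraMap (𝓞 Ω) Ω z = ζ := rfl
  have hz' : z ^ n = 1 := by
    apply RingOfIntegers.ext
    show algebraMap (𝓞 Ω) Ω (z ^ n) = algebraMap (𝓞 Ω) Ω 1
    rw [map_pow, hzc, hζ, map_one]
  have h1 := AlgHom.IsArithFrobAt.apply_of_pow_eq_one hh hz' hn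
  rw [card_quot_eq_absNorm] at h1
  have h2 := congrArg (algebraMap (𝓞 Ω) Ω) h1
  rw [map_pow, hzc] at h2
  exact h2

/-- **(P4b)** The cyclotomic character of a Frobenius element at `𝔓 ∤ n` is `N(𝔓 ∩ 𝓞 K) mod n`. -/
theorem autToPow_frob {n : ℕ} [NeZero n] {ζ : Ω} (hζ : IsPrimitiveRoot ζ n)
    {h : Ω ≃ₐ[K] Ω} {𝔓 : Ideal (𝓞 Ω)} (hh : IsArithFrobAt (𝓞 K) h 𝔓)
    (hn : (n : 𝓞 Ω) ∉ 𝔓) :
    ((hζ.autToPow K h : (ZMod n)ˣ) : ZMod n) = (Ideal.absNorm (𝔓.under (𝓞 K)) : ZMod n) := by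
  have h1 := apply_of_pow_eq_one hh (NeZero.ne n) hζ.pow_eq_one hn
  have h2 := hζ.autToPow_spec K h
  rw [h1] at h2
  have e : ∀ j : ℕ, ζ ^ (j % n) = ζ ^ j := fun j => by
    conv_rhs => rw [← Nat.mod_add_div j n, pow_add, pow_mul, hζ.pow_eq_one, one_pow, mul_one]
  have h3 : (hζ.autToPow K h : ZMod n).val ≡ Ideal.absNorm (𝔓.under (𝓞 K)) [MOD n] := by
    rw [← e (hζ.autToPow K h : ZMod n).val, ← e (Ideal.absNorm (𝔓.under (𝓞 K)))] at h2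
    exact hζ.pow_inj (Nat.mod_lt _ (NeZero.pos n)) (Nat.mod_lt _ (NeZero.pos n)) h2
  have h4 := (ZMod.natCast_eq_natCast_iff _ _ _).mpr h3
  rwa [ZMod.natCast_zmod_val] at h4

/-- `N(𝔓 ∩ 𝓞 K)` is prime to `n` when `n ∉ 𝔓` (and `Ω` contains a primitive `n`-th root of unity
and a Frobenius at `𝔓`). -/
theorem coprime_absNorm_under {n : ℕ} [NeZero n] {ζ : Ω} (hζ : IsPrimitiveRoot ζ n)
    {h : Ω ≃ₐ[K] Ω} {𝔓 : Ideal (𝓞 Ω)} (hh : IsArithFrobAt (𝓞 K) h 𝔓)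
    (hn : (n : 𝓞 Ω) ∉ 𝔓) : Nat.Coprime (Ideal.absNorm (𝔓.under (𝓞 K))) n := by
  rw [← ZMod.isUnit_iff_coprime, ← autToPow_frob hζ hh hn]
  exact Units.isUnit _

/-- **(P4b)**, unit form. -/
theorem autToPow_frob_eq_unitOfCoprime {n : ℕ} [NeZero n] {ζ : Ω} (hζ : IsPrimitiveRoot ζ n)
    {h : Ω ≃ₐ[K] Ω} {𝔓 : Ideal (𝓞 Ω)} (hh : IsArithFrobAt (𝓞 K) h 𝔓)
    (hn : (n : 𝓞 Ω) ∉ 𝔓) :
    hζ.autToPow K h =
      ZMod.unitOfCoprime (Ideal.absNorm (𝔓.under (𝓞 K))) (coprime_absNorm_under hζ hh hn) := by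
  apply Units.ext
  rw [autToPow_frob hζ hh hn, ZMod.coe_unitOfCoprime]

end Cyclo

section Exists

variable {K L Ω : Type*} [Field K] [Field L] [Field Ω] [NumberField K] [NumberField L]
  [NumberField Ω] [Algebra K L] [Algebra K Ω] [Algebra L Ω] [IsScalarTower K L Ω]

/-- In a Galois extension `Ω/K` every nonzero prime `𝔭` of `𝓞 K` has a prime `𝔓` of `𝓞 Ω` above
it together with a Frobenius element at `𝔓`. -/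
theorem exists_frob [IsGalois K Ω] (𝔭 : Ideal (𝓞 K)) [h𝔭p : 𝔭.IsPrime] (h𝔭 : 𝔭 ≠ ⊥) :
    ∃ (𝔓 : Ideal (𝓞 Ω)) (h : Ω ≃ₐ[K] Ω), 𝔓.IsPrime ∧ 𝔓 ≠ ⊥ ∧ 𝔓.under (𝓞 K) = 𝔭 ∧
      IsArithFrobAt (𝓞 K) h 𝔓 := by
  obtain ⟨⟨𝔓, h𝔓p, h𝔓o⟩⟩ := (inferInstance : Nonempty (𝔭.primesOver (𝓞 Ω)))
  have h𝔓0 : 𝔓 ≠ ⊥ := ArtinMap.ne_bot_of_liesOver Ω h𝔭 𝔓
  have : Finite (𝓞 Ω ⧸ 𝔓) := ArtinMap.finite_quotient_of_liesOver Ω h𝔭 𝔓
  obtain ⟨h, hh⟩ := IsArithFrobAt.exists_of_isInvariant (𝓞 K) (Ω ≃ₐ[K] Ω) 𝔓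
  exact ⟨𝔓, h, h𝔓p, h𝔓0, h𝔓o.over.symm, hh⟩

/-- If `n ∉ 𝔭` then `n ∉ 𝔓` for every `𝔓` above `𝔭`. -/
theorem natCast_not_mem_of_under {n : ℕ} {𝔭 : Ideal (𝓞 K)} {𝔓 : Ideal (𝓞 Ω)}
    (h𝔓 : 𝔓.under (𝓞 K) = 𝔭) (hn : (n : 𝓞 K) ∉ 𝔭) : (n : 𝓞 Ω) ∉ 𝔓 := by
  intro hmem
  apply hn
  rw [← h𝔓, Ideal.under_def, Ideal.mem_comap, map_natCast]
  exact hmem

/-- **(P4)** Existence of a Frobenius element `h ∈ Gal(Ω/K)` above a nonzero prime `𝔭 ∤ n` of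
`𝓞 K` with `h|_L = φ 𝔭` and `χ_n(h) = N𝔭 mod n`. -/
theorem exists_frob_restrict_autToPow [IsGalois K L] [IsGalois K Ω]
    {φ : Ideal (𝓞 K) → (L ≃ₐ[K] L)} (hφ : IsArtinMap K L φ) (hunr : UnramifiedEverywhere K L)
    {n : ℕ} [NeZero n] {ζ : Ω} (hζ : IsPrimitiveRoot ζ n)
    (𝔭 : Ideal (𝓞 K)) [h𝔭p : 𝔭.IsPrime] (h𝔭 : 𝔭 ≠ ⊥) (hn : (n : 𝓞 K) ∉ 𝔭) :
    ∃ (𝔓 : Ideal (𝓞 Ω)) (h : Ω ≃ₐ[K] Ω), 𝔓.IsPrime ∧ 𝔓 ≠ ⊥ ∧ 𝔓.under (𝓞 K) = 𝔭 ∧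
      (n : 𝓞 Ω) ∉ 𝔓 ∧ IsArithFrobAt (𝓞 K) h 𝔓 ∧ AlgEquiv.restrictNormalHom L h = φ 𝔭 ∧
      ((hζ.autToPow K h : (ZMod n)ˣ) : ZMod n) = (Ideal.absNorm 𝔭 : ZMod n) := by
  obtain ⟨𝔓, h, h𝔓p, h𝔓0, h𝔓u, hh⟩ := exists_frob (Ω := Ω) 𝔭 h𝔭
  refine ⟨𝔓, h, h𝔓p, h𝔓0, h𝔓u, natCast_not_mem_of_under h𝔓u hn, hh, ?_, ?_⟩
  · rw [restrictNormalHom_eq_map hφ hunr h𝔓0 hh, h𝔓u]
  · rw [autToPow_frob hζ hh (natCast_not_mem_of_under h𝔓u hn), h𝔓u]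

end Exists

end Fermat.Agent.S14.FrobTopMore
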