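import Mathlib
import Fermat.Agent.S14.GalDivisors
import Fermat.Agent.S14.DivClass
import Fermat.Agent.S14.PermModule
import Fermat.Agent.S14.Hilbert90Add

/-!
# S14 block A, piece (N2b): `GalDivisors` in the shapes consumed by `FirstIneqGlue`

* `divI_relNorm` : divisor of `Ideal.relNorm (𝓞 K) J` is `Nm` of the divisor of `J`   [(g)]
* `divK_fieldUnitsEnd` : `divK_L (σ x) = permEnd (toPerm σ) (divK_L x)`                 [`hd`]
* `divK_extA` : `divK_L (extA x) = ext (divK_K x)` for unramified `L/K`                 [`hcomm`]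
* `ker_dlt_permEnd` : `ker (σ_I - 1) = range ext` for a generator `σ`                   [`hfixI`]
* `nrm_permEnd` : `∑_{i<n} σ_I^i D = ext (Nm D)` for a generator `σ`, unramified        [`hNm`]
-/

set_option autoImplicit false
set_option linter.unusedSectionVars false

open NumberField IsDedekindDomain WithZero
open scoped Pointwise

namespace Fermat.Agent.S14.GalDiv

open Fermat.Agent.S14 Fermat.Agent.S14.Herbrand Fermat.Agent.S14.PermModule

variable {K L : Type*} [Field K] [Field L] [NumberField K] [NumberField L] [Algebra K L]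

/-! ### (g) divisor of the relative norm of an ideal -/

theorem divI_relNorm_prime (w : HeightOneSpectrum (𝓞 L)) :
    DivClass.divI (𝓞 K) (Ideal.relNorm (𝓞 K) w.asIdeal) =
      Nm K L (DivClass.divI (𝓞 L) w.asIdeal) := by
  have : w.asIdeal.IsMaximal := w.isMaximal
  have : (underK K w).asIdeal.IsMaximal := (underK K w).isMaximal
  rw [Ideal.relNorm_eq_pow_of_isMaximal w.asIdeal (underK K w).asIdeal, DivClass.divI_pow,
    DivClass.divI_prime, DivClass.divI_prime, Nm_single_one, Finsupp.smul_single, nsmul_eq_mul,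
    mul_one]

/-- **(g)** The divisor of `Ideal.relNorm (𝓞 K) J` is the norm of the divisor of `J`. -/
theorem divI_relNorm (J : Ideal (𝓞 L)) :
    DivClass.divI (𝓞 K) (Ideal.relNorm (𝓞 K) J) = Nm K L (DivClass.divI (𝓞 L) J) := by
  classical
  induction J using UniqueFactorizationMonoid.induction_on_prime with
  | h₁ => simp
  | h₂ x hx =>
    rw [Ideal.isUnit_iff] at hx
    subst hx
    simp [Ideal.relNorm_top]
  | h₃ a P ha hP ih =>
    have hP0 : P ≠ ⊥ := hP.ne_zero
    have hPprime : P.IsPrime := Ideal.isPrime_of_prime hP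
    let w : HeightOneSpectrum (𝓞 L) := ⟨P, hPprime, hP0⟩
    have ha' : a ≠ ⊥ := ha
    have h1 : Ideal.relNorm (𝓞 K) P ≠ ⊥ := by
      rwa [ne_eq, Ideal.relNorm_eq_bot_iff]
    have h2 : Ideal.relNorm (𝓞 K) a ≠ ⊥ := by
      rwa [ne_eq, Ideal.relNorm_eq_bot_iff]
    rw [map_mul, DivClass.divI_mul h1 h2, DivClass.divI_mul hP0 ha', map_add, ih]
    congr 1
    exact divI_relNorm_prime w


/-! ### `hd`: equivariance of the divisor map `Additive Lˣ → Div_L` -/

section equivariance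

variable {K L : Type} [Field K] [Field L] [NumberField K] [NumberField L] [Algebra K L]
  [IsGalois K L]

/-- The permutation-module endomorphism of `Div_L` attached to `σ ∈ Gal(L/K)`. -/
noncomputable abbrev sigmaI (σ : L ≃ₐ[K] L) : AddMonoid.End (HeightOneSpectrum (𝓞 L) →₀ ℤ) :=
  permEnd (MulAction.toPerm σ : Equiv.Perm (HeightOneSpectrum (𝓞 L)))

theorem sigmaI_apply (σ : L ≃ₐ[K] L) (D : HeightOneSpectrum (𝓞 L) →₀ ℤ) :
    sigmaI σ D = galEnd σ D := rfl

theorem toPerm_pow (σ : L ≃ₐ[K] L) (k : ℕ) :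
    (MulAction.toPerm σ : Equiv.Perm (HeightOneSpectrum (𝓞 L))) ^ k = MulAction.toPerm (σ ^ k) :=
  (map_pow (MulAction.toPermHom (L ≃ₐ[K] L) (HeightOneSpectrum (𝓞 L))) σ k).symm

theorem sigmaI_pow (σ : L ≃ₐ[K] L) (k : ℕ) : sigmaI σ ^ k = sigmaI (σ ^ k) := by
  rw [sigmaI, permEnd_pow, toPerm_pow]

theorem sigmaI_pow_finrank (σ : L ≃ₐ[K] L) : sigmaI σ ^ Module.finrank K L = 1 := by
  rw [sigmaI_pow, ← IsGalois.card_aut_eq_finrank, pow_card_eq_one', sigmaI]
  have : (MulAction.toPerm (1 : L ≃ₐ[K] L) : Equiv.Perm (HeightOneSpectrum (𝓞 L))) = 1 :=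
    map_one (MulAction.toPermHom (L ≃ₐ[K] L) (HeightOneSpectrum (𝓞 L)))
  rw [this, permEnd_one]

/-- **`hd`**: `div (σ x) = σ (div x)`. -/
theorem divK_fieldUnitsEnd (σ : L ≃ₐ[K] L) (a : Additive Lˣ) :
    DivClass.divK (𝓞 L) L (H90.fieldUnitsEnd K L σ a) =
      sigmaI σ (DivClass.divK (𝓞 L) L a) := by
  ext w
  rw [sigmaI_apply, galEnd_apply_apply, DivClass.divK_apply, DivClass.divK_apply]
  congr 2
  have h := valuation_smul σ (σ⁻¹ • w) (((Additive.toMul a : Lˣ) : L))
  rw [smul_inv_smul] at h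
  exact h

end equivariance

/-! ### `hcomm`: compatibility of the divisor maps with `K ⊆ L` (unramified) -/

section comm

variable {K L : Type} [Field K] [Field L] [NumberField K] [NumberField L] [Algebra K L]
  [IsGalois K L]

/-- **`hcomm`**: `div_L (x) = ext (div_K x)` for `x ∈ Kˣ`, when `L/K` is unramified. -/
theorem divK_extA (hunr : ∀ w : HeightOneSpectrum (𝓞 L), w.asIdeal.inertia (L ≃ₐ[K] L) = ⊥)
    (a : Additive Kˣ) :
    DivClass.divK (𝓞 L) L (H90.extA K L a) = ext K L (DivClass.divK (𝓞 K) K a) := by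
  ext w
  rw [ext_apply, DivClass.divK_apply, DivClass.divK_apply]
  congr 2
  exact valuation_algebraMap_of_inertia_eq_bot w (hunr w) _

end comm

/-! ### `hfixI`, `hNm`: cyclic forms -/

section cyclic

variable {K L : Type} [Field K] [Field L] [NumberField K] [NumberField L] [Algebra K L]
  [IsGalois K L]

/-- **`hfixI`**: for a generator `σ`, `ker (σ_I - 1) = range ext`. -/
theorem ker_dlt_sigmaI (σ : L ≃ₐ[K] L) (hσ : ∀ g : L ≃ₐ[K] L, g ∈ Subgroup.zpowers σ) :
    (dlt (sigmaI σ)).ker = (ext K L).range := by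
  ext D
  rw [AddMonoidHom.mem_ker, dlt_apply, sub_eq_zero, sigmaI_apply,
    galEnd_eq_iff_mem_range_of_generator σ hσ]

/-- Sum over the powers of a generator = sum over the group. -/
theorem sum_range_pow_eq_sum {M : Type*} [AddCommMonoid M] (σ : L ≃ₐ[K] L)
    (hσ : ∀ g : L ≃ₐ[K] L, g ∈ Subgroup.zpowers σ) (f : (L ≃ₐ[K] L) → M) :
    ∑ i ∈ Finset.range (Module.finrank K L), f (σ ^ i) = ∑ τ : L ≃ₐ[K] L, f τ := by
  classical
  have hord : orderOf σ = Module.finrank K L := by
    rw [orderOf_eq_card_of_forall_mem_zpowers hσ, IsGalois.card_aut_eq_finrank]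
  rw [← hord]
  have hinj : Set.InjOn (fun i : ℕ => σ ^ i) (Finset.range (orderOf σ)) := by
    intro i hi j hj hij
    exact pow_injOn_Iio_orderOf (by simpa using hi) (by simpa using hj) hij
  rw [← Finset.sum_image (f := f) hinj]
  refine Finset.sum_congr ?_ fun _ _ => rfl
  ext τ
  simp only [Finset.mem_image, Finset.mem_range, Finset.mem_univ, iff_true]
  have hτ : τ ∈ Subgroup.zpowers σ := hσ τ
  rw [← mem_powers_iff_mem_zpowers] at hτ
  obtain ⟨k, rfl⟩ := hτ
  exact ⟨k % orderOf σ, Nat.mod_lt _ (orderOf_pos σ), pow_mod_orderOf σ k⟩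

/-- **`hNm`**: for a generator `σ` of the Galois group of an unramified extension,
`∑_{i<n} σ_I^i D = ext (Nm D)`. -/
theorem nrm_sigmaI (hunr : ∀ w : HeightOneSpectrum (𝓞 L), w.asIdeal.inertia (L ≃ₐ[K] L) = ⊥)
    (σ : L ≃ₐ[K] L) (hσ : ∀ g : L ≃ₐ[K] L, g ∈ Subgroup.zpowers σ)
    (D : HeightOneSpectrum (𝓞 L) →₀ ℤ) :
    nrm (sigmaI σ) (Module.finrank K L) D = ext K L (Nm K L D) := by
  rw [nrm_apply, ← sum_galEnd_eq_ext_Nm hunr D, ← sum_range_pow_eq_sum σ hσ (fun τ => galEnd τ D)]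
  refine Finset.sum_congr rfl fun i _ => ?_
  rw [sigmaI_pow, sigmaI_apply]

end cyclic

end Fermat.Agent.S14.GalDiv
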