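import Mathlib
import Fermat.Agent.S14.HerbrandCyclic

set_option autoImplicit false
set_option linter.unusedSectionVars false

/-!
# S14 / S55: Herbrand indices of induced (semi-local) modules, cyclic case

`M` an abelian group with an endomorphism `σ`, `σ ^ (g * k) = 1`, and an endomorphism `π`
("projection onto the component at `w₀`") such that

* (H1) `∑_{i<g} σ^i π σ^(n-i) = 1` (the `g` conjugate projections sum to `1`),
* (H2) `π σ^j π = 0` for `0 < j < g` (they are orthogonal),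
* (H3) `π` commutes with `τ := σ^g`.

Then `M` is induced from the `τ`-module `A := range π`, and
`[ker (σ-1) : N_σ M] = [A ∩ ker (τ-1) : N_τ A]`, `[ker N_σ : (σ-1) M] = [A ∩ ker N_τ : (τ-1) A]`
(cyclic Shapiro lemma in index form).
-/

namespace Fermat.Agent.S14.Herbrand

open Finset AddSubgroup

section EndAlgebra

variable {M : Type*} [AddCommGroup M]

/-- Evaluate an identity between endomorphisms at a point. -/
lemma end_congr {a b : AddMonoid.End M} (h : a = b) (x : M) : a x = b x := by rw [h]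

lemma end_sum_apply {ι : Type*} (s : Finset ι) (f : ι → AddMonoid.End M) (x : M) :
    (∑ i ∈ s, f i) x = ∑ i ∈ s, f i x :=
  AddMonoidHom.finsetSum_apply _ _ _

lemma end_sub_apply (a b : AddMonoid.End M) (x : M) : (a - b) x = a x - b x := rfl

lemma end_one_apply (x : M) : (1 : AddMonoid.End M) x = x := rfl

lemma end_zero_apply (x : M) : (0 : AddMonoid.End M) x = 0 := rfl

/-- `∑_{j<g*k} x^j = (∑_{i<g} x^i) (∑_{q<k} (x^g)^q)`. -/
lemma geom_sum_mul_nat {R : Type*} [Semiring R] (x : R) (g k : ℕ) :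
    ∑ j ∈ range (g * k), x ^ j = (∑ i ∈ range g, x ^ i) * ∑ q ∈ range k, (x ^ g) ^ q := by
  induction k with
  | zero => simp
  | succ k ih =>
    rw [Nat.mul_succ, sum_range_add, ih, sum_range_succ, mul_add]
    congr 1
    rw [Finset.sum_mul]
    refine Finset.sum_congr rfl fun i _ => ?_
    rw [← pow_mul, ← pow_add, add_comm]

end EndAlgebra

section Induced

variable {M : Type*} [AddCommGroup M] {σ π : AddMonoid.End M} {g k : ℕ}

/-- The hypotheses of the semi-local lemma. -/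
structure IsInducedProj (σ π : AddMonoid.End M) (g k : ℕ) : Prop where
  hg : 0 < g
  hk : 0 < k
  pow_eq_one : σ ^ (g * k) = 1
  complete : ∑ i ∈ range g, σ ^ i * π * σ ^ (g * k - i) = 1
  orth : ∀ j, 0 < j → j < g → π * σ ^ j * π = 0
  comm : π * σ ^ g = σ ^ g * π

namespace IsInducedProj

variable (h : IsInducedProj σ π g k)
include h

lemma pow_mul_pow_sub {i : ℕ} (hi : i ≤ g * k) : σ ^ i * σ ^ (g * k - i) = 1 := by
  rw [← pow_add, Nat.add_sub_cancel' hi, h.pow_eq_one]

lemma pow_sub_mul_pow {i : ℕ} (hi : i ≤ g * k) : σ ^ (g * k - i) * σ ^ i = 1 := by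
  rw [← pow_add, Nat.sub_add_cancel hi, h.pow_eq_one]

lemma g_le : g ≤ g * k := Nat.le_mul_of_pos_right g h.hk

lemma tau_pow : (σ ^ g) ^ k = 1 := by rw [← pow_mul, h.pow_eq_one]

lemma idem : π * π = π := by
  have e : π = ∑ i ∈ range g, π * σ ^ i * π * σ ^ (g * k - i) := by
    calc π = π * 1 := (mul_one π).symm
      _ = π * ∑ i ∈ range g, σ ^ i * π * σ ^ (g * k - i) := by rw [h.complete]
      _ = ∑ i ∈ range g, π * σ ^ i * π * σ ^ (g * k - i) := by
        rw [Finset.mul_sum]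
        refine Finset.sum_congr rfl fun i _ => ?_
        simp only [mul_assoc]
  rw [Finset.sum_eq_single 0] at e
  · rw [pow_zero, mul_one, Nat.sub_zero, h.pow_eq_one, mul_one] at e
    exact e.symm
  · intro j hj hj0
    rw [h.orth j (Nat.pos_of_ne_zero hj0) (mem_range.mp hj), zero_mul]
  · intro h0
    exact absurd (mem_range.mpr h.hg) h0

lemma comm_pow (q : ℕ) : π * (σ ^ g) ^ q = (σ ^ g) ^ q * π :=
  (Commute.pow_right (show Commute π (σ ^ g) from h.comm) q).eq

lemma comm_nrm : π * ∑ q ∈ range k, (σ ^ g) ^ q = (∑ q ∈ range k, (σ ^ g) ^ q) * π := by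
  rw [Finset.mul_sum, Finset.sum_mul]
  exact Finset.sum_congr rfl fun q _ => h.comm_pow q

/-- `π σ^(n-j) π = 0` for `0 < j < g`. -/
lemma orth' (j : ℕ) (hj0 : 0 < j) (hj : j < g) : π * σ ^ (g * k - j) * π = 0 := by
  have e : g * k - j = (g - j) + g * (k - 1) := by
    obtain ⟨k', rfl⟩ : ∃ k', k = k' + 1 := ⟨k - 1, (Nat.sub_add_cancel h.hk).symm⟩
    rw [Nat.add_sub_cancel, Nat.mul_succ]
    omega
  rw [e, pow_add, pow_mul, mul_assoc, mul_assoc, ← h.comm_pow, ← mul_assoc, ← mul_assoc,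
    h.orth (g - j) (by omega) (by omega), zero_mul]

/-- `π (∑_{i<g} σ^i) π = π`. -/
lemma proj_P_proj : π * (∑ i ∈ range g, σ ^ i) * π = π := by
  rw [Finset.mul_sum, Finset.sum_mul, Finset.sum_eq_single 0]
  · rw [pow_zero, mul_one, h.idem]
  · intro j hj hj0
    exact h.orth j (Nat.pos_of_ne_zero hj0) (mem_range.mp hj)
  · intro h0
    exact absurd (mem_range.mpr h.hg) h0

/-- `N_σ = (∑_{i<g} σ^i) · N_τ`. -/
lemma nrm_eq_mul : (∑ j ∈ range (g * k), σ ^ j) =
    (∑ i ∈ range g, σ ^ i) * ∑ q ∈ range k, (σ ^ g) ^ q :=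
  geom_sum_mul_nat σ g k

/-- `N_σ σ^j = N_σ`. -/
lemma nrm_mul_pow (j : ℕ) : (∑ i ∈ range (g * k), σ ^ i) * σ ^ j = ∑ i ∈ range (g * k), σ ^ i := by
  have h1 : (∑ i ∈ range (g * k), σ ^ i) * σ = ∑ i ∈ range (g * k), σ ^ i := by
    have := geom_sum_mul σ (g * k)
    rw [h.pow_eq_one, sub_self, mul_sub, mul_one, sub_eq_zero] at this
    exact this
  induction j with
  | zero => rw [pow_zero, mul_one]
  | succ j ih => rw [pow_succ, ← mul_assoc, ih, h1]

/-- The "sum of the components, transported to the component at `w₀`". -/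
def Psi (_h : IsInducedProj σ π g k) : AddMonoid.End M := ∑ j ∈ range g, π * σ ^ (g * k - j)

/-- `N_σ = N_σ Ψ`. -/
lemma nrm_eq_nrm_mul_Psi :
    (∑ i ∈ range (g * k), σ ^ i) = (∑ i ∈ range (g * k), σ ^ i) * h.Psi := by
  calc (∑ i ∈ range (g * k), σ ^ i)
      = (∑ i ∈ range (g * k), σ ^ i) * 1 := (mul_one _).symm
    _ = (∑ i ∈ range (g * k), σ ^ i) * ∑ j ∈ range g, σ ^ j * π * σ ^ (g * k - j) := by
        rw [h.complete]
    _ = ∑ j ∈ range g, (∑ i ∈ range (g * k), σ ^ i) * (π * σ ^ (g * k - j)) := by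
        rw [Finset.mul_sum]
        refine Finset.sum_congr rfl fun j _ => ?_
        rw [mul_assoc (σ ^ j), ← mul_assoc _ (σ ^ j), h.nrm_mul_pow]
    _ = (∑ i ∈ range (g * k), σ ^ i) * h.Psi := by
        rw [Psi, Finset.mul_sum]

/-- `π N_σ π = N_τ π`. -/
lemma proj_nrm_proj :
    π * (∑ i ∈ range (g * k), σ ^ i) * π = (∑ q ∈ range k, (σ ^ g) ^ q) * π := by
  rw [h.nrm_eq_mul, mul_assoc, mul_assoc, ← h.comm_nrm, ← mul_assoc, ← mul_assoc, h.proj_P_proj,
    h.comm_nrm]

/-- `Ψ π = π`. -/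
lemma Psi_proj : h.Psi * π = π := by
  rw [Psi, Finset.sum_mul, Finset.sum_eq_single 0]
  · rw [Nat.sub_zero, h.pow_eq_one, mul_one, h.idem]
  · intro j hj hj0
    exact h.orth' j (Nat.pos_of_ne_zero hj0) (mem_range.mp hj)
  · intro h0
    exact absurd (mem_range.mpr h.hg) h0

/-- `π Ψ = Ψ`. -/
lemma proj_Psi : π * h.Psi = h.Psi := by
  rw [Psi, Finset.mul_sum]
  refine Finset.sum_congr rfl fun j _ => ?_
  rw [← mul_assoc, h.idem]

/-- `Ψ (σ - 1) = (τ - 1) τ^(k-1) π σ`. -/
lemma Psi_mul_dlt : h.Psi * (σ - 1) = (σ ^ g - 1) * ((σ ^ g) ^ (k - 1) * π * σ) := by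
  obtain ⟨g', rfl⟩ : ∃ g', g = g' + 1 := ⟨g - 1, (Nat.sub_add_cancel h.hg).symm⟩
  obtain ⟨k', rfl⟩ : ∃ k', k = k' + 1 := ⟨k - 1, (Nat.sub_add_cancel h.hk).symm⟩
  have hn : (g' + 1) * (k' + 1) = (g' + 1) * k' + g' + 1 := by ring
  -- `Ψ σ = π σ + Ψ - π σ^(n-g')`
  have e1 : h.Psi * σ = π * σ + h.Psi - π * σ ^ ((g' + 1) * (k' + 1) - g') := by
    have a1 : h.Psi * σ = ∑ j ∈ range (g' + 1), π * σ ^ ((g' + 1) * (k' + 1) - j + 1) := by
      rw [Psi, Finset.sum_mul]
      refine Finset.sum_congr rfl fun j _ => ?_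
      rw [mul_assoc, ← pow_succ]
    have a2 : h.Psi = ∑ j ∈ range (g' + 1), π * σ ^ ((g' + 1) * (k' + 1) - j) := rfl
    rw [a1, a2, Finset.sum_range_succ' (fun j => π * σ ^ ((g' + 1) * (k' + 1) - j + 1)),
      Finset.sum_range_succ (fun j => π * σ ^ ((g' + 1) * (k' + 1) - j))]
    have a3 : ∀ j ∈ range g', π * σ ^ ((g' + 1) * (k' + 1) - (j + 1) + 1) =
        π * σ ^ ((g' + 1) * (k' + 1) - j) := by
      intro j hj
      have : j < g' := mem_range.mp hj
      congr 2
      omega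
    rw [Finset.sum_congr rfl a3, Nat.sub_zero, pow_succ, h.pow_eq_one, one_mul]
    abel
  have e2 : (g' + 1) * (k' + 1) - g' = (g' + 1) * k' + 1 := by omega
  have e3 : σ ^ ((g' + 1) * k' + 1) = (σ ^ (g' + 1)) ^ k' * σ := by
    rw [pow_succ, pow_mul]
  have e4 : (σ ^ (g' + 1) - 1) * (σ ^ (g' + 1)) ^ k' = 1 - (σ ^ (g' + 1)) ^ k' := by
    rw [sub_mul, one_mul, ← pow_succ', h.tau_pow]
  have e5 : π * ((σ ^ (g' + 1)) ^ k' * σ) = (σ ^ (g' + 1)) ^ k' * (π * σ) := by
    rw [← mul_assoc, h.comm_pow k', mul_assoc]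
  rw [mul_sub, mul_one, e1, e2, e3, Nat.add_sub_cancel, mul_assoc ((σ ^ (g' + 1)) ^ k'),
    ← mul_assoc (σ ^ (g' + 1) - 1), e4, sub_mul, one_mul, e5]
  abel

end IsInducedProj

end Induced

section InjOn

variable {M M' : Type*} [AddCommGroup M] [AddCommGroup M']

/-- Index transfer along a homomorphism which is injective on the big subgroup. -/
theorem relIndex_map_map_of_injOn (φ : M →+ M') {H K : AddSubgroup M} (hHK : H ≤ K)
    (hinj : ∀ x ∈ K, φ x = 0 → x = 0) : (H.map φ).relIndex (K.map φ) = H.relIndex K := by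
  rw [relIndex_map_map]
  have e1 : K ⊔ φ.ker = K ⊔ (H ⊔ φ.ker) := by
    rw [← sup_assoc, sup_eq_left.mpr hHK]
  have e2 : (H ⊔ φ.ker) ⊓ K = H := by
    apply le_antisymm
    · rintro x ⟨hx, hxK⟩
      obtain ⟨a, ha, b, hb, rfl⟩ := AddSubgroup.mem_sup.mp hx
      have hbK : b ∈ K := by
        have : b = a + b - a := by abel
        rw [this]
        exact K.sub_mem hxK (hHK ha)
      have hb0 : b = 0 := hinj b hbK hb
      rw [hb0, add_zero]
      exact ha
    · exact le_inf le_sup_left hHK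
  rw [e1, relIndex_sup_right, ← inf_relIndex_right, e2]

end InjOn

section Main

variable {M : Type*} [AddCommGroup M] {σ π : AddMonoid.End M} {g k : ℕ}

/-- `A = range π`, the component at `w₀`. -/
def compRange (π : AddMonoid.End M) : AddSubgroup M := AddMonoidHom.range (show M →+ M from π)

lemma mem_compRange {π : AddMonoid.End M} {a : M} : a ∈ compRange π ↔ ∃ b, π b = a := Iff.rfl

namespace IsInducedProj

variable (h : IsInducedProj σ π g k)
include h

lemma proj_of_mem {a : M} (ha : a ∈ compRange π) : π a = a := by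
  obtain ⟨b, rfl⟩ := ha
  exact end_congr h.idem b

lemma pow_fixed {m : M} (hm : σ m = m) (r : ℕ) : (σ ^ r) m = m := by
  induction r with
  | zero => rfl
  | succ r ih =>
    rw [pow_succ]
    show (σ ^ r) (σ m) = m
    rw [hm, ih]

/-- (A) a `σ`-invariant element is recovered from its component at `w₀`. -/
lemma P_proj_of_fixed {m : M} (hm : σ m = m) : (∑ i ∈ range g, σ ^ i) (π m) = m := by
  have e : ∑ i ∈ range g, (σ ^ i * π * σ ^ (g * k - i)) m = m := by
    have := end_congr h.complete m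
    rwa [end_sum_apply] at this
  rw [end_sum_apply]
  refine Eq.trans (Finset.sum_congr rfl fun i _ => ?_) e
  show (σ ^ i) (π m) = (σ ^ i) (π ((σ ^ (g * k - i)) m))
  rw [h.pow_fixed hm]

/-- (B) a `τ`-invariant element of the component gives a `σ`-invariant element. -/
lemma sigma_P_of_fixed {a : M} (ha : (σ ^ g) a = a) :
    σ ((∑ i ∈ range g, σ ^ i) a) = (∑ i ∈ range g, σ ^ i) a := by
  have e := end_congr (mul_geom_sum σ g) a
  have e' : σ ((∑ i ∈ range g, σ ^ i) a) - (∑ i ∈ range g, σ ^ i) a = (σ ^ g) a - a := e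
  rw [ha, sub_self, sub_eq_zero] at e'
  exact e'

/-- `π (N_σ a) = N_τ a` for `a` in the component. -/
lemma proj_nrm_of_mem {a : M} (ha : a ∈ compRange π) :
    π (nrm σ (g * k) a) = nrm (σ ^ g) k a := by
  obtain ⟨b, rfl⟩ := ha
  exact end_congr h.proj_nrm_proj b

lemma nrm_mem {a : M} (ha : a ∈ compRange π) : nrm (σ ^ g) k a ∈ compRange π := by
  obtain ⟨b, rfl⟩ := ha
  exact ⟨(∑ q ∈ range k, (σ ^ g) ^ q : AddMonoid.End M) b, end_congr h.comm_nrm b⟩

lemma Psi_mem (m : M) : h.Psi m ∈ compRange π :=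
  ⟨h.Psi m, end_congr h.proj_Psi m⟩

lemma Psi_of_mem {a : M} (ha : a ∈ compRange π) : h.Psi a = a := by
  obtain ⟨b, rfl⟩ := ha
  exact end_congr h.Psi_proj b

lemma nrm_Psi (m : M) : nrm σ (g * k) (h.Psi m) = nrm σ (g * k) m :=
  (end_congr h.nrm_eq_nrm_mul_Psi m).symm

/-- **Semi-local lemma, degree `0`**: `[ker (σ-1) : N_σ M] = [A ∩ ker (τ-1) : N_τ A]`. -/
theorem hIdx_zero :
    hIdx (dlt σ) (nrm σ (g * k)) = hSub (dlt (σ ^ g)) (nrm (σ ^ g) k) (compRange π) := by
  have hHK : (nrm σ (g * k)).range ≤ (dlt σ).ker := range_le_ker (dlt_nrm h.pow_eq_one)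
  have hinj : ∀ x ∈ (dlt σ).ker, (show M →+ M from π) x = 0 → x = 0 := by
    intro x hx hπ
    have hx' : σ x = x := by
      have : dlt σ x = 0 := hx
      rwa [dlt_apply, sub_eq_zero] at this
    have := h.P_proj_of_fixed hx'
    rw [show π x = 0 from hπ, map_zero] at this
    exact this.symm
  have e1 : (dlt σ).ker.map (show M →+ M from π) = compRange π ⊓ (dlt (σ ^ g)).ker := by
    ext a
    constructor
    · rintro ⟨m, hm, rfl⟩
      have hm' : σ m = m := by
        have : dlt σ m = 0 := hm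
        rwa [dlt_apply, sub_eq_zero] at this
      refine ⟨⟨m, rfl⟩, ?_⟩
      show dlt (σ ^ g) (π m) = 0
      rw [dlt_apply, sub_eq_zero]
      have := end_congr h.comm m
      show (σ ^ g) (π m) = π m
      have e2 : π ((σ ^ g) m) = (σ ^ g) (π m) := this
      rw [← e2, h.pow_fixed hm']
    · rintro ⟨ha, hfix⟩
      have hfix' : (σ ^ g) a = a := by
        have : dlt (σ ^ g) a = 0 := hfix
        rwa [dlt_apply, sub_eq_zero] at this
      refine ⟨(∑ i ∈ range g, σ ^ i : AddMonoid.End M) a, ?_, ?_⟩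
      · show dlt σ _ = 0
        rw [dlt_apply, sub_eq_zero]
        exact h.sigma_P_of_fixed hfix'
      · obtain ⟨b, rfl⟩ := ha
        exact end_congr h.proj_P_proj b
  have e2 : (nrm σ (g * k)).range.map (show M →+ M from π) =
      (compRange π).map (nrm (σ ^ g) k) := by
    ext a
    constructor
    · rintro ⟨_, ⟨m, rfl⟩, rfl⟩
      refine ⟨h.Psi m, h.Psi_mem m, ?_⟩
      rw [← h.proj_nrm_of_mem (h.Psi_mem m), h.nrm_Psi]
      rfl
    · rintro ⟨a, ha, rfl⟩
      exact ⟨nrm σ (g * k) a, ⟨a, rfl⟩, h.proj_nrm_of_mem ha⟩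
  rw [hIdx, ← relIndex_map_map_of_injOn (show M →+ M from π) hHK hinj, e1, e2, hSub]

lemma range_Psi : AddMonoidHom.range (show M →+ M from h.Psi) = compRange π := by
  ext a
  constructor
  · rintro ⟨m, rfl⟩
    exact h.Psi_mem m
  · intro ha
    exact ⟨a, h.Psi_of_mem ha⟩

/-- On the component, `N_σ a = 0 ↔ N_τ a = 0`. -/
lemma nrm_eq_zero_iff {a : M} (ha : a ∈ compRange π) :
    nrm σ (g * k) a = 0 ↔ nrm (σ ^ g) k a = 0 := by
  constructor
  · intro h0
    rw [← h.proj_nrm_of_mem ha, h0, map_zero]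
  · intro h0
    have e : nrm σ (g * k) a = (∑ i ∈ range g, σ ^ i : AddMonoid.End M) (nrm (σ ^ g) k a) :=
      end_congr h.nrm_eq_mul a
    rw [e, h0, map_zero]

/-- `(σ^j - 1) a ∈ im (σ - 1)`. -/
lemma pow_sub_mem (j : ℕ) (a : M) : (σ ^ j) a - a ∈ (dlt σ).range := by
  refine ⟨(∑ r ∈ range j, σ ^ r : AddMonoid.End M) a, ?_⟩
  exact end_congr (mul_geom_sum σ j) a

lemma ker_Psi_le : AddMonoidHom.ker (show M →+ M from h.Psi) ≤ (dlt σ).range := by
  intro m hm
  have hm0 : ∑ j ∈ range g, (π * σ ^ (g * k - j)) m = 0 := by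
    have : h.Psi m = 0 := hm
    rwa [Psi, end_sum_apply] at this
  have e : ∑ j ∈ range g, (σ ^ j * π * σ ^ (g * k - j)) m = m := by
    have := end_congr h.complete m
    rwa [end_sum_apply] at this
  have e2 : m = ∑ j ∈ range g, ((σ ^ j) ((π * σ ^ (g * k - j)) m) - (π * σ ^ (g * k - j)) m) := by
    rw [Finset.sum_sub_distrib, hm0, sub_zero]
    refine e.symm.trans (Finset.sum_congr rfl fun j _ => ?_)
    rw [mul_assoc]
    rfl
  rw [e2]
  exact AddSubgroup.sum_mem _ fun j _ => h.pow_sub_mem j _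

/-- **Semi-local lemma, degree `1`**: `[ker N_σ : (σ-1) M] = [A ∩ ker N_τ : (τ-1) A]`. -/
theorem hIdx_one :
    hIdx (nrm σ (g * k)) (dlt σ) = hSub (nrm (σ ^ g) k) (dlt (σ ^ g)) (compRange π) := by
  have eb : (nrm σ (g * k)).ker =
      (compRange π ⊓ (nrm (σ ^ g) k).ker).comap (show M →+ M from h.Psi) := by
    ext m
    constructor
    · intro hm
      have hm' : nrm σ (g * k) m = 0 := hm
      refine ⟨h.Psi_mem m, ?_⟩
      show nrm (σ ^ g) k (h.Psi m) = 0
      rw [← h.nrm_eq_zero_iff (h.Psi_mem m), h.nrm_Psi, hm']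
    · rintro ⟨_, hm⟩
      have hm' : nrm (σ ^ g) k (h.Psi m) = 0 := hm
      show nrm σ (g * k) m = 0
      rw [← h.nrm_Psi, h.nrm_eq_zero_iff (h.Psi_mem m), hm']
  have key : ∀ m : M, h.Psi (dlt σ m) = dlt (σ ^ g) (((σ ^ g) ^ (k - 1) * π * σ : AddMonoid.End M) m) :=
    fun m => end_congr h.Psi_mul_dlt m
  have ec : (dlt σ).range = ((compRange π).map (dlt (σ ^ g))).comap (show M →+ M from h.Psi) := by
    ext m
    constructor
    · rintro ⟨m', rfl⟩
      refine ⟨((σ ^ g) ^ (k - 1) * π * σ : AddMonoid.End M) m', ?_, (key m').symm⟩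
      refine ⟨((σ ^ g) ^ (k - 1) : AddMonoid.End M) (σ m'), ?_⟩
      exact end_congr (h.comm_pow (k - 1)) (σ m')
    · rintro ⟨a, ha, hΨ⟩
      -- `m₀ := σ^(n-1) τ a`
      let m0 : M := (σ ^ (g * k - 1)) ((σ ^ g) a)
      have hn1 : 1 ≤ g * k := Nat.mul_pos h.hg h.hk
      have h1 : σ m0 = (σ ^ g) a := by
        have := end_congr (h.pow_mul_pow_sub hn1) ((σ ^ g) a)
        rw [pow_one] at this
        exact this
      have h2 : ((σ ^ g) ^ (k - 1) * π * σ : AddMonoid.End M) m0 = a := by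
        show ((σ ^ g) ^ (k - 1)) (π (σ m0)) = a
        rw [h1]
        have e1 : π ((σ ^ g) a) = (σ ^ g) (π a) := end_congr h.comm a
        rw [e1, h.proj_of_mem ha]
        have e2 : ((σ ^ g) ^ (k - 1) * σ ^ g : AddMonoid.End M) a = a := by
          rw [← pow_succ, Nat.sub_add_cancel h.hk, h.tau_pow]
          rfl
        exact e2
      have h3 : h.Psi (m - dlt σ m0) = 0 := by
        rw [map_sub, key m0, h2]
        have : (show M →+ M from h.Psi) m = dlt (σ ^ g) a := hΨ.symm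
        rw [show h.Psi m = dlt (σ ^ g) a from this, sub_self]
      have h4 : m - dlt σ m0 ∈ (dlt σ).range := h.ker_Psi_le h3
      have : m = (m - dlt σ m0) + dlt σ m0 := by abel
      rw [this]
      exact AddSubgroup.add_mem _ h4 ⟨m0, rfl⟩
  rw [hIdx, ec, eb, relIndex_comap, AddSubgroup.map_comap_eq, h.range_Psi, hSub, ← inf_assoc,
    inf_idem]

end IsInducedProj

end Main

section Honest

variable {M A₀ : Type*} [AddCommGroup M] [AddCommGroup A₀] {σ π : AddMonoid.End M} {g k : ℕ}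

lemma pow_intertwine {N N' : Type*} [AddCommGroup N] [AddCommGroup N'] (φ : N →+ N')
    {a : AddMonoid.End N} {b : AddMonoid.End N'} (hab : ∀ x, b (φ x) = φ (a x)) (r : ℕ) (x : N) :
    (b ^ r) (φ x) = φ ((a ^ r) x) := by
  induction r generalizing x with
  | zero => rfl
  | succ r ih =>
    rw [pow_succ, pow_succ]
    show (b ^ r) (b (φ x)) = φ ((a ^ r) (a x))
    rw [hab, ih]

/-- **Semi-local lemma**, with the component given as an honest group `A₀` with an injection
`ι : A₀ →+ M` onto `range π`, intertwining `τ₀` and `σ^g`. -/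
theorem IsInducedProj.hIdx_eq (h : IsInducedProj σ π g k) (ι : A₀ →+ M)
    (hι : Function.Injective ι) (hιr : ι.range = compRange π) (τ₀ : AddMonoid.End A₀)
    (hτ : ∀ a, (σ ^ g) (ι a) = ι (τ₀ a)) :
    hIdx (dlt σ) (nrm σ (g * k)) = hIdx (dlt τ₀) (nrm τ₀ k) ∧
      hIdx (nrm σ (g * k)) (dlt σ) = hIdx (nrm τ₀ k) (dlt τ₀) := by
  have hd : ∀ a, dlt (σ ^ g) (ι a) = ι (dlt τ₀ a) := by
    intro a
    rw [dlt_apply, dlt_apply, map_sub, hτ]
  have hn : ∀ a, nrm (σ ^ g) k (ι a) = ι (nrm τ₀ k a) := by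
    intro a
    rw [nrm_apply, nrm_apply, map_sum]
    exact Finset.sum_congr rfl fun r _ => pow_intertwine ι hτ r a
  refine ⟨?_, ?_⟩
  · rw [h.hIdx_zero, ← hιr]
    exact (hIdx_sub ι hι hd hn).symm
  · rw [h.hIdx_one, ← hιr]
    exact (hIdx_sub ι hι hn hd).symm

end Honest

section PiForm

variable {X : Type*} [Fintype X] [DecidableEq X] {A : X → Type*} [∀ w, AddCommGroup (A w)]

/-- The projection onto the component at `w`, as an endomorphism of the product. -/
def projAt (w : X) : AddMonoid.End (∀ w, A w) :=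
  (AddMonoidHom.single A w).comp (Pi.evalAddMonoidHom A w)

lemma projAt_apply (w : X) (m : ∀ w, A w) : projAt w m = Pi.single w (m w) := rfl

lemma projAt_mul_projAt_of_ne {w w' : X} (hne : w ≠ w') :
    (projAt w * projAt w' : AddMonoid.End (∀ w, A w)) = 0 := by
  ext m : 1
  show Pi.single w ((Pi.single w' (m w') : ∀ w, A w) w) = 0
  rw [Pi.single_eq_of_ne hne, Pi.single_zero]

lemma sum_projAt : (∑ w : X, projAt w : AddMonoid.End (∀ w, A w)) = 1 := by
  ext m : 1
  rw [end_sum_apply]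
  exact Finset.univ_sum_single m

lemma compRange_projAt (w : X) :
    compRange (projAt w : AddMonoid.End (∀ w, A w)) = (AddMonoidHom.single A w).range := by
  ext m
  constructor
  · rintro ⟨b, rfl⟩
    exact ⟨b w, rfl⟩
  · rintro ⟨a, rfl⟩
    refine ⟨Pi.single w a, ?_⟩
    show Pi.single w ((Pi.single w a : ∀ w, A w) w) = Pi.single w a
    rw [Pi.single_eq_same]

/-- The product over a finite set `X` on which `σ` permutes the components through a single
`g`-cycle is induced from the component at `w₀`. -/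
theorem isInducedProj_pi (σ : AddMonoid.End (∀ w, A w)) (s : Equiv.Perm X) (w₀ : X) {g k : ℕ}
    (hg : 0 < g) (hk : 0 < k) (hσ : σ ^ (g * k) = 1)
    (hσs : ∀ w, σ * projAt w = projAt (s w) * σ)
    (hcyc : ∀ w, ∃ i < g, (s ^ i) w₀ = w)
    (hinj : ∀ i < g, ∀ j < g, (s ^ i) w₀ = (s ^ j) w₀ → i = j)
    (hsg : (s ^ g) w₀ = w₀) :
    IsInducedProj σ (projAt w₀) g k := by
  have hpow : ∀ (i : ℕ) (w : X), σ ^ i * projAt w = projAt ((s ^ i) w) * σ ^ i := by
    intro i
    induction i with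
    | zero => intro w; simp
    | succ i ih =>
      intro w
      rw [pow_succ', mul_assoc, ih, ← mul_assoc, hσs, mul_assoc, pow_succ' s]
      rfl
  refine ⟨hg, hk, hσ, ?_, ?_, ?_⟩
  · have e1 : ∀ i ∈ Finset.range g, σ ^ i * projAt w₀ * σ ^ (g * k - i) = projAt ((s ^ i) w₀) := by
      intro i hi
      have hi' : i ≤ g * k :=
        (Finset.mem_range.mp hi).le.trans (Nat.le_mul_of_pos_right g hk)
      rw [hpow, mul_assoc, ← pow_add, Nat.add_sub_cancel' hi', hσ, mul_one]
    rw [Finset.sum_congr rfl e1, ← sum_projAt]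
    have himg : (Finset.range g).image (fun i => (s ^ i) w₀) = Finset.univ := by
      rw [Finset.eq_univ_iff_forall]
      intro w
      obtain ⟨i, hi, rfl⟩ := hcyc w
      exact Finset.mem_image.mpr ⟨i, Finset.mem_range.mpr hi, rfl⟩
    rw [← himg, Finset.sum_image]
    intro i hi j hj hij
    exact hinj i (Finset.mem_range.mp hi) j (Finset.mem_range.mp hj) hij
  · intro j hj0 hj
    have hne : w₀ ≠ (s ^ j) w₀ := by
      intro heq
      have := hinj 0 hg j hj (by rw [pow_zero]; exact heq)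
      omega
    rw [mul_assoc, hpow, ← mul_assoc, projAt_mul_projAt_of_ne hne, zero_mul]
  · have := hpow g w₀
    rw [hsg] at this
    exact this.symm

/-- **Semi-local lemma, product form.** -/
theorem hIdx_pi_transitive (σ : AddMonoid.End (∀ w, A w)) (s : Equiv.Perm X) (w₀ : X) {g k : ℕ}
    (hg : 0 < g) (hk : 0 < k) (hσ : σ ^ (g * k) = 1)
    (hσs : ∀ w, σ * projAt w = projAt (s w) * σ)
    (hcyc : ∀ w, ∃ i < g, (s ^ i) w₀ = w)
    (hinj : ∀ i < g, ∀ j < g, (s ^ i) w₀ = (s ^ j) w₀ → i = j)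
    (hsg : (s ^ g) w₀ = w₀)
    (τ₀ : AddMonoid.End (A w₀))
    (hτ : ∀ a : A w₀, (σ ^ g) (Pi.single w₀ a) = Pi.single w₀ (τ₀ a)) :
    hIdx (dlt σ) (nrm σ (g * k)) = hIdx (dlt τ₀) (nrm τ₀ k) ∧
      hIdx (nrm σ (g * k)) (dlt σ) = hIdx (nrm τ₀ k) (dlt τ₀) :=
  (isInducedProj_pi σ s w₀ hg hk hσ hσs hcyc hinj hsg).hIdx_eq (AddMonoidHom.single A w₀)
    (Pi.single_injective w₀) (compRange_projAt w₀).symm τ₀ hτ

end PiForm

section PiProd

variable {ι : Type*} [Fintype ι] {N : ι → Type*} [∀ i, AddCommGroup (N i)]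

/-- The componentwise endomorphism of a product. -/
def piEnd (f : ∀ i, N i →+ N i) : (∀ i, N i) →+ (∀ i, N i) where
  toFun m i := f i (m i)
  map_zero' := by
    funext i
    exact map_zero (f i)
  map_add' m m' := by
    funext i
    exact map_add (f i) (m i) (m' i)

lemma piEnd_apply (f : ∀ i, N i →+ N i) (m : ∀ i, N i) (i : ι) : piEnd f m i = f i (m i) := rfl

/-- **Herbrand indices of a finite (dependent) product.** -/
theorem hIdx_pi (f g : ∀ i, N i →+ N i) :
    hIdx (piEnd f) (piEnd g) = ∏ i, hIdx (f i) (g i) := by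
  classical
  let Q : ι → Type _ := fun i => (f i).ker ⧸ ((g i).range).addSubgroupOf (f i).ker
  let Φ : (piEnd f).ker →+ ∀ i, Q i :=
    { toFun := fun x i => QuotientAddGroup.mk ⟨x.1 i, congrFun x.2 i⟩
      map_zero' := by
        funext i
        rfl
      map_add' := fun x y => by
        funext i
        rfl }
  have hsurj : Function.Surjective Φ := by
    intro q
    have hrep : ∀ i, ∃ a : (f i).ker, QuotientAddGroup.mk a = q i :=
      fun i => QuotientAddGroup.mk_surjective (q i)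
    choose a ha using hrep
    refine ⟨⟨fun i => (a i).1, ?_⟩, ?_⟩
    · show piEnd f (fun i => (a i).1) = 0
      funext i
      exact (a i).2
    · funext i
      exact ha i
  have hker : Φ.ker = ((piEnd g).range).addSubgroupOf (piEnd f).ker := by
    ext x
    rw [AddMonoidHom.mem_ker, AddSubgroup.mem_addSubgroupOf]
    constructor
    · intro hx
      have hx' : ∀ i, ∃ y : N i, g i y = x.1 i := by
        intro i
        have := congrFun hx i
        have h2 : (QuotientAddGroup.mk ⟨x.1 i, congrFun x.2 i⟩ : Q i) = 0 := this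
        rw [QuotientAddGroup.eq_zero_iff, AddSubgroup.mem_addSubgroupOf] at h2
        exact h2
      choose y hy using hx'
      exact ⟨y, funext hy⟩
    · rintro ⟨y, hy⟩
      funext i
      show (QuotientAddGroup.mk ⟨x.1 i, congrFun x.2 i⟩ : Q i) = 0
      rw [QuotientAddGroup.eq_zero_iff, AddSubgroup.mem_addSubgroupOf]
      exact ⟨y i, congrFun hy i⟩
  have e1 : hIdx (piEnd f) (piEnd g) = Φ.ker.index := by
    rw [hker]
    rfl
  have e2 : Nat.card Φ.range = Nat.card (∀ i, Q i) := by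
    rw [AddMonoidHom.range_eq_top.mpr hsurj]
    exact Nat.card_congr (Equiv.Set.univ _)
  rw [e1, AddSubgroup.index_ker, e2, Nat.card_pi]
  rfl

end PiProd

end Fermat.Agent.S14.Herbrand
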