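/-
S14 / first inequality, block (N3b) (helper27): the Herbrand quotient of a "lattice with a free
permutation structure" is `1`.

`G = ⟨σ⟩` a finite cyclic group acting freely on a finite set `S`; `B` an abelian group with a
`G`-action `ρ` and an equivariant map `Φ : B →+ (S → ℝ)` (permutation action on the target) whose
image spans `S → ℝ` and which is "proper" (`{b | ‖Φ b‖ ≤ r}` is finite for every `r`).  Then both
Herbrand indices of `B` are finite and equal: `q(B) = 1`.

Proof (Lang ANT IX.4 / helper7's plan, board #488): `Φ.range` contains an `ℝ`-basis permuted by `G`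
like `S` (`PermLattice.exists_perm_basis`); lift it equivariantly to `B` to get an injective
equivariant `ι : (S → ℤ) →+ B` of finite index; the permutation module `S → ℤ` of a free `G`-set
is cohomologically trivial (`Herbrand.cohTrivial_of_splitting`); finite index subgroups have the
same Herbrand quotient.
-/
import Mathlib
import Fermat.Agent.S14.Herbrand
import Fermat.Agent.S14.HerbrandCyclic
import Fermat.Agent.S14.PermLattice

set_option autoImplicit false

namespace Fermat.Agent.S14.HerbrandLattice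

open Finset Fermat.Agent.S14.Herbrand Fermat.Agent.S14

section Reps

variable {G S : Type*} [Group G] [MulAction G S]

/-- Orbit representatives and the "coordinate" `γ` for a free action. -/
theorem exists_rep_gamma (hfree : ∀ (g : G) (w : S), g • w = w → g = 1) :
    ∃ (rep : S → S) (γ : S → G), (∀ w, γ w • rep w = w) ∧ (∀ (g : G) w, rep (g • w) = rep w) ∧
      (∀ (g : G) w, γ (g • w) = g * γ w) := by
  classical
  let rep : S → S := fun w => (Quotient.mk'' w : MulAction.orbitRel.Quotient G S).out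
  have hrep : ∀ w, ∃ τ : G, τ • rep w = w := by
    intro w
    have h : (MulAction.orbitRel G S) (rep w) w := Quotient.exact (Quotient.out_eq _)
    rw [MulAction.orbitRel_apply] at h
    obtain ⟨g, hg⟩ := h
    exact ⟨g⁻¹, by rw [← hg, inv_smul_smul]⟩
  choose τ hτ using hrep
  have hrep_smul : ∀ (σ : G) w, rep (σ • w) = rep w := by
    intro σ w
    have : (Quotient.mk'' (σ • w) : MulAction.orbitRel.Quotient G S) = Quotient.mk'' w :=
      Quotient.sound (by
        change (MulAction.orbitRel G S) (σ • w) w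
        rw [MulAction.orbitRel_apply]; exact ⟨σ, rfl⟩)
    simp only [rep, this]
  refine ⟨rep, τ, hτ, hrep_smul, fun σ w => ?_⟩
  have h1 : τ (σ • w) • rep w = (σ * τ w) • rep w := by
    rw [mul_smul, hτ w, ← hrep_smul σ w, hτ (σ • w)]
  have h2 : ((σ * τ w)⁻¹ * τ (σ • w)) • rep w = rep w := by
    rw [mul_smul, h1, inv_smul_smul]
  have := hfree _ _ h2
  rw [inv_mul_eq_one] at this
  exact this.symm

end Reps

section PermZ

variable {G S : Type*} [Group G] [MulAction G S]

/-- The permutation action of `G` on `S → ℤ`. -/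
def actZ : G →* AddMonoid.End (S → ℤ) where
  toFun g :=
    { toFun := fun c w => c (g⁻¹ • w)
      map_zero' := rfl
      map_add' := fun _ _ => rfl }
  map_one' := by
    ext c w
    show c ((1 : G)⁻¹ • w) = c w
    rw [inv_one, one_smul]
  map_mul' g h := by
    ext c w
    show c ((g * h)⁻¹ • w) = c (h⁻¹ • g⁻¹ • w)
    rw [mul_inv_rev, mul_smul]

@[simp] lemma actZ_apply (g : G) (c : S → ℤ) (w : S) : actZ g c w = c (g⁻¹ • w) := rfl

/-- Cut-off at the orbit representatives. -/
def epsZ [DecidableEq G] (γ : S → G) : AddMonoid.End (S → ℤ) where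
  toFun c w := if γ w = 1 then c w else 0
  map_zero' := by
    funext w
    simp
  map_add' a b := by
    funext w
    by_cases h : γ w = 1 <;> simp [h]

omit [MulAction G S] in
@[simp] lemma epsZ_apply [DecidableEq G] (γ : S → G) (c : S → ℤ) (w : S) :
    epsZ γ c w = if γ w = 1 then c w else 0 := rfl

/-- In a finite cyclic group generated by `σ`, `∑_{k < |G|} [σ^k = g] a = a`. -/
lemma sum_ite_pow_eq [Finite G] [DecidableEq G] (σ : G) (hσ : ∀ g, g ∈ Subgroup.zpowers σ)
    (g : G) (a : ℤ) :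
    ∑ k ∈ range (Nat.card G), (if σ ^ k = g then a else 0) = a := by
  have hord : orderOf σ = Nat.card G := orderOf_eq_card_of_forall_mem_zpowers hσ
  have hg := hσ g
  rw [mem_zpowers_iff_mem_range_orderOf, Finset.mem_image] at hg
  obtain ⟨k₀, hk₀, hk₀g⟩ := hg
  rw [hord] at hk₀
  rw [Finset.sum_eq_single_of_mem k₀ hk₀]
  · rw [if_pos hk₀g]
  · intro k hk hne
    rw [if_neg]
    intro h
    apply hne
    have hinj := pow_injOn_Iio_orderOf (x := σ)
    rw [Finset.mem_range] at hk hk₀
    apply hinj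
    · rw [Set.mem_Iio, hord]; exact hk
    · rw [Set.mem_Iio, hord]; exact hk₀
    · show σ ^ k = σ ^ k₀
      rw [h, hk₀g]

/-- The permutation module of a free `G`-set is cohomologically trivial (`G = ⟨σ⟩` finite). -/
theorem actZ_splitting [Finite G] [DecidableEq G] (σ : G) (hσ : ∀ g, g ∈ Subgroup.zpowers σ)
    (γ : S → G) (hγ : ∀ (g : G) w, γ (g • w) = g * γ w) :
    ∑ k ∈ range (Nat.card G),
      (actZ σ : AddMonoid.End (S → ℤ)) ^ k * epsZ γ * (actZ σ) ^ (Nat.card G - k) = 1 := by
  ext c w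
  have h1 : (∑ k ∈ range (Nat.card G),
      (actZ σ : AddMonoid.End (S → ℤ)) ^ k * epsZ γ * (actZ σ) ^ (Nat.card G - k) :
      AddMonoid.End (S → ℤ)) c =
      ∑ k ∈ range (Nat.card G),
        ((actZ σ : AddMonoid.End (S → ℤ)) ^ k) (epsZ γ (((actZ σ) ^ (Nat.card G - k)) c)) :=
    AddMonoidHom.finsetSum_apply _ _ _
  rw [h1, Finset.sum_apply]
  have h2 : ∀ k ∈ range (Nat.card G),
      ((actZ σ : AddMonoid.End (S → ℤ)) ^ k) (epsZ γ (((actZ σ) ^ (Nat.card G - k)) c)) w =
      if σ ^ k = γ w then c w else 0 := by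
    intro k hk
    rw [Finset.mem_range] at hk
    rw [← map_pow, ← map_pow, actZ_apply, epsZ_apply, actZ_apply, hγ]
    have e1 : (σ ^ (Nat.card G - k))⁻¹ • (σ ^ k)⁻¹ • w = w := by
      rw [← mul_smul, ← mul_inv_rev, ← pow_add, Nat.add_sub_cancel' hk.le, pow_card_eq_one',
        inv_one, one_smul]
    rw [e1]
    have e2 : ((σ ^ k)⁻¹ * γ w = 1) ↔ σ ^ k = γ w := by
      rw [inv_mul_eq_one]
    simp only [e2]
  rw [Finset.sum_congr rfl h2, sum_ite_pow_eq σ hσ]
  rfl

theorem actZ_hIdx [Finite G] (hfree : ∀ (g : G) (w : S), g • w = w → g = 1) (σ : G)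
    (hσ : ∀ g, g ∈ Subgroup.zpowers σ) :
    hIdx (dlt (actZ σ : AddMonoid.End (S → ℤ))) (nrm (actZ σ) (Nat.card G)) = 1 ∧
      hIdx (nrm (actZ σ : AddMonoid.End (S → ℤ)) (Nat.card G)) (dlt (actZ σ)) = 1 := by
  classical
  obtain ⟨rep, γ, -, -, hγ⟩ := exists_rep_gamma hfree
  exact cohTrivial_of_splitting (actZ_splitting σ hσ γ hγ)

end PermZ

section Lift

variable {S B : Type*} [Fintype S] [AddCommGroup B]

/-- `c ↦ ∑ w, c w • y w`. -/
def iota (y : S → B) : (S → ℤ) →+ B where
  toFun c := ∑ w, c w • y w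
  map_zero' := by simp
  map_add' a b := by simp [add_smul, Finset.sum_add_distrib]

lemma iota_apply (y : S → B) (c : S → ℤ) : iota y c = ∑ w, c w • y w := rfl

end Lift

section Main

variable {G S B : Type*} [Group G] [Finite G] [Fintype S] [MulAction G S] [AddCommGroup B]

/-- **(N3b)** The Herbrand quotient of a lattice with free permutation structure is `1`. -/
theorem herbrand_lattice (hfree : ∀ (g : G) (w : S), g • w = w → g = 1)
    (σ : G) (hσ : ∀ g, g ∈ Subgroup.zpowers σ) (ρ : G →* AddMonoid.End B)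
    (Φ : B →+ (S → ℝ)) (hΦ : ∀ g b, Φ (ρ g b) = PermLattice.act g (Φ b))
    (hspan : Submodule.span ℝ (Set.range Φ) = ⊤)
    (hfin : ∀ r : ℝ, {b : B | ∀ w, |Φ b w| ≤ r}.Finite) :
    hIdx (dlt (ρ σ)) (nrm (ρ σ) (Nat.card G)) ≠ 0 ∧
      hIdx (dlt (ρ σ)) (nrm (ρ σ) (Nat.card G)) = hIdx (nrm (ρ σ) (Nat.card G)) (dlt (ρ σ)) := by
  classical
  set n := Nat.card G with hn
  -- Step 1: a permuted basis inside `Φ.range`
  obtain ⟨x, hxM, hxact, hxli⟩ := PermLattice.exists_perm_basis hfree Φ.range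
    (by
      rintro g _ ⟨b, rfl⟩
      exact ⟨ρ g b, hΦ g b⟩)
    (by rw [AddMonoidHom.coe_range]; exact hspan)
  -- Step 2: equivariant lift
  obtain ⟨rep, γ, hγrep, hrep, hγ⟩ := exists_rep_gamma hfree
  choose y0 hy0 using hxM
  set y : S → B := fun w => ρ (γ w) (y0 (rep w)) with hy
  have hΦy : ∀ w, Φ (y w) = x w := by
    intro w
    rw [hy, hΦ, hy0, hxact, hγrep]
  have hρy : ∀ (g : G) w, ρ g (y w) = y (g • w) := by
    intro g w
    simp only [hy]
    rw [hγ, hrep, map_mul]
    rfl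
  -- Step 3: `ι`
  have hΦι : ∀ c : S → ℤ, Φ (iota y c) = ∑ w, (c w : ℝ) • x w := by
    intro c
    rw [iota_apply, map_sum]
    refine Finset.sum_congr rfl fun w _ => ?_
    rw [map_zsmul, hΦy, Int.cast_smul_eq_zsmul]
  have hιinj : Function.Injective (iota y) := by
    rw [injective_iff_map_eq_zero]
    intro c hc
    have h0 : ∑ w, (c w : ℝ) • x w = 0 := by rw [← hΦι, hc, map_zero]
    have := (Fintype.linearIndependent_iff.mp hxli) (fun w => (c w : ℝ)) h0
    funext w
    exact_mod_cast this w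
  have hιeq : ∀ (g : G) (c : S → ℤ), ρ g (iota y c) = iota y (actZ g c) := by
    intro g c
    rw [iota_apply, iota_apply, map_sum]
    rw [← Equiv.sum_comp (MulAction.toPerm g) (fun w => actZ g c w • y w)]
    refine Finset.sum_congr rfl fun w _ => ?_
    rw [map_zsmul, hρy, MulAction.toPerm_apply, actZ_apply, inv_smul_smul]
  -- the operators
  have hσn : (ρ σ) ^ n = 1 := by rw [← map_pow, hn, pow_card_eq_one', map_one]
  have hfg : ∀ b, dlt (ρ σ) (nrm (ρ σ) n b) = 0 := dlt_nrm hσn
  have hgf : ∀ b, nrm (ρ σ) n (dlt (ρ σ) b) = 0 := nrm_dlt hσn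
  have hdι : ∀ c, dlt (ρ σ) (iota y c) = iota y (dlt (actZ σ) c) := by
    intro c
    rw [dlt_apply, dlt_apply, hιeq, map_sub]
  have hpowι : ∀ (k : ℕ) c, ((ρ σ) ^ k) (iota y c) = iota y (((actZ σ) ^ k) c) := by
    intro k c
    rw [← map_pow, ← map_pow, hιeq]
  have hnι : ∀ c, nrm (ρ σ) n (iota y c) = iota y (nrm (actZ σ) n c) := by
    intro c
    rw [nrm_apply, nrm_apply, map_sum]
    exact Finset.sum_congr rfl fun k _ => hpowι k c
  -- Step 4: indices of the sublattice
  obtain ⟨hZ1, hZ2⟩ := actZ_hIdx (S := S) hfree σ hσ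
  have hS1 : hSub (dlt (ρ σ)) (nrm (ρ σ) n) (iota y).range = 1 := by
    rw [← hIdx_sub (iota y) hιinj hdι hnι]
    exact hZ1
  have hS2 : hSub (nrm (ρ σ) n) (dlt (ρ σ)) (iota y).range = 1 := by
    rw [← hIdx_sub (iota y) hιinj hnι hdι]
    exact hZ2
  have hAf : (iota y).range.map (dlt (ρ σ)) ≤ (iota y).range := by
    rintro _ ⟨_, ⟨c, rfl⟩, rfl⟩
    exact ⟨_, (hdι c).symm⟩
  have hAg : (iota y).range.map (nrm (ρ σ) n) ≤ (iota y).range := by
    rintro _ ⟨_, ⟨c, rfl⟩, rfl⟩
    exact ⟨_, (hnι c).symm⟩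
  -- Step 5: finite index
  have hxspan : Submodule.span ℝ (Set.range x) = ⊤ :=
    hxli.span_eq_top_of_card_eq_finrank' (by simp)
  set R : ℝ := ∑ w, ∑ w', |x w w'| with hR
  have hfinR := hfin R
  have hcover : ∀ b : B, ∃ a ∈ {b : B | ∀ w, |Φ b w| ≤ R}, b - a ∈ (iota y).range := by
    intro b
    have hb : Φ b ∈ Submodule.span ℝ (Set.range x) := by rw [hxspan]; trivial
    obtain ⟨c, hc⟩ := (Submodule.mem_span_range_iff_exists_fun ℝ).mp hb
    refine ⟨b - iota y (fun w => ⌊c w⌋), ?_, ⟨fun w => ⌊c w⌋, by abel⟩⟩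
    intro w'
    rw [map_sub, hΦι, ← hc, ← Finset.sum_sub_distrib]
    have e : ∀ w, c w • x w - ((⌊c w⌋ : ℤ) : ℝ) • x w = Int.fract (c w) • x w := by
      intro w
      rw [← sub_smul, Int.self_sub_floor]
    rw [Finset.sum_congr rfl fun w _ => e w, Finset.sum_apply]
    calc |∑ w, (Int.fract (c w) • x w) w'| ≤ ∑ w, |(Int.fract (c w) • x w) w'| :=
          Finset.abs_sum_le_sum_abs _ _
      _ ≤ ∑ w, ∑ w', |x w w'| := by
          refine Finset.sum_le_sum fun w _ => ?_
          rw [Pi.smul_apply, smul_eq_mul, abs_mul, abs_of_nonneg (Int.fract_nonneg _)]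
          calc Int.fract (c w) * |x w w'| ≤ 1 * |x w w'| :=
                mul_le_mul_of_nonneg_right (Int.fract_lt_one _).le (abs_nonneg _)
            _ = |x w w'| := one_mul _
            _ ≤ ∑ w', |x w w'| :=
                Finset.single_le_sum (f := fun w' => |x w w'|) (fun _ _ => abs_nonneg _)
                  (Finset.mem_univ w')
  have hindex : (iota y).range.index ≠ 0 := by
    have : Finite {b : B | ∀ w, |Φ b w| ≤ R} := hfinR.to_subtype
    have hsurj : Function.Surjective
        (fun a : {b : B | ∀ w, |Φ b w| ≤ R} => (QuotientAddGroup.mk (a : B) : B ⧸ (iota y).range)) := by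
      intro q
      obtain ⟨b, rfl⟩ := QuotientAddGroup.mk_surjective q
      obtain ⟨a, ha, hba⟩ := hcover b
      refine ⟨⟨a, ha⟩, ?_⟩
      rw [QuotientAddGroup.eq]
      have : -a + b = b - a := by abel
      rw [this]
      exact hba
    have : Finite (B ⧸ (iota y).range) := Finite.of_surjective _ hsurj
    exact AddSubgroup.index_ne_zero_of_finite
  -- Step 6: assemble
  have hmul := hIdx_mul_hSub_of_finiteIndex hfg hgf hAf hAg hindex
  rw [hS1, hS2, mul_one, mul_one] at hmul
  have hne := (hSub_ne_zero_iff_of_finiteIndex hfg hgf hAf hAg hindex).mp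
    ⟨by rw [hS1]; exact one_ne_zero, by rw [hS2]; exact one_ne_zero⟩
  exact ⟨hne.1, hmul⟩

end Main

end Fermat.Agent.S14.HerbrandLattice
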