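import Fermat.Agent.S14.Defs
import Fermat.Agent.S14.ArtinSplit

/-!
# S14 block D2: the norm class subgroup

For number fields `F ⊆ M`:

* the relative norm respects ideal classes (`mk0_relNorm0_eq_of_mk0_eq`),
* `normClassSubgroup F M` is exactly the *set* of classes of norms (`mem_normClassSubgroup_iff`),
* `[𝔞]^[M:F]` is a norm class (`mk0_pow_finrank_mem`),
* a prime with trivial Artin symbol in an unramified Galois extension is a norm
  (`mk0_mem_of_map_eq_one`),
* tower compatibility: `N_{F/K}` maps `normClassSubgroup F M` into `normClassSubgroup K L`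
  (`mk0_relNorm0_mem_of_mem`).
-/

set_option autoImplicit false
set_option linter.unusedSectionVars false

open NumberField
open scoped Pointwise nonZeroDivisors

namespace Fermat.Agent.S14.NormClass

open Fermat.Agent.S14

section Basic

variable {F M : Type*} [Field F] [Field M] [NumberField F] [NumberField M] [Algebra F M]

/-- The relative norm respects ideal classes. -/
theorem mk0_relNorm0_eq_of_mk0_eq {A B : (Ideal (𝓞 M))⁰}
    (h : ClassGroup.mk0 A = ClassGroup.mk0 B) :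
    ClassGroup.mk0 (relNorm0 F M A) = ClassGroup.mk0 (relNorm0 F M B) := by
  rw [ClassGroup.mk0_eq_mk0_iff] at h ⊢
  obtain ⟨x, y, hx, hy, hxy⟩ := h
  refine ⟨Algebra.intNorm (𝓞 F) (𝓞 M) x, Algebra.intNorm (𝓞 F) (𝓞 M) y, ?_, ?_, ?_⟩
  · rwa [Ne, Algebra.intNorm_eq_zero]
  · rwa [Ne, Algebra.intNorm_eq_zero]
  · rw [coe_relNorm0, coe_relNorm0, ← Ideal.relNorm_singleton, ← Ideal.relNorm_singleton,
      ← map_mul, ← map_mul, hxy]

variable (F M) in
/-- The class of the norm, as a monoid homomorphism. -/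
noncomputable def normClassHom : (Ideal (𝓞 M))⁰ →* ClassGroup (𝓞 F) :=
  (ClassGroup.mk0 (R := 𝓞 F)).comp (relNorm0 F M)

theorem normClassHom_apply (A : (Ideal (𝓞 M))⁰) :
    normClassHom F M A = ClassGroup.mk0 (relNorm0 F M A) := rfl

/-- `normClassSubgroup F M` is the set of classes of norms. -/
theorem mem_normClassSubgroup_iff {x : ClassGroup (𝓞 F)} :
    x ∈ normClassSubgroup F M ↔ ∃ A : (Ideal (𝓞 M))⁰, ClassGroup.mk0 (relNorm0 F M A) = x := by
  have h1 : Set.range (fun A : (Ideal (𝓞 M))⁰ => ClassGroup.mk0 (relNorm0 F M A)) =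
      ((MonoidHom.mrange (normClassHom F M) : Submonoid (ClassGroup (𝓞 F))) : Set _) := by
    ext y; simp [normClassHom_apply]
  have h2 : (normClassSubgroup F M).toSubmonoid = MonoidHom.mrange (normClassHom F M) := by
    unfold normClassSubgroup
    rw [Subgroup.closure_toSubmonoid_of_finite, h1, Submonoid.closure_eq]
  rw [← Subgroup.mem_toSubmonoid, h2, MonoidHom.mem_mrange]
  rfl

/-- `[𝔞]^[M:F]` is the class of the norm of the extended ideal. -/
theorem mk0_pow_finrank_mem (a : (Ideal (𝓞 F))⁰) :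
    ClassGroup.mk0 a ^ Module.finrank F M ∈ normClassSubgroup F M := by
  have ha0 : (a : Ideal (𝓞 F)) ≠ ⊥ := mem_nonZeroDivisors_iff_ne_zero.mp a.2
  have hmap0 : Ideal.map (algebraMap (𝓞 F) (𝓞 M)) (a : Ideal (𝓞 F)) ≠ ⊥ := by
    intro h
    apply ha0
    rw [Ideal.map_eq_bot_iff_of_injective
      (FaithfulSMul.algebraMap_injective (𝓞 F) (𝓞 M))] at h
    exact h
  let A : (Ideal (𝓞 M))⁰ :=
    ⟨Ideal.map (algebraMap (𝓞 F) (𝓞 M)) (a : Ideal (𝓞 F)), mem_nonZeroDivisors_iff_ne_zero.mpr hmap0⟩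
  have hA : relNorm0 F M A = a ^ Module.finrank F M := by
    apply Subtype.ext
    rw [coe_relNorm0]
    show Ideal.relNorm (𝓞 F) (Ideal.map (algebraMap (𝓞 F) (𝓞 M)) (a : Ideal (𝓞 F))) = _
    rw [Ideal.relNorm_algebraMap, SubmonoidClass.coe_pow,
      ← IsFractionRing.finrank_eq (𝓞 F) F (𝓞 M) M]
  rw [← map_pow, ← hA]
  exact mk0_relNorm0_mem F M A

/-- A nonzero prime whose Artin symbol in an unramified Galois extension is trivial (i.e. of
residue degree one) is the norm of a prime above it. -/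
theorem mk0_mem_of_map_eq_one [IsGalois F M] {φ : Ideal (𝓞 F) → (M ≃ₐ[F] M)}
    (hφ : IsArtinMap F M φ) (hunr : UnramifiedEverywhere F M) (q : (Ideal (𝓞 F))⁰)
    (hq : (q : Ideal (𝓞 F)).IsPrime) (h1 : φ q = 1) :
    ClassGroup.mk0 q ∈ normClassSubgroup F M := by
  have hq0 : (q : Ideal (𝓞 F)) ≠ ⊥ := mem_nonZeroDivisors_iff_ne_zero.mp q.2
  obtain ⟨⟨Q, hQp, hQo⟩⟩ :=
    (inferInstance : Nonempty ((q : Ideal (𝓞 F)).primesOver (𝓞 M)))
  have hQ0 : Q ≠ ⊥ := ArtinMap.ne_bot_of_liesOver M hq0 Q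
  have hf : Q.inertiaDeg (𝓞 F) = 1 := by
    have := (ArtinSplit.map_eq_one_iff hφ hunr hq0 Q).mp h1
    exact this
  have hqmax : (q : Ideal (𝓞 F)).IsMaximal := Ring.DimensionLEOne.maximalOfPrime hq0 hq
  have hQmax : Q.IsMaximal := Ring.DimensionLEOne.maximalOfPrime hQ0 hQp
  have hN : Ideal.relNorm (𝓞 F) Q = (q : Ideal (𝓞 F)) := by
    rw [Ideal.relNorm_eq_pow_of_isMaximal Q (q : Ideal (𝓞 F)), hf, pow_one]
  let Q' : (Ideal (𝓞 M))⁰ := ⟨Q, mem_nonZeroDivisors_iff_ne_zero.mpr hQ0⟩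
  have : relNorm0 F M Q' = q := Subtype.ext hN
  rw [← this]
  exact mk0_relNorm0_mem F M Q'

end Basic

section Tower

variable {K L F M : Type*} [Field K] [Field L] [Field F] [Field M]
  [NumberField K] [NumberField L] [NumberField F] [NumberField M]
  [Algebra K L] [Algebra K F] [Algebra L M] [Algebra F M] [Algebra K M]
  [IsScalarTower K L M] [IsScalarTower K F M]

/-- Transitivity of the relative norm on nonzero ideals, through `F`. -/
theorem relNorm0_relNorm0_left (A : (Ideal (𝓞 M))⁰) :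
    relNorm0 K F (relNorm0 F M A) = relNorm0 K M A := by
  apply Subtype.ext
  simp only [coe_relNorm0]
  exact Ideal.relNorm_relNorm (𝓞 K) (𝓞 F) (A : Ideal (𝓞 M))

/-- Transitivity of the relative norm on nonzero ideals, through `L`. -/
theorem relNorm0_relNorm0_right (A : (Ideal (𝓞 M))⁰) :
    relNorm0 K L (relNorm0 L M A) = relNorm0 K M A := by
  apply Subtype.ext
  simp only [coe_relNorm0]
  exact Ideal.relNorm_relNorm (𝓞 K) (𝓞 L) (A : Ideal (𝓞 M))

/-- **Tower compatibility** (block D-c): for `K ⊆ F ⊆ M`, `K ⊆ L ⊆ M`, the norm `N_{F/K}` maps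
norm classes of `M/F` to norm classes of `L/K`. -/
theorem mk0_relNorm0_mem_of_mem {c : (Ideal (𝓞 F))⁰}
    (h : ClassGroup.mk0 c ∈ normClassSubgroup F M) :
    ClassGroup.mk0 (relNorm0 K F c) ∈ normClassSubgroup K L := by
  obtain ⟨A, hA⟩ := mem_normClassSubgroup_iff.mp h
  rw [← mk0_relNorm0_eq_of_mk0_eq (F := K) (M := F) hA, relNorm0_relNorm0_left,
    ← relNorm0_relNorm0_right (L := L)]
  exact mk0_relNorm0_mem K L _

end Tower

end Fermat.Agent.S14.NormClass
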