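import Mathlib
import Fermat.Prelude.Def_ExtCitation_AdmissibleExtension_v2
import Fermat.Agent.S14.GaloisModule
import Fermat.Agent.S14.ToField

/-!
# S14 block T0: from the Galois module `V` to a number field (helper5's skeleton interface)

If the admissible extension `0 → C → V → V/C → 0` does not split globally, the splitting field
`L` of `V` is a "bad" extension in the sense of `NFMain`: everything is phrased inside
`G = Gal(L/ℚ)`, with `Gal(L/K) = {g | g ζ = ζ}`.
-/

set_option autoImplicit false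

open NumberField ExtCitation
open scoped Pointwise nonZeroDivisors

namespace Fermat.Agent.S14.Reduction

open Fermat.Agent.S14.GaloisModule Fermat.Agent.S14.ToField

local notation "Qbar" => AlgebraicClosure ℚ
local notation "Γ" => (AlgebraicClosure ℚ ≃ₐ[ℚ] AlgebraicClosure ℚ)

local instance isAlgebraicQbar_S14R : Algebra.IsAlgebraic ℚ (AlgebraicClosure ℚ) :=
  AlgebraicClosure.isAlgebraic ℚ
local instance isAlgClosureQbar_S14R : IsAlgClosure ℚ (AlgebraicClosure ℚ) :=
  ⟨inferInstance, inferInstance⟩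
local instance normalQbar_S14R : Normal ℚ (AlgebraicClosure ℚ) :=
  IsAlgClosure.normal ℚ (AlgebraicClosure ℚ)

/-- The "bad extension" attached to a twist subgroup. -/
theorem exists_badExt_of_isTwistSubgroup {p : ℕ} [Fact p.Prime] {N : Subgroup Γ}
    (hN : IsTwistSubgroup p N) :
    ∃ (L : Type) (_ : Field L) (_ : NumberField L) (_ : IsGalois ℚ L) (ζ : L),
      IsPrimitiveRoot ζ p ∧
      Nat.card {g : L ≃ₐ[ℚ] L // g ζ = ζ} = p ∧
      (∀ Q : Ideal (𝓞 L), Q.IsPrime → Q ≠ ⊥ → ∀ g : L ≃ₐ[ℚ] L, g ζ = ζ →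
        (∀ x : 𝓞 L, g • x - x ∈ Q) → g = 1) ∧
      (∀ (σ g : L ≃ₐ[ℚ] L) (j : ℕ), g ζ = ζ → σ ζ = ζ ^ j → σ⁻¹ * g * σ = g ^ j) := by
  have hp := (Fact.out : p.Prime)
  have hfinL := finiteDimensional_fieldL hN
  have hgalL := isGalois_fieldL hN
  have hnormL : Normal ℚ (fieldL N) := IsGalois.to_normal
  let nfL : NumberField (fieldL N) :=
    { to_charZero := inferInstance, to_finiteDimensional := inferInstance }
  have hζL : zeta p ∈ fieldL N := fieldK_le_fieldL hN (zeta_mem_fieldK p)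
  let ζ : fieldL N := ⟨zeta p, hζL⟩
  have hζ : IsPrimitiveRoot ζ p := by
    refine IsPrimitiveRoot.of_map_of_injective (f := algebraMap (fieldL N) Qbar) ?_
      (algebraMap (fieldL N) Qbar).injective
    exact zeta_spec p
  let f : Γ →* (fieldL N ≃ₐ[ℚ] fieldL N) := AlgEquiv.restrictNormalHom (F := ℚ) (K₁ := Qbar) (fieldL N)
  have hf : Function.Surjective f := AlgEquiv.restrictNormalHom_surjective Qbar
  have hfcoe : ∀ (τ : Γ) (x : fieldL N), ((f τ x : fieldL N) : Qbar) = τ (x : Qbar) :=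
    fun τ x => restrictNormalHom_apply_coe (fieldL N) τ x
  have hfker : f.ker = N := by
    rw [ker_restrictNormalHom, fixingSubgroup_fieldL hN]
  -- membership in `G_K` is detected on `ζ`
  have hmemker : ∀ τ : Γ, τ ∈ (chi p).ker ↔ f τ ζ = ζ := by
    intro τ
    rw [mem_ker_chi_iff p τ (zeta_spec p)]
    constructor
    · intro h
      apply Subtype.ext
      rw [hfcoe]
      exact h
    · intro h
      have := congrArg (fun y : fieldL N => (y : Qbar)) h
      simp only [hfcoe] at this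
      exact this
  -- the stabilizer of `ζ`
  let S : Subgroup (fieldL N ≃ₐ[ℚ] fieldL N) := MulAction.stabilizer _ ζ
  have hSmem : ∀ g : fieldL N ≃ₐ[ℚ] fieldL N, g ∈ S ↔ g ζ = ζ := fun g => Iff.rfl
  have hScomap : S.comap f = (chi p).ker := by
    ext τ
    rw [Subgroup.mem_comap, hSmem, hmemker]
  have hScard : Nat.card S = p := by
    have h1 : ((⊥ : Subgroup (fieldL N ≃ₐ[ℚ] fieldL N)).comap f).relIndex (S.comap f) =
        (⊥ : Subgroup (fieldL N ≃ₐ[ℚ] fieldL N)).relIndex ((S.comap f).map f) :=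
      Subgroup.relIndex_comap _ f _
    rw [Subgroup.map_comap_eq_self_of_surjective hf, Subgroup.relIndex_bot_left, hScomap,
      MonoidHom.comap_bot, hfker, hN.relIndex] at h1
    exact h1.symm
  have hpow : ∀ g : fieldL N ≃ₐ[ℚ] fieldL N, g ζ = ζ → g ^ p = 1 := by
    intro g hg
    have h1 : (⟨g, hg⟩ : S) ^ Nat.card S = 1 := pow_card_eq_one'
    rw [hScard] at h1
    exact congrArg Subtype.val h1
  refine ⟨fieldL N, inferInstance, nfL, hgalL, ζ, hζ, hScard, ?_, ?_⟩
  · -- unramified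
    intro Q hQp hQ g hgζ hg
    obtain ⟨τ, rfl⟩ := hf g
    have hτker : τ ∈ (chi p).ker := (hmemker τ).mpr hgζ
    have hfix := forall_eq_of_forall_sub_mem hN Q hQ τ hτker (fun x => by
      refine ⟨f τ • x - x, hg x, ?_⟩
      rw [← hfcoe]
      rfl)
    ext x
    rw [hfcoe, hfix _ x.2]
    rfl
  · -- twist
    intro σ g j hgζ hσj
    obtain ⟨σ', rfl⟩ := hf σ
    obtain ⟨g', rfl⟩ := hf g
    have hg'ker : g' ∈ (chi p).ker := (hmemker g').mpr hgζ
    have h1 := hN.twist σ' g' hg'ker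
    rw [← hfker, MonoidHom.mem_ker, map_mul, map_mul, map_mul, map_inv, map_inv, map_pow,
      mul_inv_eq_one] at h1
    rw [h1]
    -- compare exponents
    have h3 : (zeta p) ^ cycloExp p σ' = (zeta p) ^ j := by
      rw [← apply_of_pow_eq_one p σ' (zeta_spec p).pow_eq_one]
      have := congrArg (fun y : fieldL N => (y : Qbar)) hσj
      simp only [hfcoe] at this
      exact this
    have hmodpow : ∀ n : ℕ, (zeta p) ^ (n % p) = (zeta p) ^ n := by
      intro n
      conv_rhs => rw [← Nat.mod_add_div n p]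
      rw [pow_add, pow_mul, (zeta_spec p).pow_eq_one, one_pow, mul_one]
    have hmod : cycloExp p σ' ≡ j [MOD p] := by
      have h4 : (zeta p) ^ (cycloExp p σ' % p) = (zeta p) ^ (j % p) := by
        rw [hmodpow, hmodpow]
        exact h3
      exact (zeta_spec p).pow_inj (Nat.mod_lt _ hp.pos) (Nat.mod_lt _ hp.pos) h4
    have hord : orderOf (f g') ∣ p := orderOf_dvd_of_pow_eq_one (hpow _ hgζ)
    exact pow_eq_pow_iff_modEq.mpr (hmod.of_dvd hord)

/-- **Block T0** (helper5's skeleton statement). -/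
theorem exists_badExt {p : ℕ} [Fact p.Prime] (_h3 : 3 ≤ p)
    (V : Type) [AddCommGroup V] [Module (ZMod p) V]
    [DistribMulAction (AlgebraicClosure ℚ ≃ₐ[ℚ] AlgebraicClosure ℚ) V]
    [SMulCommClass (AlgebraicClosure ℚ ≃ₐ[ℚ] AlgebraicClosure ℚ) (ZMod p) V]
    (C : Submodule (ZMod p) V) (hadm : IsAdmissibleExtensionCts p V C)
    (hns : ¬ SplitsGlobally C) :
    ∃ (L : Type) (_ : Field L) (_ : NumberField L) (_ : IsGalois ℚ L) (ζ : L),
      IsPrimitiveRoot ζ p ∧
      Nat.card {g : L ≃ₐ[ℚ] L // g ζ = ζ} = p ∧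
      (∀ Q : Ideal (𝓞 L), Q.IsPrime → Q ≠ ⊥ → ∀ g : L ≃ₐ[ℚ] L, g ζ = ζ →
        (∀ x : 𝓞 L, g • x - x ∈ Q) → g = 1) ∧
      (∀ (σ g : L ≃ₐ[ℚ] L) (j : ℕ), g ζ = ζ → σ ζ = ζ ^ j → σ⁻¹ * g * σ = g ^ j) :=
  exists_badExt_of_isTwistSubgroup (isTwistSubgroup_actKer hadm hns)

end Fermat.Agent.S14.Reduction
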