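import Mathlib
import Fermat.Agent.S14.Defs
import Fermat.Agent.S14.ArtinMap

/-!
# S14 block (D-UN): base change of an everywhere unramified extension

Towers of number fields `K ⊆ L ⊆ M`, `K ⊆ E ⊆ M` with `L/K` and `M/E` Galois and `M = E·L`
(`M` is generated over `E` by the image of `L`).  Then

* the restriction map `ArtinMap.res K L E M : Gal(M/E) → Gal(L/K)` is injective;
* if `L/K` is unramified everywhere (all inertia groups trivial), so is `M/E`.
-/

set_option autoImplicit false
set_option linter.unusedSectionVars false

open NumberField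
open scoped Pointwise nonZeroDivisors

namespace Fermat.Agent.S14.UnramBaseChange

open Fermat.Agent.S14

variable (K L E M : Type*) [Field K] [Field L] [Field E] [Field M]
  [NumberField K] [NumberField L] [NumberField E] [NumberField M]
  [Algebra K L] [Algebra K E] [Algebra L M] [Algebra E M] [Algebra K M]
  [IsScalarTower K L M] [IsScalarTower K E M]
  [IsGalois K L] [IsGalois E M]

/-- An element of `Gal(M/E)` whose restriction to `L` is trivial fixes the image of `L`. -/
theorem apply_algebraMap_of_res_eq_one {σ : Gal(M/E)} (hσ : ArtinMap.res K L E M σ = 1) (x : L) :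
    σ (algebraMap L M x) = algebraMap L M x := by
  rw [← ArtinMap.res_commutes K L E M σ x, hσ]
  rfl

/-- If `M = E·L`, restriction `Gal(M/E) → Gal(L/K)` is injective. -/
theorem res_injective
    (hgen : IntermediateField.adjoin E (Set.range (algebraMap L M)) = ⊤) :
    Function.Injective (ArtinMap.res K L E M) := by
  rw [injective_iff_map_eq_one]
  intro σ hσ
  have hle : IntermediateField.adjoin E (Set.range (algebraMap L M)) ≤
      IntermediateField.fixedField (Subgroup.zpowers σ) := by
    rw [IntermediateField.adjoin_le_iff]
    rintro _ ⟨x, rfl⟩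
    rintro ⟨g, hg⟩
    obtain ⟨n, rfl⟩ := Subgroup.mem_zpowers_iff.mp hg
    have h1 : σ • (algebraMap L M x) = algebraMap L M x :=
      apply_algebraMap_of_res_eq_one K L E M hσ x
    exact MulAction.mem_stabilizer_iff.mp
      (Subgroup.zpow_mem (MulAction.stabilizer Gal(M/E) (algebraMap L M x))
        (MulAction.mem_stabilizer_iff.mpr h1) n)
  rw [hgen] at hle
  ext y
  exact hle (IntermediateField.mem_top (x := y)) ⟨σ, Subgroup.mem_zpowers σ⟩

/-- **Base change**: if `L/K` is unramified everywhere and `M = E·L`, then `M/E` is unramified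
everywhere. -/
theorem unramifiedEverywhere_baseChange
    (hgen : IntermediateField.adjoin E (Set.range (algebraMap L M)) = ⊤)
    (hunr : UnramifiedEverywhere K L) : UnramifiedEverywhere E M := by
  intro Q hQ hQ0 σ hσ
  apply res_injective K L E M hgen
  rw [map_one]
  have hq0 : Q.under (𝓞 L) ≠ ⊥ := by
    intro h
    exact hQ0 (Ideal.eq_bot_of_comap_eq_bot h)
  refine hunr (Q.under (𝓞 L)) (Ideal.IsPrime.under _ _) hq0 _ (fun x => ?_)
  rw [Ideal.under_def, Ideal.mem_comap, map_sub, ArtinMap.res_smul_int]
  exact hσ _

/-- Variant with `Algebra.adjoin`. -/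
theorem unramifiedEverywhere_baseChange'
    (hgen : Algebra.adjoin E (Set.range (algebraMap L M)) = ⊤)
    (hunr : UnramifiedEverywhere K L) : UnramifiedEverywhere E M :=
  unramifiedEverywhere_baseChange K L E M (IntermediateField.adjoin_eq_top_of_algebra E _ hgen) hunr

/-- Variant with `Algebra.adjoin`. -/
theorem res_injective'
    (hgen : Algebra.adjoin E (Set.range (algebraMap L M)) = ⊤) :
    Function.Injective (ArtinMap.res K L E M) :=
  res_injective K L E M (IntermediateField.adjoin_eq_top_of_algebra E _ hgen)

/-- If moreover `[M:E] = [L:K]`, restriction `Gal(M/E) → Gal(L/K)` is bijective. -/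
theorem res_bijective
    (hgen : IntermediateField.adjoin E (Set.range (algebraMap L M)) = ⊤)
    (hdeg : Module.finrank E M = Module.finrank K L) :
    Function.Bijective (ArtinMap.res K L E M) := by
  have hcard : Nat.card Gal(L/K) ≤ Nat.card Gal(M/E) := by
    rw [IsGalois.card_aut_eq_finrank, IsGalois.card_aut_eq_finrank, hdeg]
  exact (res_injective K L E M hgen).bijective_of_nat_card_le hcard

end Fermat.Agent.S14.UnramBaseChange
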